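import Fermat.Agent.S55.PT.Spec
import Fermat.Agent.S55.H901.H1FinMain

/-!
# S55 / layer K, input A1 (FIN-glob) of the duality engine D   (helper593)

`finGlob p S : FinGlobSpec p S` — for every finite-dimensional `F_p`-representation `N` of `G_ℚ`
on which some level `G_F` (`F/ℚ` finite, unramified outside `S`) acts trivially, the
level-constant cohomology group `H¹_S(N) = (globalLevels S).H1 N` is finite-dimensional.

UNCONDITIONAL (no hypothesis `p ∈ S`): a cocycle that is level-constant for `S` is level-constant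
for `S' = S ∪ {p}`, and helper901's uniform level bound (`H901.exists_level_bound`, Kummer theory +
finiteness of the Selmer group `L(S', p)`) applies to `S'`.  Hence all `S`-level-constant
cocycles factor through ONE finite quotient `G_ℚ / G_{Lmax}`, so that `Z¹_S(N)` is a finite set.

Also exported: `finite_Z1` (the cocycle group itself is finite), `finite_H1`.
-/

set_option autoImplicit false
set_option linter.style.haveILetI false

namespace Fermat.Agent.S55.PT.H593

open groupCohomology ExtCitation IntermediateField Fermat.Agent.S55.PT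

variable (p : ℕ) [Fact p.Prime] (S : Finset Nat.Primes)

/-- A uniformly smooth representation for `globalLevels S` is smooth in the Prelude's sense. -/
theorem smooth_of_isUSmooth (N : Rep.{0, 0, 0} (ZMod p) GQ)
    (h : (globalLevels S).IsUSmooth N) :
    ∀ m : N, ∃ F : IntermediateField ℚ (AlgebraicClosure ℚ), FiniteDimensional ℚ F ∧
      ∀ s ∈ F.fixingSubgroup, N.ρ s m = m := by
  obtain ⟨U, ⟨F, hF, rfl⟩, hU⟩ := h
  exact fun m => ⟨F, hF.1, fun s hs => hU s hs m⟩

/-- A uniformly smooth representation for `globalLevels S` is unramified outside every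
`S' ⊇ S`. -/
theorem unramified_of_isUSmooth (N : Rep.{0, 0, 0} (ZMod p) GQ)
    (h : (globalLevels S).IsUSmooth N) {S' : Finset Nat.Primes} (hSS' : S ⊆ S') :
    ∀ q : Nat.Primes, q ∉ S' → ∀ A : ValuationSubring (AlgebraicClosure ℚ),
      A.LiesOverPrime (q : ℕ) → ∀ g ∈ A.inertiaSubgroupIn ℚ, N.ρ g = 1 := by
  obtain ⟨U, ⟨F, hF, rfl⟩, hU⟩ := h
  intro q hq A hA g hg
  have hgF : g ∈ F.fixingSubgroup := hF.2 q (fun hqS => hq (hSS' hqS)) A hA hg
  ext m
  exact hU g hgF m

/-- **Uniform level bound** for the level-constant cocycles of `globalLevels S`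
(no hypothesis `p ∈ S`). -/
theorem exists_level_bound_Z1 (N : Rep.{0, 0, 0} (ZMod p) GQ) [FiniteDimensional (ZMod p) N]
    (h : (globalLevels S).IsUSmooth N) :
    ∃ Lmax : IntermediateField ℚ (AlgebraicClosure ℚ), FiniteDimensional ℚ Lmax ∧
      ∀ c : ↥((globalLevels S).Z1 N), ∀ s ∈ Lmax.fixingSubgroup, (c : GQ → N) s = 0 := by
  classical
  have hSS' : S ⊆ insert (pPrime p) S := Finset.subset_insert _ _
  obtain ⟨Lmax, hfin, hb⟩ := H901.exists_level_bound (p := p) (insert (pPrime p) S)
    (H901.unramClassicalSpec _) (Finset.mem_insert_self _ _) N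
    (smooth_of_isUSmooth p S N h) (unramified_of_isUSmooth p S N h hSS')
  refine ⟨Lmax, hfin, fun c s hs => ?_⟩
  have hc1 : (c : GQ → N) ∈ cocycles₁ N := c.2.1
  have hc2 : (globalLevels S).IsLC₁ (c : GQ → N) := c.2.2
  obtain ⟨F, hF, hconst⟩ := (isLC₁_globalLevels_iff S _).1 hc2
  exact hb ⟨(c : GQ → N), hc1⟩ ⟨F, hF.mono hSS', hconst⟩ s hs

/-- `Z¹_S(N)` is a finite set. -/
theorem finite_Z1 (N : Rep.{0, 0, 0} (ZMod p) GQ) [FiniteDimensional (ZMod p) N]
    (h : (globalLevels S).IsUSmooth N) : Finite ↥((globalLevels S).Z1 N) := by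
  classical
  obtain ⟨Lmax, hfin, hb⟩ := exists_level_bound_Z1 p S N h
  haveI := hfin
  haveI := H901.finite_quotient_fixingSubgroup Lmax
  haveI : Finite N := Module.finite_of_finite (ZMod p)
  let Φ : ↥((globalLevels S).Z1 N) → (GQ ⧸ Lmax.fixingSubgroup → N) :=
    fun c q => (c : GQ → N) (Quotient.out q)
  have hconst : ∀ (c : ↥((globalLevels S).Z1 N)) (g : GQ),
      (c : GQ → N) (Quotient.out (QuotientGroup.mk g : GQ ⧸ Lmax.fixingSubgroup)) =
        (c : GQ → N) g := by
    intro c g
    obtain ⟨t, ht⟩ := QuotientGroup.mk_out_eq_mul Lmax.fixingSubgroup g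
    have hc1 : (c : GQ → N) ∈ cocycles₁ N := c.2.1
    rw [ht, (mem_cocycles₁_iff (c : GQ → N)).1 hc1 g t, hb c t t.2, map_zero, zero_add]
  refine Finite.of_injective Φ (fun c c' hcc' => ?_)
  apply Subtype.ext
  funext g
  rw [← hconst c g, ← hconst c' g]
  exact congrFun hcc' _

/-- `H¹_S(N)` is a finite set. -/
theorem finite_H1 (N : Rep.{0, 0, 0} (ZMod p) GQ) [FiniteDimensional (ZMod p) N]
    (h : (globalLevels S).IsUSmooth N) : Finite ((globalLevels S).H1 N) := by
  haveI := finite_Z1 p S N h
  exact Finite.of_surjective _ ((globalLevels S).H1π_surjective N)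

/-- **A1 (FIN-glob)**, unconditional. -/
theorem finGlob : FinGlobSpec p S := by
  intro N hfd hsm
  haveI := hfd
  haveI := finite_H1 p S N hsm
  exact Module.Finite.of_finite

end Fermat.Agent.S55.PT.H593
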