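import Fermat.Agent.S55.PT.Setup

/-!
# S55 / layer D (duality engine, route C′): INTERFACE — inputs A1–A8 and Theorem D

See `coord/S55-D.md` (branch `origin/helper835`).  Spec pattern: every statement here is a
`def … : Prop`; producers prove `theorem foo : FooSpec p S`, consumers take hypotheses.

Notation: `L = globalLevels S` on `G_ℚ`; `Lv = localLevels v` on `G_v = Gl v`;
`H^i = LevelSys.H1 / LevelSys.H2` (level-constant cochain cohomology = Prelude's definition);
`μ = mu p`; `Ind_U N = indRep U N = (G ⧸ U →₀ N)`.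
-/

set_option autoImplicit false

noncomputable section

namespace Fermat.Agent.S55.PT

open groupCohomology ExtCitation

variable (p : ℕ) [Fact p.Prime] (S : Finset Nat.Primes)

/-! ## Inputs (outputs of the arithmetic layers K, KL) -/

/-- **A1 (FIN-glob).** `H¹_S(N)` is finite-dimensional for finite-dimensional smooth `N`. -/
def FinGlobSpec : Prop :=
  ∀ N : Rep.{0, 0, 0} (ZMod p) GQ, FiniteDimensional (ZMod p) N → (globalLevels S).IsUSmooth N →
    FiniteDimensional (ZMod p) ((globalLevels S).H1 N)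

/-- **A2 (FIN-loc).** `H¹(G_q, N)` is finite-dimensional for finite-dimensional smooth `N`. -/
def FinLocSpec : Prop :=
  ∀ q : Nat.Primes, q ∈ S → ∀ N : Rep.{0, 0, 0} (ZMod p) (Gl q), FiniteDimensional (ZMod p) N →
    (localLevels q).IsUSmooth N → FiniteDimensional (ZMod p) ((localLevels q).H1 N)

/-- **A3 (SURJ2-glob).** `H²_S` is right exact on finite-dimensional smooth modules
(`cd_p(G_S) ≤ 2`, `p` odd). -/
def Surj2GlobSpec : Prop :=
  ∀ (P N : Rep.{0, 0, 0} (ZMod p) GQ) (φ : P →ₗ[ZMod p] N) (hφ : IsEquivariant φ),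
    FiniteDimensional (ZMod p) P → (globalLevels S).IsUSmooth P → (globalLevels S).IsUSmooth N →
    Function.Surjective φ → Function.Surjective (pushH2 φ hφ (globalLevels S))

/-- **A4 (SURJ2-loc).** `H²(G_q, −)` is right exact on finite-dimensional smooth modules
(`cd_p(G_q) ≤ 2`). -/
def Surj2LocSpec : Prop :=
  ∀ q : Nat.Primes, q ∈ S → ∀ (P N : Rep.{0, 0, 0} (ZMod p) (Gl q)) (φ : P →ₗ[ZMod p] N)
    (hφ : IsEquivariant φ),
    FiniteDimensional (ZMod p) P → (localLevels q).IsUSmooth P → (localLevels q).IsUSmooth N →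
    Function.Surjective φ → Function.Surjective (pushH2 φ hφ (localLevels q))

variable {p S} in
/-- **A5′ (RECIP).** `Σ_v inv_v(loc_v y) = 0` for `y ∈ H²_S(μ)`. -/
def RecipSpec (inv : InvFamily p S) : Prop :=
  ∀ y : (globalLevels S).H2 (mu p), ∑ v : ↥S, inv v (resH2 (hrl S v) (mu p) y) = 0

variable {p S} in
/-- **A6 (TOP-loc-ind).** For a normal local level `W` acting trivially on `μ`:
`inv_v ∘ aug_* : H²(G_v, Ind_W μ) → F_p` is bijective (`Br(E)[p] ≅ Z/p`, `inv_E = inv_v ∘ cor`). -/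
def TopLocIndSpec (inv : InvFamily p S) : Prop :=
  ∀ (v : ↥S) (W : Subgroup (Gl v.1)), W ∈ (localLevels v.1).levels → W.Normal →
    (∀ s ∈ W, (muLoc p v.1).ρ s = 1) →
    Function.Bijective ((inv v) ∘ₗ
      pushH2 (A := indRep W (muLoc p v.1)) (B := muLoc p v.1) (indAug W (muLoc p v.1))
        (indAug_equivariant W (muLoc p v.1)) (localLevels v.1))

variable {p S} in
/-- the functional `x ↦ Σ_v inv_v(aug_* x_v)` on `∏_v H²(G_v, Ind_U μ)` -/
def topIndFun (inv : InvFamily p S) (U : Subgroup GQ) :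
    ((v : ↥S) → (localLevels v.1).H2 (Rep.res (rl v.1) (indRep U (mu p)))) →ₗ[ZMod p] ZMod p :=
  ∑ v : ↥S, (inv v) ∘ₗ
    pushH2 (A := Rep.res (rl v.1) (indRep U (mu p))) (B := muLoc p v.1) (indAug U (mu p))
      ((indAug_equivariant U (mu p)).res (rl v.1)) (localLevels v.1) ∘ₗ LinearMap.proj v

variable {p S} in
/-- **A7 (TOP-glob-ind).** For a normal level `U` acting trivially on `μ`: a family
`x ∈ ∏_v H²(G_v, Ind_U μ)` with `Σ_v inv_v(aug_* x_v) = 0` is the localisation of a global class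
(`H²(G_S(K), μ_p) → ⊕_{w ∈ S_K} Br(K_w)[p] → Z/p` exact in the middle). -/
def TopGlobIndSpec (inv : InvFamily p S) : Prop :=
  ∀ (U : Subgroup GQ), U ∈ (globalLevels S).levels → U.Normal → (∀ s ∈ U, (mu p).ρ s = 1) →
    ∀ x : (v : ↥S) → (localLevels v.1).H2 (Rep.res (rl v.1) (indRep U (mu p))),
      topIndFun inv U x = 0 → x ∈ LinearMap.range (loc2 (hrl S) (indRep U (mu p)))

/-- **A5–A7.** There is a family of invariant maps satisfying RECIP, TOP-loc-ind, TOP-glob-ind. -/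
def InvSpec : Prop :=
  ∃ inv : InvFamily p S, RecipSpec inv ∧ TopLocIndSpec inv ∧ TopGlobIndSpec inv

/-- **A8 (CAP).** For every normal level `V` acting trivially on `μ` there is a normal level
`U ≤ V` such that `Ш²(Ind_U μ) → Ш²(Ind_V μ)` is zero
(`Ш²(G_S(K), μ_p) = Cl_S(K)/p`; the norm from the `p`-Hilbert `S`-class field kills `Cl_S/p`). -/
def CapSpec : Prop :=
  ∀ (V : Subgroup GQ), V ∈ (globalLevels S).levels → V.Normal → (∀ s ∈ V, (mu p).ρ s = 1) →
    ∃ (U : Subgroup GQ) (h : U ≤ V), U ∈ (globalLevels S).levels ∧ U.Normal ∧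
      ∀ x ∈ Sha2 (hrl S) (indRep U (mu p)),
        pushH2 (A := indRep U (mu p)) (B := indRep V (mu p)) (indLE (mu p) h)
          (indLE_equivariant U (mu p) h) (globalLevels S) x = 0

/-! ## Output of layer D -/

/-- **Theorem D.** `Ш²(M) ≅ Dual(Ш¹(M′))` for finite-dimensional smooth `M`. -/
def TheoremDSpec : Prop :=
  ∀ M : Rep.{0, 0, 0} (ZMod p) GQ, FiniteDimensional (ZMod p) M → (globalLevels S).IsUSmooth M →
    Nonempty (↥(Sha2 (hrl S) M) ≃ₗ[ZMod p]
      Module.Dual (ZMod p) ↥(Sha1 (hrl S) (tdual p M)))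

/-- **Master statement of layer D** (to be assembled from the leaves). -/
def MasterSpec : Prop :=
  p ≠ 2 → pPrime p ∈ S → FinGlobSpec p S → FinLocSpec p S → Surj2GlobSpec p S →
    Surj2LocSpec p S → InvSpec p S → CapSpec p S → TheoremDSpec p S

/-- **Leaf D-B.** S55 follows from Theorem D (bridge to the Prelude's `sha₁`, `sha₂`). -/
def BridgeSpec : Prop :=
  p ≠ 2 → pPrime p ∈ S → TheoremDSpec p S →
    ∀ (M : Rep (ZMod p) (AlgebraicClosure ℚ ≃ₐ[ℚ] AlgebraicClosure ℚ))
      [FiniteDimensional (ZMod p) M],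
      (∀ m : M, ∃ F : IntermediateField ℚ (AlgebraicClosure ℚ), FiniteDimensional ℚ F ∧
        ∀ s ∈ F.fixingSubgroup, M.ρ s m = m) →
      (∀ q : Nat.Primes, q ∉ S → ∀ A : ValuationSubring (AlgebraicClosure ℚ),
        A.LiesOverPrime (q : ℕ) → ∀ g ∈ A.inertiaSubgroupIn ℚ, M.ρ g = 1) →
      ∃ B : sha₁ S (M.dualTwist (cycloChar p)) →ₗ[ZMod p] sha₂ S M →ₗ[ZMod p] ZMod p,
        (∀ y, (∀ x, B y x = 0) → y = 0) ∧ (∀ x, (∀ y, B y x = 0) → x = 0)

end Fermat.Agent.S55.PT

end
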