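import Fermat.Agent.S55.PT.Ind

/-!
# S55 / layer D: framework leaves D-F1 … D-F7 (Spec pattern)

Each `def …Spec : Prop` is a leaf.  Producer: `theorem foo : FooSpec` in a NEW file
`Fermat/Agent/S55/PT/<Leaf>H<seat>.lean` (namespace `Fermat.Agent.S55.PT.H<seat>`).
All statements are about the definitions of `PT/{Levels,Coh,Les,Cone,Ind}.lean` (frozen).
-/

set_option autoImplicit false

noncomputable section

namespace Fermat.Agent.S55.PT

open groupCohomology

/-- **D-F1.** `H⁰(B) → H⁰(C) →δ⁰ H¹(A) → H¹(B)` is exact at `H⁰(C)` and `H¹(A)`. -/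
def Les0Spec : Prop :=
  ∀ (k : Type) [Field k] (G : Type) [Group G] (L : LevelSys G) (A B C : Rep.{0, 0, 0} k G)
    (E : SES A B C) (hB : L.IsUSmooth B),
    LinearMap.ker (E.del0 L hB) = LinearMap.range (pushH0 E.π E.hπ) ∧
    LinearMap.range (E.del0 L hB) = LinearMap.ker (pushH1 E.i E.hi L)

/-- **D-F2.** `H¹(B) → H¹(C) →δ¹ H²(A) → H²(B)` is exact at `H¹(C)` and `H²(A)`. -/
def Les1Spec : Prop :=
  ∀ (k : Type) [Field k] (G : Type) [Group G] (L : LevelSys G) (A B C : Rep.{0, 0, 0} k G)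
    (E : SES A B C) (hN : L.NormalCofinal) (hB : L.IsUSmooth B) (hC : L.IsUSmooth C),
    LinearMap.ker (E.del1 L hN hB hC) = LinearMap.range (pushH1 E.π E.hπ L) ∧
    LinearMap.range (E.del1 L hN hB hC) = LinearMap.ker (pushH2 E.i E.hi L)

/-- **D-F3.** Exactness at the middle terms `H⁰(B)`, `H¹(B)`, `H²(B)` and injectivity on `H⁰`. -/
def LesMidSpec : Prop :=
  ∀ (k : Type) [Field k] (G : Type) [Group G] (L : LevelSys G) (A B C : Rep.{0, 0, 0} k G)
    (E : SES A B C) (_hN : L.NormalCofinal) (_hA : L.IsUSmooth A) (_hB : L.IsUSmooth B),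
    Function.Injective (pushH0 E.i E.hi) ∧
    LinearMap.range (pushH0 E.i E.hi) = LinearMap.ker (pushH0 E.π E.hπ) ∧
    LinearMap.range (pushH1 E.i E.hi L) = LinearMap.ker (pushH1 E.π E.hπ L) ∧
    LinearMap.range (pushH2 E.i E.hi L) = LinearMap.ker (pushH2 E.π E.hπ L)

/-- **D-F4.** The cone sequence `∏_v H¹(G_v, A) →j H²_c(A) →u H²(A) →loc ∏_v H²(G_v, A)` is exact
at `H²_c(A)` and at `H²(A)`. -/
def ConeSpec : Prop :=
  ∀ (k : Type) [Field k] (G : Type) [Group G] (ι : Type) [Fintype ι] [DecidableEq ι]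
    (Gv : ι → Type) [∀ v, Group (Gv v)] (L : LevelSys G) (Lv : ∀ v, LevelSys (Gv v))
    (r : ∀ v, Gv v →* G) (hr : ∀ v, IsLevelCompatible (r v) L (Lv v))
    (_hN : L.NormalCofinal) (A : Rep.{0, 0, 0} k G) (_hA : L.IsUSmooth A),
    LinearMap.ker (uH (L := L) (Lv := Lv) (r := r) A) = LinearMap.range (jH (L := L) (Lv := Lv) (r := r) A) ∧
    LinearMap.range (uH (L := L) (Lv := Lv) (r := r) A) = LinearMap.ker (loc2 hr A)

/-- smoothness is inherited by restriction along a level-compatible map -/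
lemma LevelSys.IsUSmooth.res {k : Type} [Field k] {G G' : Type} [Group G] [Group G']
    {L : LevelSys G} {L' : LevelSys G'} {r : G' →* G} (hr : IsLevelCompatible r L L')
    {A : Rep.{0, 0, 0} k G} (hA : L.IsUSmooth A) : L'.IsUSmooth (Rep.res r A) := by
  obtain ⟨U, hU, h⟩ := hA
  obtain ⟨V, hV, hle⟩ := hr U hU
  exact ⟨V, hV, fun s hs a => h (r s) (hle hs) a⟩

/-- **D-F5.** The cone connecting map.  For a short exact sequence `0 → A → B → C → 0` of
uniformly smooth modules such that `H²(B) → H²(C)` is surjective there is a linear map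
`∂ : H²_c(C) → T³(A)` with
* `ker ∂ = im (H²_c(B) → H²_c(C))`,
* `im ∂ = ker (T³(A) → T³(B))`,
* `∂ (j b) = - [ (δ¹_v b_v)_v ]` (anticommutativity with the local connecting maps). -/
def ConeLesSpec : Prop :=
  ∀ (k : Type) [Field k] (G : Type) [Group G] (ι : Type) [Fintype ι] [DecidableEq ι]
    (Gv : ι → Type) [∀ v, Group (Gv v)] (L : LevelSys G) (Lv : ∀ v, LevelSys (Gv v))
    (r : ∀ v, Gv v →* G) (hr : ∀ v, IsLevelCompatible (r v) L (Lv v))
    (_hN : L.NormalCofinal) (hNv : ∀ v, (Lv v).NormalCofinal)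
    (A B C : Rep.{0, 0, 0} k G) (E : SES A B C)
    (_hA : L.IsUSmooth A) (hB : L.IsUSmooth B) (hC : L.IsUSmooth C),
    Function.Surjective (pushH2 E.π E.hπ L) →
    ∃ dT : Hc2 L Lv r C →ₗ[k] T3 hr A,
      LinearMap.ker dT = LinearMap.range (pushHc2 (L := L) (Lv := Lv) (r := r) E.π E.hπ) ∧
      LinearMap.range dT = LinearMap.ker (pushT3 hr E.i E.hi) ∧
      ∀ b : (v : ι) → (Lv v).H1 (Rep.res (r v) C),
        dT (jH (L := L) (Lv := Lv) (r := r) C b) =
          - T3π hr A (fun v => (E.res (r v)).del1 (Lv v) (hNv v) (hB.res (hr v)) (hC.res (hr v))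
              (b v))

/-- **D-F6.** Naturality of `δ⁰` with respect to restriction:
`res ∘ δ⁰ = δ⁰_res ∘ res` as maps `H⁰(G, C) → H¹(G', A)`. -/
def Del0ResSpec : Prop :=
  ∀ (k : Type) [Field k] (G G' : Type) [Group G] [Group G'] (L : LevelSys G) (L' : LevelSys G')
    (r : G' →* G) (hr : IsLevelCompatible r L L') (A B C : Rep.{0, 0, 0} k G) (E : SES A B C)
    (hB : L.IsUSmooth B) (c : ↥(LevelSys.H0 C)),
    resH1 hr A (E.del0 L hB c) = (E.res r).del0 L' (hB.res hr) (resH0 r C c)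

/-- **D-F7a.** Normal levels are cofinal among the global levels. -/
def GlobalNormalCofinalSpec : Prop :=
  ∀ S : Finset Nat.Primes, (globalLevels S).NormalCofinal

/-- **D-F7b.** Normal levels are cofinal among the local levels. -/
def LocalNormalCofinalSpec : Prop :=
  ∀ q : Nat.Primes, (localLevels q).NormalCofinal

/-- **D-F7c.** Global levels have finite index. -/
def GlobalFiniteIndexSpec : Prop :=
  ∀ S : Finset Nat.Primes, (globalLevels S).FiniteIndex

/-- **D-F7d.** Local levels have finite index. -/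
def LocalFiniteIndexSpec : Prop :=
  ∀ q : Nat.Primes, (localLevels q).FiniteIndex

end Fermat.Agent.S55.PT

end
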