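import Fermat.Agent.S55.PT.Top
import Fermat.Agent.S55.PT.Spec
import Fermat.Agent.S55.PT.SpecF

/-!
# S55 / layer D: leaves D-I2 (effaceability), D-T2 (dévissage of the top pairings),
D-T3 (CAP for all modules), D-E (abstract engine)

Spec pattern.  Producer: `theorem foo : FooSpec …` in a NEW file
`Fermat/Agent/S55/PT/<Leaf>H<seat>.lean`.
-/

set_option autoImplicit false

noncomputable section

namespace Fermat.Agent.S55.PT

open groupCohomology ExtCitation

/-! ## D-I2: effaceability of `H¹` of the dual (formal, from finiteness) -/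

/-- **D-I2 (E2).**  If `H¹(M′)` is finite-dimensional then for every level `V` acting trivially on
`M` and `χ` there is a normal level `U ≤ V` such that `H¹(M′) → H¹((Ind_U (twTriv χ M))′)`
(induced by the dual of the twisted augmentation) is zero.
Proof: a cocycle `c` which is right-`U`-invariant becomes the coboundary of
`F (single γU w) = χ(γ)⁻¹ c(γ)(γ w)`. -/
def EffaceSpec : Prop :=
  ∀ (k : Type) [Field k] (G : Type) [Group G] (L : LevelSys G) (_hN : L.NormalCofinal)
    (χ : G →* kˣ) (M : Rep.{0, 0, 0} k G) (_hM : L.IsUSmooth M),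
    FiniteDimensional k (L.H1 (M.dualTwist χ)) →
    ∀ V ∈ L.levels, ∀ (hχ : ∀ u ∈ V, χ u = 1) (hMV : ∀ u ∈ V, M.ρ u = 1),
      ∃ (U : Subgroup G) (hUV : U ≤ V), U ∈ L.levels ∧ U.Normal ∧
        ∀ x : L.H1 (M.dualTwist χ),
          pushH1 (A := M.dualTwist χ) (B := (indRep U (twTriv χ M)).dualTwist χ)
            (augTw χ U M).dualMap
            (dualMap_equivariant χ (A := indRep U (twTriv χ M)) (B := M) (augTw χ U M)
              (augTw_equivariant χ U M (fun u hu => hχ u (hUV hu)) (fun u hu => hMV u (hUV hu))))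
            L x = 0

/-! ## D-T2: the top pairings are bijective for ALL finite-dimensional smooth modules -/

variable (p : ℕ) [Fact p.Prime] (S : Finset Nat.Primes)

variable {p S} in
/-- local top-degree duality for all finite-dimensional smooth modules:
`H²(G_v, N) ≃ Dual (Hom_{G_v}(N, μ))` -/
def TopLocSpec (inv : InvFamily p S) : Prop :=
  ∀ (v : ↥S) (N : Rep.{0, 0, 0} (ZMod p) (Gl v.1)), FiniteDimensional (ZMod p) N →
    (localLevels v.1).IsUSmooth N →
    Function.Bijective (topPair (localLevels v.1) (cycloLoc p v.1) (inv v) N)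

variable {p S} in
/-- global top-degree duality for all finite-dimensional smooth modules:
`T³(N) ≃ Dual (Hom_G(N, μ))` -/
def TopGlobSpec (inv : InvFamily p S) (hrec : IsRecip (hrl S) (cycloChar p) inv) : Prop :=
  ∀ (N : Rep.{0, 0, 0} (ZMod p) GQ), FiniteDimensional (ZMod p) N →
    (globalLevels S).IsUSmooth N →
    Function.Bijective (topT3 (hrl S) N hrec)

/-- **D-T2a.**  Local dévissage: A4 + A6 ⇒ local top duality for all modules.
Proof: present `N` by `Q = Ind_W (twTriv χ N) ↠ N` (`W` a normal level trivial on `N`, `χ`);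
`θ(Q)` bijective by coordinates (`indMap W λ`, `λ ∈ Dual N`) from A6; `θ(N)` surjective since
`Dual (charHom Q) ↠ Dual (charHom N)`; injective by the four lemma, using `θ(ker)` surjective,
exactness at `H²(Q)` (D-F3) and A4. -/
def TopLocDevSpec : Prop :=
  LesMidSpec → LocalNormalCofinalSpec → LocalFiniteIndexSpec →
    ∀ inv : InvFamily p S, TopLocIndSpec inv → Surj2LocSpec p S → TopLocSpec inv

/-- **D-T2b.**  Global dévissage: A3 + A4 + A7 + local top duality ⇒ global top duality for all
modules.  Surjectivity of `Θ(N)` comes from ONE place (`p ∈ S`); injectivity by the four lemma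
for `T³(ker) → T³(Q) → T³(N) → 0`, `Q = Ind_U (twTriv χ N)`. -/
def TopGlobDevSpec : Prop :=
  LesMidSpec → GlobalNormalCofinalSpec → LocalNormalCofinalSpec → GlobalFiniteIndexSpec →
    pPrime p ∈ S →
    ∀ (inv : InvFamily p S) (hrec : IsRecip (hrl S) (cycloChar p) inv),
      TopLocSpec inv → TopGlobIndSpec inv → Surj2GlobSpec p S → Surj2LocSpec p S →
      TopGlobSpec inv hrec

/-! ## D-T3: CAP for all modules -/

/-- CAP for all modules: `Ш²(Ind_U (twTriv χ M)) → Ш²(M)` is zero for suitable `U`. -/
def CapAllSpec : Prop :=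
  ∀ (M : Rep.{0, 0, 0} (ZMod p) GQ), FiniteDimensional (ZMod p) M →
    ∀ V ∈ (globalLevels S).levels, ∀ (hχ : ∀ u ∈ V, cycloChar p u = 1)
      (hMV : ∀ u ∈ V, M.ρ u = 1),
      ∃ (U : Subgroup GQ) (hUV : U ≤ V), U ∈ (globalLevels S).levels ∧ U.Normal ∧
        ∀ x ∈ Sha2 (hrl S) (indRep U (twTriv (cycloChar p) M)),
          pushH2 (A := indRep U (twTriv (cycloChar p) M)) (B := M) (augTw (cycloChar p) U M)
            (augTw_equivariant (cycloChar p) U M (fun u hu => hχ u (hUV hu))
              (fun u hu => hMV u (hUV hu)))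
            (globalLevels S) x = 0

/-- **D-T3.**  A8 ⇒ CAP for all modules (coordinates `indMap U λ` + level change + `augTw`). -/
def CapDevSpec : Prop :=
  GlobalNormalCofinalSpec → CapSpec p S → CapAllSpec p S

end Fermat.Agent.S55.PT

end
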