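import Fermat.Agent.S55.PT.H123.TopGlobE
import Fermat.Agent.S55.Bridge.DualTwist

/-!
# S55 / layer D, leaf D-T2b: `TopGlobDevSpec`   (helper123)

`topGlobDev : TopGlobDevSpec p S` — global top-degree duality `T³(N) ≃ Dual (Hom_G(N, μ))` for all
finite-dimensional smooth `N`, from local top duality (only its surjectivity at the place `p`),
A7 (`TopGlobIndSpec`) and local right exactness of `H²` (A4).

The hypotheses `LesMidSpec`, `LocalNormalCofinalSpec`, `Surj2GlobSpec` of the Spec are NOT used:
the four lemma only needs `T³(Q) ↠ T³(N)`, `Θ(R)` onto, `Θ(Q)` into and left exactness of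
`Hom_G(−, μ)`.

The generic statement is `H123.topT3_bijective_of` (`PT/H123/TopGlobE.lean`).
-/

set_option autoImplicit false

noncomputable section

namespace Fermat.Agent.S55.PT.H123

open groupCohomology ExtCitation Fermat.Agent.S55.PT Fermat.Agent.S55.Bridge

attribute [local instance] isAlgebraic_Qbar isGalois_Qbar

/-- `χ_p` is trivial on some level of `globalLevels S` when `p ∈ S`. -/
lemma exists_level_cycloChar_eq_one (p : ℕ) [Fact p.Prime] (S : Finset Nat.Primes)
    (hpS : pPrime p ∈ S) :
    ∃ U ∈ (globalLevels S).levels, ∀ u ∈ U, cycloChar p u = 1 := by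
  haveI : (MonoidHom.ker (cycloChar p)).Normal := MonoidHom.normal_ker _
  obtain ⟨F, hF, -, hfix, -⟩ := exists_galois_level_of_subgroup S (MonoidHom.ker (cycloChar p))
    (cycloLevel p) (cycloLevel_finiteDimensional p)
    (fun s hs => MonoidHom.mem_ker.2 (cycloChar_eq_one_of_mem_fixingSubgroup p s hs))
    (fun q hq A hA g hg => by
      have hqp : (q : ℕ) ≠ p := by
        intro h
        apply hq
        have : q = pPrime p := Subtype.ext h
        rw [this]
        exact hpS
      exact MonoidHom.mem_ker.2 (cycloChar_eq_one_of_mem_inertia p q.2 hqp A hA g hg))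
  refine ⟨F.fixingSubgroup, ⟨F, hF, rfl⟩, fun u hu => ?_⟩
  rw [hfix] at hu
  exact MonoidHom.mem_ker.1 hu

variable (p : ℕ) [Fact p.Prime] (S : Finset Nat.Primes)

/-- **D-T2b.** -/
theorem topGlobDev : TopGlobDevSpec p S := by
  intro _ hGN _ hGF hpS inv hrec hloc hInd _ hS2l N hfd hsm
  refine topT3_bijective_of (hrl S) (hGN S) (hGF S) hrec
    (exists_level_cycloChar_eq_one p S hpS) ⟨pPrime p, hpS⟩
    (fun N' h1 h2 => (hloc ⟨pPrime p, hpS⟩ N' h1 h2).2) ?_
    (fun v P N' φ hφ h1 h2 h3 h4 => hS2l v.1 v.2 P N' φ hφ h1 h2 h3 h4) N hfd hsm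
  intro U hU hUn hχU x hx
  refine hInd U hU hUn (fun s hs => ?_) x ?_
  · apply LinearMap.ext
    intro c
    rw [ofChar_ρ_apply, hχU s hs, Units.val_one, one_mul]
    rfl
  · simp only [topIndFun, LinearMap.sum_apply, LinearMap.comp_apply, LinearMap.proj_apply]
    exact hx

end Fermat.Agent.S55.PT.H123

end
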