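import Fermat.Agent.S55.PT.Final
import Fermat.Agent.S55.PT.TopGlobDevH123
import Fermat.Agent.S55.PT.T2aH299.Main

/-!
# S55 / layer D: final wiring, version 2 (helper835)

ALL formal leaves of layer D are now proved (D-T2a by helper299, D-T2b by helper123).
S55 is reduced to exactly the four arithmetic inputs

* `Surj2GlobSpec p S` (A3: `H²(G_S, -)` right exact),
* `Surj2LocSpec p S`  (A4: `H²(G_q, -)` right exact),
* `InvSpec p S`       (A5–A7: invariant maps, reciprocity, top duality on induced `μ`),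
* `CapSpec p S`       (A8: `Ш²(Ind_U μ) → Ш²(Ind_V μ)` eventually zero).
-/

set_option autoImplicit false

noncomputable section

namespace Fermat.Agent.S55.PT

open groupCohomology ExtCitation Fermat.Agent.S55.Bridge

/-- **Theorem D from the four arithmetic inputs** A3, A4, A5–A7, A8. -/
theorem theoremD_of_four (p : ℕ) [Fact p.Prime] (S : Finset Nat.Primes) (hpS : pPrime p ∈ S)
    (hSurjG : Surj2GlobSpec p S) (hSurjL : Surj2LocSpec p S)
    (hInv : InvSpec p S) (hCap : CapSpec p S) : TheoremDSpec p S :=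
  theoremD_of_arith p S hpS (H299.topLocDev p S) (H123.topGlobDev p S) hSurjG hSurjL hInv hCap

/-- **S55 from the four arithmetic inputs** A3, A4, A5–A7, A8. -/
theorem s55_of_four {p : ℕ} [Fact p.Prime] (hp2 : p ≠ 2) (S : Finset Nat.Primes)
    (hpS : pPrime p ∈ S)
    (hSurjG : Surj2GlobSpec p S) (hSurjL : Surj2LocSpec p S)
    (hInv : InvSpec p S) (hCap : CapSpec p S)
    (M : Rep (ZMod p) (AlgebraicClosure ℚ ≃ₐ[ℚ] AlgebraicClosure ℚ))
    [FiniteDimensional (ZMod p) M]
    (hsm : ∀ m : M, ∃ F : IntermediateField ℚ (AlgebraicClosure ℚ), FiniteDimensional ℚ F ∧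
      ∀ s ∈ F.fixingSubgroup, M.ρ s m = m)
    (hMur : ∀ q : Nat.Primes, q ∉ S → ∀ A : ValuationSubring (AlgebraicClosure ℚ),
      A.LiesOverPrime (q : ℕ) → ∀ g ∈ A.inertiaSubgroupIn ℚ, M.ρ g = 1) :
    ∃ B : sha₁ S (M.dualTwist (cycloChar p)) →ₗ[ZMod p] sha₂ S M →ₗ[ZMod p] ZMod p,
      (∀ y, (∀ x, B y x = 0) → y = 0) ∧ (∀ x, (∀ y, B y x = 0) → x = 0) :=
  s55_of_arith hp2 S hpS (H299.topLocDev p S) (H123.topGlobDev p S) hSurjG hSurjL hInv hCap M hsm hMur

end Fermat.Agent.S55.PT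

end
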