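import Fermat.Agent.S55.PT.Levels

/-!
# S55 / PT layer, part 2: functoriality of level-constant cohomology

* push-forward along an equivariant linear map `φ : A → B` (`pushZ1`, `pushH1`, `pushZ2`, `pushH2`,
  `pushH0`);
* restriction along a level-compatible group homomorphism `r : G' → G`
  (`resZ1`, `resH1`, `resZ2`, `resH2`, `resH0`).
-/

set_option autoImplicit false

noncomputable section

namespace Fermat.Agent.S55.PT

open groupCohomology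

variable {k : Type} [Field k] {G : Type} [Group G]

/-- `φ : A → B` is equivariant. -/
@[reducible] def IsEquivariant {A B : Rep.{0, 0, 0} k G} (φ : A →ₗ[k] B) : Prop :=
  ∀ (g : G) (a : A), φ (A.ρ g a) = B.ρ g (φ a)

section Push

variable {A B : Rep.{0, 0, 0} k G} (φ : A →ₗ[k] B) (hφ : IsEquivariant φ)

include hφ in
lemma push_d₀₁ (m : A) : (d₀₁ B).hom (φ m) = φ ∘ (d₀₁ A).hom m := by
  have hφ' : ∀ (g : G) (a : A), φ (A.ρ g a) = B.ρ g (φ a) := hφ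
  funext g
  simp only [d₀₁_hom_apply, Function.comp_apply, map_sub, hφ']

include hφ in
lemma push_d₁₂ (f : G → A) : (d₁₂ B).hom (φ ∘ f) = φ ∘ (d₁₂ A).hom f := by
  have hφ' : ∀ (g : G) (a : A), φ (A.ρ g a) = B.ρ g (φ a) := hφ
  funext ⟨g, h⟩
  simp only [d₁₂_hom_apply, Function.comp_apply, map_add, map_sub, hφ']

include hφ in
lemma push_d₂₃ (f : G × G → A) : (d₂₃ B).hom (φ ∘ f) = φ ∘ (d₂₃ A).hom f := by
  have hφ' : ∀ (g : G) (a : A), φ (A.ρ g a) = B.ρ g (φ a) := hφ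
  funext ⟨g, h, j⟩
  simp only [d₂₃_hom_apply, Function.comp_apply, map_add, map_sub, hφ']

include hφ in
lemma push_mem_cocycles₁ {f : G → A} (hf : f ∈ cocycles₁ A) : φ ∘ f ∈ cocycles₁ B := by
  have h0 : (d₁₂ A).hom f = 0 := hf
  show (d₁₂ B).hom (φ ∘ f) = 0
  rw [push_d₁₂ φ hφ, h0]
  funext x
  exact map_zero φ

include hφ in
lemma push_mem_cocycles₂ {f : G × G → A} (hf : f ∈ cocycles₂ A) : φ ∘ f ∈ cocycles₂ B := by
  have h0 : (d₂₃ A).hom f = 0 := hf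
  show (d₂₃ B).hom (φ ∘ f) = 0
  rw [push_d₂₃ φ hφ, h0]
  funext x
  exact map_zero φ

variable (L : LevelSys G)

include hφ in
lemma push_mem_Z1 {f : G → A} (hf : f ∈ L.Z1 A) : φ ∘ f ∈ L.Z1 B :=
  ⟨push_mem_cocycles₁ φ hφ hf.1, LevelSys.IsLC₁.comp hf.2 φ⟩

include hφ in
lemma push_mem_Z2 {f : G × G → A} (hf : f ∈ L.Z2 A) : φ ∘ f ∈ L.Z2 B :=
  ⟨push_mem_cocycles₂ φ hφ hf.1, LevelSys.IsLC₂.comp hf.2 φ⟩

include hφ in
lemma push_mem_B1 {f : G → A} (hf : f ∈ LevelSys.B1 A) : φ ∘ f ∈ LevelSys.B1 B := by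
  obtain ⟨m, rfl⟩ := hf
  exact ⟨φ m, push_d₀₁ φ hφ m⟩

include hφ in
lemma push_mem_B2 {f : G × G → A} (hf : f ∈ L.B2 A) : φ ∘ f ∈ L.B2 B := by
  obtain ⟨x, hx, rfl⟩ := hf
  exact ⟨φ ∘ x, LevelSys.IsLC₁.comp hx φ, push_d₁₂ φ hφ x⟩

/-- Push-forward of level-constant 1-cocycles. -/
def pushZ1 : ↥(L.Z1 A) →ₗ[k] ↥(L.Z1 B) :=
  (φ.compLeft G).restrict fun _ hf => push_mem_Z1 φ hφ L hf

/-- Push-forward of level-constant 2-cocycles. -/
def pushZ2 : ↥(L.Z2 A) →ₗ[k] ↥(L.Z2 B) :=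
  (φ.compLeft (G × G)).restrict fun _ hf => push_mem_Z2 φ hφ L hf

@[simp] lemma coe_pushZ1 (c : ↥(L.Z1 A)) : (pushZ1 φ hφ L c : G → B) = φ ∘ (c : G → A) := rfl
@[simp] lemma coe_pushZ2 (c : ↥(L.Z2 A)) :
    (pushZ2 φ hφ L c : G × G → B) = φ ∘ (c : G × G → A) := rfl

/-- Push-forward on `H¹`. -/
def pushH1 : L.H1 A →ₗ[k] L.H1 B :=
  Submodule.mapQ ((LevelSys.B1 A).comap (L.Z1 A).subtype)
    ((LevelSys.B1 B).comap (L.Z1 B).subtype) (pushZ1 φ hφ L) fun c hc => by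
    simp only [Submodule.mem_comap, Submodule.subtype_apply] at hc ⊢
    exact push_mem_B1 φ hφ hc

/-- Push-forward on `H²`. -/
def pushH2 : L.H2 A →ₗ[k] L.H2 B :=
  Submodule.mapQ ((L.B2 A).comap (L.Z2 A).subtype)
    ((L.B2 B).comap (L.Z2 B).subtype) (pushZ2 φ hφ L) fun c hc => by
    simp only [Submodule.mem_comap, Submodule.subtype_apply] at hc ⊢
    exact push_mem_B2 φ hφ L hc

@[simp] lemma pushH1_mk (c : ↥(L.Z1 A)) :
    pushH1 φ hφ L (L.H1π A c) = L.H1π B (pushZ1 φ hφ L c) := rfl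

@[simp] lemma pushH2_mk (c : ↥(L.Z2 A)) :
    pushH2 φ hφ L (L.H2π A c) = L.H2π B (pushZ2 φ hφ L c) := rfl

/-- Push-forward on invariants. -/
def pushH0 : ↥(LevelSys.H0 A) →ₗ[k] ↥(LevelSys.H0 B) :=
  φ.restrict fun a ha g => by rw [← hφ g a, ha g]

@[simp] lemma coe_pushH0 (a : ↥(LevelSys.H0 A)) : (pushH0 φ hφ a : B) = φ a := rfl

end Push

section Res

variable {G' : Type} [Group G'] (r : G' →* G) (L : LevelSys G) (L' : LevelSys G')

/-- `r : G' → G` is compatible with the level systems (continuity). -/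
def IsLevelCompatible : Prop := ∀ U ∈ L.levels, ∃ V ∈ L'.levels, V ≤ U.comap r

variable {r L L'} (hr : IsLevelCompatible r L L') (A : Rep.{0, 0, 0} k G)

lemma res_d₁₂ (f : G → A) :
    (d₁₂ (Rep.res r A)).hom (f ∘ r) = (d₁₂ A).hom f ∘ Prod.map r r := by
  funext ⟨g, h⟩
  simp only [d₁₂_hom_apply, Function.comp_apply, Prod.map_apply, map_mul]
  rfl

lemma res_d₂₃ (f : G × G → A) :
    (d₂₃ (Rep.res r A)).hom (f ∘ Prod.map r r) =
      (d₂₃ A).hom f ∘ Prod.map r (Prod.map r r) := by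
  funext ⟨g, h, j⟩
  simp only [d₂₃_hom_apply, Function.comp_apply, Prod.map_apply, map_mul]
  rfl

lemma res_d₀₁ (m : A) : (d₀₁ (Rep.res r A)).hom m = (d₀₁ A).hom m ∘ r := by
  funext g
  simp only [d₀₁_hom_apply, Function.comp_apply]
  rfl

include hr in
lemma IsLC₁.res {X : Type*} {f : G → X} (hf : L.IsLC₁ f) : L'.IsLC₁ (f ∘ r) := by
  obtain ⟨U, hU, h⟩ := hf
  obtain ⟨V, hV, hle⟩ := hr U hU
  refine ⟨V, hV, fun g s hs => ?_⟩
  simp only [Function.comp_apply, map_mul]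
  exact h (r g) (r s) (hle hs)

include hr in
lemma IsLC₂.res {X : Type*} {f : G × G → X} (hf : L.IsLC₂ f) : L'.IsLC₂ (f ∘ Prod.map r r) := by
  obtain ⟨U, hU, h⟩ := hf
  obtain ⟨V, hV, hle⟩ := hr U hU
  refine ⟨V, hV, fun g g' s s' hs hs' => ?_⟩
  simp only [Function.comp_apply, Prod.map_apply, map_mul]
  exact h (r g) (r g') (r s) (r s') (hle hs) (hle hs')

include hr in
lemma res_mem_Z1 {f : G → A} (hf : f ∈ L.Z1 A) : f ∘ r ∈ L'.Z1 (Rep.res r A) := by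
  refine ⟨?_, IsLC₁.res hr hf.2⟩
  have h0 : (d₁₂ A).hom f = 0 := hf.1
  show (d₁₂ (Rep.res r A)).hom (f ∘ r) = 0
  rw [res_d₁₂, h0]
  rfl

include hr in
lemma res_mem_Z2 {f : G × G → A} (hf : f ∈ L.Z2 A) :
    f ∘ Prod.map r r ∈ L'.Z2 (Rep.res r A) := by
  refine ⟨?_, IsLC₂.res hr hf.2⟩
  have h0 : (d₂₃ A).hom f = 0 := hf.1
  show (d₂₃ (Rep.res r A)).hom (f ∘ Prod.map r r) = 0
  rw [res_d₂₃, h0]
  rfl

lemma res_mem_B1 {f : G → A} (hf : f ∈ LevelSys.B1 A) :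
    f ∘ r ∈ LevelSys.B1 (Rep.res r A) := by
  obtain ⟨m, rfl⟩ := hf
  exact ⟨m, res_d₀₁ A m⟩

include hr in
lemma res_mem_B2 {f : G × G → A} (hf : f ∈ L.B2 A) :
    f ∘ Prod.map r r ∈ L'.B2 (Rep.res r A) := by
  obtain ⟨x, hx, rfl⟩ := hf
  exact ⟨x ∘ r, IsLC₁.res hr hx, res_d₁₂ A x⟩

/-- precomposition with `r` as a linear map on 1-cochains -/
def precomp₁ : (G → A) →ₗ[k] (G' → Rep.res r A) where
  toFun f := f ∘ r
  map_add' _ _ := rfl
  map_smul' _ _ := rfl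

/-- precomposition with `r × r` as a linear map on 2-cochains -/
def precomp₂ : (G × G → A) →ₗ[k] (G' × G' → Rep.res r A) where
  toFun f := f ∘ Prod.map r r
  map_add' _ _ := rfl
  map_smul' _ _ := rfl

/-- Restriction of level-constant 1-cocycles. -/
def resZ1 : ↥(L.Z1 A) →ₗ[k] ↥(L'.Z1 (Rep.res r A)) :=
  (precomp₁ (r := r) A).restrict fun _ hf => res_mem_Z1 hr A hf

/-- Restriction of level-constant 2-cocycles. -/
def resZ2 : ↥(L.Z2 A) →ₗ[k] ↥(L'.Z2 (Rep.res r A)) :=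
  (precomp₂ (r := r) A).restrict fun _ hf => res_mem_Z2 hr A hf

@[simp] lemma coe_resZ1 (c : ↥(L.Z1 A)) :
    (resZ1 hr A c : G' → Rep.res r A) = (c : G → A) ∘ r := rfl
@[simp] lemma coe_resZ2 (c : ↥(L.Z2 A)) :
    (resZ2 hr A c : G' × G' → Rep.res r A) = (c : G × G → A) ∘ Prod.map r r := rfl

/-- Restriction on `H¹`. -/
def resH1 : L.H1 A →ₗ[k] L'.H1 (Rep.res r A) :=
  Submodule.mapQ ((LevelSys.B1 A).comap (L.Z1 A).subtype)
    ((LevelSys.B1 (Rep.res r A)).comap (L'.Z1 (Rep.res r A)).subtype) (resZ1 hr A) fun c hc => by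
    simp only [Submodule.mem_comap, Submodule.subtype_apply] at hc ⊢
    exact res_mem_B1 A hc

/-- Restriction on `H²`. -/
def resH2 : L.H2 A →ₗ[k] L'.H2 (Rep.res r A) :=
  Submodule.mapQ ((L.B2 A).comap (L.Z2 A).subtype)
    ((L'.B2 (Rep.res r A)).comap (L'.Z2 (Rep.res r A)).subtype) (resZ2 hr A) fun c hc => by
    simp only [Submodule.mem_comap, Submodule.subtype_apply] at hc ⊢
    exact res_mem_B2 hr A hc

@[simp] lemma resH1_mk (c : ↥(L.Z1 A)) :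
    resH1 hr A (L.H1π A c) = L'.H1π (Rep.res r A) (resZ1 hr A c) := rfl

@[simp] lemma resH2_mk (c : ↥(L.Z2 A)) :
    resH2 hr A (L.H2π A c) = L'.H2π (Rep.res r A) (resZ2 hr A c) := rfl

/-- Restriction on invariants (inclusion `A^G ⊆ A^{G'}`). -/
def resH0 (r : G' →* G) (A : Rep.{0, 0, 0} k G) :
    ↥(LevelSys.H0 A) →ₗ[k] ↥(LevelSys.H0 (Rep.res r A)) where
  toFun a := ⟨(a : A), fun g => a.2 (r g)⟩
  map_add' _ _ := rfl
  map_smul' _ _ := rfl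

@[simp] lemma coe_resH0 (a : ↥(LevelSys.H0 A)) : ((resH0 r A a : Rep.res r A) : A) = a := rfl

end Res

end Fermat.Agent.S55.PT

end
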