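import Mathlib
import Fermat.Prelude.Def_GroupCohomology_ContinuousUnramified
import Fermat.Agent.S55.Bridge.InertiaConj

/-!
# S55 / PT layer: normal levels are cofinal (subtasks PT-N1, PT-N2)   (helper724)

* `globalLevels_normal_cofinal724` : every level `G_F`, `F` unramified outside `S`, contains a
  normal level `G_L`, `L/ℚ` Galois and unramified outside `S`
  (uses `Bridge.exists_galois_level_ge`).
* `pullbackLevels_normal_cofinal724` : same for levels pulled back along `r : G → G_ℚ`
  (normal closure of `F`).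

These are the two `sorry`s of `PT/Levels.lean` (helper835's skeleton), stated with the
abbreviation `GQ` unfolded so that this file does not depend on `Levels.lean`.
-/

set_option autoImplicit false

namespace Fermat.Agent.S55.PT

open Fermat.Agent.S55.Bridge

attribute [local instance] isAlgebraic_Qbar isGalois_Qbar

/-- (PT-N1) Every level `G_F`, `F` unramified outside `S`, contains a normal level `G_{F'}`,
`F'/ℚ` Galois and unramified outside `S`. -/
theorem globalLevels_normal_cofinal724 (S : Finset Nat.Primes) :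
    ∀ U ∈ {U : Subgroup (AlgebraicClosure ℚ ≃ₐ[ℚ] AlgebraicClosure ℚ) |
        ∃ F : IntermediateField ℚ (AlgebraicClosure ℚ),
        F.IsUnramifiedOutside S ∧ U = F.fixingSubgroup},
      ∃ V ∈ {U : Subgroup (AlgebraicClosure ℚ ≃ₐ[ℚ] AlgebraicClosure ℚ) |
        ∃ F : IntermediateField ℚ (AlgebraicClosure ℚ),
        F.IsUnramifiedOutside S ∧ U = F.fixingSubgroup}, V ≤ U ∧ V.Normal := by
  rintro U ⟨F, hF, rfl⟩
  obtain ⟨L, hL, hgal, hle⟩ := exists_galois_level_ge S F hF
  refine ⟨L.fixingSubgroup, ⟨L, hL, rfl⟩, IntermediateField.fixingSubgroup_antitone hle, ?_⟩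
  exact (InfiniteGalois.normal_iff_isGalois L).2 hgal

/-- (PT-N2) Same for pulled-back levels (normal closure of `F`). -/
theorem pullbackLevels_normal_cofinal724 {G : Type} [Group G]
    (r : G →* (AlgebraicClosure ℚ ≃ₐ[ℚ] AlgebraicClosure ℚ)) :
    ∀ U ∈ {U : Subgroup G | ∃ F : IntermediateField ℚ (AlgebraicClosure ℚ),
        FiniteDimensional ℚ F ∧ U = F.fixingSubgroup.comap r},
      ∃ V ∈ {U : Subgroup G | ∃ F : IntermediateField ℚ (AlgebraicClosure ℚ),
        FiniteDimensional ℚ F ∧ U = F.fixingSubgroup.comap r}, V ≤ U ∧ V.Normal := by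
  rintro U ⟨F, hF, rfl⟩
  have := hF
  have hfinN : FiniteDimensional ℚ (IntermediateField.normalClosure ℚ F (AlgebraicClosure ℚ)) :=
    normalClosure.is_finiteDimensional ℚ F (AlgebraicClosure ℚ)
  have hgalN : IsGalois ℚ (IntermediateField.normalClosure ℚ F (AlgebraicClosure ℚ)) :=
    IsGalois.normalClosure ℚ F (AlgebraicClosure ℚ)
  have hle : F ≤ IntermediateField.normalClosure ℚ F (AlgebraicClosure ℚ) :=
    IntermediateField.le_normalClosure F
  have hnormal : (IntermediateField.normalClosure ℚ F
      (AlgebraicClosure ℚ)).fixingSubgroup.Normal :=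
    (InfiniteGalois.normal_iff_isGalois _).2 hgalN
  refine ⟨_, ⟨IntermediateField.normalClosure ℚ F (AlgebraicClosure ℚ), hfinN, rfl⟩,
    Subgroup.comap_mono (IntermediateField.fixingSubgroup_antitone hle), ?_⟩
  exact Subgroup.Normal.comap hnormal r

end Fermat.Agent.S55.PT
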