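import Fermat.Agent.S55.PT.Levels
import Fermat.Agent.S55.PT.LevelsNormal
import Fermat.Agent.S55.H424.FinLocPrelude
import Fermat.Agent.S55.H424.FiniteIndexComap

/-!
# S55: local `p`-Frattini finiteness and basic properties of the local levels (helper424)

Stated with `PT/Levels.lean` only (no dependence on any `KL` interface), in unfolded form:

* `localLevels_pFrattini` : for every local level `U` there is a local level `V ≤ U` such that every
  level-constant `χ : G_q → 𝔽_p` which is additive on `U` vanishes on `V`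
  (this is literally `KL.PFrattiniFinite (localLevels q) p` of helper53's `KL/Defs.lean`);
* `localLevels_normalCofinal`, `localLevels_finiteIndex`.
-/

set_option autoImplicit false
set_option linter.unusedSectionVars false
set_option linter.style.haveILetI false

namespace Fermat.Agent.S55.PT.H424

open groupCohomology ExtCitation Fermat.Agent.S55.PT

/-- Kummer level, in terms of `Gal(ℚ̄_q/ℚ_q)` and global levels. -/
theorem padic_pFrattini (p : ℕ) [Fact p.Prime] (q : ℕ) [Fact q.Prime]
    (F : IntermediateField ℚ (AlgebraicClosure ℚ)) [FiniteDimensional ℚ F] :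
    ∃ F₁ : IntermediateField ℚ (AlgebraicClosure ℚ), FiniteDimensional ℚ F₁ ∧ F ≤ F₁ ∧
      ∀ χ : (PadicAlgCl q ≃ₐ[ℚ_[q]] PadicAlgCl q) → ZMod p,
        (∀ s t, localGaloisToGlobal q s ∈ F.fixingSubgroup →
          localGaloisToGlobal q t ∈ F.fixingSubgroup → χ (s * t) = χ s + χ t) →
        IsLevelConstant₁ (localGaloisToGlobal q) χ →
        ∀ s, localGaloisToGlobal q s ∈ F₁.fixingSubgroup → χ s = 0 := by
  obtain ⟨E₀, hE₀, hE₀F⟩ := Bridge.exists_local_level_of_global q F
  haveI := hE₀
  obtain ⟨E₁, hE₁fin, -, hE₁⟩ :=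
    Fermat.Agent.S55.H424.exists_kummer_level_intermediate (k₀ := ℚ_[q]) (Ω := PadicAlgCl q) p
      (Fact.out : p.Prime).ne_zero
      (fun E hE => Fermat.Agent.S55.H424.padic_index_range_pow_ne_zero q E hE p
        (Fact.out : p.Prime).ne_zero) E₀
  haveI := hE₁fin
  obtain ⟨F₁, hF₁, hF₁E⟩ := Bridge.exists_global_level_of_local q E₁
  haveI := hF₁
  refine ⟨F ⊔ F₁, inferInstance, le_sup_left, ?_⟩
  intro χ hadd hlc s hs
  have hs₁ : localGaloisToGlobal q s ∈ F₁.fixingSubgroup :=
    IntermediateField.fixingSubgroup_le (le_sup_right : F₁ ≤ F ⊔ F₁) hs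
  have hχ1 : χ 1 = 0 := by
    have h := hadd 1 1 (by rw [map_one]; exact Subgroup.one_mem _)
      (by rw [map_one]; exact Subgroup.one_mem _)
    rw [mul_one] at h
    exact left_eq_add.1 h
  obtain ⟨E', hE'fin, hE'⟩ := (Bridge.isLevelConstant₁_local_iff q χ).1 hlc
  refine hE₁ χ (fun g hg h hh => hadd g h (hE₀F g hg) (hE₀F h hh)) ⟨E', hE'fin, fun t ht => ?_⟩ s
    (hF₁E s hs₁)
  have := hE' 1 t ht
  rw [one_mul, hχ1] at this
  exact this

/-- **Local `p`-Frattini finiteness** (`= KL.PFrattiniFinite (localLevels q) p`, unfolded). -/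
theorem localLevels_pFrattini (p : ℕ) [Fact p.Prime] (q : Nat.Primes) :
    ∀ U ∈ (localLevels q).levels, ∃ V ∈ (localLevels q).levels, V ≤ U ∧
      ∀ χ : Gl q → ZMod p, (∀ s t : Gl q, s ∈ U → t ∈ U → χ (s * t) = χ s + χ t) →
        (localLevels q).IsLC₁ χ → ∀ s ∈ V, χ s = 0 := by
  letI : Fact (q : ℕ).Prime := ⟨q.2⟩
  rintro U ⟨F, hF, rfl⟩
  haveI := hF
  obtain ⟨F₁, hF₁, hle, h⟩ := padic_pFrattini p (q : ℕ) F
  refine ⟨_, ⟨F₁, hF₁, rfl⟩, Subgroup.comap_mono (IntermediateField.fixingSubgroup_le hle), ?_⟩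
  intro χ hadd hlc s hs
  exact h χ (fun s t hs ht => hadd s t hs ht) ((isLC₁_pullbackLevels_iff (rl q) χ).1 hlc) s hs

/-- Normal local levels are cofinal. -/
theorem localLevels_normalCofinal (q : Nat.Primes) : (localLevels q).NormalCofinal :=
  pullbackLevels_normal_cofinal724 (rl q)

/-- Local levels have finite index. -/
theorem localLevels_finiteIndex (q : Nat.Primes) : (localLevels q).FiniteIndex := by
  rintro U ⟨F, hF, rfl⟩
  haveI := hF
  haveI : Algebra.IsAlgebraic ℚ (AlgebraicClosure ℚ) := AlgebraicClosure.isAlgebraic ℚ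
  haveI : IsAlgClosure ℚ (AlgebraicClosure ℚ) := ⟨inferInstance, inferInstance⟩
  haveI : Normal ℚ (AlgebraicClosure ℚ) := IsAlgClosure.normal ℚ (AlgebraicClosure ℚ)
  exact Fermat.Agent.S55.H424.comap_fixingSubgroup_finiteIndex (rl q) F

/-- Global levels: normal levels are cofinal. -/
theorem globalLevels_normalCofinal (S : Finset Nat.Primes) : (globalLevels S).NormalCofinal :=
  globalLevels_normal_cofinal724 S

end Fermat.Agent.S55.PT.H424
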