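import Fermat.Agent.S55.PT.SpecF
import Fermat.Agent.S55.H424.FiniteIndexComap

/-!
# S55 / layer D leaves **D-F7c, D-F7d**: global and local levels have finite index (helper424)
-/

set_option autoImplicit false
set_option linter.unusedSectionVars false
set_option linter.style.haveILetI false

namespace Fermat.Agent.S55.PT.H424

open Fermat.Agent.S55.PT

/-- **D-F7c.** Global levels have finite index. -/
theorem globalFiniteIndex : GlobalFiniteIndexSpec := by
  rintro S U ⟨F, hF, rfl⟩
  haveI : FiniteDimensional ℚ F := hF.1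
  haveI : Algebra.IsAlgebraic ℚ (AlgebraicClosure ℚ) := AlgebraicClosure.isAlgebraic ℚ
  haveI : IsAlgClosure ℚ (AlgebraicClosure ℚ) := ⟨inferInstance, inferInstance⟩
  haveI : Normal ℚ (AlgebraicClosure ℚ) := IsAlgClosure.normal ℚ (AlgebraicClosure ℚ)
  exact Fermat.Agent.S55.H424.fixingSubgroup_finiteIndex F

/-- Levels pulled back along any `r : G → G_ℚ` have finite index. -/
theorem pullbackLevels_finiteIndex {G : Type} [Group G] (r : G →* GQ) :
    (pullbackLevels r).FiniteIndex := by
  rintro U ⟨F, hF, rfl⟩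
  haveI := hF
  haveI : Algebra.IsAlgebraic ℚ (AlgebraicClosure ℚ) := AlgebraicClosure.isAlgebraic ℚ
  haveI : IsAlgClosure ℚ (AlgebraicClosure ℚ) := ⟨inferInstance, inferInstance⟩
  haveI : Normal ℚ (AlgebraicClosure ℚ) := IsAlgClosure.normal ℚ (AlgebraicClosure ℚ)
  exact Fermat.Agent.S55.H424.comap_fixingSubgroup_finiteIndex r F

/-- **D-F7d.** Local levels have finite index. -/
theorem localFiniteIndex : LocalFiniteIndexSpec :=
  fun q => pullbackLevels_finiteIndex (rl q)

end Fermat.Agent.S55.PT.H424
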