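import Mathlib
import Fermat.Prelude.Def_GroupCohomology_ContinuousUnramified

/-!
# S55 / PT layer, part 1: level systems and level-constant ("smooth") cohomology in degrees 0,1,2

A `LevelSys G` is a nonempty directed family of subgroups of `G` (the "open" subgroups we allow).
Level-constant cochains are defined EXACTLY as in the Prelude (`IsLevelConstantS₁` etc.):
right-invariance under some level.  Two instances:

* `globalLevels S` on `G_ℚ`  : the subgroups `G_F`, `F/ℚ` finite unramified outside `S`;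
* `localLevels q`  on `G_{ℚ_q}` : the subgroups `r_q⁻¹(G_F)`, `F/ℚ` finite.

All definitions are cochain-level and elementary; the cohomology groups are quotients of
submodules of function spaces.
-/

set_option autoImplicit false
set_option linter.style.haveILetI false

noncomputable section

namespace Fermat.Agent.S55.PT

open groupCohomology ExtCitation

/-- The absolute Galois group of `ℚ` as an abstract group (as in the Prelude). -/
abbrev GQ : Type := AlgebraicClosure ℚ ≃ₐ[ℚ] AlgebraicClosure ℚ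

/-- The local Galois group at `q` used by the Prelude. -/
abbrev Gl (q : Nat.Primes) : Type := primeLocalGaloisGroup q

/-- The Prelude's homomorphism `G_{ℚ_q} → G_ℚ`. -/
abbrev rl (q : Nat.Primes) : Gl q →* GQ := primeLocalToGlobal q

/-- A nonempty directed family of subgroups. -/
structure LevelSys (G : Type) [Group G] where
  /-- the allowed levels -/
  levels : Set (Subgroup G)
  nonempty : levels.Nonempty
  directed : ∀ U ∈ levels, ∀ V ∈ levels, ∃ W ∈ levels, W ≤ U ⊓ V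

namespace LevelSys

variable {G : Type} [Group G] (L : LevelSys G)

/-- Normal levels are cofinal (true for both Prelude level systems: leaf D-F7). -/
def NormalCofinal : Prop := ∀ U ∈ L.levels, ∃ V ∈ L.levels, V ≤ U ∧ V.Normal

/-- All levels have finite index (true for both Prelude level systems: leaf D-F7). -/
def FiniteIndex : Prop := ∀ U ∈ L.levels, U.FiniteIndex

/-- Level-constant 1-cochains. -/
def IsLC₁ {X : Type*} (f : G → X) : Prop :=
  ∃ U ∈ L.levels, ∀ g s : G, s ∈ U → f (g * s) = f g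

/-- Level-constant 2-cochains. -/
def IsLC₂ {X : Type*} (f : G × G → X) : Prop :=
  ∃ U ∈ L.levels, ∀ g g' s s' : G, s ∈ U → s' ∈ U → f (g * s, g' * s') = f (g, g')

variable {L}

lemma IsLC₁.add {X : Type*} [Add X] {f f' : G → X} (hf : L.IsLC₁ f) (hf' : L.IsLC₁ f') :
    L.IsLC₁ (f + f') := by
  obtain ⟨U, hU, h⟩ := hf
  obtain ⟨V, hV, h'⟩ := hf'
  obtain ⟨W, hW, hle⟩ := L.directed U hU V hV
  refine ⟨W, hW, fun g s hs => ?_⟩
  simp only [Pi.add_apply]
  rw [h g s (hle hs).1, h' g s (hle hs).2]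

lemma IsLC₂.add {X : Type*} [Add X] {f f' : G × G → X} (hf : L.IsLC₂ f) (hf' : L.IsLC₂ f') :
    L.IsLC₂ (f + f') := by
  obtain ⟨U, hU, h⟩ := hf
  obtain ⟨V, hV, h'⟩ := hf'
  obtain ⟨W, hW, hle⟩ := L.directed U hU V hV
  refine ⟨W, hW, fun g g' s s' hs hs' => ?_⟩
  simp only [Pi.add_apply]
  rw [h g g' s s' (hle hs).1 (hle hs').1, h' g g' s s' (hle hs).2 (hle hs').2]

lemma IsLC₁.comp {X Y : Type*} {f : G → X} (hf : L.IsLC₁ f) (φ : X → Y) : L.IsLC₁ (φ ∘ f) := by
  obtain ⟨U, hU, h⟩ := hf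
  exact ⟨U, hU, fun g s hs => by simp only [Function.comp_apply, h g s hs]⟩

lemma IsLC₂.comp {X Y : Type*} {f : G × G → X} (hf : L.IsLC₂ f) (φ : X → Y) :
    L.IsLC₂ (φ ∘ f) := by
  obtain ⟨U, hU, h⟩ := hf
  exact ⟨U, hU, fun g g' s s' hs hs' => by simp only [Function.comp_apply, h g g' s s' hs hs']⟩

variable (L)

lemma isLC₁_const {X : Type*} (x : X) : L.IsLC₁ (fun _ : G => x) := by
  obtain ⟨U, hU⟩ := L.nonempty
  exact ⟨U, hU, fun _ _ _ => rfl⟩

lemma isLC₂_const {X : Type*} (x : X) : L.IsLC₂ (fun _ : G × G => x) := by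
  obtain ⟨U, hU⟩ := L.nonempty
  exact ⟨U, hU, fun _ _ _ _ _ _ => rfl⟩

variable {k : Type} [CommRing k] (A : Rep.{0, 0, 0} k G)

/-- A representation is smooth for `L` if every vector is fixed by some level. -/
def IsSmooth : Prop := ∀ a : A, ∃ U ∈ L.levels, ∀ s ∈ U, A.ρ s a = a

/-- A representation is uniformly smooth for `L` if some level acts trivially. -/
def IsUSmooth : Prop := ∃ U ∈ L.levels, ∀ s ∈ U, ∀ a : A, A.ρ s a = a

/-- Level-constant 1-cochains, as a submodule. -/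
def C1 : Submodule k (G → A) where
  carrier := {f | L.IsLC₁ f}
  add_mem' hf hf' := hf.add hf'
  zero_mem' := L.isLC₁_const (0 : A)
  smul_mem' c _ hf := hf.comp (c • ·)

/-- Level-constant 2-cochains, as a submodule. -/
def C2 : Submodule k (G × G → A) where
  carrier := {f | L.IsLC₂ f}
  add_mem' hf hf' := hf.add hf'
  zero_mem' := L.isLC₂_const (0 : A)
  smul_mem' c _ hf := hf.comp (c • ·)

lemma mem_C1_iff (f : G → A) : f ∈ L.C1 A ↔ L.IsLC₁ f := Iff.rfl
lemma mem_C2_iff (f : G × G → A) : f ∈ L.C2 A ↔ L.IsLC₂ f := Iff.rfl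

/-- Level-constant 1-cocycles. -/
def Z1 : Submodule k (G → A) := cocycles₁ A ⊓ L.C1 A

/-- 1-coboundaries (automatically level-constant when `A` is smooth). -/
def B1 : Submodule k (G → A) := LinearMap.range (d₀₁ A).hom

/-- Level-constant 2-cocycles. -/
def Z2 : Submodule k (G × G → A) := cocycles₂ A ⊓ L.C2 A

/-- Level-constant 2-coboundaries: `d` of a level-constant 1-cochain. -/
def B2 : Submodule k (G × G → A) := (L.C1 A).map (d₁₂ A).hom

/-- `H⁰`: the invariants. -/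
abbrev H0 : Submodule k A := A.ρ.invariants

/-- Level-constant `H¹`. -/
def H1 : Type := ↥(L.Z1 A) ⧸ (B1 A).comap (L.Z1 A).subtype

instance : AddCommGroup (L.H1 A) :=
  inferInstanceAs (AddCommGroup (↥(L.Z1 A) ⧸ (B1 A).comap (L.Z1 A).subtype))

instance : Module k (L.H1 A) :=
  inferInstanceAs (Module k (↥(L.Z1 A) ⧸ (B1 A).comap (L.Z1 A).subtype))

/-- Level-constant `H²`. -/
def H2 : Type := ↥(L.Z2 A) ⧸ (L.B2 A).comap (L.Z2 A).subtype

instance : AddCommGroup (L.H2 A) :=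
  inferInstanceAs (AddCommGroup (↥(L.Z2 A) ⧸ (L.B2 A).comap (L.Z2 A).subtype))

instance : Module k (L.H2 A) :=
  inferInstanceAs (Module k (↥(L.Z2 A) ⧸ (L.B2 A).comap (L.Z2 A).subtype))

/-- The class of a level-constant 1-cocycle. -/
def H1π : ↥(L.Z1 A) →ₗ[k] L.H1 A := Submodule.mkQ ((B1 A).comap (L.Z1 A).subtype)

/-- The class of a level-constant 2-cocycle. -/
def H2π : ↥(L.Z2 A) →ₗ[k] L.H2 A := Submodule.mkQ ((L.B2 A).comap (L.Z2 A).subtype)

lemma H1π_surjective : Function.Surjective (L.H1π A) :=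
  Submodule.mkQ_surjective _

lemma H2π_surjective : Function.Surjective (L.H2π A) :=
  Submodule.mkQ_surjective _

lemma H1π_eq_zero_iff (c : ↥(L.Z1 A)) : L.H1π A c = 0 ↔ (c : G → A) ∈ B1 A := by
  show Submodule.mkQ ((B1 A).comap (L.Z1 A).subtype) c = 0 ↔ _
  simp [Submodule.Quotient.mk_eq_zero, Submodule.mem_comap]

lemma H2π_eq_zero_iff (c : ↥(L.Z2 A)) : L.H2π A c = 0 ↔ (c : G × G → A) ∈ L.B2 A := by
  show Submodule.mkQ ((L.B2 A).comap (L.Z2 A).subtype) c = 0 ↔ _
  simp [Submodule.Quotient.mk_eq_zero, Submodule.mem_comap]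

lemma ker_H1π : LinearMap.ker (L.H1π A) = (B1 A).comap (L.Z1 A).subtype :=
  Submodule.ker_mkQ _

lemma ker_H2π : LinearMap.ker (L.H2π A) = (L.B2 A).comap (L.Z2 A).subtype :=
  Submodule.ker_mkQ _

end LevelSys

/-! ### The two level systems of the Prelude -/

/-- Global levels: `G_F` for `F/ℚ` finite, unramified outside `S`. -/
def globalLevels (S : Finset Nat.Primes) : LevelSys GQ where
  levels := {U | ∃ F : IntermediateField ℚ (AlgebraicClosure ℚ),
    F.IsUnramifiedOutside S ∧ U = F.fixingSubgroup}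
  nonempty := ⟨_, ⊥, IntermediateField.isUnramifiedOutside_bot S, rfl⟩
  directed := by
    rintro U ⟨F, hF, rfl⟩ V ⟨F', hF', rfl⟩
    refine ⟨_, ⟨F ⊔ F', hF.sup hF', rfl⟩, ?_⟩
    rw [IntermediateField.fixingSubgroup_sup]

/-- Local levels: `r⁻¹(G_F)` for `F/ℚ` finite, for any group `G` with a map `r : G → G_ℚ`. -/
def pullbackLevels {G : Type} [Group G] (r : G →* GQ) : LevelSys G where
  levels := {U | ∃ F : IntermediateField ℚ (AlgebraicClosure ℚ),
    FiniteDimensional ℚ F ∧ U = F.fixingSubgroup.comap r}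
  nonempty := ⟨_, ⊥, inferInstance, rfl⟩
  directed := by
    rintro U ⟨F, hF, rfl⟩ V ⟨F', hF', rfl⟩
    haveI := hF; haveI := hF'
    refine ⟨_, ⟨F ⊔ F', inferInstance, rfl⟩, ?_⟩
    rw [IntermediateField.fixingSubgroup_sup, Subgroup.comap_inf]

/-- Local levels at `q`. -/
abbrev localLevels (q : Nat.Primes) : LevelSys (Gl q) := pullbackLevels (rl q)

lemma isLC₁_globalLevels_iff (S : Finset Nat.Primes) {X : Type*} (f : GQ → X) :
    (globalLevels S).IsLC₁ f ↔ IsLevelConstantS₁ S f := by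
  constructor
  · rintro ⟨U, ⟨F, hF, rfl⟩, h⟩
    exact ⟨F, hF, h⟩
  · rintro ⟨F, hF, h⟩
    exact ⟨_, ⟨F, hF, rfl⟩, h⟩

lemma isLC₂_globalLevels_iff (S : Finset Nat.Primes) {X : Type*} (f : GQ × GQ → X) :
    (globalLevels S).IsLC₂ f ↔ IsLevelConstantS₂ S f := by
  constructor
  · rintro ⟨U, ⟨F, hF, rfl⟩, h⟩
    exact ⟨F, hF, h⟩
  · rintro ⟨F, hF, h⟩
    exact ⟨_, ⟨F, hF, rfl⟩, h⟩

lemma isLC₁_pullbackLevels_iff {G : Type} [Group G] (r : G →* GQ) {X : Type*} (f : G → X) :
    (pullbackLevels r).IsLC₁ f ↔ IsLevelConstant₁ r f := by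
  constructor
  · rintro ⟨U, ⟨F, hF, rfl⟩, h⟩
    exact ⟨F, hF, fun g s hs => h g s hs⟩
  · rintro ⟨F, hF, h⟩
    exact ⟨_, ⟨F, hF, rfl⟩, fun g s hs => h g s hs⟩

lemma isLC₂_pullbackLevels_iff {G : Type} [Group G] (r : G →* GQ) {X : Type*} (f : G × G → X) :
    (pullbackLevels r).IsLC₂ f ↔ IsLevelConstant₂ r f := by
  constructor
  · rintro ⟨U, ⟨F, hF, rfl⟩, h⟩
    exact ⟨F, hF, fun g g' s s' hs hs' => h g g' s s' hs hs'⟩
  · rintro ⟨F, hF, h⟩
    exact ⟨_, ⟨F, hF, rfl⟩, fun g g' s s' hs hs' => h g g' s s' hs hs'⟩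

end Fermat.Agent.S55.PT

end
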