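import Fermat.Agent.S55.PT.SpecF
import Fermat.Agent.S55.Bridge.InertiaConj

/-!
# S55 / layer D, framework leaf D-F7 (helper723): the two Prelude level systems

* normal levels are cofinal (`GlobalNormalCofinalSpec`, `LocalNormalCofinalSpec`);
* all levels have finite index (`GlobalFiniteIndexSpec`, `LocalFiniteIndexSpec`).
-/

set_option autoImplicit false
set_option linter.style.haveILetI false

noncomputable section

namespace Fermat.Agent.S55.PT.H723

open groupCohomology Fermat.Agent.S55.PT

/-- Every global level contains a normal global level (Galois closure inside the maximal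
extension unramified outside `S`). -/
theorem globalLevels_normalCofinal (S : Finset Nat.Primes) : (globalLevels S).NormalCofinal := by
  rintro U ⟨F, hF, rfl⟩
  obtain ⟨L, hL, hgal, hle⟩ := Fermat.Agent.S55.Bridge.exists_galois_level_ge S F hF
  haveI := Fermat.Agent.S55.Bridge.isGalois_Qbar
  haveI := Fermat.Agent.S55.Bridge.isAlgebraic_Qbar
  exact ⟨L.fixingSubgroup, ⟨L, hL, rfl⟩, IntermediateField.fixingSubgroup_antitone hle,
    (InfiniteGalois.normal_iff_isGalois L).2 hgal⟩

/-- Every pulled-back level contains a normal pulled-back level. -/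
theorem pullbackLevels_normalCofinal {G : Type} [Group G] (r : G →* GQ) :
    (pullbackLevels r).NormalCofinal := by
  rintro U ⟨F, hF, rfl⟩
  haveI := hF
  haveI := Fermat.Agent.S55.Bridge.isGalois_Qbar
  haveI := Fermat.Agent.S55.Bridge.isAlgebraic_Qbar
  have hfinN : FiniteDimensional ℚ (IntermediateField.normalClosure ℚ F (AlgebraicClosure ℚ)) :=
    normalClosure.is_finiteDimensional ℚ F (AlgebraicClosure ℚ)
  have hgalN : IsGalois ℚ (IntermediateField.normalClosure ℚ F (AlgebraicClosure ℚ)) :=
    IsGalois.normalClosure ℚ F (AlgebraicClosure ℚ)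
  have hnormal : (IntermediateField.normalClosure ℚ F
      (AlgebraicClosure ℚ)).fixingSubgroup.Normal :=
    (InfiniteGalois.normal_iff_isGalois _).2 hgalN
  refine ⟨_, ⟨IntermediateField.normalClosure ℚ F (AlgebraicClosure ℚ), hfinN, rfl⟩, ?_, ?_⟩
  · exact Subgroup.comap_mono
      (IntermediateField.fixingSubgroup_antitone (IntermediateField.le_normalClosure F))
  · exact hnormal.comap r

/-- `G_F` has finite index in `G_ℚ` for `F/ℚ` finite. -/
theorem fixingSubgroup_finiteIndex (F : IntermediateField ℚ (AlgebraicClosure ℚ))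
    [FiniteDimensional ℚ F] : F.fixingSubgroup.FiniteIndex := by
  haveI := Fermat.Agent.S55.Bridge.isGalois_Qbar
  haveI := Fermat.Agent.S55.Bridge.isAlgebraic_Qbar
  haveI : Finite (GQ ⧸ F.fixingSubgroup) :=
    Subgroup.quotient_finite_of_isOpen F.fixingSubgroup F.fixingSubgroup_isOpen
  exact Subgroup.finiteIndex_of_finite_quotient

theorem globalLevels_finiteIndex (S : Finset Nat.Primes) : (globalLevels S).FiniteIndex := by
  rintro U ⟨F, hF, rfl⟩
  haveI := hF.1
  exact fixingSubgroup_finiteIndex F

theorem pullbackLevels_finiteIndex {G : Type} [Group G] (r : G →* GQ) :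
    (pullbackLevels r).FiniteIndex := by
  rintro U ⟨F, hF, rfl⟩
  haveI := hF
  haveI := fixingSubgroup_finiteIndex F
  refine ⟨?_⟩
  rw [Subgroup.index_comap]
  exact (Subgroup.instFiniteIndex_subgroupOf F.fixingSubgroup r.range).index_ne_zero

/-- **D-F7a** -/
theorem globalNormalCofinal : GlobalNormalCofinalSpec := globalLevels_normalCofinal

/-- **D-F7b** -/
theorem localNormalCofinal : LocalNormalCofinalSpec := fun q => pullbackLevels_normalCofinal (rl q)

/-- **D-F7c** -/
theorem globalFiniteIndex : GlobalFiniteIndexSpec := globalLevels_finiteIndex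

/-- **D-F7d** -/
theorem localFiniteIndex : LocalFiniteIndexSpec := fun q => pullbackLevels_finiteIndex (rl q)

end Fermat.Agent.S55.PT.H723

end
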