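import Fermat.Agent.S55.PT.Ind

/-!
# S55 / PT layer, part 6: the concrete arithmetic setting of S55

`k = ZMod p`, global group `G_ℚ` with levels `globalLevels S`, local groups `Gl v` (`v ∈ S`)
with levels `localLevels v` and maps `rl v`; `μ = ofChar (cycloChar p)`.
-/

set_option autoImplicit false

noncomputable section

namespace Fermat.Agent.S55.PT

open groupCohomology ExtCitation

/-- The Prelude's local-to-global maps are compatible with the Prelude's level systems. -/
lemma rl_levelCompatible (S : Finset Nat.Primes) (q : Nat.Primes) :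
    IsLevelCompatible (rl q) (globalLevels S) (localLevels q) := by
  rintro U ⟨F, hF, rfl⟩
  exact ⟨_, ⟨F, hF.1, rfl⟩, le_rfl⟩

/-- the compatibility family indexed by `v ∈ S` -/
lemma hrl (S : Finset Nat.Primes) (v : ↥S) :
    IsLevelCompatible (rl v.1) (globalLevels S) (localLevels v.1) :=
  rl_levelCompatible S v.1

variable (p : ℕ) [Fact p.Prime]

/-- `μ_p` as a representation of `G_ℚ` over `F_p` -/
abbrev mu : Rep.{0, 0, 0} (ZMod p) GQ := ofChar (cycloChar p)

/-- `μ_p` restricted to the local group at `q` -/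
abbrev muLoc (q : Nat.Primes) : Rep.{0, 0, 0} (ZMod p) (Gl q) := Rep.res (rl q) (mu p)

/-- the Tate dual `N′ = Hom(N, μ_p)` -/
abbrev tdual (N : Rep.{0, 0, 0} (ZMod p) GQ) : Rep.{0, 0, 0} (ZMod p) GQ :=
  N.dualTwist (cycloChar p)

/-- the local cyclotomic character -/
abbrev cycloLoc (q : Nat.Primes) : Gl q →* (ZMod p)ˣ := (cycloChar p).comp (rl q)

/-- the local Tate dual -/
abbrev tdualLoc (q : Nat.Primes) (N : Rep.{0, 0, 0} (ZMod p) (Gl q)) :
    Rep.{0, 0, 0} (ZMod p) (Gl q) :=
  N.dualTwist (cycloLoc p q)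

/-- A family of "invariant maps" `inv_v : H²(G_v, μ_p) → F_p`, `v ∈ S`. -/
abbrev InvFamily (S : Finset Nat.Primes) : Type :=
  (v : ↥S) → (localLevels v.1).H2 (muLoc p v.1) →ₗ[ZMod p] ZMod p

end Fermat.Agent.S55.PT

end
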