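import Fermat.Agent.S55.PT.Final3
import Fermat.Agent.S55.KC.All
import Fermat.Agent.S55.Inv.LocalOfCard
import Fermat.Agent.S55.Inv.MuH635
import Fermat.Agent.S55.Inv.WrH413
import Fermat.Agent.S55.Inv.CokEH99
import Fermat.Agent.S55.K.AR.Assembly
import Fermat.Agent.S55.LocalSpec.H964.Main

/-!
# S55 / route C′: final wiring, version 4 (helper835)

Everything local and formal is closed.  S55 is reduced to the GLOBAL frontier of route C′:

* `Tow.GlobalSpecFin S p`            — the tower datum (layer G; same input as engine E1);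
* `K.AR.Leaves S p`, `K.AR.DictE3Spec`, `K.AR.DictE2Spec` — arithmetic core of A3 (helper4);
* `I : G.Rec.LocalInvSystem`, `G.Rec.ReciprocitySpec I p`  — reciprocity (REC, helper1) for GO5;
* `Inv.CokerESpec p S`               — GO4 (helper3 / helper53);
* `PT.CapSpec p S`                   — A8 (closed modulo layer G by helper303, `Cap/`).

Wired here: A4 (`KL.A4.surj2Loc`), `Inv.LocDimSpec`, `Inv.LocH2NeSpec` (`KC.All`, helper53),
`Inv.MuLevelSpec` (helper635), `Inv.WeakRecipSpec` (helper413), `Inv.GlobCokerSpec ⇐ CokerESpec`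
(helper99), `Tow.LocalSpec` (helper964), A3 (`K.AR.surj2Glob_of_leaves`, helper4).
-/

set_option autoImplicit false

noncomputable section

namespace Fermat.Agent.S55.PT

open groupCohomology ExtCitation Fermat.Agent.S55.Bridge

/-- `InvSpec` (A5–A7) from reciprocity and GO4. -/
theorem invSpec_of_rec {p : ℕ} [Fact p.Prime] (hp2 : p ≠ 2) (S : Finset Nat.Primes)
    (hpS : pPrime p ∈ S) (I : G.Rec.LocalInvSystem) (hRec : G.Rec.ReciprocitySpec I p)
    (hCokE : Inv.CokerESpec p S) : InvSpec p S :=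
  Inv.invSpec_of' p S (KL.A4.surj2Loc p S)
    (Inv.locDim_of_card p S KC.All.h2IndCardClosed)
    (Inv.H99.globCoker_of_cokerE p S hp2 hpS hCokE)
    (Inv.H413.weakRecip_of p S I hRec)
    (Inv.locH2Ne_of_card p S KC.All.h2MuCardClosed)
    (Inv.H635.muLevel p S hpS)

/-- **S55 from the global frontier of route C′.** -/
theorem s55_of_global {p : ℕ} [Fact p.Prime] (hp2 : p ≠ 2) (S : Finset Nat.Primes)
    (hpS : pPrime p ∈ S)
    (hG : Tow.GlobalSpecFin S p)
    (ℓ : K.AR.Leaves S p) (hD3 : K.AR.DictE3Spec S p) (hD2 : K.AR.DictE2Spec S p)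
    (I : G.Rec.LocalInvSystem) (hRec : G.Rec.ReciprocitySpec I p)
    (hCokE : Inv.CokerESpec p S) (hCap : CapSpec p S)
    (M : Rep (ZMod p) (AlgebraicClosure ℚ ≃ₐ[ℚ] AlgebraicClosure ℚ))
    [FiniteDimensional (ZMod p) M]
    (hsm : ∀ m : M, ∃ F : IntermediateField ℚ (AlgebraicClosure ℚ), FiniteDimensional ℚ F ∧
      ∀ s ∈ F.fixingSubgroup, M.ρ s m = m)
    (hMur : ∀ q : Nat.Primes, q ∉ S → ∀ A : ValuationSubring (AlgebraicClosure ℚ),
      A.LiesOverPrime (q : ℕ) → ∀ g ∈ A.inertiaSubgroupIn ℚ, M.ρ g = 1) :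
    ∃ B : sha₁ S (M.dualTwist (cycloChar p)) →ₗ[ZMod p] sha₂ S M →ₗ[ZMod p] ZMod p,
      (∀ y, (∀ x, B y x = 0) → y = 0) ∧ (∀ x, (∀ y, B y x = 0) → x = 0) :=
  s55_of_four hp2 S hpS
    (K.AR.surj2Glob_of_leaves p S ℓ hD3 hD2 hG
      (LocalSpec.H964.localSpec p (Nat.Prime.ne_zero Fact.out)) hp2 hpS)
    (KL.A4.surj2Loc p S) (invSpec_of_rec hp2 S hpS I hRec hCokE) hCap M hsm hMur

end Fermat.Agent.S55.PT

end
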