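import Fermat.Agent.S55.PT.Spec
import Fermat.Agent.S55.Bridge.Cochain
import Fermat.Agent.S55.Bridge.LinAlg
import Fermat.Agent.S55.Bridge.DualTwist

/-!
# S55 / layer D, leaf D-B : `BridgeSpec`   (helper724)

Port of `PT/BridgeSha724.lean` to the frozen base `PT/{Levels,…,Spec}.lean` of helper835.

Global group `G_ℚ` with the levels `globalLevels S`; local groups `Gl q`, `q ∈ S`, with the
levels `localLevels q` and the Prelude maps `rl q`.  For a coefficient field `K` with `2 ≠ 0`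
(so that the archimedean place does not contribute: `Bridge/Archimedean.lean`):

* `h2GlobalEquiv : (globalLevels S).H2 M ≃ₗ[K] continuousH2S S M`;
* `sha2Equiv : Sha2 (hrl S) M ≃ₗ[K] sha₂ S M`;
* `toH1 : (globalLevels S).H1 A →ₗ[K] H1 A` (injective, range `continuousH1S S A`);
* `sha1Equiv : Sha1 (hrl S) A ≃ₗ[K] sha₁ S A`;
* `s55_of_sha2_equiv_dual_sha1` : the conclusion of S55 from
  `Sha2 M ≃ₗ Dual (Sha1 M′)` (the output of Theorem D);
* `isUSmooth_of_s55_hyps` : `M` and `M′` are uniformly smooth under the hypotheses of S55;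
* `bridge : BridgeSpec p S` : S55 from Theorem D.
-/

set_option autoImplicit false

noncomputable section

namespace Fermat.Agent.S55.PT.H724

open groupCohomology ExtCitation

variable (S : Finset Nat.Primes)

variable {K : Type} [Field K] (M : Rep.{0, 0, 0} K GQ)

/-! ### Degree 2 -/

lemma C1_globalLevels_eq : (globalLevels S).C1 M = levelCochainsS₁ S M := by
  ext f
  exact isLC₁_globalLevels_iff S f

lemma C2_globalLevels_eq : (globalLevels S).C2 M = levelCochainsS₂ S M := by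
  ext f
  exact isLC₂_globalLevels_iff S f

lemma Z2_globalLevels_eq : (globalLevels S).Z2 M = levelCocyclesS₂ S M := by
  unfold LevelSys.Z2 levelCocyclesS₂
  rw [C2_globalLevels_eq]

lemma B2_globalLevels_eq : (globalLevels S).B2 M = levelCoboundariesS₂ S M := by
  unfold LevelSys.B2 levelCoboundariesS₂
  rw [C1_globalLevels_eq]

/-- `PT`'s global `H²` is the Prelude's `continuousH2S`. -/
def h2GlobalEquiv : (globalLevels S).H2 M ≃ₗ[K] continuousH2S S M :=
  Submodule.Quotient.equiv (((globalLevels S).B2 M).comap ((globalLevels S).Z2 M).subtype)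
    ((levelCoboundariesS₂ S M).comap (levelCocyclesS₂ S M).subtype)
    (LinearEquiv.ofEq _ _ (Z2_globalLevels_eq S M)) (by
      ext x
      simp only [Submodule.mem_map, Submodule.mem_comap, Submodule.subtype_apply]
      constructor
      · rintro ⟨y, hy, rfl⟩
        rw [B2_globalLevels_eq] at hy
        exact hy
      · intro hx
        refine ⟨(LinearEquiv.ofEq _ _ (Z2_globalLevels_eq S M)).symm x, ?_,
          LinearEquiv.apply_symm_apply _ x⟩
        rw [B2_globalLevels_eq]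
        exact hx)

lemma h2GlobalEquiv_mk (z : ↥((globalLevels S).Z2 M)) :
    h2GlobalEquiv S M ((globalLevels S).H2π M z) =
      continuousH2Sπ S M (LinearEquiv.ofEq _ _ (Z2_globalLevels_eq S M) z) := rfl

/-- Membership in `Sha2` on representatives. -/
lemma H2π_mem_Sha2_iff (z : ↥((globalLevels S).Z2 M)) :
    (globalLevels S).H2π M z ∈ Sha2 (hrl S) M ↔
      ∀ q : ↥S, ∃ c : primeLocalGaloisGroup q.1 → M,
        IsLevelConstant₁ (primeLocalToGlobal q.1) c ∧
        ∀ h h' : primeLocalGaloisGroup q.1,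
          M.ρ (primeLocalToGlobal q.1 h) (c h') - c (h * h') + c h
          = (z : GQ × GQ → M) (primeLocalToGlobal q.1 h, primeLocalToGlobal q.1 h') := by
  rw [LinearMap.mem_ker]
  constructor
  · intro h q
    have hq : resH2 (hrl S q) M ((globalLevels S).H2π M z) = 0 := congrFun h q
    rw [resH2_mk, LevelSys.H2π_eq_zero_iff] at hq
    obtain ⟨c, hc, hd⟩ := hq
    refine ⟨c, (isLC₁_pullbackLevels_iff (rl q.1) c).1 hc, fun h h' => ?_⟩
    have := congrFun hd (h, h')
    rw [d₁₂_hom_apply] at this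
    exact this
  · intro h
    funext q
    show resH2 (hrl S q) M ((globalLevels S).H2π M z) = 0
    rw [resH2_mk, LevelSys.H2π_eq_zero_iff]
    obtain ⟨c, hc, hd⟩ := h q
    refine ⟨c, (isLC₁_pullbackLevels_iff (rl q.1) c).2 hc, ?_⟩
    funext ⟨h, h'⟩
    rw [d₁₂_hom_apply]
    exact hd h h'

variable (h2 : (2 : K) ≠ 0)

include h2 in
lemma map_Sha2_eq :
    (Sha2 (hrl S) M).map (h2GlobalEquiv S M : (globalLevels S).H2 M →ₗ[K] continuousH2S S M)
      = sha₂ S M := by
  ext y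
  simp only [Submodule.mem_map]
  constructor
  · rintro ⟨x, hx, rfl⟩
    obtain ⟨z, rfl⟩ := (globalLevels S).H2π_surjective M x
    rw [LinearEquiv.coe_coe, h2GlobalEquiv_mk,
      Fermat.Agent.S55.Bridge.mem_sha₂_mk_iff S h2]
    exact (H2π_mem_Sha2_iff S M z).1 hx
  · intro hy
    obtain ⟨f, rfl⟩ := Submodule.mkQ_surjective _ y
    refine ⟨(globalLevels S).H2π M
      ((LinearEquiv.ofEq _ _ (Z2_globalLevels_eq S M)).symm f), ?_, ?_⟩
    · rw [H2π_mem_Sha2_iff]
      exact (Fermat.Agent.S55.Bridge.mem_sha₂_mk_iff S h2 M f).1 hy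
    · rw [LinearEquiv.coe_coe, h2GlobalEquiv_mk, LinearEquiv.apply_symm_apply]

/-- **D-B, degree 2.** `PT.Sha2` is the Prelude's `sha₂`. -/
def sha2Equiv : ↥(Sha2 (hrl S) M) ≃ₗ[K] ↥(sha₂ S M) :=
  (h2GlobalEquiv S M).ofSubmodules _ _ (map_Sha2_eq S M h2)

/-! ### Degree 1 -/

variable (A : Rep.{0, 0, 0} K GQ)

/-- Level-constant cocycles as Mathlib cocycles. -/
def Z1ToCocycles : ↥((globalLevels S).Z1 A) →ₗ[K] ↥(cocycles₁ A) :=
  Submodule.inclusion inf_le_left

@[simp] lemma coe_Z1ToCocycles (c : ↥((globalLevels S).Z1 A)) :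
    ((Z1ToCocycles S A c : ↥(cocycles₁ A)) : GQ → A) = (c : GQ → A) := rfl

/-- The natural map from level-constant `H¹` to Mathlib's `H¹` (it is injective with range the
Prelude's `continuousH1S`). -/
def toH1 : (globalLevels S).H1 A →ₗ[K] H1 A :=
  Submodule.liftQ _ ((H1π A).hom ∘ₗ Z1ToCocycles S A) (by
    intro c hc
    rw [LinearMap.mem_ker, LinearMap.comp_apply]
    exact (H1π_eq_zero_iff _).2 hc)

lemma toH1_mk (c : ↥((globalLevels S).Z1 A)) :
    toH1 S A ((globalLevels S).H1π A c) = (H1π A).hom (Z1ToCocycles S A c) := rfl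

lemma toH1_injective : Function.Injective (toH1 S A) := by
  rw [← LinearMap.ker_eq_bot, LinearMap.ker_eq_bot']
  intro x hx
  obtain ⟨c, rfl⟩ := (globalLevels S).H1π_surjective A x
  rw [toH1_mk] at hx
  rw [LevelSys.H1π_eq_zero_iff]
  exact (H1π_eq_zero_iff _).1 hx

lemma range_toH1 : LinearMap.range (toH1 S A) = continuousH1S S A := by
  ext y
  rw [mem_continuousH1S_iff]
  constructor
  · rintro ⟨x, rfl⟩
    obtain ⟨c, rfl⟩ := (globalLevels S).H1π_surjective A x
    exact ⟨Z1ToCocycles S A c, (isLC₁_globalLevels_iff S _).1 c.2.2, rfl⟩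
  · rintro ⟨c, hc, rfl⟩
    exact ⟨(globalLevels S).H1π A ⟨(c : GQ → A), c.2, (isLC₁_globalLevels_iff S _).2 hc⟩, rfl⟩

/-- Membership in `Sha1` on representatives. -/
lemma H1π_mem_Sha1_iff (c : ↥((globalLevels S).Z1 A)) :
    (globalLevels S).H1π A c ∈ Sha1 (hrl S) A ↔
      ∀ q : ↥S, ∃ a : A, ∀ h : primeLocalGaloisGroup q.1,
        (c : GQ → A) (primeLocalToGlobal q.1 h) = A.ρ (primeLocalToGlobal q.1 h) a - a := by
  rw [LinearMap.mem_ker]
  constructor
  · intro h q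
    have hq : resH1 (hrl S q) A ((globalLevels S).H1π A c) = 0 := congrFun h q
    rw [resH1_mk, LevelSys.H1π_eq_zero_iff] at hq
    obtain ⟨a, ha⟩ := hq
    refine ⟨a, fun h => ?_⟩
    have := congrFun ha h
    rw [d₀₁_hom_apply] at this
    exact this.symm
  · intro h
    funext q
    show resH1 (hrl S q) A ((globalLevels S).H1π A c) = 0
    rw [resH1_mk, LevelSys.H1π_eq_zero_iff]
    obtain ⟨a, ha⟩ := h q
    refine ⟨a, ?_⟩
    funext h
    rw [d₀₁_hom_apply]
    exact (ha h).symm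

include h2 in
lemma toH1_mem_sha₁_iff (x : (globalLevels S).H1 A) :
    toH1 S A x ∈ sha₁ S A ↔ x ∈ Sha1 (hrl S) A := by
  obtain ⟨c, rfl⟩ := (globalLevels S).H1π_surjective A x
  rw [toH1_mk, Fermat.Agent.S55.Bridge.mem_sha₁_iff_cocycle S h2, H1π_mem_Sha1_iff]
  constructor
  · rintro ⟨c', -, hcc', hloc⟩ q
    -- `c'` and `c` differ by a coboundary
    have hsub : (H1π A).hom (c' - Z1ToCocycles S A c) = 0 := by
      rw [map_sub, hcc', sub_self]
    obtain ⟨a₀, ha₀⟩ := (H1π_eq_zero_iff _).1 hsub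
    obtain ⟨a, ha⟩ := hloc q
    refine ⟨a - a₀, fun h => ?_⟩
    have h1 := congrFun ha₀ (primeLocalToGlobal q.1 h)
    rw [d₀₁_hom_apply] at h1
    have h3 : (c' : GQ → A) (primeLocalToGlobal q.1 h) - (c : GQ → A) (primeLocalToGlobal q.1 h)
        = A.ρ (primeLocalToGlobal q.1 h) a₀ - a₀ := h1.symm
    have h4 := ha h
    rw [map_sub]
    rw [h4] at h3
    have : (c : GQ → A) (primeLocalToGlobal q.1 h) =
        (A.ρ (primeLocalToGlobal q.1 h) a - a) - (A.ρ (primeLocalToGlobal q.1 h) a₀ - a₀) := by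
      rw [← h3]; abel
    rw [this]; abel
  · intro h
    exact ⟨Z1ToCocycles S A c, (isLC₁_globalLevels_iff S _).1 c.2.2, rfl, h⟩

/-- **D-B, degree 1.** `PT.Sha1` is the Prelude's `sha₁`. -/
def sha1Equiv : ↥(Sha1 (hrl S) A) ≃ₗ[K] ↥(sha₁ S A) :=
  LinearEquiv.ofBijective
    ((toH1 S A).restrict (p := Sha1 (hrl S) A) (q := sha₁ S A)
      (fun x hx => (toH1_mem_sha₁_iff S h2 A x).2 hx))
    ⟨fun x y hxy => Subtype.ext (toH1_injective S A (congrArg Subtype.val hxy)), by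
      rintro ⟨y, hy⟩
      obtain ⟨c, hc, rfl, hloc⟩ := (Fermat.Agent.S55.Bridge.mem_sha₁_iff_cocycle S h2 A y).1 hy
      let z : ↥((globalLevels S).Z1 A) :=
        ⟨(c : GQ → A), c.2, (isLC₁_globalLevels_iff S _).2 hc⟩
      have hz : (globalLevels S).H1π A z ∈ Sha1 (hrl S) A :=
        (H1π_mem_Sha1_iff S A z).2 hloc
      exact ⟨⟨_, hz⟩, Subtype.ext rfl⟩⟩

lemma sha1Equiv_apply (x : ↥(Sha1 (hrl S) A)) :
    ((sha1Equiv S h2 A x : ↥(sha₁ S A)) : H1 A) = toH1 S A x := rfl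

end Fermat.Agent.S55.PT.H724

namespace Fermat.Agent.S55.PT.H724

open groupCohomology ExtCitation

/-- **D-B, assembly.**  The conclusion of S55 follows from `Ш²(M) ≃ Dual Ш¹(M′)` for the `PT`
groups (the output of Theorem D of layer D). -/
theorem s55_of_sha2_equiv_dual_sha1 {p : ℕ} [Fact p.Prime] (hp2 : p ≠ 2)
    (S : Finset Nat.Primes) (M : Rep.{0, 0, 0} (ZMod p) GQ)
    (e : ↥(Sha2 (hrl S) M) ≃ₗ[ZMod p]
      Module.Dual (ZMod p) ↥(Sha1 (hrl S) (M.dualTwist (cycloChar p)))) :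
    ∃ B : sha₁ S (M.dualTwist (cycloChar p)) →ₗ[ZMod p] sha₂ S M →ₗ[ZMod p] ZMod p,
      (∀ y, (∀ x, B y x = 0) → y = 0) ∧ (∀ x, (∀ y, B y x = 0) → x = 0) := by
  have h2 : (2 : ZMod p) ≠ 0 := Fermat.Agent.S55.Bridge.two_ne_zero_zmod hp2
  let e₂ := sha2Equiv S M h2
  let e₁ := sha1Equiv S h2 (M.dualTwist (cycloChar p))
  let E : ↥(sha₂ S M) ≃ₗ[ZMod p]
      Module.Dual (ZMod p) ↥(sha₁ S (M.dualTwist (cycloChar p))) :=
    e₂.symm.trans (e.trans e₁.symm.dualMap)
  obtain ⟨B, hB1, hB2⟩ := Fermat.Agent.S55.Bridge.exists_pairing_of_equiv_dual E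
  exact ⟨B.flip, fun y hy => hB2 y (fun x => hy x), fun x hx => hB1 x (fun y => hx y)⟩

/-! ### Smoothness of `M` and `M′` from the hypotheses of S55 -/

/-- Under the hypotheses of S55, `M` and `M′ = M.dualTwist χ_p` are uniformly smooth for the
levels unramified outside `S` (one common Galois level acts trivially on both). -/
theorem isUSmooth_of_s55_hyps {p : ℕ} [Fact p.Prime] (S : Finset Nat.Primes)
    (hpS : pPrime p ∈ S) (M : Rep.{0, 0, 0} (ZMod p) GQ) [FiniteDimensional (ZMod p) M]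
    (hsm : ∀ m : M, ∃ F : IntermediateField ℚ (AlgebraicClosure ℚ), FiniteDimensional ℚ F ∧
      ∀ s ∈ F.fixingSubgroup, M.ρ s m = m)
    (hMur : ∀ q : Nat.Primes, q ∉ S → ∀ A : ValuationSubring (AlgebraicClosure ℚ),
      A.LiesOverPrime (q : ℕ) → ∀ g ∈ A.inertiaSubgroupIn ℚ, M.ρ g = 1) :
    (globalLevels S).IsUSmooth M ∧ (globalLevels S).IsUSmooth (M.dualTwist (cycloChar p)) := by
  obtain ⟨L, hL, -, hM, -, hM'⟩ :=
    Fermat.Agent.S55.Bridge.exists_common_galois_level M S hpS hsm hMur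
  refine ⟨⟨L.fixingSubgroup, ⟨L, hL, rfl⟩, fun s hs a => ?_⟩,
    ⟨L.fixingSubgroup, ⟨L, hL, rfl⟩, fun s hs a => ?_⟩⟩
  · rw [hM s hs]; rfl
  · rw [hM' s hs]; rfl

/-- **Leaf D-B.**  If Theorem D holds (`Ш²(M) ≃ Dual Ш¹(M′)` for every finite-dimensional
uniformly smooth `M`), then the statement of S55 holds. -/
theorem bridge (p : ℕ) [Fact p.Prime] (S : Finset Nat.Primes) : BridgeSpec p S := by
  intro hp2 hpS hD M _ hsm hMur
  obtain ⟨h1, -⟩ := isUSmooth_of_s55_hyps S hpS M hsm hMur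
  obtain ⟨e⟩ := hD M inferInstance h1
  exact s55_of_sha2_equiv_dual_sha1 hp2 S M e

end Fermat.Agent.S55.PT.H724

end
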