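/-
S55 (Poitou–Tate), layer D (route C′, architect helper835), leaf D-I2 (helper773):

  `theorem efface : Fermat.Agent.S55.PT.EffaceSpec`

If `H¹(M′)` is finite-dimensional (`M′ = M.dualTwist χ`), then for every level `V` acting
trivially on `M` and `χ` there is a normal level `U ≤ V` with
`H¹(M′) → H¹((Ind_U (twTriv χ M))′)` zero.  Proof: all classes have a right-`U`-invariant
representative `c` for `U` small (finite-dimensionality), and then
`augTw^∨ ∘ c = d F` for the functional `F (single γU w) = - χ(γ)⁻¹ c(γ)(γ w)`.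
-/
import Fermat.Agent.S55.PT.SpecT

set_option autoImplicit false
set_option linter.style.haveILetI false

noncomputable section

namespace Fermat.Agent.S55.PT.EffaceH773

open groupCohomology ExtCitation Fermat.Agent.S55.PT

variable {k : Type} [Field k] {G : Type} [Group G]

/-! ## 1. A common level for all classes of a finite-dimensional `H¹` -/

section Level

variable (L : LevelSys G) (A : Rep.{0, 0, 0} k G)

/-- the level-constant cocycles which are right-invariant under `U` -/
def z1U (U : Subgroup G) : Submodule k ↥(L.Z1 A) where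
  carrier := {c | ∀ g s : G, s ∈ U → (c : G → A) (g * s) = (c : G → A) g}
  add_mem' := by
    intro a b ha hb g s hs
    change (a : G → A) (g * s) + (b : G → A) (g * s) = (a : G → A) g + (b : G → A) g
    rw [ha g s hs, hb g s hs]
  zero_mem' := by
    intro g s _
    rfl
  smul_mem' := by
    intro r a ha g s hs
    change r • (a : G → A) (g * s) = r • (a : G → A) g
    rw [ha g s hs]

lemma z1U_mono {U W : Subgroup G} (h : W ≤ U) : z1U L A U ≤ z1U L A W :=
  fun _ hc g s hs => hc g s (h hs)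

lemma exists_level_le_finset {ι : Type} (s : Finset ι) (U : ι → Subgroup G)
    (hU : ∀ i ∈ s, U i ∈ L.levels) : ∃ W ∈ L.levels, ∀ i ∈ s, W ≤ U i := by
  classical
  induction s using Finset.induction_on with
  | empty =>
    obtain ⟨W, hW⟩ := L.nonempty
    exact ⟨W, hW, fun i hi => absurd hi (Finset.notMem_empty i)⟩
  | insert a s ha ih =>
    obtain ⟨W, hW, hWs⟩ := ih (fun i hi => hU i (Finset.mem_insert_of_mem hi))
    obtain ⟨W', hW', hle⟩ := L.directed W hW (U a) (hU a (Finset.mem_insert_self a s))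
    refine ⟨W', hW', fun i hi => ?_⟩
    rcases Finset.mem_insert.1 hi with rfl | hi
    · exact hle.trans inf_le_right
    · exact (hle.trans inf_le_left).trans (hWs i hi)

/-- If `H¹(A)` is finite-dimensional, there is a level `W` such that every class is represented
by a right-`W`-invariant cocycle. -/
lemma exists_level_H1 (hfin : FiniteDimensional k (L.H1 A)) :
    ∃ W ∈ L.levels, ∀ x : L.H1 A, ∃ c : ↥(L.Z1 A), L.H1π A c = x ∧
      ∀ g s : G, s ∈ W → (c : G → A) (g * s) = (c : G → A) g := by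
  classical
  obtain ⟨s, hs⟩ := (Module.finite_def.1 hfin : (⊤ : Submodule k (L.H1 A)).FG)
  have hrep : ∀ x : L.H1 A, ∃ c : ↥(L.Z1 A), L.H1π A c = x := L.H1π_surjective A
  choose rep hrep using hrep
  have hlev : ∀ x : L.H1 A, ∃ U ∈ L.levels,
      ∀ g t : G, t ∈ U → (rep x : G → A) (g * t) = (rep x : G → A) g := fun x => (rep x).2.2
  choose lev hlev hinv using hlev
  obtain ⟨W, hW, hWle⟩ := exists_level_le_finset L s lev (fun i _ => hlev i)
  refine ⟨W, hW, ?_⟩
  have htop : (z1U L A W).map (L.H1π A) = ⊤ := by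
    rw [eq_top_iff, ← hs, Submodule.span_le]
    intro x hx
    exact ⟨rep x, fun g t ht => hinv x g t (hWle x hx ht), hrep x⟩
  intro x
  have hx : x ∈ (z1U L A W).map (L.H1π A) := htop ▸ Submodule.mem_top
  obtain ⟨c, hc, rfl⟩ := hx
  exact ⟨c, rfl, hc⟩

end Level

/-! ## 2. The effacing cochain -/

section Cochain

variable (χ : G →* kˣ) (U : Subgroup G) (M : Rep.{0, 0, 0} k G)
  (c : G → Module.Dual k M)

/-- the `x`-component of the effacing functional: for `x = γU`,
`w ↦ - χ(γ)⁻¹ c(γ)(γ w)` (junk unless `c`, `χ`, `M` are right-`U`-invariant). -/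
def effX (x : G ⧸ U) : M →ₗ[k] k :=
  -((((χ (Quotient.out x))⁻¹ : kˣ) : k) • (c (Quotient.out x)) ∘ₗ M.ρ (Quotient.out x))

/-- the effacing functional `F (single γU w) = - χ(γ)⁻¹ c(γ)(γ w)` on `Ind_U M` -/
def effF : Module.Dual k ((G ⧸ U) →₀ M) :=
  Finsupp.lsum k (fun x : G ⧸ U => effX χ U M c x)

@[simp] lemma effF_single (x : G ⧸ U) (w : M) :
    effF χ U M c (Finsupp.single x w : (G ⧸ U) →₀ M) = effX χ U M c x w := by
  rw [effF, Finsupp.lsum_single]

variable {χ U M c}

lemma effX_mk (hχ : ∀ u ∈ U, χ u = 1) (hM : ∀ u ∈ U, M.ρ u = 1)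
    (hc : ∀ g s : G, s ∈ U → c (g * s) = c g) (g : G) (w : M) :
    effX χ U M c (g : G ⧸ U) w = -((((χ g)⁻¹ : kˣ) : k) * c g (M.ρ g w)) := by
  obtain ⟨u, hu⟩ := QuotientGroup.mk_out_eq_mul U g
  unfold effX
  rw [hu, hc g u u.2, map_mul, map_mul, hχ u u.2, hM u u.2, mul_one, mul_one]
  rfl

/-- **Key computation**: `d F = augTw^∨ ∘ c`. -/
lemma d_effF (hχ : ∀ u ∈ U, χ u = 1) (hM : ∀ u ∈ U, M.ρ u = 1)
    (hc : ∀ g s : G, s ∈ U → c (g * s) = c g)
    (hcoc : (c : G → M.dualTwist χ) ∈ cocycles₁ (M.dualTwist χ)) :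
    (d₀₁ ((indRep U (twTriv χ M)).dualTwist χ)).hom (effF χ U M c) =
      (augTw χ U M).dualMap ∘ c := by
  rw [mem_cocycles₁_iff] at hcoc
  funext g
  rw [d₀₁_hom_apply, Function.comp_apply]
  apply Finsupp.lhom_ext
  intro x w
  induction x using QuotientGroup.induction_on with
  | H γ =>
    have hcoc' := hcoc g (g⁻¹ * γ)
    rw [mul_inv_cancel_left] at hcoc'
    have hcoc'' : c γ (M.ρ γ w) =
        (χ g : k) * c (g⁻¹ * γ) (M.ρ (g⁻¹ * γ) w) + c g (M.ρ γ w) := by
      have := congrArg (fun f : Module.Dual k M => f (M.ρ γ w)) hcoc'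
      simp only [LinearMap.add_apply] at this
      rw [this, map_mul]
      rfl
    have h1 : ((indRep U (twTriv χ M)).ρ g⁻¹)
        (Finsupp.single (γ : G ⧸ U) w : (G ⧸ U) →₀ M) =
        (Finsupp.single (((g⁻¹ * γ : G)) : G ⧸ U) ((χ g⁻¹ : k) • w) : (G ⧸ U) →₀ M) := by
      rw [indRep_ρ_single, twTriv_ρ_apply]
      rfl
    rw [LinearMap.sub_apply, Rep.dualTwist_ρ_apply, LinearMap.smul_apply, LinearMap.comp_apply,
      h1, effF_single, effF_single, effX_mk hχ hM hc, effX_mk hχ hM hc, LinearMap.dualMap_apply,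
      augTw_single, twAct_mk χ U M hχ hM, LinearMap.smul_apply, map_smul, map_smul, map_smul,
      hcoc'']
    simp only [smul_eq_mul, map_mul, map_inv, Units.val_mul, Units.val_inv_eq_inv_val]
    have ha : (χ g : k) ≠ 0 := (χ g).ne_zero
    have hb : (χ γ : k) ≠ 0 := (χ γ).ne_zero
    field_simp
    ring

end Cochain

/-! ## 3. The leaf -/

/-- **D-I2 (E2)**: effaceability of `H¹` of the dual, from finiteness. -/
theorem efface : EffaceSpec := by
  intro k _ G _ L hN χ M _hM hfin V hV hχ hMV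
  obtain ⟨W, hW, hrep⟩ := exists_level_H1 L (M.dualTwist χ) hfin
  obtain ⟨W', hW', hle⟩ := L.directed V hV W hW
  obtain ⟨U, hU, hUW', hUn⟩ := hN W' hW'
  have hUV : U ≤ V := hUW'.trans (hle.trans inf_le_left)
  have hUW : U ≤ W := hUW'.trans (hle.trans inf_le_right)
  refine ⟨U, hUV, hU, hUn, fun x => ?_⟩
  obtain ⟨c, rfl, hc⟩ := hrep x
  rw [pushH1_mk, LevelSys.H1π_eq_zero_iff]
  refine ⟨effF χ U M c.1, ?_⟩
  rw [coe_pushZ1]
  exact d_effF (fun u hu => hχ u (hUV hu)) (fun u hu => hMV u (hUV hu))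
    (fun g s hs => hc g s (hUW hs)) c.2.1

end Fermat.Agent.S55.PT.EffaceH773
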