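import Fermat.Agent.S55.PT.SpecE

/-!
# S55 / layer D, leaf D-E1 (helper476): the abstract engine, version 3

`engine : EngineSpec`.  Pure linear algebra over a field.

* `θ : T² → Dual X¹`, `θ x (δ f) = ΘR (∂T x) f`, is well defined (`ΘR (∂T x)` kills
  `ker δ = im r₀` by naturality and `tT ∘ ∂T = 0`), onto (`ΘR` onto, `ΘP` injective,
  `im ∂T = ker tT`) and `ker θ = ker ∂T ≤ ker u = im j` (CAP).
* `Ann_{X¹} (θ (j L¹)) = ker loc` (local top-degree data, `LocalTop.ann_iff`).
* `F = rest ∘ θ : T² → Dual (ker loc)` is onto with kernel `im j` (double annihilator), hence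
  `ker loc₂ = im u ≃ T² / im j ≃ Dual (ker loc)`.
-/

set_option autoImplicit false

namespace Fermat.Agent.S55.PT.H476

open Module Fermat.Agent.S55.H244 Fermat.Agent.S55.PT

section Theta

variable {k : Type*} [Field k]
variable {T2 T3R T3P H0R H0P X1 : Type*}
  [AddCommGroup T2] [Module k T2] [AddCommGroup T3R] [Module k T3R]
  [AddCommGroup T3P] [Module k T3P] [AddCommGroup H0R] [Module k H0R]
  [AddCommGroup H0P] [Module k H0P] [AddCommGroup X1] [Module k X1]

/-- The shifted map `θ : T² → Dual X¹`, `θ x (δ f) = ΘR (∂T x) f`: it exists, is onto, and its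
kernel is the kernel of `∂T` (no injectivity of `∂T` is assumed). -/
theorem exists_theta_of_shift
    (dT : T2 →ₗ[k] T3R) (tT : T3R →ₗ[k] T3P) (hdT : LinearMap.range dT = LinearMap.ker tT)
    (r0 : H0P →ₗ[k] H0R) (del : H0R →ₗ[k] X1)
    (hdel : Function.Surjective del) (hdelker : LinearMap.ker del = LinearMap.range r0)
    (ThR : T3R →ₗ[k] Dual k H0R) (ThP : T3P →ₗ[k] Dual k H0P)
    (hThR : Function.Bijective ThR) (hThP : Function.Injective ThP)
    (hnat : ∀ (t : T3R) (g : H0P), ThP (tT t) g = ThR t (r0 g)) :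
    ∃ θ : T2 →ₗ[k] Dual k X1, (∀ x f, θ x (del f) = ThR (dT x) f) ∧
      Function.Surjective θ ∧ ∀ x, θ x = 0 → dT x = 0 := by
  classical
  have htd : ∀ x : T2, tT (dT x) = 0 := by
    intro x
    have h : dT x ∈ LinearMap.ker tT := by
      rw [← hdT]
      exact ⟨x, rfl⟩
    exact h
  have hkill : ∀ x : T2, LinearMap.ker del ≤ LinearMap.ker (ThR (dT x)) := by
    intro x f hf
    rw [hdelker] at hf
    obtain ⟨g, rfl⟩ := hf
    rw [LinearMap.mem_ker, ← hnat, htd, map_zero, LinearMap.zero_apply]
  -- a linear section-free description: `θ x y := ΘR (∂T x) f` for any `f` with `δ f = y`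
  have hwd : ∀ (x : T2) (f f' : H0R), del f = del f' → ThR (dT x) f = ThR (dT x) f' := by
    intro x f f' h
    have h1 : f - f' ∈ LinearMap.ker del := by
      rw [LinearMap.mem_ker, map_sub, h, sub_self]
    have h2 := hkill x h1
    rw [LinearMap.mem_ker, map_sub, sub_eq_zero] at h2
    exact h2
  choose s hs using hdel
  let θ : T2 →ₗ[k] Dual k X1 :=
    { toFun := fun x =>
        { toFun := fun y => ThR (dT x) (s y)
          map_add' := fun y y' => by
            rw [← map_add]
            apply hwd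
            rw [map_add, hs, hs, hs]
          map_smul' := fun a y => by
            rw [RingHom.id_apply, ← map_smul]
            apply hwd
            rw [map_smul, hs, hs] }
      map_add' := fun x x' => by
        apply LinearMap.ext
        intro y
        show ThR (dT (x + x')) (s y) = ThR (dT x) (s y) + ThR (dT x') (s y)
        rw [map_add, map_add, LinearMap.add_apply]
      map_smul' := fun a x => by
        apply LinearMap.ext
        intro y
        show ThR (dT (a • x)) (s y) = a • ThR (dT x) (s y)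
        rw [map_smul, map_smul, LinearMap.smul_apply] }
  have hθ : ∀ x f, θ x (del f) = ThR (dT x) f := by
    intro x f
    show ThR (dT x) (s (del f)) = ThR (dT x) f
    apply hwd
    rw [hs]
  refine ⟨θ, hθ, ?_, ?_⟩
  · intro φ
    obtain ⟨z, hz⟩ := hThR.2 (φ ∘ₗ del)
    have hz3 : tT z = 0 := by
      apply hThP
      rw [map_zero]
      apply LinearMap.ext
      intro g
      rw [hnat, hz, LinearMap.comp_apply]
      have h : r0 g ∈ LinearMap.ker del := by
        rw [hdelker]
        exact ⟨g, rfl⟩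
      rw [LinearMap.mem_ker.1 h, map_zero, LinearMap.zero_apply]
    have hzr : z ∈ LinearMap.range dT := by
      rw [hdT]
      exact hz3
    obtain ⟨x, rfl⟩ := hzr
    refine ⟨x, ?_⟩
    apply LinearMap.ext
    intro y
    obtain ⟨f, rfl⟩ := (fun y => (⟨s y, hs y⟩ : ∃ f, del f = y)) y
    rw [hθ, hz, LinearMap.comp_apply]
  · intro x hx
    apply hThR.1
    rw [map_zero]
    apply LinearMap.ext
    intro f
    rw [← hθ, hx, LinearMap.zero_apply, LinearMap.zero_apply]

end Theta

section Final

variable {k : Type*} [Field k]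
variable {T2 H2 L1 L2 X1 Y1 : Type*}
  [AddCommGroup T2] [Module k T2] [AddCommGroup H2] [Module k H2]
  [AddCommGroup L1] [Module k L1] [AddCommGroup L2] [Module k L2]
  [AddCommGroup X1] [Module k X1] [AddCommGroup Y1] [Module k Y1]

/-- **Final step, annihilator form, for a surjection `θ` with `ker θ ≤ im j`.** -/
theorem sha_equiv_of_ann_surj [FiniteDimensional k X1]
    (j : L1 →ₗ[k] T2) (u : T2 →ₗ[k] H2) (loc2 : H2 →ₗ[k] L2) (loc : X1 →ₗ[k] Y1)
    (hju : LinearMap.ker u = LinearMap.range j)
    (hu2 : LinearMap.range u = LinearMap.ker loc2)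
    (θ : T2 →ₗ[k] Dual k X1) (hθs : Function.Surjective θ)
    (hθk : ∀ x, θ x = 0 → x ∈ LinearMap.range j)
    (hann : ∀ y : X1, (∀ b : L1, θ (j b) y = 0) ↔ loc y = 0) :
    Nonempty (LinearMap.ker loc2 ≃ₗ[k] Dual k (LinearMap.ker loc)) := by
  classical
  let rest : Dual k X1 →ₗ[k] Dual k (LinearMap.ker loc) :=
    Module.Dual.transpose (R := k) (LinearMap.ker loc).subtype
  have hrest : ∀ (φ : Dual k X1) (y : LinearMap.ker loc), rest φ y = φ y.1 := fun _ _ => rfl
  have hrest_surj : Function.Surjective rest := by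
    intro φ
    obtain ⟨ψ, hψ⟩ := LinearMap.exists_extend (p := LinearMap.ker loc) φ
    refine ⟨ψ, ?_⟩
    apply LinearMap.ext
    intro x
    rw [hrest, ← hψ]
    rfl
  let F : T2 →ₗ[k] Dual k (LinearMap.ker loc) := rest ∘ₗ θ
  have hF : ∀ (x : T2) (y : LinearMap.ker loc), F x y = θ x y.1 := fun _ _ => rfl
  have hF_surj : Function.Surjective F := hrest_surj.comp hθs
  have hF_ker : LinearMap.ker F = LinearMap.range j := by
    apply le_antisymm
    · intro x hx
      have hx' : ∀ y : X1, loc y = 0 → θ x y = 0 := by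
        intro y hy
        have h1 := hF x ⟨y, hy⟩
        rw [LinearMap.mem_ker.1 hx, LinearMap.zero_apply] at h1
        exact h1.symm
      have hmem : θ x ∈ (LinearMap.range j).map θ := by
        apply mem_of_forall_ker_le
        intro y hy
        apply hx'
        rw [← hann]
        intro b
        exact hy _ ⟨j b, ⟨b, rfl⟩, rfl⟩
      obtain ⟨x', hx'j, hx'x⟩ := hmem
      have h2 : θ (x - x') = 0 := by
        rw [map_sub, hx'x, sub_self]
      have h3 := hθk _ h2
      have h4 := (LinearMap.range j).add_mem h3 hx'j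
      rwa [sub_add_cancel] at h4
    · rintro x ⟨b, rfl⟩
      rw [LinearMap.mem_ker]
      apply LinearMap.ext
      rintro ⟨y, hy⟩
      rw [hF, LinearMap.zero_apply]
      exact (hann y).2 hy b
  have e1 : (T2 ⧸ LinearMap.ker u) ≃ₗ[k] LinearMap.range u := u.quotKerEquivRange
  have e2 : (T2 ⧸ LinearMap.ker F) ≃ₗ[k] Dual k (LinearMap.ker loc) :=
    F.quotKerEquivOfSurjective hF_surj
  have hk : LinearMap.ker u = LinearMap.ker F := by rw [hju, hF_ker]
  have e3 : (T2 ⧸ LinearMap.ker u) ≃ₗ[k] (T2 ⧸ LinearMap.ker F) :=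
    Submodule.quotEquivOfEq _ _ hk
  have e4 : LinearMap.range u ≃ₗ[k] LinearMap.ker loc2 := LinearEquiv.ofEq _ _ hu2
  exact ⟨e4.symm.trans (e1.symm.trans (e3.trans e2))⟩

end Final

/-- **D-E1 (engine v3).** -/
theorem engine : EngineSpec := by
  intro k _ ι _ _ T2 H2 L2 X1 T3R T3P H0R H0P _ _ _ _ _ _ _ _ _ _ _ _ _ _ _ _
    L1 T2R T2P H0Rv H0Pv Y1 _ _ _ _ _ _ _ _ _ _ _ _ _
    j u loc2 loc hju hu2 dT tT hdT r0 del hdel hdelker ThR ThP hThR hThP hnat hcap D res hloc
    c hc hform
  classical
  obtain ⟨θ, hθ, hθs, hθk⟩ :=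
    exists_theta_of_shift dT tT hdT r0 del hdel hdelker ThR ThP hThR hThP hnat
  refine sha_equiv_of_ann_surj j u loc2 loc hju hu2 θ hθs ?_ ?_
  · intro x hx
    rw [← hju]
    exact hcap x (hθk x hx)
  · intro y
    obtain ⟨f, rfl⟩ := hdel y
    constructor
    · intro h
      funext v
      rw [← hloc, Pi.zero_apply, ← (D v).ann_iff]
      intro bv
      have h1 := h (Pi.single v bv)
      rw [hθ, hform] at h1
      have h2 : ∑ w, (D w).ThR ((D w).dv ((Pi.single v bv : ∀ v, L1 v) w)) (res w f) =
          (D v).ThR ((D v).dv bv) (res v f) := by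
        rw [Finset.sum_eq_single v]
        · rw [Pi.single_eq_same]
        · intro w _ hw
          rw [Pi.single_eq_of_ne hw, map_zero, map_zero, LinearMap.zero_apply]
        · intro hv
          exact absurd (Finset.mem_univ v) hv
      rw [h2] at h1
      exact (mul_eq_zero.1 h1).resolve_left hc
    · intro h b
      rw [hθ, hform]
      have h3 : ∀ v, (D v).ThR ((D v).dv (b v)) (res v f) = 0 := by
        intro v
        apply ((D v).ann_iff (res v f)).2
        rw [hloc, h, Pi.zero_apply]
      rw [Finset.sum_eq_zero (fun v _ => h3 v), mul_zero]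

end Fermat.Agent.S55.PT.H476
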