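import Fermat.Agent.S55.PT.SpecF
import Fermat.Agent.S55.PT.LevelsNormal

/-!
# S55 / layer D, leaf D-F7 : the Prelude level systems   (helper724)

Producers for the four Props of `PT/SpecF.lean`:

* `globalNormalCofinal : GlobalNormalCofinalSpec`
* `localNormalCofinal : LocalNormalCofinalSpec`
* `globalFiniteIndex : GlobalFiniteIndexSpec`
* `localFiniteIndex : LocalFiniteIndexSpec`

(Normal cofinality is `PT/LevelsNormal.lean`, already on main.)
-/

set_option autoImplicit false

namespace Fermat.Agent.S55.PT.H724

open Fermat.Agent.S55.Bridge Fermat.Agent.S55.PT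

attribute [local instance] isAlgebraic_Qbar isGalois_Qbar

/-- `G_F` has finite index in `G_ℚ` for a finite extension `F/ℚ`. -/
theorem fixingSubgroup_finiteIndex (F : IntermediateField ℚ (AlgebraicClosure ℚ))
    [FiniteDimensional ℚ F] : F.fixingSubgroup.FiniteIndex := by
  refine ⟨?_⟩
  rw [← IntermediateField.finrank_eq_fixingSubgroup_index]
  exact Module.finrank_pos.ne'

/-- The preimage of a subgroup of finite index has finite index. -/
theorem comap_finiteIndex {G G' : Type*} [Group G] [Group G'] (f : G' →* G)
    (H : Subgroup G) [H.FiniteIndex] : (H.comap f).FiniteIndex := by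
  refine ⟨?_⟩
  rw [Subgroup.index_comap]
  have h : H.IsFiniteRelIndex f.range := Subgroup.isFiniteRelIndex_of_finiteIndex
  exact Subgroup.relIndex_ne_zero

/-- Every pulled-back level has finite index. -/
theorem pullbackLevels_finiteIndex {G : Type} [Group G] (r : G →* GQ) :
    (pullbackLevels r).FiniteIndex := by
  rintro U ⟨F, hF, rfl⟩
  have := hF
  have := fixingSubgroup_finiteIndex F
  exact comap_finiteIndex r F.fixingSubgroup

/-- Normal levels are cofinal among pulled-back levels. -/
theorem pullbackLevels_normalCofinal {G : Type} [Group G] (r : G →* GQ) :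
    (pullbackLevels r).NormalCofinal :=
  pullbackLevels_normal_cofinal724 r

/-- **D-F7a.** -/
theorem globalNormalCofinal : GlobalNormalCofinalSpec :=
  fun S => globalLevels_normal_cofinal724 S

/-- **D-F7b.** -/
theorem localNormalCofinal : LocalNormalCofinalSpec :=
  fun q => pullbackLevels_normalCofinal (rl q)

/-- **D-F7c.** -/
theorem globalFiniteIndex : GlobalFiniteIndexSpec := by
  rintro S U ⟨F, hF, rfl⟩
  have := hF.1
  exact fixingSubgroup_finiteIndex F

/-- **D-F7d.** -/
theorem localFiniteIndex : LocalFiniteIndexSpec :=
  fun q => pullbackLevels_finiteIndex (rl q)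

end Fermat.Agent.S55.PT.H724
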