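import Fermat.Agent.S55.PT.LesExactH113

/-!
# S55 / PT layer, leaf D-F6 (helper113): the connecting maps do not depend on choices and are
natural

* `del0_eq_of_lift`, `del1_eq_of_lift`: `δ⁰`, `δ¹` computed from ARBITRARY lifts;
* `resH1_del0`, `resH2_del1`: naturality with respect to restriction along a level-compatible
  group homomorphism;
* `pushH1_del0`, `pushH2_del1`: naturality with respect to morphisms of short exact sequences.
-/

set_option autoImplicit false

noncomputable section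

namespace Fermat.Agent.S55.PT.H113

open groupCohomology Fermat.Agent.S55.PT

variable {k : Type} [Field k] {G : Type} [Group G]
variable {A B C : Rep.{0, 0, 0} k G} (E : SES A B C) (L : LevelSys G)

/-- `δ⁰` computed from an arbitrary lift `b` of the invariant `c` and the cocycle `a` with
`i ∘ a = d b`. -/
theorem del0_eq_of_lift (hB : L.IsUSmooth B) (c : ↥(LevelSys.H0 C)) (b : B)
    (hb : E.π b = (c : C)) (a : ↥(L.Z1 A)) (ha : E.i ∘ (a : G → A) = (d₀₁ B).hom b) :
    E.del0 L hB c = L.H1π A a := by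
  rw [SES.del0_apply, ← sub_eq_zero, ← map_sub, LevelSys.H1π_eq_zero_iff]
  have hker : E.π (E.sec (c : C) - b) = 0 := by
    rw [map_sub, E.π_sec, hb, sub_self]
  refine ⟨E.ret (E.sec (c : C) - b), ?_⟩
  apply ses_comp_injective E
  rw [← push_d₀₁ E.i E.hi, E.i_ret hker, map_sub]
  have h1 := E.i_comp_del0Fun c
  funext g
  have h1g := congrFun h1 g
  have hag := congrFun ha g
  simp only [Function.comp_apply] at h1g hag
  simp only [Pi.sub_apply, Function.comp_apply, Submodule.coe_sub, map_sub]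
  rw [← h1g, ← hag]

/-- `δ¹` computed from an arbitrary level-constant lift `x` of the cocycle `c` and the cocycle
`a` with `i ∘ a = d x`. -/
theorem del1_eq_of_lift (hN : L.NormalCofinal) (hB : L.IsUSmooth B) (hC : L.IsUSmooth C)
    (c : ↥(L.Z1 C)) (x : G → B) (hx : L.IsLC₁ x) (hπx : E.π ∘ x = (c : G → C))
    (a : ↥(L.Z2 A)) (ha : E.i ∘ (a : G × G → A) = (d₁₂ B).hom x) :
    E.del1 L hN hB hC (L.H1π C c) = L.H2π A a := by
  rw [SES.del1_mk, ← sub_eq_zero, ← map_sub, LevelSys.H2π_eq_zero_iff]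
  have hclc : L.IsLC₁ (c : G → C) := c.2.2
  have hker : ∀ g, E.π ((E.sec ∘ (c : G → C) - x) g) = 0 := by
    intro g
    have h := congrFun hπx g
    simp only [Function.comp_apply] at h
    simp only [Pi.sub_apply, Function.comp_apply, map_sub, E.π_sec, h, sub_self]
  refine ⟨E.ret ∘ (E.sec ∘ (c : G → C) - x),
    (((L.C1 B).sub_mem (hclc.comp E.sec) hx) : L.IsLC₁ _).comp E.ret, ?_⟩
  apply ses_comp_injective E
  rw [← push_d₁₂ E.i E.hi, E.i_comp_ret_comp hker, map_sub]
  have h1 := E.i_comp_del1Fun c.2.1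
  funext g
  have h1g := congrFun h1 g
  have hag := congrFun ha g
  simp only [Function.comp_apply] at h1g hag
  simp only [Pi.sub_apply, Function.comp_apply, Submodule.coe_sub, map_sub]
  rw [← h1g, ← hag]

/-! ### Naturality with respect to restriction -/

section Res

variable {G' : Type} [Group G'] {r : G' →* G} {L} {L' : LevelSys G'}

/-- restriction of a uniformly smooth representation along a level-compatible map is
uniformly smooth. -/
theorem isUSmooth_res (hr : IsLevelCompatible r L L') {B : Rep.{0, 0, 0} k G}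
    (hB : L.IsUSmooth B) : L'.IsUSmooth (Rep.res r B) := by
  obtain ⟨U, hU, h⟩ := hB
  obtain ⟨V, hV, hle⟩ := hr U hU
  exact ⟨V, hV, fun s hs a => h (r s) (hle hs) a⟩

/-- `res ∘ δ⁰ = δ⁰ ∘ res`. -/
theorem resH1_del0 (hr : IsLevelCompatible r L L') (hB : L.IsUSmooth B)
    (hB' : L'.IsUSmooth (Rep.res r B)) (c : ↥(LevelSys.H0 C)) :
    resH1 hr A (E.del0 L hB c) = (E.res r).del0 L' hB' (resH0 r C c) := by
  rw [SES.del0_apply, resH1_mk]
  symm
  refine del0_eq_of_lift (E.res r) L' hB' (resH0 r C c) (E.sec (c : C)) (E.π_sec _) _ ?_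
  have h1 := E.i_comp_del0Fun c
  funext g
  have h1g := congrFun h1 (r g)
  exact h1g

/-- `res ∘ δ¹ = δ¹ ∘ res`. -/
theorem resH2_del1 (hr : IsLevelCompatible r L L') (hN : L.NormalCofinal)
    (hN' : L'.NormalCofinal) (hB : L.IsUSmooth B) (hC : L.IsUSmooth C)
    (hB' : L'.IsUSmooth (Rep.res r B)) (hC' : L'.IsUSmooth (Rep.res r C)) (x : L.H1 C) :
    resH2 hr A (E.del1 L hN hB hC x) = (E.res r).del1 L' hN' hB' hC' (resH1 hr C x) := by
  obtain ⟨c, rfl⟩ := L.H1π_surjective C x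
  rw [SES.del1_mk, resH2_mk, resH1_mk]
  symm
  have hclc : L.IsLC₁ (c : G → C) := c.2.2
  refine del1_eq_of_lift (E.res r) L' hN' hB' hC' (resZ1 hr C c) ((E.sec ∘ (c : G → C)) ∘ r)
    (IsLC₁.res hr (hclc.comp E.sec)) ?_ _ ?_
  · funext g
    exact E.π_sec _
  · have h1 := E.i_comp_del1Fun c.2.1
    rw [coe_resZ2]
    have h2 := res_d₁₂ (r := r) B (E.sec ∘ (c : G → C))
    rw [h2, ← h1]
    rfl

end Res

/-! ### Naturality with respect to morphisms of short exact sequences -/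

section Mor

variable {A' B' C' : Rep.{0, 0, 0} k G} (E' : SES A' B' C')
variable (α : A →ₗ[k] A') (β : B →ₗ[k] B') (γ : C →ₗ[k] C')
variable (hα : IsEquivariant α) (hβ : IsEquivariant β) (hγ : IsEquivariant γ)
variable (hl : ∀ a, β (E.i a) = E'.i (α a)) (hr : ∀ b, γ (E.π b) = E'.π (β b))

include hβ hl hr in
/-- `α_* ∘ δ⁰ = δ⁰ ∘ γ_*`. -/
theorem pushH1_del0 (hB : L.IsUSmooth B) (hB' : L.IsUSmooth B') (c : ↥(LevelSys.H0 C)) :
    pushH1 α hα L (E.del0 L hB c) = E'.del0 L hB' (pushH0 γ hγ c) := by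
  rw [SES.del0_apply, pushH1_mk]
  symm
  refine del0_eq_of_lift E' L hB' (pushH0 γ hγ c) (β (E.sec (c : C))) ?_ _ ?_
  · rw [← hr, E.π_sec, coe_pushH0]
  · rw [coe_pushZ1, push_d₀₁ β hβ, ← E.i_comp_del0Fun c]
    funext g
    exact (hl _).symm

include hβ hl hr in
/-- `α_* ∘ δ¹ = δ¹ ∘ γ_*`. -/
theorem pushH2_del1 (hN : L.NormalCofinal) (hB : L.IsUSmooth B) (hC : L.IsUSmooth C)
    (hB' : L.IsUSmooth B') (hC' : L.IsUSmooth C') (x : L.H1 C) :
    pushH2 α hα L (E.del1 L hN hB hC x) = E'.del1 L hN hB' hC' (pushH1 γ hγ L x) := by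
  obtain ⟨c, rfl⟩ := L.H1π_surjective C x
  rw [SES.del1_mk, pushH2_mk, pushH1_mk]
  symm
  have hclc : L.IsLC₁ (c : G → C) := c.2.2
  refine del1_eq_of_lift E' L hN hB' hC' (pushZ1 γ hγ L c) (β ∘ (E.sec ∘ (c : G → C)))
    ((hclc.comp E.sec).comp β) ?_ _ ?_
  · rw [coe_pushZ1]
    funext g
    simp only [Function.comp_apply]
    rw [← hr, E.π_sec]
  · rw [coe_pushZ2, push_d₁₂ β hβ, ← E.i_comp_del1Fun c.2.1]
    funext g
    exact (hl _).symm

end Mor

end Fermat.Agent.S55.PT.H113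

end
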