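import Fermat.Agent.S55.PT.ConeExactH113
import Fermat.Agent.S55.PT.LesNatH113

/-!
# S55 / PT layer, leaf D-F5 (helper113): the cone connecting map `∂ : H²_c(C) → T³(A)`

For a short exact sequence `E : SES A B C` of uniformly smooth representations of the global
group such that `H²(B) → H²(C)` is surjective, we construct
`coneDel : H²_c(C) → T³(A) = coker (H²(A) → ∏_v H²(G_v, A))` and prove

* `coneDel_mk`    : `∂[z] = [α]` for ANY witness `(b, y, x)` of the relation `Rel z α`;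
* `ker_coneDel`   : `ker ∂ = im (H²_c(B) → H²_c(C))`;
* `range_coneDel` : `im ∂ = ker (T³(A) → T³(B))`;
* `coneDel_jH`    : `∂ (j y) = - [ (δ¹_v y_v)_v ]`.
-/

set_option autoImplicit false
set_option linter.unusedSectionVars false

noncomputable section

namespace Fermat.Agent.S55.PT.H113

open groupCohomology Fermat.Agent.S55.PT

/-! ### a linear relation which is total and single-valued modulo `q` is a linear map -/

section Generic

variable {k : Type*} [Field k] {X Y T : Type*} [AddCommGroup X] [Module k X]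
  [AddCommGroup Y] [Module k Y] [AddCommGroup T] [Module k T]

theorem exists_linearMap_of_rel (Γ : Submodule k (X × Y)) (q : Y →ₗ[k] T) (N : Submodule k X)
    (total : ∀ x, ∃ y, (x, y) ∈ Γ) (h : ∀ x y, (x, y) ∈ Γ → x ∈ N → q y = 0) :
    ∃ φ : (X ⧸ N) →ₗ[k] T, ∀ x y, (x, y) ∈ Γ → φ (Submodule.Quotient.mk x) = q y := by
  classical
  let p₁ : ↥Γ →ₗ[k] X := (LinearMap.fst k X Y).comp Γ.subtype
  let p₂ : ↥Γ →ₗ[k] T := q.comp ((LinearMap.snd k X Y).comp Γ.subtype)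
  have hp₁ : Function.Surjective p₁ := by
    intro x
    obtain ⟨y, hy⟩ := total x
    exact ⟨⟨(x, y), hy⟩, rfl⟩
  have hker : LinearMap.ker p₁ ≤ LinearMap.ker p₂ := by
    rintro ⟨⟨x, y⟩, hxy⟩ hx
    rw [LinearMap.mem_ker] at hx ⊢
    have hx0 : x = 0 := hx
    subst hx0
    exact h 0 y hxy N.zero_mem
  let e := p₁.quotKerEquivOfSurjective hp₁
  let ψ : X →ₗ[k] T := ((LinearMap.ker p₁).liftQ p₂ hker) ∘ₗ e.symm.toLinearMap
  have hψ : ∀ γ : ↥Γ, ψ (p₁ γ) = p₂ γ := by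
    intro γ
    have he : e.symm (p₁ γ) = Submodule.Quotient.mk γ := by
      rw [LinearEquiv.symm_apply_eq]
      rfl
    show ((LinearMap.ker p₁).liftQ p₂ hker) (e.symm (p₁ γ)) = _
    rw [he, Submodule.liftQ_apply]
  have hψ' : ∀ x y, (x, y) ∈ Γ → ψ x = q y := fun x y hxy => hψ ⟨(x, y), hxy⟩
  have hN : N ≤ LinearMap.ker ψ := by
    intro x hx
    obtain ⟨y, hy⟩ := total x
    rw [LinearMap.mem_ker, hψ' x y hy]
    exact h x y hy hx
  refine ⟨N.liftQ ψ hN, fun x y hxy => ?_⟩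
  rw [Submodule.liftQ_apply]
  exact hψ' x y hxy

end Generic

/-! ### generic cochain lemmas for a short exact sequence -/

section GenericSES

variable {k : Type} [Field k] {H : Type} [Group H] {A B C : Rep.{0, 0, 0} k H}
  (E : SES A B C) (L : LevelSys H)

lemma eq_ret_comp_of_i_comp {X : Type*} {t : X → A} {t' : X → B} (h : E.i ∘ t = t') :
    t = E.ret ∘ t' := by
  funext g
  rw [← h]
  exact (E.ret_i _).symm

lemma isLC₁_of_i_comp {t : H → A} {t' : H → B} (ht' : L.IsLC₁ t') (h : E.i ∘ t = t') :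
    L.IsLC₁ t := by
  rw [eq_ret_comp_of_i_comp E h]
  exact ht'.comp E.ret

lemma isLC₂_of_i_comp {t : H × H → A} {t' : H × H → B} (ht' : L.IsLC₂ t') (h : E.i ∘ t = t') :
    L.IsLC₂ t := by
  rw [eq_ret_comp_of_i_comp E h]
  exact ht'.comp E.ret

/-- a 2-cochain of `A` whose image in `B` is a level-constant cocycle is one. -/
lemma mem_Z2_of_i_comp {a : H × H → A} {u : H × H → B} (hu : u ∈ L.Z2 B) (h : E.i ∘ a = u) :
    a ∈ L.Z2 A := by
  refine ⟨?_, isLC₂_of_i_comp E L hu.2 h⟩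
  show (d₂₃ A).hom a = 0
  have h3 : (d₂₃ B).hom u = 0 := hu.1
  have h1 := push_d₂₃ E.i E.hi a
  rw [h, h3] at h1
  funext g
  apply E.inj
  rw [Pi.zero_apply, map_zero]
  exact (congrFun h1 g).symm

/-- two level-constant cocycles of `A` whose images in `B` differ by the coboundary of a
level-constant 1-cochain with values in `ker π` are cohomologous. -/
lemma H2π_eq_of_i_comp_sub {a a' : ↥(L.Z2 A)} {t' : H → B} (ht' : L.IsLC₁ t')
    (hπ : ∀ g, E.π (t' g) = 0)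
    (h : ∀ g, E.i ((a : H × H → A) g) - E.i ((a' : H × H → A) g) = (d₁₂ B).hom t' g) :
    L.H2π A a = L.H2π A a' := by
  rw [← sub_eq_zero, ← map_sub, LevelSys.H2π_eq_zero_iff]
  refine ⟨E.ret ∘ t', ht'.comp E.ret, ?_⟩
  apply ses_comp_injective E
  rw [← push_d₁₂ E.i E.hi, E.i_comp_ret_comp hπ]
  funext g
  rw [← h g]
  simp only [Function.comp_apply, Submodule.coe_sub, Pi.sub_apply, map_sub]

/-- conversely, cohomologous cocycles differ by the coboundary of a level-constant cochain. -/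
lemma exists_of_H2π_eq {a a' : ↥(L.Z2 A)} (h : L.H2π A a = L.H2π A a') :
    ∃ t : H → A, L.IsLC₁ t ∧
      ∀ g, (d₁₂ A).hom t g = (a : H × H → A) g - (a' : H × H → A) g := by
  rw [← sub_eq_zero, ← map_sub, LevelSys.H2π_eq_zero_iff] at h
  obtain ⟨t, ht, htd⟩ := h
  refine ⟨t, ht, fun g => ?_⟩
  have := congrFun htd g
  rw [this]
  rfl

end GenericSES

variable {k : Type} [Field k] {G : Type} [Group G]
variable {ι : Type} [Fintype ι] [DecidableEq ι] {Gv : ι → Type} [∀ v, Group (Gv v)]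
variable {L : LevelSys G} {Lv : ∀ v, LevelSys (Gv v)} {r : ∀ v, Gv v →* G}
variable (hr : ∀ v, IsLevelCompatible (r v) L (Lv v))
variable {A B C : Rep.{0, 0, 0} k G} (E : SES A B C)

/-! ### the relation -/

variable (L Lv r) in
/-- `(z, α)` are related if there are a level-constant 2-cocycle `b` of `B`, a level-constant
1-cochain `y` of `C` and level-constant local 1-cochains `x_v` of `B` with
`z₁ = π b + d y`, `π x_v = z₂ v - y|_v`, `i α_v = b|_v - d x_v`. -/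
def Rel (z : (G × G → C) × ((v : ι) → Gv v → C)) (α : (v : ι) → (Gv v × Gv v → A)) : Prop :=
  ∃ (b : G × G → B) (y : G → C) (x : (v : ι) → Gv v → B),
    b ∈ L.Z2 B ∧ L.IsLC₁ y ∧ (∀ v, (Lv v).IsLC₁ (x v)) ∧
    z.1 = E.π ∘ b + ((d₁₂ C).hom y : G × G → C) ∧
    (∀ v, E.π ∘ x v = z.2 v - y ∘ r v) ∧
    (∀ v, E.i ∘ α v = b ∘ Prod.map (r v) (r v) -
      ((d₁₂ (Rep.res (r v) B)).hom (x v) : Gv v × Gv v → B))

lemma Rel.zero : Rel L Lv r E 0 0 := by
  refine ⟨0, 0, 0, (L.Z2 B).zero_mem, (L.C1 C).zero_mem, fun v => (Lv v).isLC₁_const (0 : B),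
    ?_, fun v => ?_, fun v => ?_⟩
  · funext g
    simp
    rfl
  · funext g
    simp
  · funext g
    simp
    rfl

lemma Rel.add {z z' : (G × G → C) × ((v : ι) → Gv v → C)}
    {α α' : (v : ι) → (Gv v × Gv v → A)} (h : Rel L Lv r E z α) (h' : Rel L Lv r E z' α') :
    Rel L Lv r E (z + z') (α + α') := by
  obtain ⟨b, y, x, hb, hy, hx, h1, h2, h3⟩ := h
  obtain ⟨b', y', x', hb', hy', hx', h1', h2', h3'⟩ := h'
  refine ⟨b + b', y + y', x + x', (L.Z2 B).add_mem hb hb', (L.C1 C).add_mem hy hy',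
    fun v => LevelSys.IsLC₁.add (hx v) (hx' v), ?_, fun v => ?_, fun v => ?_⟩
  · rw [Prod.fst_add, h1, h1', map_add]
    funext g
    simp only [Pi.add_apply, Function.comp_apply, map_add]
    abel
  · have e := h2 v
    have e' := h2' v
    funext g
    have eg := congrFun e g
    have eg' := congrFun e' g
    simp only [Function.comp_apply, Pi.sub_apply] at eg eg'
    simp only [Pi.add_apply, Function.comp_apply, Pi.sub_apply, Prod.snd_add, map_add, eg, eg']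
    abel
  · have e := h3 v
    have e' := h3' v
    funext g
    have eg := congrFun e g
    have eg' := congrFun e' g
    simp only [Function.comp_apply, Pi.sub_apply] at eg eg'
    simp only [Pi.add_apply, Function.comp_apply, Pi.sub_apply, map_add, eg, eg']
    abel

lemma Rel.smul (c : k) {z : (G × G → C) × ((v : ι) → Gv v → C)}
    {α : (v : ι) → (Gv v × Gv v → A)} (h : Rel L Lv r E z α) :
    Rel L Lv r E (c • z) (c • α) := by
  obtain ⟨b, y, x, hb, hy, hx, h1, h2, h3⟩ := h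
  refine ⟨c • b, c • y, c • x, (L.Z2 B).smul_mem c hb, (L.C1 C).smul_mem c hy,
    fun v => (hx v).comp (c • ·), ?_, fun v => ?_, fun v => ?_⟩
  · rw [Prod.smul_fst, h1, map_smul]
    funext g
    simp only [Pi.add_apply, Pi.smul_apply, Function.comp_apply, map_smul, smul_add]
  · have e := h2 v
    funext g
    have eg := congrFun e g
    simp only [Function.comp_apply, Pi.sub_apply] at eg
    simp only [Pi.smul_apply, Function.comp_apply, Pi.sub_apply, Prod.smul_snd, map_smul, eg,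
      smul_sub]
  · have e := h3 v
    funext g
    have eg := congrFun e g
    simp only [Function.comp_apply, Pi.sub_apply] at eg
    simp only [Pi.smul_apply, Function.comp_apply, Pi.sub_apply, map_smul, eg, smul_sub]

/-! ### local cocycles from global data -/

include hr in
/-- the local 2-cochain `ret ∘ (b|_v - d x)` is a level-constant cocycle as soon as
`b|_v - d x` has values in `ker π`. -/
lemma ret_comp_mem_Z2 (hNv : ∀ v, (Lv v).NormalCofinal)
    (hBv : ∀ v, (Lv v).IsUSmooth (Rep.res (r v) B)) {b : G × G → B} (hb : b ∈ L.Z2 B) (v : ι)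
    {x : Gv v → B} (hx : (Lv v).IsLC₁ x)
    (hπ : ∀ g, E.π ((b ∘ Prod.map (r v) (r v) -
      ((d₁₂ (Rep.res (r v) B)).hom x : Gv v × Gv v → B)) g) = 0) :
    (E.ret ∘ (b ∘ Prod.map (r v) (r v) -
      ((d₁₂ (Rep.res (r v) B)).hom x : Gv v × Gv v → B)) : Gv v × Gv v → Rep.res (r v) A) ∈
      (Lv v).Z2 (Rep.res (r v) A) := by
  have hbres : (b ∘ Prod.map (r v) (r v) : Gv v × Gv v → Rep.res (r v) B) ∈
      (Lv v).Z2 (Rep.res (r v) B) := res_mem_Z2 (hr v) B hb
  have hdx : ((d₁₂ (Rep.res (r v) B)).hom x) ∈ (Lv v).Z2 (Rep.res (r v) B) :=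
    (Lv v).B2_le_Z2 (hNv v) (hBv v) ⟨x, hx, rfl⟩
  have hu : (b ∘ Prod.map (r v) (r v) -
      ((d₁₂ (Rep.res (r v) B)).hom x : Gv v × Gv v → B) : Gv v × Gv v → Rep.res (r v) B) ∈
      (Lv v).Z2 (Rep.res (r v) B) := ((Lv v).Z2 (Rep.res (r v) B)).sub_mem hbres hdx
  refine ⟨?_, LevelSys.IsLC₂.comp hu.2 E.ret⟩
  show (d₂₃ (Rep.res (r v) A)).hom _ = 0
  apply ses_comp_injective (E.res (r v))
  have h1 := push_d₂₃ (A := Rep.res (r v) A) (B := Rep.res (r v) B) E.i (E.hi.res (r v))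
    (E.ret ∘ (b ∘ Prod.map (r v) (r v) -
      ((d₁₂ (Rep.res (r v) B)).hom x : Gv v × Gv v → B)))
  have h2 : (E.i ∘ (E.ret ∘ (b ∘ Prod.map (r v) (r v) -
      ((d₁₂ (Rep.res (r v) B)).hom x : Gv v × Gv v → B))) : Gv v × Gv v → B) = _ :=
    E.i_comp_ret_comp hπ
  have h3 : (d₂₃ (Rep.res (r v) B)).hom (b ∘ Prod.map (r v) (r v) -
      ((d₁₂ (Rep.res (r v) B)).hom x : Gv v × Gv v → B)) = 0 := hu.1
  show E.i ∘ (d₂₃ (Rep.res (r v) A)).hom _ = E.i ∘ (0 : Gv v × Gv v × Gv v → A)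
  rw [← h1, h2, h3]
  funext g
  exact (map_zero E.i).symm

include hr in
/-- (R1) the relation is total. -/
theorem Rel.total (hN : L.NormalCofinal) (hNv : ∀ v, (Lv v).NormalCofinal)
    (hB : L.IsUSmooth B) (hsurj : Function.Surjective (pushH2 E.π E.hπ L))
    (z : ↥(Zc2 L Lv r C)) :
    ∃ α : (v : ι) → ↥((Lv v).Z2 (Rep.res (r v) A)),
      Rel L Lv r E (z : (G × G → C) × ((v : ι) → Gv v → C))
        (fun v => ((α v : Gv v × Gv v → Rep.res (r v) A) : Gv v × Gv v → A)) := by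
  have _hN := hN
  have hBv : ∀ v, (Lv v).IsUSmooth (Rep.res (r v) B) := fun v => isUSmooth_res (hr v) hB
  obtain ⟨β, hβ⟩ := hsurj (L.H2π C ⟨_, z.2.1⟩)
  obtain ⟨b, rfl⟩ := L.H2π_surjective B β
  rw [pushH2_mk, ← sub_eq_zero, ← map_sub, LevelSys.H2π_eq_zero_iff] at hβ
  obtain ⟨y', hy', hyd⟩ := hβ
  have hy'lc : L.IsLC₁ y' := hy'
  have hyd' : (d₁₂ C).hom y' = E.π ∘ (b : G × G → B) -
      (z : (G × G → C) × ((v : ι) → Gv v → C)).1 := hyd
  have h1 : (z : (G × G → C) × ((v : ι) → Gv v → C)).1 =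
      E.π ∘ (b : G × G → B) + ((d₁₂ C).hom (-y') : G × G → C) := by
    rw [map_neg, hyd']
    funext g
    simp
  have hylc : L.IsLC₁ (-y') := (L.C1 C).neg_mem hy'
  -- the local lifts
  have hxlc : ∀ v, (Lv v).IsLC₁ (E.sec ∘ ((z : (G × G → C) × ((v : ι) → Gv v → C)).2 v -
      (-y') ∘ r v)) := by
    intro v
    have ha : (Lv v).IsLC₁ ((z : (G × G → C) × ((v : ι) → Gv v → C)).2 v) := (z.2.2 v).1
    have hb' : (Lv v).IsLC₁ ((-y') ∘ r v) := IsLC₁.res (hr v) hylc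
    have : (Lv v).IsLC₁ ((z : (G × G → C) × ((v : ι) → Gv v → C)).2 v - (-y') ∘ r v) :=
      ((Lv v).C1 (Rep.res (r v) C)).sub_mem ha hb'
    exact this.comp E.sec
  have hπx : ∀ v, E.π ∘ (E.sec ∘ ((z : (G × G → C) × ((v : ι) → Gv v → C)).2 v -
      (-y') ∘ r v)) = (z : (G × G → C) × ((v : ι) → Gv v → C)).2 v - (-y') ∘ r v := by
    intro v
    funext g
    exact E.π_sec _
  have hπ0 : ∀ v g, E.π (((b : G × G → B) ∘ Prod.map (r v) (r v) -
      ((d₁₂ (Rep.res (r v) B)).hom (E.sec ∘ ((z : (G × G → C) × ((v : ι) → Gv v → C)).2 v -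
        (-y') ∘ r v)) : Gv v × Gv v → B)) g) = 0 := by
    intro v g
    have e1 := push_d₁₂ (A := Rep.res (r v) B) (B := Rep.res (r v) C) E.π (E.hπ.res (r v))
      (E.sec ∘ ((z : (G × G → C) × ((v : ι) → Gv v → C)).2 v - (-y') ∘ r v))
    rw [hπx v] at e1
    have e2 : (d₁₂ (Rep.res (r v) C)).hom ((z : (G × G → C) × ((v : ι) → Gv v → C)).2 v) =
        ((z : (G × G → C) × ((v : ι) → Gv v → C)).1 ∘ Prod.map (r v) (r v) :
          Gv v × Gv v → C) := (z.2.2 v).2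
    have e3 := res_d₁₂ (r := r v) C (-y')
    rw [map_sub, e2, e3] at e1
    have e1g := congrFun e1 g
    have h1g := congrFun h1 (Prod.map (r v) (r v) g)
    simp only [Pi.sub_apply, Function.comp_apply, Pi.add_apply] at e1g h1g
    simp only [Pi.sub_apply, Function.comp_apply, map_sub]
    rw [← e1g, h1g]
    abel
  refine ⟨fun v => ⟨_, ret_comp_mem_Z2 hr E hNv hBv b.2 v (hxlc v) (hπ0 v)⟩, ?_⟩
  refine ⟨b, -y', _, b.2, hylc, hxlc, h1, hπx, fun v => ?_⟩
  exact E.i_comp_ret_comp (hπ0 v)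

/-! ### well-definedness -/

include hr in
/-- (R2) if `z` is a cone coboundary then the family `([α_v])_v` is a global class. -/
theorem Rel.wd (hN : L.NormalCofinal) (hB : L.IsUSmooth B)
    {z : (G × G → C) × ((v : ι) → Gv v → C)}
    {α : (v : ι) → ↥((Lv v).Z2 (Rep.res (r v) A))}
    (h : Rel L Lv r E z
      (fun v => ((α v : Gv v × Gv v → Rep.res (r v) A) : Gv v × Gv v → A)))
    (hz : z ∈ Bc2 L r C) :
    (fun v => (Lv v).H2π (Rep.res (r v) A) (α v)) ∈ LinearMap.range (loc2 hr A) := by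
  obtain ⟨b, y, x, hb, hy, hx, h1, h2, h3⟩ := h
  obtain ⟨x₀, m₀, hx₀, rfl⟩ := (mem_Bc2_iff C _).1 hz
  have hBv : ∀ v, (Lv v).IsUSmooth (Rep.res (r v) B) := fun v => isUSmooth_res (hr v) hB
  have h1' : ∀ g, (d₁₂ C).hom x₀ g = E.π (b g) + (d₁₂ C).hom y g := fun g => congrFun h1 g
  have h2' : ∀ v g, E.π (x v g) = x₀ (r v g) + (d₀₁ (Rep.res (r v) C)).hom (m₀ v) g - y (r v g) :=
    fun v g => congrFun (h2 v) g
  have h3' : ∀ v g, E.i ((α v : Gv v × Gv v → Rep.res (r v) A) g) =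
      b (Prod.map (r v) (r v) g) - (d₁₂ (Rep.res (r v) B)).hom (x v) g :=
    fun v g => congrFun (h3 v) g
  -- the global correction
  have hwlc : L.IsLC₁ (x₀ - y) := (L.C1 C).sub_mem hx₀ hy
  have hslc : L.IsLC₁ (E.sec ∘ (x₀ - y)) := hwlc.comp E.sec
  have hπs : E.π ∘ (E.sec ∘ (x₀ - y)) = x₀ - y := by
    funext g
    exact E.π_sec _
  have hds : (d₁₂ B).hom (E.sec ∘ (x₀ - y)) ∈ L.Z2 B := L.B2_le_Z2 hN hB ⟨_, hslc, rfl⟩
  have hu : b - (d₁₂ B).hom (E.sec ∘ (x₀ - y)) ∈ L.Z2 B := (L.Z2 B).sub_mem hb hds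
  have hπds : ∀ g, E.π ((d₁₂ B).hom (E.sec ∘ (x₀ - y)) g) =
      (d₁₂ C).hom x₀ g - (d₁₂ C).hom y g := by
    intro g
    have e1 := congrFun (push_d₁₂ E.π E.hπ (E.sec ∘ (x₀ - y))) g
    rw [hπs, map_sub] at e1
    exact e1.symm
  have hπu : ∀ g, E.π ((b - (d₁₂ B).hom (E.sec ∘ (x₀ - y))) g) = 0 := by
    intro g
    rw [Pi.sub_apply, map_sub, hπds g, h1' g]
    abel
  have ha₀ : E.ret ∘ (b - (d₁₂ B).hom (E.sec ∘ (x₀ - y))) ∈ L.Z2 A :=
    mem_Z2_of_i_comp E L hu (E.i_comp_ret_comp hπu)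
  refine ⟨L.H2π A ⟨_, ha₀⟩, ?_⟩
  funext v
  rw [loc2_apply, resH2_mk]
  symm
  -- the local correction
  have htlc : (Lv v).IsLC₁ ((E.sec ∘ (x₀ - y)) ∘ r v - x v +
      ((d₀₁ (Rep.res (r v) B)).hom (E.sec (m₀ v)) : Gv v → B)) := by
    have t1 : (Lv v).IsLC₁ ((E.sec ∘ (x₀ - y)) ∘ r v) := IsLC₁.res (hr v) hslc
    have t2 : (Lv v).IsLC₁ ((d₀₁ (Rep.res (r v) B)).hom (E.sec (m₀ v))) :=
      (Lv v).d₀₁_isLC₁ (hBv v) (E.sec (m₀ v))
    exact ((Lv v).C1 (Rep.res (r v) B)).add_mem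
      (((Lv v).C1 (Rep.res (r v) B)).sub_mem t1 (hx v)) t2
  refine H2π_eq_of_i_comp_sub (E.res (r v)) (Lv v) htlc ?_ ?_
  · intro g
    have e1 := congrFun (push_d₀₁ (A := Rep.res (r v) B) (B := Rep.res (r v) C) E.π
      (E.hπ.res (r v)) (E.sec (m₀ v))) g
    rw [E.π_sec] at e1
    simp only [Function.comp_apply] at e1
    show E.π _ = 0
    simp only [Pi.add_apply, Pi.sub_apply, Function.comp_apply, map_add, map_sub, E.π_sec,
      h2' v g, ← e1]
    abel
  · intro g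
    show E.i ((α v : Gv v × Gv v → Rep.res (r v) A) g) -
      E.i ((E.ret ∘ (b - (d₁₂ B).hom (E.sec ∘ (x₀ - y)))) (Prod.map (r v) (r v) g)) = _
    have e0 : E.i ((E.ret ∘ (b - (d₁₂ B).hom (E.sec ∘ (x₀ - y)))) (Prod.map (r v) (r v) g)) =
        (b - (d₁₂ B).hom (E.sec ∘ (x₀ - y))) (Prod.map (r v) (r v) g) :=
      E.i_ret (hπu _)
    have e1 := congrFun (res_d₁₂ (r := r v) B (E.sec ∘ (x₀ - y))) g
    have e2 : (d₁₂ (Rep.res (r v) B)).hom ((d₀₁ (Rep.res (r v) B)).hom (E.sec (m₀ v))) = 0 :=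
      d₁₂_d₀₁ (B := Rep.res (r v) B) (E.sec (m₀ v))
    have e2g : (d₁₂ (Rep.res (r v) B)).hom
        ((d₀₁ (Rep.res (r v) B)).hom (E.sec (m₀ v))) g = 0 := by
      rw [e2]
      rfl
    rw [e0, h3' v g, map_add, map_sub]
    simp only [Pi.add_apply, Pi.sub_apply, Function.comp_apply] at e1 ⊢
    rw [e1, e2g]
    abel

/-! ### the connecting map -/

variable (L Lv r) in
/-- the graph of the relation, as a submodule -/
def relGraph : Submodule k
    (↥(Zc2 L Lv r C) × ((v : ι) → ↥((Lv v).Z2 (Rep.res (r v) A)))) where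
  carrier := {p | Rel L Lv r E (p.1 : (G × G → C) × ((v : ι) → Gv v → C))
    (fun v => ((p.2 v : Gv v × Gv v → Rep.res (r v) A) : Gv v × Gv v → A))}
  add_mem' := fun h h' => Rel.add E h h'
  zero_mem' := Rel.zero E
  smul_mem' := fun c _ h => Rel.smul E c h

/-- the class map `∏_v Z²(G_v, A) → T³(A)` -/
def relQ : ((v : ι) → ↥((Lv v).Z2 (Rep.res (r v) A))) →ₗ[k] T3 hr A :=
  T3π hr A ∘ₗ LinearMap.pi fun v => (Lv v).H2π (Rep.res (r v) A) ∘ₗ LinearMap.proj v

lemma relQ_apply (α : (v : ι) → ↥((Lv v).Z2 (Rep.res (r v) A))) :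
    relQ hr α = T3π hr A (fun v => (Lv v).H2π (Rep.res (r v) A) (α v)) := rfl

/-- existence of the cone connecting map -/
theorem exists_coneDel (hN : L.NormalCofinal) (hNv : ∀ v, (Lv v).NormalCofinal)
    (hB : L.IsUSmooth B) (hsurj : Function.Surjective (pushH2 E.π E.hπ L)) :
    ∃ φ : Hc2 L Lv r C →ₗ[k] T3 hr A,
      ∀ (z : ↥(Zc2 L Lv r C)) (α : (v : ι) → ↥((Lv v).Z2 (Rep.res (r v) A))),
        Rel L Lv r E (z : (G × G → C) × ((v : ι) → Gv v → C))
          (fun v => ((α v : Gv v × Gv v → Rep.res (r v) A) : Gv v × Gv v → A)) →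
        φ (Hc2π L Lv r C z) = T3π hr A (fun v => (Lv v).H2π (Rep.res (r v) A) (α v)) := by
  obtain ⟨φ, hφ⟩ := exists_linearMap_of_rel (relGraph L Lv r E) (relQ hr (A := A))
    ((Bc2 L r C).comap (Zc2 L Lv r C).subtype)
    (fun z => Rel.total hr E hN hNv hB hsurj z)
    (fun z α hzα hz => by
      rw [relQ_apply, T3π_eq_zero_iff]
      exact Rel.wd hr E hN hB hzα hz)
  exact ⟨φ, fun z α h => hφ z α h⟩

/-- **the cone connecting map** `∂ : H²_c(C) → T³(A)` -/
def coneDel (hN : L.NormalCofinal) (hNv : ∀ v, (Lv v).NormalCofinal)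
    (hB : L.IsUSmooth B) (hsurj : Function.Surjective (pushH2 E.π E.hπ L)) :
    Hc2 L Lv r C →ₗ[k] T3 hr A :=
  Classical.choose (exists_coneDel hr E hN hNv hB hsurj)

/-- `∂[z] = [α]` for every witness of the relation. -/
theorem coneDel_mk (hN : L.NormalCofinal) (hNv : ∀ v, (Lv v).NormalCofinal)
    (hB : L.IsUSmooth B) (hsurj : Function.Surjective (pushH2 E.π E.hπ L))
    (z : ↥(Zc2 L Lv r C)) (α : (v : ι) → ↥((Lv v).Z2 (Rep.res (r v) A)))
    (h : Rel L Lv r E (z : (G × G → C) × ((v : ι) → Gv v → C))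
      (fun v => ((α v : Gv v × Gv v → Rep.res (r v) A) : Gv v × Gv v → A))) :
    coneDel hr E hN hNv hB hsurj (Hc2π L Lv r C z) =
      T3π hr A (fun v => (Lv v).H2π (Rep.res (r v) A) (α v)) :=
  Classical.choose_spec (exists_coneDel hr E hN hNv hB hsurj) z α h

/-! ### exactness at `H²_c(C)` -/

/-- `∂ ∘ π_* = 0`. -/
theorem coneDel_pushHc2 (hN : L.NormalCofinal) (hNv : ∀ v, (Lv v).NormalCofinal)
    (hB : L.IsUSmooth B) (hsurj : Function.Surjective (pushH2 E.π E.hπ L))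
    (x : Hc2 L Lv r B) :
    coneDel hr E hN hNv hB hsurj (pushHc2 (L := L) (Lv := Lv) (r := r) E.π E.hπ x) = 0 := by
  obtain ⟨zB, rfl⟩ := Hc2π_surjective B x
  rw [pushHc2_mk]
  have hrel : Rel L Lv r E
      ((pushZc2 (L := L) (Lv := Lv) (r := r) E.π E.hπ zB : ↥(Zc2 L Lv r C)) :
        (G × G → C) × ((v : ι) → Gv v → C))
      (fun v => (((0 : (v : ι) → ↥((Lv v).Z2 (Rep.res (r v) A))) v :
        Gv v × Gv v → Rep.res (r v) A) : Gv v × Gv v → A)) := by
    refine ⟨(zB : (G × G → B) × ((v : ι) → Gv v → B)).1, 0,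
      (zB : (G × G → B) × ((v : ι) → Gv v → B)).2, zB.2.1, (L.C1 C).zero_mem,
      fun v => (zB.2.2 v).1, ?_, fun v => ?_, fun v => ?_⟩
    · rw [map_zero, add_zero]
      rfl
    · funext g
      show E.π _ = E.π _ - 0
      rw [sub_zero]
      rfl
    · have h := (zB.2.2 v).2
      rw [h, sub_self]
      funext g
      exact map_zero E.i
  rw [coneDel_mk hr E hN hNv hB hsurj _ 0 hrel]
  have : (fun v => (Lv v).H2π (Rep.res (r v) A)
      ((0 : (v : ι) → ↥((Lv v).Z2 (Rep.res (r v) A))) v)) = 0 := by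
    funext v
    exact map_zero _
  rw [this, map_zero]

/-- (D-F5) exactness at `H²_c(C)`: `ker ∂ = im (H²_c(B) → H²_c(C))`. -/
theorem ker_coneDel (hN : L.NormalCofinal) (hNv : ∀ v, (Lv v).NormalCofinal)
    (hB : L.IsUSmooth B) (hsurj : Function.Surjective (pushH2 E.π E.hπ L)) :
    LinearMap.ker (coneDel hr E hN hNv hB hsurj) =
      LinearMap.range (pushHc2 (L := L) (Lv := Lv) (r := r) E.π E.hπ) := by
  ext ξ
  rw [LinearMap.mem_ker, LinearMap.mem_range]
  constructor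
  · intro hξ
    obtain ⟨z, rfl⟩ := Hc2π_surjective C ξ
    obtain ⟨α, hα⟩ := Rel.total hr E hN hNv hB hsurj z
    rw [coneDel_mk hr E hN hNv hB hsurj z α hα, T3π_eq_zero_iff] at hξ
    obtain ⟨β, hβ⟩ := hξ
    obtain ⟨a₀, rfl⟩ := L.H2π_surjective A β
    obtain ⟨b, y, x, hb, hy, hx, h1, h2, h3⟩ := hα
    -- local primitives
    have hloc : ∀ v, ∃ t : Gv v → Rep.res (r v) A, (Lv v).IsLC₁ t ∧
        ∀ g, (d₁₂ (Rep.res (r v) A)).hom t g =
          (α v : Gv v × Gv v → Rep.res (r v) A) g -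
            (resZ2 (hr v) A a₀ : Gv v × Gv v → Rep.res (r v) A) g := by
      intro v
      apply exists_of_H2π_eq (Lv v)
      have := congrFun hβ v
      rw [loc2_apply, resH2_mk] at this
      exact this.symm
    choose t htlc htd using hloc
    -- the corrected lift
    have hb' : b - E.i ∘ (a₀ : G × G → A) ∈ L.Z2 B :=
      (L.Z2 B).sub_mem hb (push_mem_Z2 E.i E.hi L a₀.2)
    have hzB : ((b - E.i ∘ (a₀ : G × G → A) : G × G → B),
        (fun v => (x v + E.i ∘ (t v : Gv v → A) : Gv v → B))) ∈ Zc2 L Lv r B := by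
      refine ⟨hb', fun v => ⟨?_, ?_⟩⟩
      · exact ((Lv v).C1 (Rep.res (r v) B)).add_mem (hx v) ((htlc v).comp E.i)
      · show (d₁₂ (Rep.res (r v) B)).hom (x v + E.i ∘ (t v : Gv v → A)) = _
        rw [map_add, push_d₁₂ (A := Rep.res (r v) A) (B := Rep.res (r v) B) E.i
          (E.hi.res (r v)) (t v)]
        funext g
        have e3 := congrFun (h3 v) g
        simp only [Function.comp_apply, Pi.sub_apply] at e3
        simp only [Pi.add_apply, Function.comp_apply, Pi.sub_apply, htd v g, map_sub, e3]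
        show _ = b (Prod.map (r v) (r v) g) - E.i ((a₀ : G × G → A) (Prod.map (r v) (r v) g))
        have e4 : (resZ2 (hr v) A a₀ : Gv v × Gv v → Rep.res (r v) A) g =
          (a₀ : G × G → A) (Prod.map (r v) (r v) g) := rfl
        rw [e4]
        abel
    refine ⟨Hc2π L Lv r B ⟨_, hzB⟩, ?_⟩
    rw [pushHc2_mk, ← sub_eq_zero, ← map_sub, Hc2π_eq_zero_iff]
    refine (mem_Bc2_iff C _).2 ⟨-y, 0, (L.C1 C).neg_mem hy, ?_⟩
    ext1
    · show (d₁₂ C).hom (-y) = E.π ∘ (b - E.i ∘ (a₀ : G × G → A)) -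
        (z : (G × G → C) × ((v : ι) → Gv v → C)).1
      rw [h1, map_neg]
      funext g
      simp only [Pi.neg_apply, Pi.sub_apply, Pi.add_apply, Function.comp_apply, map_sub, E.π_i]
      abel
    · funext v g
      show (-y) (r v g) + (d₀₁ (Rep.res (r v) C)).hom ((0 : ι → C) v) g =
        E.π ((x v + E.i ∘ (t v : Gv v → A)) g) -
          (z : (G × G → C) × ((v : ι) → Gv v → C)).2 v g
      have e2 := congrFun (h2 v) g
      simp only [Function.comp_apply, Pi.sub_apply] at e2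
      have e0 : (d₀₁ (Rep.res (r v) C)).hom ((0 : ι → C) v) g = 0 := by
        rw [Pi.zero_apply, map_zero]
        rfl
      rw [e0]
      simp only [Pi.neg_apply, Pi.add_apply, Function.comp_apply, map_add, E.π_i, e2]
      abel
  · rintro ⟨x, rfl⟩
    exact coneDel_pushHc2 hr E hN hNv hB hsurj x

/-! ### exactness at `T³(A)` -/

/-- `i_* ∘ ∂ = 0`. -/
theorem pushT3_coneDel (hN : L.NormalCofinal) (hNv : ∀ v, (Lv v).NormalCofinal)
    (hB : L.IsUSmooth B) (hsurj : Function.Surjective (pushH2 E.π E.hπ L))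
    (ξ : Hc2 L Lv r C) :
    pushT3 hr E.i E.hi (coneDel hr E hN hNv hB hsurj ξ) = 0 := by
  obtain ⟨z, rfl⟩ := Hc2π_surjective C ξ
  obtain ⟨α, hα⟩ := Rel.total hr E hN hNv hB hsurj z
  rw [coneDel_mk hr E hN hNv hB hsurj z α hα, pushT3_mk, T3π_eq_zero_iff]
  obtain ⟨b, y, x, hb, hy, hx, h1, h2, h3⟩ := hα
  refine ⟨L.H2π B ⟨b, hb⟩, ?_⟩
  funext v
  rw [loc2_apply, resH2_mk, pushLoc2_apply, pushH2_mk, ← sub_eq_zero, ← map_sub,
    LevelSys.H2π_eq_zero_iff]
  refine ⟨x v, hx v, ?_⟩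
  funext g
  have e3 := congrFun (h3 v) g
  simp only [Function.comp_apply, Pi.sub_apply] at e3
  show _ = b (Prod.map (r v) (r v) g) - E.i ((α v : Gv v × Gv v → Rep.res (r v) A) g)
  rw [e3]
  abel

/-- (D-F5) exactness at `T³(A)`: `im ∂ = ker (T³(A) → T³(B))`. -/
theorem range_coneDel (hN : L.NormalCofinal) (hNv : ∀ v, (Lv v).NormalCofinal)
    (hB : L.IsUSmooth B) (hsurj : Function.Surjective (pushH2 E.π E.hπ L)) :
    LinearMap.range (coneDel hr E hN hNv hB hsurj) = LinearMap.ker (pushT3 hr E.i E.hi) := by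
  ext τ
  rw [LinearMap.mem_range, LinearMap.mem_ker]
  constructor
  · rintro ⟨ξ, rfl⟩
    exact pushT3_coneDel hr E hN hNv hB hsurj ξ
  · intro hτ
    obtain ⟨ξ, rfl⟩ := T3π_surjective hr A τ
    have hα : ∃ α : (v : ι) → ↥((Lv v).Z2 (Rep.res (r v) A)),
        (fun v => (Lv v).H2π (Rep.res (r v) A) (α v)) = ξ := by
      choose α hα using fun v => (Lv v).H2π_surjective (Rep.res (r v) A) (ξ v)
      exact ⟨α, funext hα⟩
    obtain ⟨α, rfl⟩ := hα
    rw [pushT3_mk, T3π_eq_zero_iff] at hτ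
    obtain ⟨β, hβ⟩ := hτ
    obtain ⟨b, rfl⟩ := L.H2π_surjective B β
    have hloc : ∀ v, ∃ s : Gv v → Rep.res (r v) B, (Lv v).IsLC₁ s ∧
        ∀ g, (d₁₂ (Rep.res (r v) B)).hom s g =
          E.i ((α v : Gv v × Gv v → Rep.res (r v) A) g) -
            (b : G × G → B) (Prod.map (r v) (r v) g) := by
      intro v
      have := congrFun hβ v
      rw [loc2_apply, resH2_mk, pushLoc2_apply, pushH2_mk] at this
      exact exists_of_H2π_eq (Lv v) this.symm
    choose s hslc hsd using hloc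
    have hz : ((E.π ∘ (b : G × G → B) : G × G → C),
        (fun v => (-(E.π ∘ (s v : Gv v → B)) : Gv v → C))) ∈ Zc2 L Lv r C := by
      refine ⟨push_mem_Z2 E.π E.hπ L b.2, fun v => ⟨?_, ?_⟩⟩
      · exact ((Lv v).C1 (Rep.res (r v) C)).neg_mem ((hslc v).comp E.π)
      · show (d₁₂ (Rep.res (r v) C)).hom (-(E.π ∘ (s v : Gv v → B))) = _
        rw [map_neg, push_d₁₂ (A := Rep.res (r v) B) (B := Rep.res (r v) C) E.π
          (E.hπ.res (r v)) (s v)]
        funext g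
        simp only [Pi.neg_apply, Function.comp_apply, hsd v g, map_sub, E.π_i]
        abel
    refine ⟨Hc2π L Lv r C ⟨_, hz⟩, ?_⟩
    refine coneDel_mk hr E hN hNv hB hsurj _ α ?_
    refine ⟨b, 0, fun v => -(s v : Gv v → B), b.2, (L.C1 C).zero_mem,
      fun v => ((Lv v).C1 (Rep.res (r v) B)).neg_mem (hslc v), ?_, fun v => ?_, fun v => ?_⟩
    · rw [map_zero, add_zero]
    · funext g
      show E.π (-(s v g)) = -(E.π (s v g)) - 0
      rw [map_neg, sub_zero]
    · funext g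
      show E.i ((α v : Gv v × Gv v → Rep.res (r v) A) g) =
        (b : G × G → B) (Prod.map (r v) (r v) g) -
          (d₁₂ (Rep.res (r v) B)).hom (-(s v : Gv v → B)) g
      rw [map_neg, Pi.neg_apply, hsd v g]
      abel

/-! ### anticommutativity with the local connecting maps -/

/-- (D-F5) `∂ (j y) = - [ (δ¹_v y_v)_v ]`. -/
theorem coneDel_jH (hN : L.NormalCofinal) (hNv : ∀ v, (Lv v).NormalCofinal)
    (hB : L.IsUSmooth B) (hsurj : Function.Surjective (pushH2 E.π E.hπ L))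
    (hBv : ∀ v, (Lv v).IsUSmooth (Rep.res (r v) B))
    (hCv : ∀ v, (Lv v).IsUSmooth (Rep.res (r v) C))
    (y : (v : ι) → (Lv v).H1 (Rep.res (r v) C)) :
    coneDel hr E hN hNv hB hsurj (jH (L := L) (Lv := Lv) (r := r) C y) =
      - T3π hr A (fun v => (E.res (r v)).del1 (Lv v) (hNv v) (hBv v) (hCv v) (y v)) := by
  obtain ⟨c, rfl⟩ := exists_locZ1 C y
  rw [jH_mk]
  have hxlc : ∀ v, (Lv v).IsLC₁ (E.sec ∘ (c v : Gv v → Rep.res (r v) C)) :=
    fun v => LevelSys.IsLC₁.comp (c v).2.2 E.sec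
  have hπx : ∀ v, E.π ∘ (E.sec ∘ (c v : Gv v → Rep.res (r v) C)) =
      (c v : Gv v → Rep.res (r v) C) := by
    intro v
    funext g
    exact E.π_sec _
  have hπ0 : ∀ v g, E.π (((0 : G × G → B) ∘ Prod.map (r v) (r v) -
      ((d₁₂ (Rep.res (r v) B)).hom (E.sec ∘ (c v : Gv v → Rep.res (r v) C)) :
        Gv v × Gv v → B)) g) = 0 := by
    intro v g
    have e1 := push_d₁₂ (A := Rep.res (r v) B) (B := Rep.res (r v) C) E.π (E.hπ.res (r v))
      (E.sec ∘ (c v : Gv v → Rep.res (r v) C))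
    rw [hπx v] at e1
    have e2 : (d₁₂ (Rep.res (r v) C)).hom (c v : Gv v → Rep.res (r v) C) = 0 := (c v).2.1
    rw [e2] at e1
    show E.π ((0 : B) - (d₁₂ (Rep.res (r v) B)).hom
      (E.sec ∘ (c v : Gv v → Rep.res (r v) C)) g) = 0
    rw [zero_sub, map_neg, neg_eq_zero]
    exact (congrFun e1 g).symm
  have hα : ∀ v, (E.ret ∘ ((0 : G × G → B) ∘ Prod.map (r v) (r v) -
      ((d₁₂ (Rep.res (r v) B)).hom (E.sec ∘ (c v : Gv v → Rep.res (r v) C)) :
        Gv v × Gv v → B)) : Gv v × Gv v → Rep.res (r v) A) ∈ (Lv v).Z2 (Rep.res (r v) A) :=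
    fun v => ret_comp_mem_Z2 hr E hNv hBv (L.Z2 B).zero_mem v (hxlc v) (hπ0 v)
  have hrel : Rel L Lv r E
      ((jZ (L := L) C c : ↥(Zc2 L Lv r C)) : (G × G → C) × ((v : ι) → Gv v → C))
      (fun v => (((⟨_, hα v⟩ : ↥((Lv v).Z2 (Rep.res (r v) A))) :
        Gv v × Gv v → Rep.res (r v) A) : Gv v × Gv v → A)) := by
    refine ⟨0, 0, fun v => E.sec ∘ (c v : Gv v → Rep.res (r v) C), (L.Z2 B).zero_mem,
      (L.C1 C).zero_mem, hxlc, ?_, fun v => ?_, fun v => ?_⟩
    · rw [map_zero, add_zero]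
      funext g
      exact (map_zero E.π).symm
    · rw [hπx v]
      funext g
      exact (sub_zero _).symm
    · exact E.i_comp_ret_comp (hπ0 v)
  rw [coneDel_mk hr E hN hNv hB hsurj _ (fun v => ⟨_, hα v⟩) hrel, ← map_neg]
  congr 1
  funext v
  rw [Pi.neg_apply, eq_neg_iff_add_eq_zero, add_comm, ← eq_neg_iff_add_eq_zero, ← map_neg]
  refine del1_eq_of_lift (E.res (r v)) (Lv v) (hNv v) (hBv v) (hCv v) (c v)
    (E.sec ∘ (c v : Gv v → Rep.res (r v) C)) (hxlc v) (hπx v) _ ?_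
  funext g
  have e0 := congrFun (E.i_comp_ret_comp (hπ0 v)) g
  simp only [Function.comp_apply, Pi.sub_apply, Pi.zero_apply, zero_sub] at e0
  show E.i (-(E.ret _)) = _
  rw [map_neg]
  simp only [Pi.sub_apply, Function.comp_apply, Pi.zero_apply, zero_sub, map_neg, neg_neg] at e0 ⊢
  exact neg_inj.1 e0

end Fermat.Agent.S55.PT.H113

end
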