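import Fermat.Agent.S55.PT.SpecF
import Fermat.Agent.S55.PT.ConeDelH113

/-!
# S55 / layer D: producers for the framework leaves D-F1 … D-F6 (helper113)

* `les0Spec    : Les0Spec`     (D-F1)
* `les1Spec    : Les1Spec`     (D-F2)
* `lesMidSpec  : LesMidSpec`   (D-F3)
* `coneSpec    : ConeSpec`     (D-F4)
* `coneLesSpec : ConeLesSpec`  (D-F5)
* `del0ResSpec : Del0ResSpec`  (D-F6)
-/

set_option autoImplicit false
set_option linter.unusedSectionVars false

noncomputable section

namespace Fermat.Agent.S55.PT.H113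

open groupCohomology Fermat.Agent.S55.PT

/-- **D-F1.** -/
theorem les0Spec : Les0Spec := fun _ _ _ _ L _ _ _ E hB =>
  ⟨ker_del0 E L hB, range_del0 E L hB⟩

/-- **D-F2.** -/
theorem les1Spec : Les1Spec := fun _ _ _ _ L _ _ _ E hN hB hC =>
  ⟨ker_del1 E L hN hB hC, range_del1 E L hN hB hC⟩

section H0

variable {k : Type} [Field k] {G : Type} [Group G] {A B C : Rep.{0, 0, 0} k G} (E : SES A B C)

theorem pushH0_i_injective : Function.Injective (pushH0 E.i E.hi) := by
  intro a a' h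
  apply Subtype.ext
  apply E.inj
  have := congrArg Subtype.val h
  exact this

theorem range_pushH0_i :
    LinearMap.range (pushH0 E.i E.hi) = LinearMap.ker (pushH0 E.π E.hπ) := by
  ext b
  rw [LinearMap.mem_range, LinearMap.mem_ker]
  constructor
  · rintro ⟨a, rfl⟩
    apply Subtype.ext
    show E.π (E.i (a : A)) = 0
    exact E.π_i _
  · intro hb
    have hb0 : E.π (b : B) = 0 := congrArg Subtype.val hb
    have hinv : ∀ g : G, A.ρ g (E.ret (b : B)) = E.ret (b : B) := by
      intro g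
      apply E.inj
      rw [ses_hi E g, E.i_ret hb0]
      exact b.2 g
    refine ⟨⟨E.ret (b : B), hinv⟩, ?_⟩
    apply Subtype.ext
    show E.i (E.ret (b : B)) = b
    exact E.i_ret hb0

end H0

/-- **D-F3.** -/
theorem lesMidSpec : LesMidSpec := fun _ _ _ _ L _ _ _ E hN _ hB =>
  ⟨pushH0_i_injective E, range_pushH0_i E, (ker_pushH1 E L hB).symm, (ker_pushH2 E L hN hB).symm⟩

/-- **D-F4.** -/
theorem coneSpec : ConeSpec := fun _ _ _ _ _ _ _ _ _ _ _ _ hr _ A _ =>
  ⟨ker_uH hr A, range_uH hr A⟩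

/-- **D-F5.** -/
theorem coneLesSpec : ConeLesSpec :=
  fun _ _ _ _ _ _ _ _ _ _ _ _ hr hN hNv _ _ _ E _ hB hC hsurj =>
    ⟨coneDel hr E hN hNv hB hsurj, ker_coneDel hr E hN hNv hB hsurj,
      range_coneDel hr E hN hNv hB hsurj,
      fun b => coneDel_jH hr E hN hNv hB hsurj (fun v => hB.res (hr v))
        (fun v => hC.res (hr v)) b⟩

/-- **D-F6.** -/
theorem del0ResSpec : Del0ResSpec := fun _ _ _ _ _ _ _ _ _ hr _ _ _ E hB c =>
  resH1_del0 E hr hB (hB.res hr) c

end Fermat.Agent.S55.PT.H113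

end

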