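import Fermat.Agent.S55.PT.Master
import Fermat.Agent.S55.PT.SpecFH113
import Fermat.Agent.S55.PT.LevelsH724
import Fermat.Agent.S55.PT.BridgeH724
import Fermat.Agent.S55.PT.FinGlobH593
import Fermat.Agent.S55.PT.EffaceH773
import Fermat.Agent.S55.PT.EngineH476
import Fermat.Agent.S55.PT.H837.CapDev

/-!
# S55 / layer D: final wiring (helper835)

All formal leaves of layer D are proved; S55 is reduced to the arithmetic inputs
`Surj2GlobSpec` (A3), `Surj2LocSpec` (A4), `InvSpec` (A5–A7), `CapSpec` (A8)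
and the two dévissage leaves `TopLocDevSpec`, `TopGlobDevSpec`.
-/

set_option autoImplicit false

noncomputable section

namespace Fermat.Agent.S55.PT

open groupCohomology ExtCitation Fermat.Agent.S55.Bridge

/-- **D-F8.** `ℚ(μ_p)` gives an `S`-level on which the cyclotomic character is trivial. -/
theorem cycloLevelSpec (p : ℕ) [Fact p.Prime] (S : Finset Nat.Primes) : CycloLevelSpec p S := by
  intro hpS
  obtain ⟨L, hL, hfix, -⟩ := exists_level_of_subgroup S (MonoidHom.ker (cycloChar p))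
    (cycloLevel p) (cycloLevel_finiteDimensional p)
    (fun s hs => MonoidHom.mem_ker.2 (cycloChar_eq_one_of_mem_fixingSubgroup p s hs))
    (fun q hq A hA g hg => by
      have hqp : (q : ℕ) ≠ p := by
        intro h
        apply hq
        have : q = pPrime p := Subtype.ext h
        rw [this]
        exact hpS
      exact MonoidHom.mem_ker.2 (cycloChar_eq_one_of_mem_inertia p q.2 hqp A hA g hg))
  refine ⟨L.fixingSubgroup, ⟨L, hL, rfl⟩, fun u hu => ?_⟩
  rw [hfix] at hu
  exact MonoidHom.mem_ker.1 hu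

/-- **Theorem D, reduced to the arithmetic inputs** A3, A4, A5–A7, A8 (and the two dévissage
leaves D-T2a, D-T2b).  Everything else of layer D is proved. -/
theorem theoremD_of_arith (p : ℕ) [Fact p.Prime] (S : Finset Nat.Primes) (hpS : pPrime p ∈ S)
    (hTL : TopLocDevSpec p S) (hTG : TopGlobDevSpec p S)
    (hSurjG : Surj2GlobSpec p S) (hSurjL : Surj2LocSpec p S)
    (hInv : InvSpec p S) (hCap : CapSpec p S) : TheoremDSpec p S :=
  theoremD_of_inputs H113.les0Spec H113.les1Spec H113.lesMidSpec H113.coneSpec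
    H113.coneLesSpec H113.del0ResSpec H476.engine H724.globalNormalCofinal
    H724.localNormalCofinal H724.globalFiniteIndex H724.localFiniteIndex EffaceH773.efface
    (cycloLevelSpec p S) hTL hTG (H837.capDev p S) hpS (H593.finGlob p S) hSurjG hSurjL hInv hCap

/-- **S55, reduced to the arithmetic inputs** A3, A4, A5–A7, A8 (and D-T2a, D-T2b). -/
theorem s55_of_arith {p : ℕ} [Fact p.Prime] (hp2 : p ≠ 2) (S : Finset Nat.Primes)
    (hpS : pPrime p ∈ S)
    (hTL : TopLocDevSpec p S) (hTG : TopGlobDevSpec p S)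
    (hSurjG : Surj2GlobSpec p S) (hSurjL : Surj2LocSpec p S)
    (hInv : InvSpec p S) (hCap : CapSpec p S)
    (M : Rep (ZMod p) (AlgebraicClosure ℚ ≃ₐ[ℚ] AlgebraicClosure ℚ))
    [FiniteDimensional (ZMod p) M]
    (hsm : ∀ m : M, ∃ F : IntermediateField ℚ (AlgebraicClosure ℚ), FiniteDimensional ℚ F ∧
      ∀ s ∈ F.fixingSubgroup, M.ρ s m = m)
    (hMur : ∀ q : Nat.Primes, q ∉ S → ∀ A : ValuationSubring (AlgebraicClosure ℚ),
      A.LiesOverPrime (q : ℕ) → ∀ g ∈ A.inertiaSubgroupIn ℚ, M.ρ g = 1) :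
    ∃ B : sha₁ S (M.dualTwist (cycloChar p)) →ₗ[ZMod p] sha₂ S M →ₗ[ZMod p] ZMod p,
      (∀ y, (∀ x, B y x = 0) → y = 0) ∧ (∀ x, (∀ y, B y x = 0) → x = 0) :=
  H724.bridge p S hp2 hpS (theoremD_of_arith p S hpS hTL hTG hSurjG hSurjL hInv hCap) M hsm hMur

end Fermat.Agent.S55.PT

end
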