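import Fermat.Agent.S55.PT.Setup

/-!
# S55 / PT layer, part 7: top-degree pairings

* `charHom χ N ⊆ Dual N`: functionals `f` with `f (g n) = χ(g) f(n)`, i.e. equivariant maps
  `N → ofChar χ`, i.e. `H⁰(N.dualTwist χ)`;
* `topPair L χ inv N : H²(N) → Dual (charHom χ N)`, `x ↦ (f ↦ inv (f_* x))`;
* `twTriv χ W`: the vector space `W` with action `g ↦ χ(g) • id` (so `ofChar χ = twTriv χ k`);
* `augTw U N : Ind_U (twTriv χ N) → N`, `single γU n ↦ χ(γ)⁻¹ • γ n`.
-/

set_option autoImplicit false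

noncomputable section

namespace Fermat.Agent.S55.PT

open groupCohomology

variable {k : Type} [Field k] {G : Type} [Group G]

/-! ### additivity of push-forwards in the map -/

section PushAdd

variable {A B : Rep.{0, 0, 0} k G} (L : LevelSys G)

lemma isEquivariant_add {φ ψ : A →ₗ[k] B} (hφ : IsEquivariant φ) (hψ : IsEquivariant ψ) :
    IsEquivariant (φ + ψ) := by
  intro g a
  have hφ' : ∀ (g : G) (a : A), φ (A.ρ g a) = B.ρ g (φ a) := hφ
  have hψ' : ∀ (g : G) (a : A), ψ (A.ρ g a) = B.ρ g (ψ a) := hψ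
  simp only [LinearMap.add_apply, hφ', hψ', map_add]

lemma isEquivariant_smul (c : k) {φ : A →ₗ[k] B} (hφ : IsEquivariant φ) :
    IsEquivariant (c • φ) := by
  intro g a
  have hφ' : ∀ (g : G) (a : A), φ (A.ρ g a) = B.ρ g (φ a) := hφ
  simp only [LinearMap.smul_apply, map_smul, hφ']

lemma isEquivariant_zero : IsEquivariant (0 : A →ₗ[k] B) := by
  intro g a
  simp

lemma pushH2_congr {φ ψ : A →ₗ[k] B} (hφ : IsEquivariant φ) (hψ : IsEquivariant ψ)
    (h : φ = ψ) (x : L.H2 A) : pushH2 φ hφ L x = pushH2 ψ hψ L x := by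
  subst h
  rfl

lemma pushH2_add {φ ψ : A →ₗ[k] B} (hφ : IsEquivariant φ) (hψ : IsEquivariant ψ)
    (x : L.H2 A) :
    pushH2 (φ + ψ) (isEquivariant_add hφ hψ) L x = pushH2 φ hφ L x + pushH2 ψ hψ L x := by
  obtain ⟨c, rfl⟩ := L.H2π_surjective A x
  rw [pushH2_mk, pushH2_mk, pushH2_mk, ← map_add]
  rfl

lemma pushH2_smul (a : k) {φ : A →ₗ[k] B} (hφ : IsEquivariant φ) (x : L.H2 A) :
    pushH2 (a • φ) (isEquivariant_smul a hφ) L x = a • pushH2 φ hφ L x := by
  obtain ⟨c, rfl⟩ := L.H2π_surjective A x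
  rw [pushH2_mk, pushH2_mk, ← map_smul]
  rfl

lemma pushH2_comp {C : Rep.{0, 0, 0} k G} {φ : A →ₗ[k] B} {ψ : B →ₗ[k] C}
    (hφ : IsEquivariant φ) (hψ : IsEquivariant ψ) (hψφ : IsEquivariant (ψ ∘ₗ φ)) (x : L.H2 A) :
    pushH2 (ψ ∘ₗ φ) hψφ L x = pushH2 ψ hψ L (pushH2 φ hφ L x) := by
  obtain ⟨c, rfl⟩ := L.H2π_surjective A x
  rfl

lemma isEquivariant_comp {C : Rep.{0, 0, 0} k G} {φ : A →ₗ[k] B} {ψ : B →ₗ[k] C}
    (hφ : IsEquivariant φ) (hψ : IsEquivariant ψ) : IsEquivariant (ψ ∘ₗ φ) := by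
  intro g a
  have hφ' : ∀ (g : G) (a : A), φ (A.ρ g a) = B.ρ g (φ a) := hφ
  have hψ' : ∀ (g : G) (b : B), ψ (B.ρ g b) = C.ρ g (ψ b) := hψ
  simp only [LinearMap.comp_apply, hφ', hψ']

end PushAdd

/-! ### `χ`-equivariant functionals -/

section CharHom

variable (χ : G →* kˣ) (N : Rep.{0, 0, 0} k G)

/-- functionals `f : N → k` with `f (g n) = χ(g) f(n)` -/
def charHom : Submodule k (Module.Dual k N) where
  carrier := {f | ∀ (g : G) (n : N), f (N.ρ g n) = (χ g : k) * f n}
  add_mem' := by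
    intro f f' hf hf' g n
    simp only [LinearMap.add_apply, hf g n, hf' g n, mul_add]
  zero_mem' := by
    intro g n
    simp
  smul_mem' := by
    intro c f hf g n
    simp only [LinearMap.smul_apply, hf g n, smul_eq_mul]
    ring

lemma mem_charHom_iff (f : Module.Dual k N) :
    f ∈ charHom χ N ↔ ∀ (g : G) (n : N), f (N.ρ g n) = (χ g : k) * f n := Iff.rfl

lemma ofChar_ρ_apply (g : G) (c : k) : (ofChar χ).ρ g c = (χ g : k) * c := by
  show ((Representation.trivial k G k).twist χ) g c = _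
  simp [Representation.twist_apply_apply]

/-- an element of `charHom χ N` is an equivariant map `N → ofChar χ` -/
lemma charHom_equivariant {f : Module.Dual k N} (hf : f ∈ charHom χ N) :
    IsEquivariant (A := N) (B := ofChar χ) f := by
  intro g n
  rw [ofChar_ρ_apply]
  exact hf g n

/-- `H⁰(N.dualTwist χ) = charHom χ N` as subspaces of `Dual N` -/
lemma H0_dualTwist_eq : (LevelSys.H0 (N.dualTwist χ) : Submodule k (Module.Dual k N)) =
    charHom χ N := by
  ext f
  have key : ∀ (g : G) (n : N), (((N.ρ.dual.twist χ) g) f) n = (χ g : k) * f (N.ρ g⁻¹ n) := by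
    intro g n
    simp only [Representation.twist_apply_apply, Representation.dual_apply,
      LinearMap.smul_apply, Module.Dual.transpose_apply, LinearMap.comp_apply, smul_eq_mul]
  have hinv : ∀ (g : G) (n : N), N.ρ g⁻¹ (N.ρ g n) = n := by
    intro g n
    rw [← Module.End.mul_apply, ← map_mul, inv_mul_cancel, map_one, Module.End.one_apply]
  have hinv' : ∀ (g : G) (n : N), N.ρ g (N.ρ g⁻¹ n) = n := by
    intro g n
    rw [← Module.End.mul_apply, ← map_mul, mul_inv_cancel, map_one, Module.End.one_apply]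
  constructor
  · intro hf g n
    have h : ((N.ρ.dual.twist χ) g) f = f := hf g
    have h2 : (((N.ρ.dual.twist χ) g) f) (N.ρ g n) = f (N.ρ g n) := by rw [h]
    rw [key, hinv] at h2
    exact h2.symm
  · intro hf g
    show ((N.ρ.dual.twist χ) g) f = f
    apply LinearMap.ext
    intro n
    rw [key]
    have h := hf g (N.ρ g⁻¹ n)
    rw [hinv'] at h
    exact h.symm

end CharHom

/-! ### the top pairing -/

section TopPair

variable (L : LevelSys G) (χ : G →* kˣ) (inv : L.H2 (ofChar χ) →ₗ[k] k) (N : Rep.{0, 0, 0} k G)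

/-- `f_* : H²(N) → H²(ofChar χ)` for `f ∈ charHom χ N` -/
def pushChar (f : ↥(charHom χ N)) : L.H2 N →ₗ[k] L.H2 (ofChar χ) :=
  pushH2 (A := N) (B := ofChar χ) (f : Module.Dual k N) (charHom_equivariant χ N f.2) L

lemma pushChar_add (f f' : ↥(charHom χ N)) (x : L.H2 N) :
    pushChar L χ N (f + f') x = pushChar L χ N f x + pushChar L χ N f' x :=
  pushH2_add (A := N) (B := ofChar χ) L (charHom_equivariant χ N f.2)
    (charHom_equivariant χ N f'.2) x

lemma pushChar_smul (a : k) (f : ↥(charHom χ N)) (x : L.H2 N) :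
    pushChar L χ N (a • f) x = a • pushChar L χ N f x :=
  pushH2_smul (A := N) (B := ofChar χ) L a (charHom_equivariant χ N f.2) x

/-- The top pairing `H²(N) → Dual (charHom χ N)`, `x ↦ (f ↦ inv (f_* x))`. -/
def topPair : L.H2 N →ₗ[k] Module.Dual k ↥(charHom χ N) :=
  LinearMap.mk₂ k (fun x f => inv (pushChar L χ N f x))
    (fun x x' f => by simp only [map_add])
    (fun a x f => by simp only [map_smul])
    (fun x f f' => by rw [pushChar_add, map_add])
    (fun a x f => by rw [pushChar_smul, map_smul])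

@[simp] lemma topPair_apply (x : L.H2 N) (f : ↥(charHom χ N)) :
    topPair L χ inv N x f = inv (pushChar L χ N f x) := rfl

end TopPair

/-! ### twisted trivial modules and the twisted augmentation -/

section Tw

variable (χ : G →* kˣ)

/-- the vector space `W` with `G` acting through `χ` -/
abbrev twTriv (W : Type) [AddCommGroup W] [Module k W] : Rep.{0, 0, 0} k G :=
  Rep.of ((Representation.trivial k G W).twist χ)

lemma twTriv_ρ_apply (W : Type) [AddCommGroup W] [Module k W] (g : G) (w : W) :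
    (twTriv χ W).ρ g w = (χ g : k) • w := by
  show ((Representation.trivial k G W).twist χ) g w = _
  simp [Representation.twist_apply_apply]

lemma ofChar_eq_twTriv : (ofChar χ : Rep.{0, 0, 0} k G) = twTriv χ k := rfl

variable (U : Subgroup G) [U.Normal] (N : Rep.{0, 0, 0} k G)

omit [U.Normal] in
/-- the function `γU ↦ χ(γ)⁻¹ • ρ(γ)` on `G ⧸ U`, well defined when `U` acts trivially on `N`
and `χ` is trivial on `U` (otherwise junk: we use `Quotient.out`) -/
def twAct (x : G ⧸ U) : N →ₗ[k] N :=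
  (((χ (Quotient.out x))⁻¹ : kˣ) : k) • N.ρ (Quotient.out x)

omit [U.Normal] in
/-- the twisted augmentation `Ind_U (twTriv χ N) → N`, `single γU n ↦ χ(γ)⁻¹ • γ n` -/
def augTw : ((G ⧸ U) →₀ N) →ₗ[k] N :=
  Finsupp.lsum k (fun x : G ⧸ U => twAct χ U N x)

omit [U.Normal] in
@[simp] lemma augTw_single (x : G ⧸ U) (n : N) :
    augTw χ U N (Finsupp.single x n : (G ⧸ U) →₀ N) = twAct χ U N x n := by
  rw [augTw, Finsupp.lsum_single]

omit [U.Normal] in
lemma twAct_mk (hχ : ∀ u ∈ U, χ u = 1) (hN : ∀ u ∈ U, N.ρ u = 1) (g : G) :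
    twAct χ U N (g : G ⧸ U) = (((χ g)⁻¹ : kˣ) : k) • N.ρ g := by
  obtain ⟨u, hu⟩ := QuotientGroup.mk_out_eq_mul U g
  unfold twAct
  rw [hu, map_mul, map_mul, hχ u u.2, hN u u.2, mul_one, mul_one]

omit [U.Normal] in
/-- the twisted augmentation is equivariant (when `U` acts trivially on `N` and `χ|_U = 1`) -/
lemma augTw_equivariant (hχ : ∀ u ∈ U, χ u = 1) (hN : ∀ u ∈ U, N.ρ u = 1) :
    IsEquivariant (A := indRep U (twTriv χ N)) (B := N) (augTw χ U N) := by
  intro g
  have : (augTw χ U N) ∘ₗ (indAct U (twTriv χ N) g) = (N.ρ g) ∘ₗ (augTw χ U N) := by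
    apply Finsupp.lhom_ext
    intro x n
    induction x using QuotientGroup.induction_on with
    | H a =>
      rw [LinearMap.comp_apply, LinearMap.comp_apply, indAct_single, augTw_single, augTw_single]
      have h1 : (g • (a : G ⧸ U)) = ((g * a : G) : G ⧸ U) := rfl
      rw [h1, twAct_mk χ U N hχ hN, twAct_mk χ U N hχ hN, twTriv_ρ_apply]
      simp only [LinearMap.smul_apply, map_mul, Module.End.mul_apply, map_smul, smul_smul]
      congr 1
      simp only [Units.val_mul, Units.val_inv_eq_inv_val, mul_inv_rev]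
      have h1 : (χ g : k) ≠ 0 := (χ g).ne_zero
      have h2 : (χ a : k) ≠ 0 := (χ a).ne_zero
      field_simp
  exact fun a => LinearMap.congr_fun this a

omit [U.Normal] in
lemma augTw_surjective (hχ : ∀ u ∈ U, χ u = 1) (hN : ∀ u ∈ U, N.ρ u = 1) :
    Function.Surjective (augTw χ U N) := by
  intro n
  refine ⟨(Finsupp.single ((1 : G) : G ⧸ U) n : (G ⧸ U) →₀ N), ?_⟩
  rw [augTw_single, twAct_mk χ U N hχ hN]
  simp

omit [U.Normal] in
/-- level change is compatible with the twisted augmentations -/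
lemma augTw_indLE {V : Subgroup G} (h : U ≤ V) (hχ : ∀ u ∈ V, χ u = 1)
    (hN : ∀ u ∈ V, N.ρ u = 1) (a : (G ⧸ U) →₀ N) :
    augTw χ V N (indLE (twTriv χ N) h a) = augTw χ U N a := by
  have : (augTw χ V N) ∘ₗ (indLE (twTriv χ N) h) = augTw χ U N := by
    apply Finsupp.lhom_ext
    intro x n
    induction x using QuotientGroup.induction_on with
    | H g =>
      rw [LinearMap.comp_apply, indLE_single, augTw_single, augTw_single]
      have h1 : Subgroup.quotientMapOfLE h (g : G ⧸ U) = (g : G ⧸ V) := rfl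
      rw [h1, twAct_mk χ V N hχ hN, twAct_mk χ U N (fun u hu => hχ u (h hu))
        (fun u hu => hN u (h hu))]
  exact LinearMap.congr_fun this a

/-- the presentation `0 → R → Ind_U (twTriv χ N) → N → 0` -/
def twSES (hχ : ∀ u ∈ U, χ u = 1) (hN : ∀ u ∈ U, N.ρ u = 1) :
    SES (kerRep (A := indRep U (twTriv χ N)) (B := N) (augTw χ U N)
      (augTw_equivariant χ U N hχ hN)) (indRep U (twTriv χ N)) N :=
  kerSES (A := indRep U (twTriv χ N)) (B := N) (augTw χ U N) (augTw_equivariant χ U N hχ hN)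
    (augTw_surjective χ U N hχ hN)

end Tw

/-! ### the global top map on `∏_v H²(G_v, −)` and on `T³` -/

section Glob

variable {ι : Type} [Fintype ι] [DecidableEq ι] {Gv : ι → Type} [∀ v, Group (Gv v)]
variable {L : LevelSys G} {Lv : ∀ v, LevelSys (Gv v)} {r : ∀ v, Gv v →* G}
variable (hr : ∀ v, IsLevelCompatible (r v) L (Lv v))
variable (χ : G →* kˣ) (inv : ∀ v, (Lv v).H2 (ofChar (χ.comp (r v))) →ₗ[k] k)
variable (N : Rep.{0, 0, 0} k G)

/-- a global `χ`-equivariant functional is locally `χ ∘ r`-equivariant -/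
def charHomRes {G' : Type} [Group G'] (s : G' →* G) :
    ↥(charHom χ N) →ₗ[k] ↥(charHom (χ.comp s) (Rep.res s N)) where
  toFun f := ⟨(f : Module.Dual k N), fun g n => f.2 (s g) n⟩
  map_add' _ _ := rfl
  map_smul' _ _ := rfl

@[simp] lemma coe_charHomRes {G' : Type} [Group G'] (s : G' →* G) (f : ↥(charHom χ N)) :
    ((charHomRes χ N s f : ↥(charHom (χ.comp s) (Rep.res s N))) : Module.Dual k N) = f := rfl

/-- `(x_v)_v ↦ (f ↦ Σ_v inv_v (f_* x_v))` -/
def topGlobFun : ((v : ι) → (Lv v).H2 (Rep.res (r v) N)) →ₗ[k] Module.Dual k ↥(charHom χ N) :=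
  ∑ v : ι, (Module.Dual.transpose (R := k) (charHomRes χ N (r v))) ∘ₗ
    (topPair (Lv v) (χ.comp (r v)) (inv v) (Rep.res (r v) N)) ∘ₗ LinearMap.proj v

lemma topGlobFun_apply (x : (v : ι) → (Lv v).H2 (Rep.res (r v) N)) (f : ↥(charHom χ N)) :
    topGlobFun χ inv N x f =
      ∑ v : ι, inv v (pushChar (Lv v) (χ.comp (r v)) (Rep.res (r v) N)
        (charHomRes χ N (r v) f) (x v)) := by
  simp only [topGlobFun, LinearMap.sum_apply, LinearMap.comp_apply, LinearMap.proj_apply,
    Module.Dual.transpose_apply, topPair_apply]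

/-- reciprocity for `inv`: `Σ_v inv_v (loc_v y) = 0` for `y ∈ H²(G, ofChar χ)` -/
def IsRecip : Prop :=
  ∀ y : L.H2 (ofChar χ), ∑ v : ι, inv v (resH2 (hr v) (ofChar χ) y) = 0

variable {χ inv}

include hr in
lemma topGlobFun_loc2 (hrec : IsRecip hr χ inv) (y : L.H2 N) :
    topGlobFun χ inv N (loc2 hr N y) = 0 := by
  apply LinearMap.ext
  intro f
  rw [topGlobFun_apply, LinearMap.zero_apply]
  have h := hrec (pushChar L χ N f y)
  rw [← h]
  refine Finset.sum_congr rfl fun v _ => ?_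
  congr 1
  exact (resH2_pushH2 (A := N) (B := ofChar χ) (f : Module.Dual k N)
    (charHom_equivariant χ N f.2) (hr v) y).symm

/-- The global top map `Θ(N) : T³(N) → Dual (charHom χ N)`. -/
def topT3 (hrec : IsRecip hr χ inv) : T3 hr N →ₗ[k] Module.Dual k ↥(charHom χ N) :=
  Submodule.liftQ _ (topGlobFun χ inv N) (by
    rintro x ⟨y, rfl⟩
    exact topGlobFun_loc2 hr N hrec y)

@[simp] lemma topT3_mk (hrec : IsRecip hr χ inv) (x : (v : ι) → (Lv v).H2 (Rep.res (r v) N)) :
    topT3 hr N hrec (T3π hr N x) = topGlobFun χ inv N x := rfl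

end Glob

end Fermat.Agent.S55.PT

end
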