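import Fermat.Agent.S55.PT.Cone

/-!
# S55 / PT layer, part 5: induced modules `Ind_U M = (G ⧸ U →₀ M)` (diagonal action),
augmentation, kernel representation, level change, local-to-global comparison,
dual short exact sequences.

Definitions only (+ the few proofs needed to make them).  Properties are leaves (`Spec.lean`).
-/

set_option autoImplicit false

noncomputable section

namespace Fermat.Agent.S55.PT

open groupCohomology

variable {k : Type} [Field k] {G : Type} [Group G]

/-! ### kernel of an equivariant map as a representation -/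

section Ker

variable {A B : Rep.{0, 0, 0} k G} (φ : A →ₗ[k] B) (hφ : IsEquivariant φ)

include hφ in
lemma ker_le_comap (g : G) : LinearMap.ker φ ≤ (LinearMap.ker φ).comap (A.ρ g) := by
  intro a ha
  rw [Submodule.mem_comap, LinearMap.mem_ker, hφ g a, LinearMap.mem_ker.1 ha, map_zero]

/-- the kernel of an equivariant map, as a representation -/
abbrev kerRep : Rep.{0, 0, 0} k G :=
  Rep.of (A.ρ.subrepresentation (LinearMap.ker φ) (ker_le_comap φ hφ))

/-- the inclusion `ker φ → A` -/
def kerIncl : ↥(LinearMap.ker φ) →ₗ[k] A := (LinearMap.ker φ).subtype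

include hφ in
lemma kerIncl_equivariant : IsEquivariant (A := kerRep φ hφ) (B := A) (kerIncl φ) :=
  fun _ _ => rfl

lemma kerIncl_injective : Function.Injective (kerIncl φ) := Subtype.val_injective

/-- the short exact sequence `0 → ker φ → A → B → 0` of a surjective equivariant map -/
def kerSES (hsurj : Function.Surjective φ) : SES (kerRep φ hφ) A B where
  i := kerIncl φ
  π := φ
  hi := kerIncl_equivariant φ hφ
  hπ := hφ
  inj := kerIncl_injective φ
  surj := hsurj
  exact := Submodule.range_subtype _

end Ker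

/-! ### induced modules -/

section Ind

variable (U : Subgroup G) (M : Rep.{0, 0, 0} k G)

/-- the action of `g` on `G ⧸ U →₀ M`: `single x m ↦ single (g • x) (g • m)` -/
def indAct (g : G) : ((G ⧸ U) →₀ M) →ₗ[k] ((G ⧸ U) →₀ M) :=
  (Finsupp.lmapDomain M k (fun x : G ⧸ U => g • x)) ∘ₗ (Finsupp.mapRange.linearMap (M.ρ g))

@[simp] lemma indAct_single (g : G) (x : G ⧸ U) (m : M) :
    indAct U M g (Finsupp.single x m) = Finsupp.single (g • x) (M.ρ g m) := by
  rw [indAct, LinearMap.comp_apply, Finsupp.mapRange.linearMap_apply, Finsupp.mapRange_single,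
    Finsupp.lmapDomain_apply, Finsupp.mapDomain_single]

/-- the diagonal representation on `G ⧸ U →₀ M` -/
def indRho : Representation k G ((G ⧸ U) →₀ M) where
  toFun := indAct U M
  map_one' := by
    apply Finsupp.lhom_ext
    intro x m
    simp
  map_mul' g h := by
    apply Finsupp.lhom_ext
    intro x m
    simp [mul_smul]

/-- `Ind_U M` -/
abbrev indRep : Rep.{0, 0, 0} k G := Rep.of (indRho U M)

lemma indRep_ρ_single (g : G) (x : G ⧸ U) (m : M) :
    (indRep U M).ρ g (Finsupp.single x m : (G ⧸ U) →₀ M) =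
      (Finsupp.single (g • x) (M.ρ g m) : (G ⧸ U) →₀ M) :=
  indAct_single U M g x m

/-- the augmentation `Ind_U M → M`, `single x m ↦ m` -/
def indAug : ((G ⧸ U) →₀ M) →ₗ[k] M :=
  Finsupp.lsum k (fun _ : G ⧸ U => (LinearMap.id : M →ₗ[k] M))

@[simp] lemma indAug_single (x : G ⧸ U) (m : M) :
    indAug U M (Finsupp.single x m : (G ⧸ U) →₀ M) = m := by
  rw [indAug, Finsupp.lsum_single]; rfl

lemma indAug_equivariant : IsEquivariant (A := indRep U M) (B := M) (indAug U M) := by
  intro g
  have : (indAug U M) ∘ₗ (indAct U M g) = (M.ρ g) ∘ₗ (indAug U M) := by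
    apply Finsupp.lhom_ext
    intro x m
    rw [LinearMap.comp_apply, LinearMap.comp_apply, indAct_single, indAug_single, indAug_single]
  exact fun a => LinearMap.congr_fun this a

lemma indAug_surjective : Function.Surjective (indAug U M) := fun m =>
  ⟨(Finsupp.single ((1 : G) : G ⧸ U) m : (G ⧸ U) →₀ M), indAug_single U M _ m⟩

/-- `R = ker (Ind_U M → M)` -/
abbrev indKer : Rep.{0, 0, 0} k G :=
  kerRep (A := indRep U M) (B := M) (indAug U M) (indAug_equivariant U M)

/-- the presentation `0 → R → Ind_U M → M → 0` -/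
def indSES : SES (indKer U M) (indRep U M) M :=
  kerSES (A := indRep U M) (B := M) (indAug U M) (indAug_equivariant U M)
    (indAug_surjective U M)

/-- functoriality of `Ind_U` in the module -/
def indMap {M N : Rep.{0, 0, 0} k G} (φ : M →ₗ[k] N) :
    ((G ⧸ U) →₀ M) →ₗ[k] ((G ⧸ U) →₀ N) :=
  Finsupp.mapRange.linearMap φ

@[simp] lemma indMap_single {M N : Rep.{0, 0, 0} k G} (φ : M →ₗ[k] N) (x : G ⧸ U) (m : M) :
    indMap U φ (Finsupp.single x m : (G ⧸ U) →₀ M) = (Finsupp.single x (φ m) : (G ⧸ U) →₀ N) := by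
  rw [indMap, Finsupp.mapRange.linearMap_apply, Finsupp.mapRange_single]

variable {U} in
/-- level change `Ind_U M → Ind_V M` for `U ≤ V` -/
def indLE {V : Subgroup G} (h : U ≤ V) : ((G ⧸ U) →₀ M) →ₗ[k] ((G ⧸ V) →₀ M) :=
  Finsupp.lmapDomain M k (Subgroup.quotientMapOfLE h)

@[simp] lemma indLE_single {V : Subgroup G} (h : U ≤ V) (x : G ⧸ U) (m : M) :
    indLE M h (Finsupp.single x m : (G ⧸ U) →₀ M) =
      (Finsupp.single (Subgroup.quotientMapOfLE h x) m : (G ⧸ V) →₀ M) := by
  rw [indLE, Finsupp.lmapDomain_apply, Finsupp.mapDomain_single]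

lemma quotientMapOfLE_smul {V : Subgroup G} (h : U ≤ V) (g : G) (x : G ⧸ U) :
    Subgroup.quotientMapOfLE h (g • x) = g • Subgroup.quotientMapOfLE h x := by
  induction x using QuotientGroup.induction_on with
  | H a => rfl

lemma indLE_equivariant {V : Subgroup G} (h : U ≤ V) :
    IsEquivariant (A := indRep U M) (B := indRep V M) (indLE M h) := by
  intro g
  have : (indLE M h) ∘ₗ (indAct U M g) = (indAct V M g) ∘ₗ (indLE M h) := by
    apply Finsupp.lhom_ext
    intro x m
    rw [LinearMap.comp_apply, LinearMap.comp_apply, indAct_single, indLE_single, indLE_single,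
      indAct_single, quotientMapOfLE_smul]
  exact fun a => LinearMap.congr_fun this a

lemma indAug_indLE {V : Subgroup G} (h : U ≤ V) (a : (G ⧸ U) →₀ M) :
    indAug V M (indLE M h a) = indAug U M a := by
  have : (indAug V M) ∘ₗ (indLE M h) = indAug U M := by
    apply Finsupp.lhom_ext
    intro x m
    rw [LinearMap.comp_apply, indLE_single, indAug_single, indAug_single]
  exact LinearMap.congr_fun this a

lemma indMap_equivariant {M N : Rep.{0, 0, 0} k G} (φ : M →ₗ[k] N) (hφ : IsEquivariant φ) :
    IsEquivariant (A := indRep U M) (B := indRep U N) (indMap U φ) := by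
  intro g
  have hφ' : ∀ (g : G) (a : M), φ (M.ρ g a) = N.ρ g (φ a) := hφ
  have : (indMap U φ) ∘ₗ (indAct U M g) = (indAct U N g) ∘ₗ (indMap U φ) := by
    apply Finsupp.lhom_ext
    intro x m
    rw [LinearMap.comp_apply, LinearMap.comp_apply, indAct_single, indMap_single, indMap_single,
      indAct_single, hφ']
  exact fun a => LinearMap.congr_fun this a

end Ind

/-! ### local-to-global comparison -/

section LocGlob

variable {G' : Type} [Group G'] (r : G' →* G) (U : Subgroup G) (W : Subgroup G')
  (M : Rep.{0, 0, 0} k G)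

variable {r U W} in
/-- the map `G' ⧸ W → G ⧸ U` induced by `r` when `W ≤ r⁻¹ U` -/
def quotMap (h : W ≤ U.comap r) : G' ⧸ W → G ⧸ U :=
  Quotient.map' r (by
    intro a b hab
    rw [QuotientGroup.leftRel_apply] at hab ⊢
    have := h hab
    simpa [Subgroup.mem_comap, map_mul, map_inv] using this)

variable {r U W} in
@[simp] lemma quotMap_mk (h : W ≤ U.comap r) (g : G') :
    quotMap h (g : G' ⧸ W) = ((r g : G) : G ⧸ U) := rfl

variable {r U W} in
/-- the comparison map `Ind_W^{G'}(M|_{G'}) → (Ind_U^G M)|_{G'}` -/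
def indLocGlob (h : W ≤ U.comap r) : ((G' ⧸ W) →₀ M) →ₗ[k] ((G ⧸ U) →₀ M) :=
  Finsupp.lmapDomain M k (quotMap h)

variable {r U W} in
@[simp] lemma indLocGlob_single (h : W ≤ U.comap r) (x : G' ⧸ W) (m : M) :
    indLocGlob M h (Finsupp.single x m : (G' ⧸ W) →₀ M) =
      (Finsupp.single (quotMap h x) m : (G ⧸ U) →₀ M) := by
  rw [indLocGlob, Finsupp.lmapDomain_apply, Finsupp.mapDomain_single]

variable {r U W} in
lemma quotMap_smul (h : W ≤ U.comap r) (g : G') (x : G' ⧸ W) :
    quotMap h (g • x) = r g • quotMap h x := by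
  induction x using QuotientGroup.induction_on with
  | H a =>
    show ((r (g * a) : G) : G ⧸ U) = _
    rw [map_mul]
    rfl

variable {r U W} in
lemma indLocGlob_equivariant (h : W ≤ U.comap r) :
    IsEquivariant (A := indRep W (Rep.res r M)) (B := Rep.res r (indRep U M))
      (indLocGlob M h) := by
  intro g
  have : (indLocGlob M h) ∘ₗ (indAct W (Rep.res r M) g) =
      (indAct U M (r g)) ∘ₗ (indLocGlob M h) := by
    apply Finsupp.lhom_ext
    intro x m
    rw [LinearMap.comp_apply, LinearMap.comp_apply, indAct_single, indLocGlob_single,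
      indLocGlob_single, indAct_single, quotMap_smul]
    rfl
  exact fun a => LinearMap.congr_fun this a

variable {r U W} in
lemma indAug_indLocGlob (h : W ≤ U.comap r) (a : (G' ⧸ W) →₀ M) :
    indAug U M (indLocGlob M h a) = indAug W (Rep.res r M) a := by
  have : (indAug U M) ∘ₗ (indLocGlob M h) = indAug W (Rep.res r M) := by
    apply Finsupp.lhom_ext
    intro x m
    rw [LinearMap.comp_apply, indLocGlob_single, indAug_single]
    exact (indAug_single W (Rep.res r M) x m).symm
  exact LinearMap.congr_fun this a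

end LocGlob

/-! ### duals -/

section Dual

variable (χ : G →* kˣ)

/-- the dual of an equivariant map is equivariant for the twisted duals -/
lemma dualMap_equivariant {A B : Rep.{0, 0, 0} k G} (φ : A →ₗ[k] B) (hφ : IsEquivariant φ) :
    IsEquivariant (A := B.dualTwist χ) (B := A.dualTwist χ) φ.dualMap := by
  intro g f
  apply LinearMap.ext
  intro a
  have hφ' : ∀ (g : G) (a : A), φ (A.ρ g a) = B.ρ g (φ a) := hφ
  show (((B.ρ.dual.twist χ) g) f) (φ a) = (((A.ρ.dual.twist χ) g) (φ.dualMap f)) a
  simp only [Representation.twist_apply_apply, Representation.dual_apply, LinearMap.smul_apply,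
    Module.Dual.transpose_apply, LinearMap.comp_apply, LinearMap.dualMap_apply, hφ']

/-- the dual short exact sequence `0 → C′ → B′ → A′ → 0` -/
def SES.dual {A B C : Rep.{0, 0, 0} k G} (E : SES A B C) :
    SES (C.dualTwist χ) (B.dualTwist χ) (A.dualTwist χ) where
  i := E.π.dualMap
  π := E.i.dualMap
  hi := dualMap_equivariant χ E.π E.hπ
  hπ := dualMap_equivariant χ E.i E.hi
  inj := LinearMap.dualMap_injective_of_surjective E.surj
  surj := LinearMap.dualMap_surjective_of_injective E.inj
  exact := by
    rw [LinearMap.range_dualMap_eq_dualAnnihilator_ker, LinearMap.ker_dualMap_eq_dualAnnihilator_range,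
      E.exact]

end Dual

end Fermat.Agent.S55.PT

end
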