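import Fermat.Agent.S55.PT.Master
import Fermat.Agent.S55.PT.FrattiniH424
import Fermat.Agent.S55.Bridge.DualTwist

/-!
# S55 / layer D: the level leaves D-F7a, D-F7b, D-F8 (helper424)

* `globalNormalCofinal : GlobalNormalCofinalSpec`   (from `PT/LevelsNormal.lean`, helper724);
* `localNormalCofinal : LocalNormalCofinalSpec`;
* `cycloLevelSpec : CycloLevelSpec p S`  (`ℚ(μ_p)` is a level of `S ∋ p`).
(D-F7c, D-F7d are in `PT/FiniteIndexH424.lean`.)
-/

set_option autoImplicit false
set_option linter.unusedSectionVars false
set_option linter.style.haveILetI false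

namespace Fermat.Agent.S55.PT.H424

open groupCohomology ExtCitation Fermat.Agent.S55.PT Fermat.Agent.S55.Bridge

/-- **D-F7a.** -/
theorem globalNormalCofinal : GlobalNormalCofinalSpec :=
  fun S => globalLevels_normalCofinal S

/-- **D-F7b.** -/
theorem localNormalCofinal : LocalNormalCofinalSpec :=
  fun q => localLevels_normalCofinal q

/-- **D-F8.** There is an `S`-level on which the cyclotomic character is trivial. -/
theorem cycloLevelSpec (p : ℕ) [Fact p.Prime] (S : Finset Nat.Primes) : CycloLevelSpec p S := by
  intro hpS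
  obtain ⟨L, hL, hfix, -⟩ := exists_level_of_subgroup S
    (MonoidHom.ker (cycloChar p)) (cycloLevel p) (cycloLevel_finiteDimensional p)
    (fun s hs => MonoidHom.mem_ker.2 (cycloChar_eq_one_of_mem_fixingSubgroup p s hs))
    (fun q hq A hA g hg => by
      have hqp : (q : ℕ) ≠ p := by
        intro h
        apply hq
        have : q = pPrime p := Subtype.ext h
        rw [this]
        exact hpS
      exact MonoidHom.mem_ker.2 (cycloChar_eq_one_of_mem_inertia p q.2 hqp A hA g hg))
  refine ⟨L.fixingSubgroup, ⟨L, hL, rfl⟩, fun u hu => ?_⟩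
  rw [hfix] at hu
  exact MonoidHom.mem_ker.1 hu

end Fermat.Agent.S55.PT.H424
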