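import Fermat.Agent.S55.PT.Master
import Fermat.Agent.S55.H414.CycloLevel

/-!
# S55 / layer D, leaf D-F8 (helper723): `ℚ(μ_p)` is an `S`-level trivialising the cyclotomic
character when `p ∈ S`.
-/

set_option autoImplicit false
set_option linter.style.haveILetI false

noncomputable section

namespace Fermat.Agent.S55.PT.H723

open ExtCitation Fermat.Agent.S55.PT

/-- **D-F8** -/
theorem cycloLevelSpec (p : ℕ) [Fact p.Prime] (S : Finset Nat.Primes) : CycloLevelSpec p S := by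
  intro hpS
  haveI : NeZero p := ⟨(Fact.out : p.Prime).ne_zero⟩
  haveI : NeZero (p ^ 1) := ⟨pow_ne_zero 1 (Fact.out : p.Prime).ne_zero⟩
  refine ⟨(Fermat.Agent.S55.H414.cycloLevel (p ^ 1)).fixingSubgroup,
    ⟨_, Fermat.Agent.S55.H414.isUnramifiedOutside_cycloLevel p 1 S hpS, rfl⟩, ?_⟩
  intro u hu
  apply Fermat.Agent.S55.Bridge.cycloChar_eq_one_of_fixes
  intro t ht
  have hz := Fermat.Agent.S55.H414.zetaBar_spec (p ^ 1)
  have htp : (t : AlgebraicClosure ℚ) ^ (p ^ 1) = 1 := by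
    rw [pow_one]
    have h1 : t ^ p = 1 := (mem_rootsOfUnity p t).1 ht
    have h2 := congrArg (fun x : (AlgebraicClosure ℚ)ˣ => (x : AlgebraicClosure ℚ)) h1
    simpa using h2
  obtain ⟨i, -, hi⟩ := hz.eq_pow_of_pow_eq_one htp
  have hfix : u (Fermat.Agent.S55.H414.zetaBar (p ^ 1)) = Fermat.Agent.S55.H414.zetaBar (p ^ 1) :=
    (Fermat.Agent.S55.H414.mem_fixingSubgroup_cycloLevel_iff _ u).1 hu
  rw [← hi, map_pow, hfix]

end Fermat.Agent.S55.PT.H723

end
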