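import Fermat.Agent.S55.PT.Coh

/-!
# S55 / PT layer, part 3: connecting homomorphisms `δ⁰ : H⁰(C) → H¹(A)`, `δ¹ : H¹(C) → H²(A)`
for a short exact sequence `0 → A → B → C → 0` of uniformly smooth representations.

Everything is `k`-linear because we use `k`-linear (non-equivariant) splittings `sec`, `ret`.
The exactness statements are leaves (see `Spec.lean`).
-/

set_option autoImplicit false

noncomputable section

namespace Fermat.Agent.S55.PT

open groupCohomology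

variable {k : Type} [Field k] {G : Type} [Group G]

/-! ### level-constancy of coboundaries -/

namespace LevelSys

variable (L : LevelSys G) {A : Rep.{0, 0, 0} k G}

lemma d₀₁_isLC₁ (hA : L.IsUSmooth A) (m : A) : L.IsLC₁ ((d₀₁ A).hom m) := by
  obtain ⟨U, hU, h⟩ := hA
  refine ⟨U, hU, fun g s hs => ?_⟩
  simp only [d₀₁_hom_apply, map_mul, Module.End.mul_apply, h s hs m]

lemma B1_le_C1 (hA : L.IsUSmooth A) : B1 A ≤ L.C1 A := by
  rintro f ⟨m, rfl⟩
  exact L.d₀₁_isLC₁ hA m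

lemma d₁₂_isLC₂ (hN : L.NormalCofinal) (hA : L.IsUSmooth A) {x : G → A} (hx : L.IsLC₁ x) :
    L.IsLC₂ ((d₁₂ A).hom x) := by
  obtain ⟨U, hU, h⟩ := hA
  obtain ⟨V, hV, hx⟩ := hx
  obtain ⟨W, hW, hWle⟩ := L.directed U hU V hV
  obtain ⟨N, hNl, hNW, hNn⟩ := hN W hW
  refine ⟨N, hNl, fun g g' s s' hs hs' => ?_⟩
  have hsU : s ∈ U := (hWle (hNW hs)).1
  have hs'V : s' ∈ V := (hWle (hNW hs')).2
  have hconj : g'⁻¹ * s * g' ∈ N := by
    have := hNn.conj_mem s hs g'⁻¹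
    simpa using this
  have hmem : g'⁻¹ * s * g' * s' ∈ V := (hWle (hNW (N.mul_mem hconj hs'))).2
  have e1 : g * s * (g' * s') = g * g' * (g'⁻¹ * s * g' * s') := by group
  simp only [d₁₂_hom_apply]
  rw [e1, hx (g * g') _ hmem, hx g' s' hs'V, hx g s (hWle (hNW hs)).2, map_mul,
    Module.End.mul_apply, h s hsU]

lemma B2_le_C2 (hN : L.NormalCofinal) (hA : L.IsUSmooth A) : L.B2 A ≤ L.C2 A := by
  rintro f ⟨x, hx, rfl⟩
  exact L.d₁₂_isLC₂ hN hA hx

lemma B2_le_Z2 (hN : L.NormalCofinal) (hA : L.IsUSmooth A) : L.B2 A ≤ L.Z2 A := by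
  rintro f hf
  refine ⟨?_, L.B2_le_C2 hN hA hf⟩
  obtain ⟨x, -, rfl⟩ := hf
  show (d₂₃ A).hom ((d₁₂ A).hom x) = 0
  have := d₁₂_comp_d₂₃ A
  have h2 := congrArg (fun f => f.hom x) this
  simpa using h2

lemma B1_le_Z1 (hA : L.IsUSmooth A) : B1 A ≤ L.Z1 A := by
  rintro f hf
  refine ⟨?_, L.B1_le_C1 hA hf⟩
  obtain ⟨m, rfl⟩ := hf
  show (d₁₂ A).hom ((d₀₁ A).hom m) = 0
  have := d₀₁_comp_d₁₂ A
  have h2 := congrArg (fun f => f.hom m) this
  simpa using h2

end LevelSys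

/-- A short exact sequence `0 → A → B → C → 0` of representations (maps are plain linear maps
together with equivariance proofs). -/
structure SES (A B C : Rep.{0, 0, 0} k G) where
  /-- the injection -/
  i : A →ₗ[k] B
  /-- the surjection -/
  π : B →ₗ[k] C
  hi : IsEquivariant i
  hπ : IsEquivariant π
  inj : Function.Injective i
  surj : Function.Surjective π
  exact : LinearMap.range i = LinearMap.ker π

namespace SES

variable {A B C : Rep.{0, 0, 0} k G} (E : SES A B C)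

/-- a `k`-linear section of `π` -/
def sec : C →ₗ[k] B := Classical.choose (LinearMap.exists_rightInverse_of_surjective E.π
  (LinearMap.range_eq_top.2 E.surj))

lemma π_sec (c : C) : E.π (E.sec c) = c :=
  LinearMap.congr_fun (Classical.choose_spec (LinearMap.exists_rightInverse_of_surjective E.π
    (LinearMap.range_eq_top.2 E.surj))) c

/-- a `k`-linear retraction of `i` -/
def ret : B →ₗ[k] A := Classical.choose (LinearMap.exists_leftInverse_of_injective E.i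
  (LinearMap.ker_eq_bot.2 E.inj))

lemma ret_i (a : A) : E.ret (E.i a) = a :=
  LinearMap.congr_fun (Classical.choose_spec (LinearMap.exists_leftInverse_of_injective E.i
    (LinearMap.ker_eq_bot.2 E.inj))) a

lemma i_ret {b : B} (hb : E.π b = 0) : E.i (E.ret b) = b := by
  have : b ∈ LinearMap.range E.i := by rw [E.exact]; exact hb
  obtain ⟨a, rfl⟩ := this
  rw [E.ret_i]

lemma π_i (a : A) : E.π (E.i a) = 0 := by
  have : E.i a ∈ LinearMap.ker E.π := by rw [← E.exact]; exact ⟨a, rfl⟩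
  exact this

lemma i_comp_ret_comp {X : Type*} {f : X → B} (hf : ∀ x, E.π (f x) = 0) :
    (E.i ∘ (E.ret ∘ f) : X → B) = f := by
  funext x
  exact E.i_ret (hf x)

variable (L : LevelSys G)

/-- cochain-level `δ⁰`: `c ↦ (g ↦ ret (g • sec c - sec c))` -/
def del0Fun : C →ₗ[k] (G → A) :=
  (E.ret.compLeft G) ∘ₗ (d₀₁ B).hom ∘ₗ E.sec

/-- cochain-level `δ¹`: `c ↦ ret ∘ d(sec ∘ c)` -/
def del1Fun : (G → C) →ₗ[k] (G × G → A) :=
  (E.ret.compLeft (G × G)) ∘ₗ (d₁₂ B).hom ∘ₗ (E.sec.compLeft G)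

lemma del0Fun_apply (c : C) : E.del0Fun c = E.ret ∘ (d₀₁ B).hom (E.sec c) := rfl

lemma del1Fun_apply (c : G → C) : E.del1Fun c = E.ret ∘ (d₁₂ B).hom (E.sec ∘ c) := rfl

lemma π_d₀₁_sec (c : ↥(LevelSys.H0 C)) (g : G) : E.π ((d₀₁ B).hom (E.sec (c : C)) g) = 0 := by
  have hπ : ∀ (g : G) (b : B), E.π (B.ρ g b) = C.ρ g (E.π b) := E.hπ
  simp only [d₀₁_hom_apply, map_sub, hπ, E.π_sec]
  rw [c.2 g, sub_self]

lemma i_comp_del0Fun (c : ↥(LevelSys.H0 C)) :
    (E.i ∘ E.del0Fun (c : C) : G → B) = (d₀₁ B).hom (E.sec (c : C)) :=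
  E.i_comp_ret_comp (E.π_d₀₁_sec c)

lemma π_d₁₂_sec {c : G → C} (hc : c ∈ cocycles₁ C) (x : G × G) :
    E.π ((d₁₂ B).hom (E.sec ∘ c) x) = 0 := by
  have h1 : (E.π ∘ (d₁₂ B).hom (E.sec ∘ c) : G × G → C) = (d₁₂ C).hom (E.π ∘ (E.sec ∘ c)) :=
    (push_d₁₂ E.π E.hπ (E.sec ∘ c)).symm
  have h2 : (E.π ∘ (E.sec ∘ c) : G → C) = c := by
    funext g
    exact E.π_sec (c g)
  have h3 : (d₁₂ C).hom c = 0 := hc
  have := congrFun h1 x
  rw [h2, h3] at this
  exact this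

lemma i_comp_del1Fun {c : G → C} (hc : c ∈ cocycles₁ C) :
    (E.i ∘ E.del1Fun c : G × G → B) = (d₁₂ B).hom (E.sec ∘ c) :=
  E.i_comp_ret_comp (E.π_d₁₂_sec hc)

/-- `δ⁰` of an invariant is a level-constant cocycle. -/
theorem del0Fun_mem_Z1 (hB : L.IsUSmooth B) (c : ↥(LevelSys.H0 C)) :
    E.del0Fun (c : C) ∈ L.Z1 A := by
  refine ⟨?_, ?_⟩
  · show (d₁₂ A).hom (E.del0Fun (c : C)) = 0
    have h1 : (E.i ∘ (d₁₂ A).hom (E.del0Fun (c : C)) : G × G → B) = 0 := by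
      rw [← push_d₁₂ E.i E.hi, E.i_comp_del0Fun c]
      have := d₀₁_comp_d₁₂ B
      have h2 := congrArg (fun f => f.hom (E.sec (c : C))) this
      simpa using h2
    funext x
    apply E.inj
    rw [Pi.zero_apply, map_zero]
    exact congrFun h1 x
  · exact LevelSys.IsLC₁.comp (L.d₀₁_isLC₁ hB (E.sec (c : C))) E.ret

/-- `δ¹` of a level-constant cocycle is a level-constant cocycle. -/
theorem del1Fun_mem_Z2 (hN : L.NormalCofinal) (hB : L.IsUSmooth B) (c : ↥(L.Z1 C)) :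
    E.del1Fun (c : G → C) ∈ L.Z2 A := by
  refine ⟨?_, ?_⟩
  · show (d₂₃ A).hom (E.del1Fun (c : G → C)) = 0
    have h1 : (E.i ∘ (d₂₃ A).hom (E.del1Fun (c : G → C)) : G × G × G → B) = 0 := by
      rw [← push_d₂₃ E.i E.hi, E.i_comp_del1Fun c.2.1]
      have := d₁₂_comp_d₂₃ B
      have h2 := congrArg (fun f => f.hom (E.sec ∘ (c : G → C))) this
      simpa using h2
    funext x
    apply E.inj
    rw [Pi.zero_apply, map_zero]
    exact congrFun h1 x
  · exact LevelSys.IsLC₂.comp (L.d₁₂_isLC₂ hN hB (LevelSys.IsLC₁.comp c.2.2 E.sec)) E.ret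

/-- `δ¹` of a coboundary is a level-constant coboundary. -/
theorem del1Fun_mem_B2 (hB : L.IsUSmooth B) (hC : L.IsUSmooth C) (c : ↥(L.Z1 C))
    (hc : (c : G → C) ∈ LevelSys.B1 C) :
    E.del1Fun (c : G → C) ∈ L.B2 A := by
  obtain ⟨m, hm⟩ := hc
  -- `y := sec ∘ d m - d (sec m)` has values in `ker π`
  set y : G → B := (E.sec ∘ (c : G → C)) - (d₀₁ B).hom (E.sec m) with hy
  have hπy : ∀ g, E.π (y g) = 0 := by
    intro g
    have hπ : ∀ (g : G) (b : B), E.π (B.ρ g b) = C.ρ g (E.π b) := E.hπ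
    have hmg : (c : G → C) g = C.ρ g m - m := by
      rw [← hm]; simp only [d₀₁_hom_apply]
    simp only [hy, Pi.sub_apply, Function.comp_apply, map_sub, E.π_sec, d₀₁_hom_apply, hπ]
    rw [hmg, sub_self]
  have hyLC : L.IsLC₁ y := by
    have h1 : L.IsLC₁ (E.sec ∘ (c : G → C)) := LevelSys.IsLC₁.comp c.2.2 E.sec
    have h2 : L.IsLC₁ ((d₀₁ B).hom (E.sec m)) := L.d₀₁_isLC₁ hB (E.sec m)
    obtain ⟨U, hU, h⟩ := h1
    obtain ⟨V, hV, h'⟩ := h2
    obtain ⟨W, hW, hle⟩ := L.directed U hU V hV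
    refine ⟨W, hW, fun g s hs => ?_⟩
    simp only [hy, Pi.sub_apply]
    rw [h g s (hle hs).1, h' g s (hle hs).2]
  refine ⟨E.ret ∘ y, LevelSys.IsLC₁.comp hyLC E.ret, ?_⟩
  -- `d (ret ∘ y) = ret ∘ d y = ret ∘ d (sec ∘ c)`
  have hdy : (d₁₂ B).hom y = (d₁₂ B).hom (E.sec ∘ (c : G → C)) := by
    have h0 : (d₁₂ B).hom ((d₀₁ B).hom (E.sec m)) = 0 := by
      have := d₀₁_comp_d₁₂ B
      have h2 := congrArg (fun f => f.hom (E.sec m)) this
      simpa using h2
    rw [hy, map_sub, h0, sub_zero]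
  have h1 : (E.i ∘ (d₁₂ A).hom (E.ret ∘ y) : G × G → B) = (d₁₂ B).hom y := by
    rw [← push_d₁₂ E.i E.hi, E.i_comp_ret_comp hπy]
  funext x
  apply E.inj
  have h2 := congrFun h1 x
  have h3 := congrFun (E.i_comp_del1Fun c.2.1) x
  simp only [Function.comp_apply] at h2 h3
  rw [h2, h3, hdy]

/-- The connecting homomorphism `δ⁰ : H⁰(C) → H¹(A)`. -/
def del0 (hB : L.IsUSmooth B) : ↥(LevelSys.H0 C) →ₗ[k] L.H1 A :=
  L.H1π A ∘ₗ (E.del0Fun ∘ₗ (LevelSys.H0 C).subtype).codRestrict (L.Z1 A)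
    (fun c => E.del0Fun_mem_Z1 L hB c)

/-- The connecting homomorphism `δ¹ : H¹(C) → H²(A)`. -/
def del1 (hN : L.NormalCofinal) (hB : L.IsUSmooth B) (hC : L.IsUSmooth C) :
    L.H1 C →ₗ[k] L.H2 A :=
  Submodule.liftQ ((LevelSys.B1 C).comap (L.Z1 C).subtype)
    (L.H2π A ∘ₗ (E.del1Fun ∘ₗ (L.Z1 C).subtype).codRestrict (L.Z2 A)
      (fun c => E.del1Fun_mem_Z2 L hN hB c))
    (fun c hc => by
      rw [LinearMap.mem_ker, LinearMap.comp_apply, LevelSys.H2π_eq_zero_iff]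
      exact E.del1Fun_mem_B2 L hB hC c hc)

lemma del0_apply (hB : L.IsUSmooth B) (c : ↥(LevelSys.H0 C)) :
    E.del0 L hB c = L.H1π A ⟨E.del0Fun (c : C), E.del0Fun_mem_Z1 L hB c⟩ := rfl

lemma del1_mk (hN : L.NormalCofinal) (hB : L.IsUSmooth B) (hC : L.IsUSmooth C) (c : ↥(L.Z1 C)) :
    E.del1 L hN hB hC (L.H1π C c) =
      L.H2π A ⟨E.del1Fun (c : G → C), E.del1Fun_mem_Z2 L hN hB c⟩ := rfl

/-! ### Restriction of a short exact sequence along `r : G' → G` -/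

variable {G' : Type} [Group G'] (r : G' →* G)

/-- The restricted short exact sequence. NB: `sec` and `ret` of the restricted sequence are
again CHOSEN, so they may differ from those of `E`; compatibility statements are therefore
formulated on cohomology classes. -/
def res : SES (Rep.res r A) (Rep.res r B) (Rep.res r C) where
  i := E.i
  π := E.π
  hi := fun g a => E.hi (r g) a
  hπ := fun g b => E.hπ (r g) b
  inj := E.inj
  surj := E.surj
  exact := E.exact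

end SES

end Fermat.Agent.S55.PT

end
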