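import Fermat.Agent.S55.PT.Spec
import Fermat.Agent.S55.K.Spec

/-!
# S55: adapters layer K (helper4) → layer D (helper835)

* `surj2Glob_of_K : p ≠ 2 → pPrime p ∈ S → K.SurjH2Spec p S → PT.Surj2GlobSpec p S`  (input A3)
* `cap_of_K      : p ≠ 2 → pPrime p ∈ S → K.CapSpec p S → PT.CapSpec p S`            (input A8)

The second one translates the cochain form of CAP (coefficients `indG U (muP p)`) into the
class form (coefficients `indRep U (mu p)`, `Ш²`, `pushH2 (indLE …)`), via the (non canonical)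
equivariant linear isomorphism `μ = ofChar χ_p ≃ muP p`.
-/

set_option autoImplicit false

noncomputable section

namespace Fermat.Agent.S55.PT.AdK

open groupCohomology ExtCitation Fermat.Agent.S55.Bridge Fermat.Agent.S55.PT

variable (p : ℕ) [Fact p.Prime] (S : Finset Nat.Primes)

/-- **A3 adapter.** -/
theorem surj2Glob_of_K (hp2 : p ≠ 2) (hpS : pPrime p ∈ S) (h : K.SurjH2Spec p S) :
    Surj2GlobSpec p S := by
  intro P N φ hφ hP hPs hNs hsurj
  have hN : FiniteDimensional (ZMod p) N := Module.Finite.of_surjective φ hsurj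
  exact h hp2 hpS P N hP hN hPs hNs φ hφ hsurj

/-- the linear isomorphism `μ = 𝔽_p(χ_p) ≃ μ_p` (a choice of a primitive root of unity) -/
def muEquiv : (mu p) ≃ₗ[ZMod p] (muP p) := muPLinearEquiv p

lemma muEquiv_equivariant :
    IsEquivariant (A := mu p) (B := muP p) (muEquiv p : mu p →ₗ[ZMod p] muP p) := by
  intro g a
  exact LinearMap.congr_fun ((muPRepEquivOfChar p).isIntertwining' g) a

lemma muEquiv_symm_equivariant :
    IsEquivariant (A := muP p) (B := mu p) ((muEquiv p).symm : muP p →ₗ[ZMod p] mu p) := by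
  intro g a
  apply (muEquiv p).injective
  have h := muEquiv_equivariant p g ((muEquiv p).symm a)
  simp only [LinearEquiv.coe_coe, LinearEquiv.apply_symm_apply] at h ⊢
  exact h.symm

variable {p}

/-- `Ind_U μ → Ind_U μ_p` (on the underlying `Finsupp`s) -/
def indMuE (U : Subgroup GQ) : ((GQ ⧸ U) →₀ mu p) →ₗ[ZMod p] ((GQ ⧸ U) →₀ muP p) :=
  Finsupp.mapRange.linearMap (muEquiv p : mu p →ₗ[ZMod p] muP p)

/-- `Ind_U μ_p → Ind_U μ` (on the underlying `Finsupp`s) -/
def indMuEInv (U : Subgroup GQ) : ((GQ ⧸ U) →₀ muP p) →ₗ[ZMod p] ((GQ ⧸ U) →₀ mu p) :=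
  Finsupp.mapRange.linearMap ((muEquiv p).symm : muP p →ₗ[ZMod p] mu p)

lemma indMuE_single (U : Subgroup GQ) (x : GQ ⧸ U) (m : mu p) :
    indMuE U (Finsupp.single x m) = Finsupp.single x (muEquiv p m) := by
  rw [indMuE, Finsupp.mapRange.linearMap_apply, Finsupp.mapRange_single]
  rfl

lemma indMuEInv_single (U : Subgroup GQ) (x : GQ ⧸ U) (m : muP p) :
    indMuEInv U (Finsupp.single x m) = Finsupp.single x ((muEquiv p).symm m) := by
  rw [indMuEInv, Finsupp.mapRange.linearMap_apply, Finsupp.mapRange_single]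
  rfl

lemma indMuE_comm (U : Subgroup GQ) (g : GQ) :
    (indMuE U) ∘ₗ (indRho U (mu p) g) =
      (K.indρ (MonoidHom.id GQ) U (muP p) g) ∘ₗ (indMuE (p := p) U) := by
  apply Finsupp.lhom_ext
  intro x m
  rw [LinearMap.comp_apply, LinearMap.comp_apply, indMuE_single, K.indρ_single]
  have h1 : indRho U (mu p) g (Finsupp.single x m) = Finsupp.single (g • x) ((mu p).ρ g m) :=
    indRep_ρ_single U (mu p) g x m
  rw [h1, indMuE_single]
  congr 1
  exact muEquiv_equivariant p g m

lemma indMuEInv_comm (U : Subgroup GQ) (g : GQ) :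
    (indMuEInv U) ∘ₗ (K.indρ (MonoidHom.id GQ) U (muP p) g) =
      (indRho U (mu p) g) ∘ₗ (indMuEInv (p := p) U) := by
  apply Finsupp.lhom_ext
  intro x m
  rw [LinearMap.comp_apply, LinearMap.comp_apply, indMuEInv_single, K.indρ_single,
    indMuEInv_single]
  have h1 : indRho U (mu p) g (Finsupp.single x ((muEquiv p).symm m)) =
      Finsupp.single (g • x) ((mu p).ρ g ((muEquiv p).symm m)) :=
    indRep_ρ_single U (mu p) g x _
  rw [h1]
  congr 1
  exact muEquiv_symm_equivariant p g m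

lemma indMuE_equivariant (U : Subgroup GQ) :
    IsEquivariant (A := indRep U (mu p)) (B := K.indG U (muP p)) (indMuE U) :=
  fun g a => LinearMap.congr_fun (indMuE_comm U g) a

lemma indMuEInv_equivariant (U : Subgroup GQ) :
    IsEquivariant (A := K.indG U (muP p)) (B := indRep U (mu p)) (indMuEInv U) :=
  fun g a => LinearMap.congr_fun (indMuEInv_comm U g) a

/-- `K.indProj` on the underlying `Finsupp`s -/
lemma indProj_single835 {U V : Subgroup GQ} (h : U ≤ V) (x : GQ ⧸ U) (m : muP p) :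
    K.indProj (MonoidHom.id GQ) h (muP p) (Finsupp.single x m : (GQ ⧸ U) →₀ muP p) =
      (Finsupp.single (Subgroup.quotientMapOfLE h x) m : (GQ ⧸ V) →₀ muP p) := by
  change Finsupp.lmapDomain _ _ _ (Finsupp.single x m) = _
  rw [Finsupp.lmapDomain_apply, Finsupp.mapDomain_single]
  rfl

lemma indMuEInv_indProj_indMuE {U V : Subgroup GQ} (h : U ≤ V) :
    (indMuEInv V) ∘ₗ ((show ((GQ ⧸ U) →₀ muP p) →ₗ[ZMod p] ((GQ ⧸ V) →₀ muP p) from
      K.indProj (MonoidHom.id GQ) h (muP p)) ∘ₗ (indMuE (p := p) U)) = indLE (mu p) h := by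
  apply Finsupp.lhom_ext
  intro x m
  rw [LinearMap.comp_apply, LinearMap.comp_apply, indMuE_single, indLE_single]
  have h1 := indProj_single835 h x (muEquiv p m)
  erw [h1]
  rw [indMuEInv_single, LinearEquiv.symm_apply_apply]

variable (p)

/-- **A8 adapter.** -/
theorem cap_of_K (hp2 : p ≠ 2) (hpS : pPrime p ∈ S) (hK : K.CapSpec p S) : CapSpec p S := by
  intro V hV _ _
  obtain ⟨U, hU, hUV, hUn, hcap⟩ := hK hp2 hpS V hV
  refine ⟨U, hUV, hU, hUn, fun x hx => ?_⟩
  obtain ⟨z, rfl⟩ := (globalLevels S).H2π_surjective _ x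
  rw [pushH2_mk, LevelSys.H2π_eq_zero_iff, coe_pushZ2]
  -- the cocycle with coefficients in `Ind_U μ_p`
  have hz' : (indMuE U ∘ (z : GQ × GQ → indRep U (mu p))) ∈
      (globalLevels S).Z2 (K.indG U (muP p)) :=
    push_mem_Z2 (A := indRep U (mu p)) (B := K.indG U (muP p)) (indMuE U)
      (indMuE_equivariant U) (globalLevels S) z.2
  -- local triviality
  have hloc : ∀ q ∈ S, ((indMuE U ∘ (z : GQ × GQ → indRep U (mu p))) ∘ Prod.map (rl q) (rl q) :
      Gl q × Gl q → K.indG U (muP p)) ∈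
        (localLevels q).B2 (Rep.res (rl q) (K.indG U (muP p))) := by
    intro q hq
    have h1 : resH2 (hrl S ⟨q, hq⟩) (indRep U (mu p)) ((globalLevels S).H2π _ z) = 0 := by
      have := LinearMap.mem_ker.1 hx
      exact congrFun this ⟨q, hq⟩
    rw [resH2_mk, LevelSys.H2π_eq_zero_iff, coe_resZ2] at h1
    exact push_mem_B2 (A := Rep.res (rl q) (indRep U (mu p)))
      (B := Rep.res (rl q) (K.indG U (muP p))) (indMuE U)
      ((indMuE_equivariant U).res (rl q)) (localLevels q) h1
  have h2 := hcap _ hz' hloc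
  have h3 := push_mem_B2 (A := K.indG V (muP p)) (B := indRep V (mu p)) (indMuEInv V)
    (indMuEInv_equivariant V) (globalLevels S) h2
  convert h3 using 1
  funext y
  exact (LinearMap.congr_fun (indMuEInv_indProj_indMuE hUV) _).symm

end Fermat.Agent.S55.PT.AdK

end
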