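import Fermat.Agent.S55.PT.Glue

/-!
# S55 / layer D: the generic assembly (helper835)

`sha2_equiv_dual_sha1_generic`: for a short exact sequence `0 → R → P → M → 0` of uniformly
smooth modules over a group with levels and finitely many local groups, such that

* `H²(P) → H²(M)` is surjective,
* `H¹(M′) → H¹(P′)` is zero (E2),
* `Ш²(P) → Ш²(M)` is zero (CAP),
* `Θ(R)` is bijective, `Θ(P)` injective (global top maps),
* `θ_v(R|_v)` is surjective, `θ_v(P|_v)` injective (local top maps),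
* `H¹(M′)` is finite-dimensional,

we have `Ш²(M) ≃ Dual (Ш¹(M′))`.  The framework leaves are hypotheses (Spec pattern).
-/

set_option autoImplicit false

noncomputable section

namespace Fermat.Agent.S55.PT

open groupCohomology Module Fermat.Agent.S55.H244

variable {k : Type} [Field k] {G : Type} [Group G]
variable {ι : Type} [Fintype ι] [DecidableEq ι] {Gv : ι → Type} [∀ v, Group (Gv v)]
variable {L : LevelSys G} {Lv : ∀ v, LevelSys (Gv v)} {r : ∀ v, Gv v →* G}

section Transport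

variable (χ : G →* kˣ) (N : Rep.{0, 0, 0} k G)

/-- `charHom χ N ≃ H⁰(N.dualTwist χ)` (identity on functionals) -/
def eH0 : ↥(charHom χ N) ≃ₗ[k] ↥(LevelSys.H0 (N.dualTwist χ)) :=
  LinearEquiv.ofEq (charHom χ N)
    (LevelSys.H0 (N.dualTwist χ) : Submodule k (Module.Dual k N)) (H0_dualTwist_eq χ N).symm

@[simp] lemma coe_eH0 (f : ↥(charHom χ N)) :
    ((eH0 χ N f : ↥(LevelSys.H0 (N.dualTwist χ))) : Module.Dual k N) = f := rfl

@[simp] lemma coe_eH0_symm (f : ↥(LevelSys.H0 (N.dualTwist χ))) :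
    (((eH0 χ N).symm f : ↥(charHom χ N)) : Module.Dual k N) = f := rfl

variable {G' : Type} [Group G'] (s : G' →* G)

/-- `charHom (χ ∘ s) (N|_{G'}) ≃ H⁰(G', (N.dualTwist χ)|_{G'})` (identity on functionals) -/
def eH0res : ↥(charHom (χ.comp s) (Rep.res s N)) ≃ₗ[k]
    ↥(LevelSys.H0 (Rep.res s (N.dualTwist χ))) :=
  LinearEquiv.ofEq (charHom (χ.comp s) (Rep.res s N))
    (LevelSys.H0 (Rep.res s (N.dualTwist χ)) : Submodule k (Module.Dual k N))
    (H0_res_dualTwist_eq χ N s).symm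

@[simp] lemma coe_eH0res (f : ↥(charHom (χ.comp s) (Rep.res s N))) :
    ((eH0res χ N s f : ↥(LevelSys.H0 (Rep.res s (N.dualTwist χ)))) : Module.Dual k N) = f := rfl

@[simp] lemma coe_eH0res_symm (f : ↥(LevelSys.H0 (Rep.res s (N.dualTwist χ)))) :
    (((eH0res χ N s).symm f : ↥(charHom (χ.comp s) (Rep.res s N))) : Module.Dual k N) = f := rfl

end Transport

section DualLes

variable (χ : G →* kˣ) {R P M : Rep.{0, 0, 0} k G} (E : SES R P M)

/-- the connecting map of the dual sequence, on `charHom χ R` -/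
def delC (L : LevelSys G) (hP' : L.IsUSmooth (P.dualTwist χ)) :
    ↥(charHom χ R) →ₗ[k] L.H1 (M.dualTwist χ) :=
  (E.dual χ).del0 L hP' ∘ₗ (eH0 χ R).toLinearMap

lemma delC_surjective (hLes0 : Les0Spec) (L : LevelSys G) (hP' : L.IsUSmooth (P.dualTwist χ))
    (heff : ∀ x : L.H1 (M.dualTwist χ), pushH1 (E.dual χ).i (E.dual χ).hi L x = 0) :
    Function.Surjective (delC χ E L hP') := by
  have h := (hLes0 k G L _ _ _ (E.dual χ) hP').2
  intro x
  have hx : x ∈ LinearMap.range ((E.dual χ).del0 L hP') := by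
    rw [h, LinearMap.mem_ker]
    exact heff x
  obtain ⟨f, rfl⟩ := hx
  exact ⟨(eH0 χ R).symm f, by simp [delC]⟩

lemma ker_delC (hLes0 : Les0Spec) (L : LevelSys G) (hP' : L.IsUSmooth (P.dualTwist χ)) :
    LinearMap.ker (delC χ E L hP') = LinearMap.range (charHomComap χ E.i E.hi) := by
  have h := (hLes0 k G L _ _ _ (E.dual χ) hP').1
  ext f
  constructor
  · intro hf
    have hf' : eH0 χ R f ∈ LinearMap.ker ((E.dual χ).del0 L hP') := hf
    rw [h] at hf'
    obtain ⟨g, hg⟩ := hf'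
    refine ⟨(eH0 χ P).symm g, ?_⟩
    apply Subtype.ext
    have := congrArg (fun y : ↥(LevelSys.H0 (R.dualTwist χ)) => (y : Module.Dual k R)) hg
    exact this
  · rintro ⟨g, rfl⟩
    show eH0 χ R (charHomComap χ E.i E.hi g) ∈ LinearMap.ker ((E.dual χ).del0 L hP')
    rw [h]
    exact ⟨eH0 χ P g, rfl⟩

end DualLes

section LocalData

variable (χ : G →* kˣ) {R P M : Rep.{0, 0, 0} k G} (E : SES R P M)
variable {G' : Type} [Group G'] (s : G' →* G) (L' : LevelSys G')
variable (inv' : L'.H2 (ofChar (χ.comp s)) →ₗ[k] k)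

/-- the local connecting map of the restricted dual sequence, on `charHom (χ ∘ s) (R|_{G'})` -/
def delCres (hP's : L'.IsUSmooth (Rep.res s (P.dualTwist χ))) :
    ↥(charHom (χ.comp s) (Rep.res s R)) →ₗ[k] L'.H1 (Rep.res s (M.dualTwist χ)) :=
  ((E.dual χ).res s).del0 L' hP's ∘ₗ (eH0res χ R s).toLinearMap

lemma ker_delCres (hLes0 : Les0Spec) (hP's : L'.IsUSmooth (Rep.res s (P.dualTwist χ))) :
    LinearMap.ker (delCres χ E s L' hP's) =
      LinearMap.range (charHomComap (χ.comp s) (A := Rep.res s R) (B := Rep.res s P) E.i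
        (E.hi.res s)) := by
  have h := (hLes0 k G' L' _ _ _ ((E.dual χ).res s) hP's).1
  ext f
  constructor
  · intro hf
    have hf' : eH0res χ R s f ∈ LinearMap.ker (((E.dual χ).res s).del0 L' hP's) := hf
    rw [h] at hf'
    obtain ⟨g, hg⟩ := hf'
    refine ⟨(eH0res χ P s).symm g, ?_⟩
    apply Subtype.ext
    have := congrArg
      (fun y : ↥(LevelSys.H0 (Rep.res s (R.dualTwist χ))) => (y : Module.Dual k R)) hg
    exact this
  · rintro ⟨g, rfl⟩
    show eH0res χ R s (charHomComap (χ.comp s) (A := Rep.res s R) (B := Rep.res s P) E.i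
      (E.hi.res s) g) ∈ LinearMap.ker (((E.dual χ).res s).del0 L' hP's)
    rw [h]
    exact ⟨eH0res χ P s g, rfl⟩

/-- the top-degree local data of helper244's engine -/
def localTop (hLes0 : Les0Spec) (hLes1 : Les1Spec) (hN' : L'.NormalCofinal)
    (hPs : L'.IsUSmooth (Rep.res s P)) (hMs : L'.IsUSmooth (Rep.res s M))
    (hP's : L'.IsUSmooth (Rep.res s (P.dualTwist χ)))
    (hsurjR : Function.Surjective (topPair L' (χ.comp s) inv' (Rep.res s R)))
    (hinjP : Function.Injective (topPair L' (χ.comp s) inv' (Rep.res s P))) :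
    LocalTop k (L'.H1 (Rep.res s M)) (L'.H2 (Rep.res s R)) (L'.H2 (Rep.res s P))
      ↥(charHom (χ.comp s) (Rep.res s R)) ↥(charHom (χ.comp s) (Rep.res s P))
      (L'.H1 (Rep.res s (M.dualTwist χ))) where
  dv := (E.res s).del1 L' hN' hPs hMs
  tv := pushH2 (A := Rep.res s R) (B := Rep.res s P) E.i (E.hi.res s) L'
  r0 := charHomComap (χ.comp s) (A := Rep.res s R) (B := Rep.res s P) E.i (E.hi.res s)
  del := delCres χ E s L' hP's
  ThR := topPair L' (χ.comp s) inv' (Rep.res s R)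
  ThP := topPair L' (χ.comp s) inv' (Rep.res s P)
  dv_range := (hLes1 k G' L' _ _ _ (E.res s) hN' hPs hMs).2
  del_ker := ker_delCres χ E s L' hLes0 hP's
  ThR_surj := hsurjR
  ThP_inj := hinjP
  nat := fun z g => topPair_pushH2 (χ.comp s) (A := Rep.res s R) (B := Rep.res s P) E.i
    (E.hi.res s) L' inv' g z

end LocalData

section Main

variable (hr : ∀ v, IsLevelCompatible (r v) L (Lv v))
variable (χ : G →* kˣ) (inv : ∀ v, (Lv v).H2 (ofChar (χ.comp (r v))) →ₗ[k] k)

/-- **Generic assembly of the duality engine.** -/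
theorem sha2_equiv_dual_sha1_generic
    (hLes0 : Les0Spec) (hLes1 : Les1Spec) (hCone : ConeSpec) (hConeLes : ConeLesSpec)
    (hDel0Res : Del0ResSpec) (hEngine : EngineSpec)
    (hN : L.NormalCofinal) (hNv : ∀ v, (Lv v).NormalCofinal)
    (hrec : IsRecip hr χ inv)
    {R P M : Rep.{0, 0, 0} k G} (E : SES R P M)
    (hR : L.IsUSmooth R) (hP : L.IsUSmooth P) (hM : L.IsUSmooth M)
    (hP' : L.IsUSmooth (P.dualTwist χ))
    (hfin : FiniteDimensional k (L.H1 (M.dualTwist χ)))
    (hsurj : Function.Surjective (pushH2 E.π E.hπ L))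
    (heff : ∀ x : L.H1 (M.dualTwist χ), pushH1 (E.dual χ).i (E.dual χ).hi L x = 0)
    (hcap : ∀ x ∈ Sha2 hr P, pushH2 E.π E.hπ L x = 0)
    (hTopR : Function.Bijective (topT3 hr R hrec))
    (hTopP : Function.Injective (topT3 hr P hrec))
    (hTopRv : ∀ v, Function.Surjective
      (topPair (Lv v) (χ.comp (r v)) (inv v) (Rep.res (r v) R)))
    (hTopPv : ∀ v, Function.Injective
      (topPair (Lv v) (χ.comp (r v)) (inv v) (Rep.res (r v) P))) :
    Nonempty (↥(Sha2 hr M) ≃ₗ[k] Module.Dual k ↥(Sha1 hr (M.dualTwist χ))) := by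
  classical
  haveI := hfin
  -- cone sequences
  obtain ⟨hju, hu2⟩ := hCone k G ι Gv L Lv r hr hN M hM
  obtain ⟨-, hu2P⟩ := hCone k G ι Gv L Lv r hr hN P hP
  -- cone connecting map
  obtain ⟨dT, hdTker, hdTrange, hdTj⟩ :=
    hConeLes k G ι Gv L Lv r hr hN hNv R P M E hR hP hM hsurj
  -- local data
  let D : ∀ v, LocalTop k ((Lv v).H1 (Rep.res (r v) M)) ((Lv v).H2 (Rep.res (r v) R))
      ((Lv v).H2 (Rep.res (r v) P)) ↥(charHom (χ.comp (r v)) (Rep.res (r v) R))
      ↥(charHom (χ.comp (r v)) (Rep.res (r v) P)) ((Lv v).H1 (Rep.res (r v) (M.dualTwist χ))) :=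
    fun v => localTop χ E (r v) (Lv v) (inv v) hLes0 hLes1 (hNv v) (hP.res (hr v))
      (hM.res (hr v)) (hP'.res (hr v)) (hTopRv v) (hTopPv v)
  refine hEngine k ι (Hc2 L Lv r M) (L.H2 M) ((v : ι) → (Lv v).H2 (Rep.res (r v) M))
    (L.H1 (M.dualTwist χ)) (T3 hr R) (T3 hr P) ↥(charHom χ R) ↥(charHom χ P)
    (fun v => (Lv v).H1 (Rep.res (r v) M)) (fun v => (Lv v).H2 (Rep.res (r v) R))
    (fun v => (Lv v).H2 (Rep.res (r v) P))
    (fun v => ↥(charHom (χ.comp (r v)) (Rep.res (r v) R)))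
    (fun v => ↥(charHom (χ.comp (r v)) (Rep.res (r v) P)))
    (fun v => (Lv v).H1 (Rep.res (r v) (M.dualTwist χ)))
    (jH (L := L) (Lv := Lv) (r := r) M) (uH (L := L) (Lv := Lv) (r := r) M) (loc2 hr M)
    (loc1 hr (M.dualTwist χ)) hju hu2
    dT (pushT3 hr E.i E.hi) hdTrange
    (charHomComap χ E.i E.hi) (delC χ E L hP')
    (delC_surjective χ E hLes0 L hP' heff) (ker_delC χ E hLes0 L hP')
    (topT3 hr R hrec) (topT3 hr P hrec) hTopR hTopP
    (fun t g => topT3_pushT3 hr E.i E.hi χ inv hrec g t)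
    ?_ D (fun v => charHomRes χ R (r v)) ?_ (-1) (by simp) ?_
  · -- CAP
    intro x hx
    have hx' : x ∈ LinearMap.range (pushHc2 (L := L) (Lv := Lv) (r := r) E.π E.hπ) := by
      rw [← hdTker]; exact hx
    obtain ⟨y, rfl⟩ := hx'
    rw [uH_pushHc2]
    apply hcap
    show uH P y ∈ LinearMap.ker (loc2 hr P)
    rw [← hu2P]
    exact ⟨y, rfl⟩
  · -- local/global compatibility of δ⁰
    intro v f
    show ((E.dual χ).res (r v)).del0 (Lv v) (hP'.res (hr v)) (eH0res χ R (r v)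
        (charHomRes χ R (r v) f)) =
      resH1 (hr v) (M.dualTwist χ) ((E.dual χ).del0 L hP' (eH0 χ R f))
    rw [hDel0Res k G (Gv v) L (Lv v) (r v) (hr v) _ _ _ (E.dual χ) hP' (eH0 χ R f)]
    rfl
  · -- the formula
    intro b f
    rw [hdTj b, map_neg, LinearMap.neg_apply, topT3_mk, topGlobFun_apply, neg_one_mul]
    rfl

end Main

end Fermat.Agent.S55.PT

end
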