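import Fermat.Agent.S55.PT.Spec
import Fermat.Agent.S55.Bridge.Archimedean
import Fermat.Agent.S55.Bridge.Level
import Fermat.Agent.S55.Bridge.LinAlg

/-!
# S55 / layer D, leaf D-B: S55 follows from Theorem D (helper635)

`bridge : BridgeSpec p S`.

* `h2Equiv`   : Prelude `continuousH2S S M ≃ₗ (globalLevels S).H2 M` (same cocycles, same
  coboundaries);
* `sha2Equiv` : Prelude `sha₂ S M ≃ₗ PT.Sha2 (hrl S) M` (the archimedean place contributes
  nothing for `2 ≠ 0`: `Bridge.mem_sha₂_iff`);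
* `h1Map`     : the injective comparison map from level-constant `H¹` to the abstract `H¹`,
  compatible with restriction (`map_h1Map`);
* `sha1Equiv` : `PT.Sha1 (hrl S) A ≃ₗ` Prelude `sha₁ S A`;
* `bridge`    : uniform smoothness of `M` from `Bridge.exists_galois_level_of_rep`, then transport
  of the pairing of `Bridge.exists_pairing_of_equiv_dual` along the two equivalences.
-/

set_option autoImplicit false

noncomputable section

namespace Fermat.Agent.S55.PT.H635

open groupCohomology ExtCitation CategoryTheory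

variable (S : Finset Nat.Primes)

section H2

variable {k : Type} [Field k] (M : Rep.{0, 0, 0} k GQ)

theorem Z2_eq : (globalLevels S).Z2 M = levelCocyclesS₂ S M := by
  ext f
  show f ∈ cocycles₂ M ∧ (globalLevels S).IsLC₂ f ↔ f ∈ cocycles₂ M ∧ IsLevelConstantS₂ S f
  rw [isLC₂_globalLevels_iff]

theorem B2_eq : (globalLevels S).B2 M = levelCoboundariesS₂ S M := by
  ext f
  rw [mem_levelCoboundariesS₂_iff]
  show f ∈ Submodule.map (d₁₂ M).hom ((globalLevels S).C1 M) ↔ _
  simp only [Submodule.mem_map, LevelSys.mem_C1_iff, isLC₁_globalLevels_iff]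

/-- The Prelude's `continuousH2S` is the level-constant `H²` of `globalLevels S`. -/
def h2Equiv : continuousH2S S M ≃ₗ[k] (globalLevels S).H2 M :=
  Submodule.Quotient.equiv
    ((levelCoboundariesS₂ S M).comap (levelCocyclesS₂ S M).subtype)
    (((globalLevels S).B2 M).comap ((globalLevels S).Z2 M).subtype)
    (LinearEquiv.ofEq _ _ (Z2_eq S M).symm)
    (by
      ext f
      rw [Submodule.mem_map_equiv]
      simp only [Submodule.mem_comap, Submodule.subtype_apply]
      rw [B2_eq]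
      rfl)

theorem h2Equiv_mk (f : ↥(levelCocyclesS₂ S M)) :
    h2Equiv S M (continuousH2Sπ S M f)
      = (globalLevels S).H2π M ⟨(f : GQ × GQ → M), (Z2_eq S M).symm ▸ f.2⟩ := rfl

theorem localB2_eq {G : Type} [Group G] (r : G →* GQ) (N : Rep.{0, 0, 0} k G) :
    (pullbackLevels r).B2 N = levelCoboundaries₂ r N := by
  ext f
  rw [mem_levelCoboundaries₂_iff]
  show f ∈ Submodule.map (d₁₂ N).hom ((pullbackLevels r).C1 N) ↔ _
  simp only [Submodule.mem_map, LevelSys.mem_C1_iff, isLC₁_pullbackLevels_iff]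

/-- Local vanishing of a class agrees in the two descriptions. -/
theorem locRes₂S_eq_zero_iff (q : Nat.Primes) (x : continuousH2S S M) :
    locRes₂S S M (rl q) x = 0 ↔ resH2 (rl_levelCompatible S q) M (h2Equiv S M x) = 0 := by
  obtain ⟨f, rfl⟩ := Submodule.mkQ_surjective _ x
  have h1 : locRes₂S S M (rl q) (continuousH2Sπ S M f)
      = continuousH2π (rl q) (Rep.res (rl q) M)
          (levelCocycles₂Map (rH := MonoidHom.id _) (rG := rl q) (rl q) (fun _ => rfl)
            (LinearMap.id : M →ₗ[k] Rep.res (rl q) M) (fun _ _ => rfl)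
            (levelCocyclesS₂ToLevelCocycles₂ S M f)) := rfl
  have h2 : resH2 (rl_levelCompatible S q) M (h2Equiv S M (continuousH2Sπ S M f))
      = (localLevels q).H2π (Rep.res (rl q) M)
          (resZ2 (rl_levelCompatible S q) M ⟨(f : GQ × GQ → M), (Z2_eq S M).symm ▸ f.2⟩) := rfl
  rw [show Submodule.mkQ _ f = continuousH2Sπ S M f from rfl, h1, h2,
    continuousH2π_eq_zero_iff, LevelSys.H2π_eq_zero_iff, localB2_eq]
  rfl

theorem mem_sha₂_iff_mem_Sha2 (h2 : (2 : k) ≠ 0) (x : continuousH2S S M) :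
    x ∈ sha₂ S M ↔ h2Equiv S M x ∈ Sha2 (hrl S) M := by
  rw [Bridge.mem_sha₂_iff S h2, LinearMap.mem_ker]
  constructor
  · intro h
    funext v
    exact (locRes₂S_eq_zero_iff S M v.1 x).1 (h v)
  · intro h v
    exact (locRes₂S_eq_zero_iff S M v.1 x).2 (congrFun h v)

/-- `Ш²`: Prelude versus PT. -/
def sha2Equiv (h2 : (2 : k) ≠ 0) : ↥(sha₂ S M) ≃ₗ[k] ↥(Sha2 (hrl S) M) :=
  LinearEquiv.ofSubmodules (h2Equiv S M) (sha₂ S M) (Sha2 (hrl S) M) (by
    ext y
    rw [Submodule.mem_map_equiv, mem_sha₂_iff_mem_Sha2 S M h2, LinearEquiv.apply_symm_apply])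

end H2

section H1

variable {k : Type} [Field k]

/-- the inclusion of level-constant cocycles into all cocycles -/
def z1Incl {G : Type} [Group G] (L : LevelSys G) (A : Rep.{0, 0, 0} k G) :
    ↥(L.Z1 A) →ₗ[k] ↥(cocycles₁ A) :=
  Submodule.inclusion inf_le_left

@[simp] theorem coe_z1Incl {G : Type} [Group G] (L : LevelSys G) (A : Rep.{0, 0, 0} k G)
    (c : ↥(L.Z1 A)) : ((z1Incl L A c : ↥(cocycles₁ A)) : G → A) = (c : G → A) := rfl

/-- The comparison map from level-constant `H¹` to the full (abstract) `H¹`. -/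
def h1Map {G : Type} [Group G] (L : LevelSys G) (A : Rep.{0, 0, 0} k G) :
    L.H1 A →ₗ[k] H1 A :=
  Submodule.liftQ ((LevelSys.B1 A).comap (L.Z1 A).subtype) ((H1π A).hom ∘ₗ z1Incl L A) (by
    intro c hc
    rw [LinearMap.mem_ker, LinearMap.comp_apply]
    exact (H1π_eq_zero_iff _).2 hc)

theorem h1Map_mk {G : Type} [Group G] (L : LevelSys G) (A : Rep.{0, 0, 0} k G)
    (c : ↥(L.Z1 A)) : h1Map L A (L.H1π A c) = (H1π A).hom (z1Incl L A c) := rfl

theorem h1Map_injective {G : Type} [Group G] (L : LevelSys G) (A : Rep.{0, 0, 0} k G) :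
    Function.Injective (h1Map L A) := by
  rw [injective_iff_map_eq_zero]
  intro x hx
  obtain ⟨c, rfl⟩ := L.H1π_surjective A x
  rw [h1Map_mk] at hx
  have h := (H1π_eq_zero_iff (z1Incl L A c)).1 hx
  exact (L.H1π_eq_zero_iff A c).2 h

/-- Restriction commutes with the comparison maps. -/
theorem map_h1Map {G G' : Type} [Group G] [Group G'] {r : G' →* G} {L : LevelSys G}
    {L' : LevelSys G'} (hr : IsLevelCompatible r L L') (A : Rep.{0, 0, 0} k G) (x : L.H1 A) :
    (groupCohomology.map r (𝟙 (Rep.res r A)) 1).hom (h1Map L A x)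
      = h1Map L' (Rep.res r A) (resH1 hr A x) := by
  obtain ⟨c, rfl⟩ := L.H1π_surjective A x
  rw [h1Map_mk, resH1_mk, h1Map_mk]
  have hcomp := congrArg (fun φ => φ.hom (z1Incl L A c))
    (H1π_comp_map (A := A) (B := Rep.res r A) r (𝟙 (Rep.res r A)))
  simp only [ModuleCat.hom_comp, LinearMap.comp_apply] at hcomp
  rw [hcomp]
  congr 1


variable (A : Rep.{0, 0, 0} k GQ)

theorem h1Map_mem_continuousH1S (x : (globalLevels S).H1 A) :
    h1Map (globalLevels S) A x ∈ continuousH1S S A := by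
  obtain ⟨c, rfl⟩ := (globalLevels S).H1π_surjective A x
  rw [h1Map_mk, mem_continuousH1S_iff]
  exact ⟨z1Incl (globalLevels S) A c, (isLC₁_globalLevels_iff S _).1 c.2.2, rfl⟩

theorem h1Map_mem_sha₁_iff (h2 : (2 : k) ≠ 0) (x : (globalLevels S).H1 A) :
    h1Map (globalLevels S) A x ∈ sha₁ S A ↔ x ∈ Sha1 (hrl S) A := by
  rw [Bridge.mem_sha₁_iff S h2, LinearMap.mem_ker]
  constructor
  · rintro ⟨-, h⟩
    funext v
    apply h1Map_injective (localLevels v.1) (Rep.res (rl v.1) A)
    have := h v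
    rw [map_h1Map (hrl S v) A x] at this
    show h1Map (localLevels v.1) (Rep.res (rl v.1) A) (resH1 (hrl S v) A x)
      = h1Map (localLevels v.1) (Rep.res (rl v.1) A) 0
    rw [this, map_zero]
  · intro h
    refine ⟨h1Map_mem_continuousH1S S A x, fun v => ?_⟩
    rw [map_h1Map (hrl S v) A x]
    have hv : resH1 (hrl S v) A x = 0 := congrFun h v
    rw [hv, map_zero]

/-- `Ш¹`: PT versus Prelude. -/
def sha1Equiv (h2 : (2 : k) ≠ 0) : ↥(Sha1 (hrl S) A) ≃ₗ[k] ↥(sha₁ S A) :=
  LinearEquiv.ofBijective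
    ((h1Map (globalLevels S) A).restrict
      (p := Sha1 (hrl S) A) (q := sha₁ S A)
      fun x hx => (h1Map_mem_sha₁_iff S A h2 x).2 hx)
    ⟨fun x y hxy => Subtype.ext (h1Map_injective _ _ (congrArg Subtype.val hxy)),
     fun y => by
      obtain ⟨c, hc, hcy⟩ := (mem_continuousH1S_iff S A y.1).1 y.2.1
      let c' : ↥((globalLevels S).Z1 A) := ⟨(c : GQ → A), c.2, (isLC₁_globalLevels_iff S _).2 hc⟩
      have hx : h1Map (globalLevels S) A ((globalLevels S).H1π A c') = y.1 := by
        rw [h1Map_mk, ← hcy]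
        rfl
      have hmem : (globalLevels S).H1π A c' ∈ Sha1 (hrl S) A := by
        rw [← h1Map_mem_sha₁_iff S A h2, hx]
        exact y.2
      exact ⟨⟨_, hmem⟩, Subtype.ext hx⟩⟩

theorem sha1Equiv_apply (h2 : (2 : k) ≠ 0) (x : ↥(Sha1 (hrl S) A)) :
    ((sha1Equiv S A h2 x : ↥(sha₁ S A)) : H1 A) = h1Map (globalLevels S) A x.1 := rfl

end H1

/-- **Leaf D-B.**  S55 follows from Theorem D. -/
theorem bridge (p : ℕ) [Fact p.Prime] (S : Finset Nat.Primes) : BridgeSpec p S := by
  intro hp2 hpS hD M _ hsm hMur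
  have h2 : (2 : ZMod p) ≠ 0 := Bridge.two_ne_zero_zmod hp2
  obtain ⟨L, hL, -, hLker⟩ := Bridge.exists_galois_level_of_rep M S hsm hMur
  have hsmooth : (globalLevels S).IsUSmooth M :=
    ⟨L.fixingSubgroup, ⟨L, hL, rfl⟩, fun s hs a => by rw [(hLker s).1 hs]; rfl⟩
  obtain ⟨e⟩ := hD M inferInstance hsmooth
  obtain ⟨B', hB1, hB2⟩ := Bridge.exists_pairing_of_equiv_dual e
  let e1 := sha1Equiv S (tdual p M) h2
  let e2 := sha2Equiv S M h2
  refine ⟨(B'.compl₁₂ e2.toLinearMap e1.symm.toLinearMap).flip, ?_, ?_⟩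
  · intro y hy
    have : e1.symm y = 0 := by
      apply hB2
      intro x
      have := hy (e2.symm x)
      simpa using this
    simpa using this
  · intro x hx
    have : e2 x = 0 := by
      apply hB1
      intro y
      have := hx (e1 y)
      simpa using this
    simpa using this

end Fermat.Agent.S55.PT.H635
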