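import Fermat.Agent.S55.PT.Les

/-!
# S55 / PT layer, part 4: localisation maps, Ш¹, Ш², the cone `H²_c` and `T³`

Global group `G` with levels `L`; finitely many local groups `Gv v` with levels `Lv v` and
level-compatible maps `r v : Gv v → G`.

* `loc1`, `loc2`, `Sha1`, `Sha2`, `T3 = coker loc2`;
* cone cocycles `Zc2`, coboundaries `Bc2`, `Hc2`;
* `jH : ∏_v H¹(G_v, A) → H²_c(A)`, `uH : H²_c(A) → H²(A)`;
* push-forwards `pushHc2`, `pushT3`, `pushSha1`, `pushSha2`, `pushLoc1`, `pushLoc2`.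

Exactness statements are leaves (see `Spec.lean`).
-/

set_option autoImplicit false

noncomputable section

namespace Fermat.Agent.S55.PT

open groupCohomology

variable {k : Type} [Field k] {G : Type} [Group G]
variable {ι : Type} [Fintype ι] [DecidableEq ι] {Gv : ι → Type} [∀ v, Group (Gv v)]
variable {L : LevelSys G} {Lv : ∀ v, LevelSys (Gv v)} {r : ∀ v, Gv v →* G}
variable (hr : ∀ v, IsLevelCompatible (r v) L (Lv v))
variable (A : Rep.{0, 0, 0} k G)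

/-- restriction of an equivariant map is equivariant -/
lemma IsEquivariant.res {G' : Type} [Group G'] (s : G' →* G) {A B : Rep.{0, 0, 0} k G}
    {φ : A →ₗ[k] B} (hφ : IsEquivariant φ) :
    IsEquivariant (A := Rep.res s A) (B := Rep.res s B) φ :=
  fun g a => hφ (s g) a

/-- total localisation on `H¹` -/
def loc1 : L.H1 A →ₗ[k] ((v : ι) → (Lv v).H1 (Rep.res (r v) A)) :=
  LinearMap.pi fun v => resH1 (hr v) A

/-- total localisation on `H²` -/
def loc2 : L.H2 A →ₗ[k] ((v : ι) → (Lv v).H2 (Rep.res (r v) A)) :=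
  LinearMap.pi fun v => resH2 (hr v) A

@[simp] lemma loc1_apply (x : L.H1 A) (v : ι) : loc1 hr A x v = resH1 (hr v) A x := rfl
@[simp] lemma loc2_apply (x : L.H2 A) (v : ι) : loc2 hr A x v = resH2 (hr v) A x := rfl

/-- `Ш¹ = ker loc1` -/
abbrev Sha1 : Submodule k (L.H1 A) := LinearMap.ker (loc1 hr A)

/-- `Ш² = ker loc2` -/
abbrev Sha2 : Submodule k (L.H2 A) := LinearMap.ker (loc2 hr A)

/-- `T³(A) = coker (H²(G, A) → ∏_v H²(G_v, A))` (this is `H³_c` when `H³` vanishes) -/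
def T3 : Type := ((v : ι) → (Lv v).H2 (Rep.res (r v) A)) ⧸ LinearMap.range (loc2 hr A)

instance : AddCommGroup (T3 hr A) :=
  inferInstanceAs (AddCommGroup
    (((v : ι) → (Lv v).H2 (Rep.res (r v) A)) ⧸ LinearMap.range (loc2 hr A)))

instance : Module k (T3 hr A) :=
  inferInstanceAs (Module k
    (((v : ι) → (Lv v).H2 (Rep.res (r v) A)) ⧸ LinearMap.range (loc2 hr A)))

/-- the class map `∏_v H²(G_v, A) → T³(A)` -/
def T3π : ((v : ι) → (Lv v).H2 (Rep.res (r v) A)) →ₗ[k] T3 hr A :=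
  Submodule.mkQ (LinearMap.range (loc2 hr A))

lemma T3π_surjective : Function.Surjective (T3π hr A) := Submodule.mkQ_surjective _

lemma ker_T3π : LinearMap.ker (T3π hr A) = LinearMap.range (loc2 hr A) := Submodule.ker_mkQ _

lemma T3π_eq_zero_iff (x : (v : ι) → (Lv v).H2 (Rep.res (r v) A)) :
    T3π hr A x = 0 ↔ x ∈ LinearMap.range (loc2 hr A) := by
  rw [← ker_T3π, LinearMap.mem_ker]

variable (r) in
/-- The differential `C¹_c → C²_c` of the cone: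
`(x, m) ↦ (d x, (x ∘ r_v + d m_v)_v)`, `x` a global 1-cochain, `m_v ∈ A`. -/
def coneD : ((G → A) × (ι → A)) →ₗ[k] ((G × G → A) × ((v : ι) → Gv v → A)) where
  toFun x := ((d₁₂ A).hom x.1,
    fun v => (x.1 ∘ r v : Gv v → A) + ((d₀₁ (Rep.res (r v) A)).hom (x.2 v) : Gv v → A))
  map_add' x y := by
    ext1
    · simp
    · funext v g
      simp only [Prod.fst_add, Prod.snd_add, Pi.add_apply, Function.comp_apply, map_add]
      abel
  map_smul' c x := by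
    ext1
    · simp
    · funext v g
      simp only [Prod.smul_fst, Prod.smul_snd, Pi.smul_apply, Pi.add_apply, Function.comp_apply,
        map_smul, RingHom.id_apply, smul_add]

variable (L Lv r) in
/-- Cone 2-cocycles: `(a, b)` with `a` a level-constant global 2-cocycle, `b_v` level-constant
local 1-cochains with `d b_v = a ∘ r_v`. -/
def Zc2 : Submodule k ((G × G → A) × ((v : ι) → Gv v → A)) where
  carrier := {x | x.1 ∈ L.Z2 A ∧
    ∀ v, (x.2 v : Gv v → Rep.res (r v) A) ∈ (Lv v).C1 (Rep.res (r v) A) ∧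
    (d₁₂ (Rep.res (r v) A)).hom (x.2 v) = (x.1 ∘ Prod.map (r v) (r v) : Gv v × Gv v → A)}
  add_mem' := by
    rintro x y ⟨hx1, hx2⟩ ⟨hy1, hy2⟩
    refine ⟨(L.Z2 A).add_mem hx1 hy1, fun v => ⟨((Lv v).C1 _).add_mem (hx2 v).1 (hy2 v).1, ?_⟩⟩
    have h1 := (hx2 v).2
    have h2 := (hy2 v).2
    simp only [Prod.snd_add, Prod.fst_add, Pi.add_apply] at h1 h2 ⊢
    rw [map_add, h1, h2]
    rfl
  zero_mem' := by
    refine ⟨(L.Z2 A).zero_mem, fun v => ⟨((Lv v).C1 _).zero_mem, ?_⟩⟩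
    simp only [Prod.snd_zero, Prod.fst_zero, Pi.zero_apply, map_zero]
    rfl
  smul_mem' := by
    rintro c x ⟨hx1, hx2⟩
    refine ⟨(L.Z2 A).smul_mem c hx1, fun v => ⟨((Lv v).C1 _).smul_mem c (hx2 v).1, ?_⟩⟩
    have h1 := (hx2 v).2
    simp only [Prod.smul_snd, Prod.smul_fst, Pi.smul_apply] at h1 ⊢
    rw [map_smul, h1]
    rfl

lemma mem_Zc2_iff (x : (G × G → A) × ((v : ι) → Gv v → A)) :
    x ∈ Zc2 L Lv r A ↔ x.1 ∈ L.Z2 A ∧
      ∀ v, (x.2 v : Gv v → Rep.res (r v) A) ∈ (Lv v).C1 (Rep.res (r v) A) ∧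
      (d₁₂ (Rep.res (r v) A)).hom (x.2 v) = (x.1 ∘ Prod.map (r v) (r v) : Gv v × Gv v → A) :=
  Iff.rfl

variable (L r) in
/-- Cone 2-coboundaries: `coneD (x, m)` with `x` level-constant. -/
def Bc2 : Submodule k ((G × G → A) × ((v : ι) → Gv v → A)) :=
  ((L.C1 A).prod ⊤).map (coneD r A)

lemma mem_Bc2_iff (z : (G × G → A) × ((v : ι) → Gv v → A)) :
    z ∈ Bc2 L r A ↔ ∃ (x : G → A) (m : ι → A), L.IsLC₁ x ∧ coneD r A (x, m) = z := by
  constructor
  · rintro ⟨⟨x, m⟩, ⟨hx, -⟩, rfl⟩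
    exact ⟨x, m, hx, rfl⟩
  · rintro ⟨x, m, hx, rfl⟩
    exact ⟨(x, m), ⟨hx, trivial⟩, rfl⟩

variable (L Lv r) in
/-- The cone cohomology `H²_c`. -/
def Hc2 : Type := ↥(Zc2 L Lv r A) ⧸ (Bc2 L r A).comap (Zc2 L Lv r A).subtype

instance : AddCommGroup (Hc2 L Lv r A) :=
  inferInstanceAs (AddCommGroup (↥(Zc2 L Lv r A) ⧸ (Bc2 L r A).comap (Zc2 L Lv r A).subtype))

instance : Module k (Hc2 L Lv r A) :=
  inferInstanceAs (Module k (↥(Zc2 L Lv r A) ⧸ (Bc2 L r A).comap (Zc2 L Lv r A).subtype))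

variable (L Lv r) in
/-- class of a cone cocycle -/
def Hc2π : ↥(Zc2 L Lv r A) →ₗ[k] Hc2 L Lv r A :=
  Submodule.mkQ ((Bc2 L r A).comap (Zc2 L Lv r A).subtype)

lemma Hc2π_surjective : Function.Surjective (Hc2π L Lv r A) := Submodule.mkQ_surjective _

lemma ker_Hc2π : LinearMap.ker (Hc2π L Lv r A) = (Bc2 L r A).comap (Zc2 L Lv r A).subtype :=
  Submodule.ker_mkQ _

lemma Hc2π_eq_zero_iff (z : ↥(Zc2 L Lv r A)) :
    Hc2π L Lv r A z = 0 ↔ (z : (G × G → A) × ((v : ι) → Gv v → A)) ∈ Bc2 L r A := by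
  rw [← LinearMap.mem_ker, ker_Hc2π, Submodule.mem_comap, Submodule.subtype_apply]

/-! ### the maps `j` and `u` -/

/-- `(0, b)` is a cone cocycle when all `b_v` are level-constant cocycles. -/
theorem zero_pair_mem_Zc2 (b : (v : ι) → ↥((Lv v).Z1 (Rep.res (r v) A))) :
    ((0 : G × G → A), fun v => ((b v : Gv v → Rep.res (r v) A) : Gv v → A)) ∈ Zc2 L Lv r A := by
  refine ⟨(L.Z2 A).zero_mem, fun v => ⟨(b v).2.2, ?_⟩⟩
  have h : (d₁₂ (Rep.res (r v) A)).hom (b v : Gv v → Rep.res (r v) A) = 0 := (b v).2.1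
  rw [h]
  rfl

/-- the linear map `∏_v Z¹(G_v, A) → Z²_c`, `b ↦ (0, b)` -/
def jZ : ((v : ι) → ↥((Lv v).Z1 (Rep.res (r v) A))) →ₗ[k] ↥(Zc2 L Lv r A) where
  toFun b := ⟨((0 : G × G → A), fun v => ((b v : Gv v → Rep.res (r v) A) : Gv v → A)),
    zero_pair_mem_Zc2 A b⟩
  map_add' _ _ := by
    apply Subtype.ext
    ext1
    · simp
    · rfl
  map_smul' _ _ := by
    apply Subtype.ext
    ext1
    · simp
    · rfl

/-- `(a, b) ↦ a` on cone cocycles -/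
def uZ : ↥(Zc2 L Lv r A) →ₗ[k] ↥(L.Z2 A) :=
  ((LinearMap.fst k (G × G → A) ((v : ι) → Gv v → A)).restrict
    (p := Zc2 L Lv r A) (q := L.Z2 A) fun _ hx => hx.1)

@[simp] lemma coe_uZ (z : ↥(Zc2 L Lv r A)) :
    (uZ A z : G × G → A) = (z : (G × G → A) × ((v : ι) → Gv v → A)).1 := rfl

/-- `u : H²_c(A) → H²(A)`, `[(a, b)] ↦ [a]`. -/
def uH : Hc2 L Lv r A →ₗ[k] L.H2 A :=
  Submodule.mapQ ((Bc2 L r A).comap (Zc2 L Lv r A).subtype)
    ((L.B2 A).comap (L.Z2 A).subtype) (uZ A) (by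
    intro z hz
    simp only [Submodule.mem_comap, Submodule.subtype_apply] at hz ⊢
    obtain ⟨x, m, hx, hxz⟩ := (mem_Bc2_iff A _).1 hz
    refine ⟨x, hx, ?_⟩
    rw [coe_uZ, ← hxz]
    rfl)

@[simp] lemma uH_mk (z : ↥(Zc2 L Lv r A)) :
    uH A (Hc2π L Lv r A z) = L.H2π A (uZ A z) := rfl

/-- the `v`-component of `j`, on cocycles: `b ↦ (0, single v b)` -/
def jZv (v : ι) : ↥((Lv v).Z1 (Rep.res (r v) A)) →ₗ[k] ↥(Zc2 L Lv r A) :=
  jZ A ∘ₗ LinearMap.single k (fun w => ↥((Lv w).Z1 (Rep.res (r w) A))) v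

/-- the `v`-component of `j`: `H¹(G_v, A) → H²_c(A)` -/
def jHv (v : ι) : (Lv v).H1 (Rep.res (r v) A) →ₗ[k] Hc2 L Lv r A :=
  Submodule.liftQ _ (Hc2π L Lv r A ∘ₗ jZv (L := L) A v) (by
    intro b hb
    rw [LinearMap.mem_ker, LinearMap.comp_apply, Hc2π_eq_zero_iff]
    simp only [Submodule.mem_comap, Submodule.subtype_apply] at hb
    obtain ⟨m, hm⟩ := hb
    refine (mem_Bc2_iff A _).2 ⟨0, Pi.single v m, L.isLC₁_const (0 : A), ?_⟩
    ext1
    · simp [coneD, jZv, jZ]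
    · funext w
      by_cases hw : w = v
      · subst hw
        simp only [coneD, jZv, jZ, LinearMap.coe_mk, AddHom.coe_mk, LinearMap.comp_apply,
          LinearMap.single_apply, Pi.single_eq_same]
        rw [← hm]
        funext g
        simp
      · simp only [coneD, jZv, jZ, LinearMap.coe_mk, AddHom.coe_mk, LinearMap.comp_apply,
          LinearMap.single_apply, Pi.single_eq_of_ne hw]
        funext g
        simp only [ZeroMemClass.coe_zero, Pi.zero_comp, Pi.add_apply, Pi.zero_apply, map_zero,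
          add_zero]
        exact (zero_add _).trans rfl)

/-- `j : ∏_v H¹(G_v, A) → H²_c(A)`, `([b_v])_v ↦ [(0, (b_v)_v)]`. -/
def jH : ((v : ι) → (Lv v).H1 (Rep.res (r v) A)) →ₗ[k] Hc2 L Lv r A :=
  ∑ v : ι, jHv (L := L) A v ∘ₗ LinearMap.proj v

lemma jH_mk (b : (v : ι) → ↥((Lv v).Z1 (Rep.res (r v) A))) :
    jH (L := L) A (fun v => (Lv v).H1π _ (b v)) = Hc2π L Lv r A (jZ A b) := by
  have hb : b = ∑ v : ι, Pi.single v (b v) := (Finset.univ_sum_single b).symm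
  conv_rhs => rw [hb, map_sum, map_sum]
  simp only [jH, LinearMap.sum_apply, LinearMap.comp_apply, LinearMap.proj_apply]
  rfl

/-! ### push-forwards -/

section Push

variable {A} {B : Rep.{0, 0, 0} k G} (φ : A →ₗ[k] B) (hφ : IsEquivariant φ)

/-- push-forward on cone cochains -/
def pushC : ((G × G → A) × ((v : ι) → Gv v → A)) →ₗ[k] ((G × G → B) × ((v : ι) → Gv v → B)) :=
  LinearMap.prodMap (φ.compLeft (G × G)) (LinearMap.pi fun v => (φ.compLeft (Gv v)) ∘ₗ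
    LinearMap.proj v)

@[simp] lemma pushC_fst (z : (G × G → A) × ((v : ι) → Gv v → A)) :
    (pushC (Gv := Gv) φ z).1 = φ ∘ z.1 := rfl

@[simp] lemma pushC_snd (z : (G × G → A) × ((v : ι) → Gv v → A)) (v : ι) :
    (pushC (Gv := Gv) φ z).2 v = φ ∘ z.2 v := rfl

include hφ in
lemma pushC_mem_Zc2 {z : (G × G → A) × ((v : ι) → Gv v → A)} (hz : z ∈ Zc2 L Lv r A) :
    pushC (Gv := Gv) φ z ∈ Zc2 L Lv r B := by
  refine ⟨push_mem_Z2 φ hφ L hz.1, fun v => ⟨LevelSys.IsLC₁.comp (hz.2 v).1 φ, ?_⟩⟩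
  have h1 := (hz.2 v).2
  have h2 := push_d₁₂ (A := Rep.res (r v) A) (B := Rep.res (r v) B) φ (hφ.res (r v)) (z.2 v)
  rw [pushC_snd, pushC_fst]
  rw [h2, h1]
  rfl

include hφ in
lemma pushC_mem_Bc2 {z : (G × G → A) × ((v : ι) → Gv v → A)} (hz : z ∈ Bc2 L r A) :
    pushC (Gv := Gv) φ z ∈ Bc2 L r B := by
  obtain ⟨x, m, hx, rfl⟩ := (mem_Bc2_iff A _).1 hz
  refine (mem_Bc2_iff B _).2 ⟨φ ∘ x, φ ∘ m, LevelSys.IsLC₁.comp hx φ, ?_⟩
  ext1
  · exact push_d₁₂ φ hφ x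
  · funext v g
    have h2 := congrFun (push_d₀₁ (A := Rep.res (r v) A) (B := Rep.res (r v) B) φ
      (hφ.res (r v)) (m v)) g
    simp only [coneD, LinearMap.coe_mk, AddHom.coe_mk, Pi.add_apply, Function.comp_apply,
      pushC_snd, map_add] at h2 ⊢
    rw [h2]

/-- push-forward of cone cocycles -/
def pushZc2 : ↥(Zc2 L Lv r A) →ₗ[k] ↥(Zc2 L Lv r B) :=
  (pushC (Gv := Gv) φ).restrict fun _ hz => pushC_mem_Zc2 φ hφ hz

/-- push-forward on `H²_c` -/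
def pushHc2 : Hc2 L Lv r A →ₗ[k] Hc2 L Lv r B :=
  Submodule.mapQ _ _ (pushZc2 (L := L) (Lv := Lv) (r := r) φ hφ) (by
    intro z hz
    simp only [Submodule.mem_comap, Submodule.subtype_apply] at hz ⊢
    exact pushC_mem_Bc2 φ hφ hz)

@[simp] lemma pushHc2_mk (z : ↥(Zc2 L Lv r A)) :
    pushHc2 φ hφ (Hc2π L Lv r A z) = Hc2π L Lv r B (pushZc2 φ hφ z) := rfl

/-- push-forward on `∏_v H¹(G_v, −)` -/
def pushLoc1 : ((v : ι) → (Lv v).H1 (Rep.res (r v) A)) →ₗ[k]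
    ((v : ι) → (Lv v).H1 (Rep.res (r v) B)) :=
  LinearMap.pi fun v => pushH1 (A := Rep.res (r v) A) (B := Rep.res (r v) B) φ (hφ.res (r v))
    (Lv v) ∘ₗ LinearMap.proj v

/-- push-forward on `∏_v H²(G_v, −)` -/
def pushLoc2 : ((v : ι) → (Lv v).H2 (Rep.res (r v) A)) →ₗ[k]
    ((v : ι) → (Lv v).H2 (Rep.res (r v) B)) :=
  LinearMap.pi fun v => pushH2 (A := Rep.res (r v) A) (B := Rep.res (r v) B) φ (hφ.res (r v))
    (Lv v) ∘ₗ LinearMap.proj v

@[simp] lemma pushLoc1_apply (x : (v : ι) → (Lv v).H1 (Rep.res (r v) A)) (v : ι) :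
    pushLoc1 φ hφ x v = pushH1 (A := Rep.res (r v) A) (B := Rep.res (r v) B) φ (hφ.res (r v))
      (Lv v) (x v) := rfl

@[simp] lemma pushLoc2_apply (x : (v : ι) → (Lv v).H2 (Rep.res (r v) A)) (v : ι) :
    pushLoc2 φ hφ x v = pushH2 (A := Rep.res (r v) A) (B := Rep.res (r v) B) φ (hφ.res (r v))
      (Lv v) (x v) := rfl

lemma resH1_pushH1 {G' : Type} [Group G'] {s : G' →* G} {L' : LevelSys G'}
    (hs : IsLevelCompatible s L L') (x : L.H1 A) :
    resH1 hs B (pushH1 φ hφ L x) =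
      pushH1 (A := Rep.res s A) (B := Rep.res s B) φ (hφ.res s) L' (resH1 hs A x) := by
  obtain ⟨c, rfl⟩ := L.H1π_surjective A x
  rfl

lemma resH2_pushH2 {G' : Type} [Group G'] {s : G' →* G} {L' : LevelSys G'}
    (hs : IsLevelCompatible s L L') (x : L.H2 A) :
    resH2 hs B (pushH2 φ hφ L x) =
      pushH2 (A := Rep.res s A) (B := Rep.res s B) φ (hφ.res s) L' (resH2 hs A x) := by
  obtain ⟨c, rfl⟩ := L.H2π_surjective A x
  rfl

lemma loc1_pushH1 (x : L.H1 A) :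
    loc1 hr B (pushH1 φ hφ L x) = pushLoc1 φ hφ (loc1 hr A x) := by
  funext v
  exact resH1_pushH1 φ hφ (hr v) x

lemma loc2_pushH2 (x : L.H2 A) :
    loc2 hr B (pushH2 φ hφ L x) = pushLoc2 φ hφ (loc2 hr A x) := by
  funext v
  exact resH2_pushH2 φ hφ (hr v) x

/-- push-forward on `Ш¹` -/
def pushSha1 : ↥(Sha1 hr A) →ₗ[k] ↥(Sha1 hr B) :=
  (pushH1 φ hφ L).restrict fun x hx => by
    rw [LinearMap.mem_ker] at hx ⊢
    rw [loc1_pushH1, hx, map_zero]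

/-- push-forward on `Ш²` -/
def pushSha2 : ↥(Sha2 hr A) →ₗ[k] ↥(Sha2 hr B) :=
  (pushH2 φ hφ L).restrict fun x hx => by
    rw [LinearMap.mem_ker] at hx ⊢
    rw [loc2_pushH2, hx, map_zero]

@[simp] lemma coe_pushSha1 (x : ↥(Sha1 hr A)) :
    (pushSha1 hr φ hφ x : L.H1 B) = pushH1 φ hφ L (x : L.H1 A) := rfl

@[simp] lemma coe_pushSha2 (x : ↥(Sha2 hr A)) :
    (pushSha2 hr φ hφ x : L.H2 B) = pushH2 φ hφ L (x : L.H2 A) := rfl

/-- push-forward on `T³` -/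
def pushT3 : T3 hr A →ₗ[k] T3 hr B :=
  Submodule.mapQ _ _ (pushLoc2 φ hφ) (by
    rintro x ⟨y, rfl⟩
    rw [Submodule.mem_comap, ← loc2_pushH2]
    exact ⟨_, rfl⟩)

@[simp] lemma pushT3_mk (x : (v : ι) → (Lv v).H2 (Rep.res (r v) A)) :
    pushT3 hr φ hφ (T3π hr A x) = T3π hr B (pushLoc2 φ hφ x) := rfl

end Push

end Fermat.Agent.S55.PT

end
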