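import Fermat.Agent.S55.PT.Cone

/-!
# S55 / PT layer, leaf D-F4 (helper113): exactness of the cone sequence

`∏_v H¹(G_v, A) →j H²_c(A) →u H²(A) →loc ∏_v H²(G_v, A)` is exact at `H²_c(A)` and at `H²(A)`.
-/

set_option autoImplicit false

noncomputable section

namespace Fermat.Agent.S55.PT.H113

open groupCohomology Fermat.Agent.S55.PT

variable {k : Type} [Field k] {G : Type} [Group G]
variable {ι : Type} [Fintype ι] [DecidableEq ι] {Gv : ι → Type} [∀ v, Group (Gv v)]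
variable {L : LevelSys G} {Lv : ∀ v, LevelSys (Gv v)} {r : ∀ v, Gv v →* G}
variable (hr : ∀ v, IsLevelCompatible (r v) L (Lv v))
variable (A : Rep.{0, 0, 0} k G)

/-- every family of local classes is a family of classes of cocycles. -/
lemma exists_locZ1 (y : (v : ι) → (Lv v).H1 (Rep.res (r v) A)) :
    ∃ b : (v : ι) → ↥((Lv v).Z1 (Rep.res (r v) A)), (fun v => (Lv v).H1π _ (b v)) = y := by
  choose b hb using fun v => (Lv v).H1π_surjective (Rep.res (r v) A) (y v)
  exact ⟨b, funext hb⟩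

/-- `u ∘ j = 0`. -/
theorem uH_jH (y : (v : ι) → (Lv v).H1 (Rep.res (r v) A)) :
    uH (L := L) (Lv := Lv) (r := r) A (jH (L := L) (Lv := Lv) (r := r) A y) = 0 := by
  obtain ⟨b, rfl⟩ := exists_locZ1 A y
  rw [jH_mk, uH_mk]
  have : uZ (L := L) (Lv := Lv) (r := r) A (jZ A b) = 0 := by
    apply Subtype.ext
    rfl
  rw [this, map_zero]

include hr in
/-- (D-F4) exactness at `H²_c`: `ker u = im j`. -/
theorem ker_uH :
    LinearMap.ker (uH (L := L) (Lv := Lv) (r := r) A) = LinearMap.range (jH (L := L) (Lv := Lv) (r := r) A) := by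
  ext x
  rw [LinearMap.mem_ker, LinearMap.mem_range]
  constructor
  · intro hx
    obtain ⟨z, rfl⟩ := Hc2π_surjective A x
    rw [uH_mk, LevelSys.H2π_eq_zero_iff] at hx
    obtain ⟨y, hy, hyz⟩ := hx
    have hylc : L.IsLC₁ y := hy
    have hyz' : (d₁₂ A).hom y = (z : (G × G → A) × ((v : ι) → Gv v → A)).1 := hyz
    have hb : ∀ v, ((z : (G × G → A) × ((v : ι) → Gv v → A)).2 v - y ∘ r v :
        Gv v → Rep.res (r v) A) ∈ (Lv v).Z1 (Rep.res (r v) A) := by
      intro v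
      obtain ⟨hz1, hz2⟩ := z.2.2 v
      refine ⟨?_, ((Lv v).C1 (Rep.res (r v) A)).sub_mem hz1 (IsLC₁.res (hr v) hylc)⟩
      show (d₁₂ (Rep.res (r v) A)).hom _ = 0
      rw [map_sub, hz2, res_d₁₂, hyz', sub_self]
    refine ⟨fun v => (Lv v).H1π _ ⟨_, hb v⟩, ?_⟩
    rw [jH_mk, ← sub_eq_zero, ← map_sub, Hc2π_eq_zero_iff]
    refine (mem_Bc2_iff A _).2 ⟨-y, fun _ => 0, (L.C1 A).neg_mem hy, ?_⟩
    apply Prod.ext
    · show (d₁₂ A).hom (-y) = (0 : G × G → A) - (z : (G × G → A) × ((v : ι) → Gv v → A)).1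
      rw [map_neg, hyz', zero_sub]
    · funext v g
      show (-y) (r v g) + ((d₀₁ (Rep.res (r v) A)).hom (0 : A) : Gv v → A) g =
        ((z : (G × G → A) × ((v : ι) → Gv v → A)).2 v g - y (r v g)) -
          (z : (G × G → A) × ((v : ι) → Gv v → A)).2 v g
      rw [map_zero]
      simp
      rfl
  · rintro ⟨y, rfl⟩
    exact uH_jH A y

/-- (D-F4) exactness at `H²`: `im u = ker loc2 = Ш²`. -/
theorem range_uH :
    LinearMap.range (uH (L := L) (Lv := Lv) (r := r) A) = LinearMap.ker (loc2 hr A) := by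
  ext x
  rw [LinearMap.mem_range, LinearMap.mem_ker]
  constructor
  · rintro ⟨y, rfl⟩
    obtain ⟨z, rfl⟩ := Hc2π_surjective A y
    rw [uH_mk]
    funext v
    rw [loc2_apply, resH2_mk, Pi.zero_apply, LevelSys.H2π_eq_zero_iff]
    obtain ⟨hz1, hz2⟩ := z.2.2 v
    exact ⟨_, hz1, hz2⟩
  · intro hx
    obtain ⟨a, rfl⟩ := L.H2π_surjective A x
    have hx' : ∀ v, ((a : G × G → A) ∘ Prod.map (r v) (r v) :
        Gv v × Gv v → Rep.res (r v) A) ∈ (Lv v).B2 (Rep.res (r v) A) := by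
      intro v
      have := congrFun hx v
      rw [loc2_apply, resH2_mk, Pi.zero_apply, LevelSys.H2π_eq_zero_iff] at this
      exact this
    choose b hb hbd using hx'
    have hz : ((a : G × G → A), fun v => (b v : Gv v → A)) ∈ Zc2 L Lv r A :=
      ⟨a.2, fun v => ⟨hb v, hbd v⟩⟩
    refine ⟨Hc2π L Lv r A ⟨_, hz⟩, ?_⟩
    rw [uH_mk]
    congr 1

/-- `Ш²(A)` is the image of `u`. -/
theorem mem_Sha2_iff_exists (x : L.H2 A) :
    x ∈ Sha2 hr A ↔ ∃ y : Hc2 L Lv r A, uH A y = x := by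
  rw [← LinearMap.mem_range, range_uH hr A]

end Fermat.Agent.S55.PT.H113

end
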