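import Fermat.Agent.S55.PT.LesH723

/-!
# S55 / layer D, framework leaves D-F4 and D-F5 (helper723)

* `cone : ConeSpec` : exactness of `∏_v H¹(G_v, A) →j H²_c(A) →u H²(A) →loc ∏_v H²(G_v, A)`;
* `coneLes : ConeLesSpec` : the cone connecting map `∂ : H²_c(C) → T³(A)`.

For a short exact sequence `0 → A → B → C → 0` of uniformly smooth representations such that
`H²(B) → H²(C)` is surjective we construct `coneDel : H²_c(C) → T³(A)` and prove

* `coneDel_eq_of_lift` : its value can be computed from ANY lift (`IsConeLift`);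
* `ker_coneDel`   : `ker ∂ = im (H²_c(B) → H²_c(C))`;
* `range_coneDel` : `im ∂ = ker (T³(A) → T³(B))`;
* `coneDel_j`     : `∂ (j b) = - [δ¹_v b_v]_v`.
-/

set_option autoImplicit false
set_option linter.unusedSectionVars false

noncomputable section

namespace Fermat.Agent.S55.PT.H723

open groupCohomology Fermat.Agent.S55.PT

variable {k : Type} [Field k] {G : Type} [Group G]
variable {ι : Type} [Fintype ι] [DecidableEq ι] {Gv : ι → Type} [∀ v, Group (Gv v)]
variable {L : LevelSys G} {Lv : ∀ v, LevelSys (Gv v)} {r : ∀ v, Gv v →* G}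
variable (hr : ∀ v, IsLevelCompatible (r v) L (Lv v))

/-! ### D-F4 : exactness of the cone sequence -/

section ConeExact

variable (A : Rep.{0, 0, 0} k G)

include hr in
/-- exactness at `H²_c(A)`: `ker u = im j`. -/
theorem ker_uH : LinearMap.ker (uH (L := L) (Lv := Lv) (r := r) A) =
    LinearMap.range (jH (L := L) (Lv := Lv) (r := r) A) := by
  ext y
  obtain ⟨z, rfl⟩ := Hc2π_surjective A y
  rw [LinearMap.mem_ker, LinearMap.mem_range, uH_mk, LevelSys.H2π_eq_zero_iff]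
  constructor
  · rintro ⟨x, hx, hxa⟩
    have hx' : L.IsLC₁ x := hx
    have hxa' : (d₁₂ A).hom x = (z : (G × G → A) × ((v : ι) → Gv v → A)).1 := hxa
    -- `b_v - x ∘ r_v` is a level-constant local cocycle
    have hz2 := z.2.2
    have hb : ∀ v, (fun g => (z : (G × G → A) × ((v : ι) → Gv v → A)).2 v g - x (r v g)) ∈
        (Lv v).Z1 (Rep.res (r v) A) := by
      intro v
      refine ⟨?_, ?_⟩
      · show (d₁₂ (Rep.res (r v) A)).hom
          (fun g => (z : (G × G → A) × ((v : ι) → Gv v → A)).2 v g - x (r v g)) = 0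
        have h1 : (fun g => (z : (G × G → A) × ((v : ι) → Gv v → A)).2 v g - x (r v g)) =
            ((z : (G × G → A) × ((v : ι) → Gv v → A)).2 v : Gv v → Rep.res (r v) A) -
              (x ∘ r v : Gv v → Rep.res (r v) A) := rfl
        rw [h1, map_sub, (hz2 v).2, res_d₁₂, hxa', sub_self]
      · exact isLC₁_sub (hz2 v).1 (IsLC₁.res (hr v) hx')
    refine ⟨fun v => (Lv v).H1π _ ⟨_, hb v⟩, ?_⟩
    rw [jH_mk, ← sub_eq_zero, ← map_sub, Hc2π_eq_zero_iff]
    refine (mem_Bc2_iff A _).2 ⟨-x, fun _ => 0, (L.C1 A).neg_mem hx, ?_⟩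
    refine Prod.ext ?_ ?_
    · show (d₁₂ A).hom (-x) = (0 : G × G → A) - (z : (G × G → A) × ((v : ι) → Gv v → A)).1
      rw [map_neg, hxa', zero_sub]
    · funext v g
      show ((-x) ∘ r v) g + (d₀₁ (Rep.res (r v) A)).hom (0 : A) g =
        ((z : (G × G → A) × ((v : ι) → Gv v → A)).2 v g - x (r v g)) -
          (z : (G × G → A) × ((v : ι) → Gv v → A)).2 v g
      rw [map_zero]
      show -x (r v g) + (0 : A) = _
      rw [add_zero]; abel
  · rintro ⟨y, hy⟩
    have hb : ∀ v, ∃ b' : ↥((Lv v).Z1 (Rep.res (r v) A)),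
        (Lv v).H1π (Rep.res (r v) A) b' = y v := fun v => (Lv v).H1π_surjective _ (y v)
    choose b hb' using hb
    have hyeq : y = fun v => (Lv v).H1π (Rep.res (r v) A) (b v) := funext fun v => (hb' v).symm
    rw [hyeq, jH_mk] at hy
    have hdiff : Hc2π L Lv r A (jZ A b - z) = 0 := by
      rw [map_sub, hy, sub_self]
    rw [Hc2π_eq_zero_iff] at hdiff
    obtain ⟨x, m, hx, hxz⟩ := (mem_Bc2_iff A _).1 hdiff
    refine ⟨-x, (L.C1 A).neg_mem hx, ?_⟩
    have h1 := congrArg Prod.fst hxz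
    have h2 : (d₁₂ A).hom x = (0 : G × G → A) - (z : (G × G → A) × ((v : ι) → Gv v → A)).1 :=
      h1
    show (d₁₂ A).hom (-x) = (z : (G × G → A) × ((v : ι) → Gv v → A)).1
    rw [map_neg, h2, zero_sub, neg_neg]

/-- exactness at `H²(A)`: `im u = ker loc2`. -/
theorem range_uH : LinearMap.range (uH (L := L) (Lv := Lv) (r := r) A) =
    LinearMap.ker (loc2 hr A) := by
  ext y
  rw [LinearMap.mem_ker, LinearMap.mem_range]
  constructor
  · rintro ⟨w, rfl⟩
    obtain ⟨z, rfl⟩ := Hc2π_surjective A w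
    rw [uH_mk]
    funext v
    rw [loc2_apply, resH2_mk, Pi.zero_apply, LevelSys.H2π_eq_zero_iff, coe_resZ2]
    exact ⟨_, (z.2.2 v).1, (z.2.2 v).2⟩
  · intro hy
    obtain ⟨a, rfl⟩ := L.H2π_surjective A y
    have hloc : ∀ v, ((a : G × G → A) ∘ Prod.map (r v) (r v) : Gv v × Gv v → Rep.res (r v) A) ∈
        (Lv v).B2 (Rep.res (r v) A) := by
      intro v
      have := congrFun hy v
      rw [loc2_apply, resH2_mk, Pi.zero_apply, LevelSys.H2π_eq_zero_iff, coe_resZ2] at this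
      exact this
    choose b hbLC hb using hloc
    have hz : ((a : G × G → A), fun v => (b v : Gv v → A)) ∈ Zc2 L Lv r A :=
      ⟨a.2, fun v => ⟨hbLC v, hb v⟩⟩
    refine ⟨Hc2π L Lv r A ⟨_, hz⟩, ?_⟩
    rw [uH_mk]
    rfl

/-- **D-F4** -/
theorem cone : ConeSpec := fun _ _ _ _ _ _ _ _ _ _ _ _ hr _ A _ => ⟨ker_uH hr A, range_uH hr A⟩

end ConeExact

/-! ### Lifts -/

section Del

variable {A B C : Rep.{0, 0, 0} k G} (E : SES A B C)

/-- `t ∈ T³(A)` is a value of the cone connecting map at the cone cochain `z = (c, (e_v))`: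
there are a level-constant global 2-cocycle `b` of `B`, a level-constant global 1-cochain `x` of
`C`, level-constant local 1-cochains `e_v` of `B` and local 2-cocycles `a_v` of `A` with
`π b = c + d x`, `π e_v = z_v + x|_v`, `i a_v = b|_v - d e_v`, and `t = [(a_v)_v]`. -/
def IsConeLift (z : (G × G → C) × ((v : ι) → Gv v → C)) (t : T3 hr A) : Prop :=
  ∃ (b : G × G → B) (x : G → C) (e : (v : ι) → Gv v → B)
    (a : (v : ι) → ↥((Lv v).Z2 (Rep.res (r v) A))),
    b ∈ L.Z2 B ∧ L.IsLC₁ x ∧ E.π ∘ b = z.1 + (d₁₂ C).hom x ∧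
    (∀ v, (Lv v).IsLC₁ (e v) ∧ E.π ∘ e v = z.2 v + x ∘ r v ∧
      E.i ∘ ((a v : Gv v × Gv v → Rep.res (r v) A) : Gv v × Gv v → A) =
        b ∘ Prod.map (r v) (r v) -
          ((d₁₂ (Rep.res (r v) B)).hom (e v : Gv v → Rep.res (r v) B) : Gv v × Gv v → B)) ∧
    t = T3π hr A (fun v => (Lv v).H2π (Rep.res (r v) A) (a v))

variable {hr E}

lemma IsConeLift.add {z z' : (G × G → C) × ((v : ι) → Gv v → C)} {t t' : T3 hr A}
    (h : IsConeLift hr E z t) (h' : IsConeLift hr E z' t') :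
    IsConeLift hr E (z + z') (t + t') := by
  obtain ⟨b, x, e, a, hb, hx, hπb, hloc, rfl⟩ := h
  obtain ⟨b', x', e', a', hb', hx', hπb', hloc', rfl⟩ := h'
  refine ⟨b + b', x + x', e + e', a + a', (L.Z2 B).add_mem hb hb', hx.add hx', ?_, ?_, ?_⟩
  · funext p
    have h1 := congrFun hπb p
    have h2 := congrFun hπb' p
    simp only [Function.comp_apply, Pi.add_apply] at h1 h2
    simp only [Function.comp_apply, Pi.add_apply, map_add, Prod.fst_add, h1, h2]
    abel
  · intro v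
    obtain ⟨he, hπe, hia⟩ := hloc v
    obtain ⟨he', hπe', hia'⟩ := hloc' v
    refine ⟨he.add he', ?_, ?_⟩
    · funext g
      have h1 := congrFun hπe g
      have h2 := congrFun hπe' g
      simp only [Function.comp_apply, Pi.add_apply] at h1 h2
      simp only [Function.comp_apply, Pi.add_apply, map_add, Prod.snd_add, h1, h2]
      abel
    · funext p
      have h1 := congrFun hia p
      have h2 := congrFun hia' p
      simp only [Function.comp_apply, Pi.sub_apply] at h1 h2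
      show E.i ((a v : Gv v × Gv v → Rep.res (r v) A) p +
        (a' v : Gv v × Gv v → Rep.res (r v) A) p) = _
      rw [map_add, h1, h2]
      simp only [Pi.add_apply, Function.comp_apply, Pi.sub_apply, map_add]
      abel
  · rw [← map_add]
    rfl

lemma IsConeLift.smul (c : k) {z : (G × G → C) × ((v : ι) → Gv v → C)} {t : T3 hr A}
    (h : IsConeLift hr E z t) : IsConeLift hr E (c • z) (c • t) := by
  obtain ⟨b, x, e, a, hb, hx, hπb, hloc, rfl⟩ := h
  refine ⟨c • b, c • x, c • e, c • a, (L.Z2 B).smul_mem c hb, hx.comp (c • ·), ?_, ?_, ?_⟩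
  · funext p
    have h1 := congrFun hπb p
    simp only [Function.comp_apply, Pi.add_apply] at h1
    simp only [Function.comp_apply, Pi.add_apply, Pi.smul_apply, map_smul, Prod.smul_fst, h1,
      smul_add]
  · intro v
    obtain ⟨he, hπe, hia⟩ := hloc v
    refine ⟨he.comp (c • ·), ?_, ?_⟩
    · funext g
      have h1 := congrFun hπe g
      simp only [Function.comp_apply, Pi.add_apply] at h1
      simp only [Function.comp_apply, Pi.add_apply, Pi.smul_apply, map_smul, Prod.smul_snd, h1,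
        smul_add]
    · funext p
      have h1 := congrFun hia p
      simp only [Function.comp_apply, Pi.sub_apply] at h1
      show E.i (c • (a v : Gv v × Gv v → Rep.res (r v) A) p) = _
      rw [map_smul, h1]
      simp only [Pi.smul_apply, Function.comp_apply, Pi.sub_apply, map_smul, smul_sub]
  · rw [← map_smul]
    rfl

lemma isLC₂_sub {H : Type} [Group H] {M : LevelSys H} {X : Type*} [AddGroup X]
    {f f' : H × H → X} (hf : M.IsLC₂ f) (hf' : M.IsLC₂ f') : M.IsLC₂ (f - f') := by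
  have h1 : M.IsLC₂ (f + (fun y => -y) ∘ f') := LevelSys.IsLC₂.add hf (hf'.comp _)
  have h2 : f + (fun y => -y) ∘ f' = f - f' := by
    funext p
    simp only [Pi.add_apply, Function.comp_apply, Pi.sub_apply]
    exact (sub_eq_add_neg _ _).symm
  rwa [h2] at h1

lemma isLC₁_sub' {H : Type} [Group H] {M : LevelSys H} {X : Type*} [AddGroup X]
    {f f' : H → X} (hf : M.IsLC₁ f) (hf' : M.IsLC₁ f') : M.IsLC₁ (f - f') :=
  isLC₁_sub hf hf'

/-- **Independence of choices**: over a cone coboundary every lift gives `0 ∈ T³(A)`. -/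
lemma IsConeLift.eq_zero_of_mem_Bc2 (hN : L.NormalCofinal) (hB : L.IsUSmooth B)
    {z : (G × G → C) × ((v : ι) → Gv v → C)} {t : T3 hr A}
    (hz : z ∈ Bc2 L r C) (h : IsConeLift hr E z t) : t = 0 := by
  obtain ⟨⟨y, m⟩, ⟨hy, -⟩, rfl⟩ := hz
  obtain ⟨b, x, e, a, hb, hx, hπb, hloc, rfl⟩ := h
  have hy' : L.IsLC₁ y := hy
  have hwLC : L.IsLC₁ (y + x) := hy'.add hx
  have hswLC : L.IsLC₁ (E.sec ∘ (y + x)) := hwLC.comp _
  have hπsw : E.π ∘ (E.sec ∘ (y + x)) = y + x := by
    funext g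
    exact E.π_sec _
  have hπb' : E.π ∘ b = (d₁₂ C).hom (y + x) := by
    rw [hπb, map_add]
    rfl
  -- the global cocycle `a⁰ = ret ∘ (b - d (sec ∘ w))`
  have hπ0 : ∀ p, E.π ((b - (d₁₂ B).hom (E.sec ∘ (y + x))) p) = 0 := by
    intro p
    have h1 := congrFun hπb' p
    have h2 := congrFun (push_d₁₂ E.π E.hπ (E.sec ∘ (y + x))) p
    rw [hπsw] at h2
    simp only [Function.comp_apply] at h1 h2
    rw [Pi.sub_apply, map_sub, h1, ← h2, sub_self]
  have hia0 : E.i ∘ (E.ret ∘ (b - (d₁₂ B).hom (E.sec ∘ (y + x)))) =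
      b - (d₁₂ B).hom (E.sec ∘ (y + x)) := E.i_comp_ret_comp hπ0
  have hb'coc : (b - (d₁₂ B).hom (E.sec ∘ (y + x))) ∈ cocycles₂ B := by
    show (d₂₃ B).hom (b - (d₁₂ B).hom (E.sec ∘ (y + x))) = 0
    rw [map_sub, d₂₃_d₁₂_eq_zero, sub_zero]
    exact hb.1
  have hb'LC : L.IsLC₂ (b - (d₁₂ B).hom (E.sec ∘ (y + x))) :=
    isLC₂_sub hb.2 (L.d₁₂_isLC₂ hN hB hswLC)
  have ha0 : (E.ret ∘ (b - (d₁₂ B).hom (E.sec ∘ (y + x)))) ∈ L.Z2 A :=
    ⟨mem_cocycles₂_of_i_comp E (by rw [hia0]; exact hb'coc), hb'LC.comp _⟩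
  -- it suffices to show that `(a_v)` is the localisation of `a⁰`
  have hrange : (fun v => (Lv v).H2π (Rep.res (r v) A) (a v)) =
      loc2 hr A (L.H2π A ⟨_, ha0⟩) := by
    funext v
    obtain ⟨he, hπe, hia⟩ := hloc v
    rw [loc2_apply, resH2_mk, ← sub_eq_zero, ← map_sub, LevelSys.H2π_eq_zero_iff]
    have hBv : (Lv v).IsUSmooth (Rep.res (r v) B) := hB.res (hr v)
    -- the local cochain `q = sw ∘ r_v - e_v + d (sec m_v)` with values in `ker π`
    have hqLC : (Lv v).IsLC₁ (((E.sec ∘ (y + x)) ∘ r v : Gv v → B) - e v +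
        ((d₀₁ (Rep.res (r v) B)).hom (E.sec (m v)) : Gv v → B)) :=
      (isLC₁_sub' (IsLC₁.res (hr v) hswLC) he).add ((Lv v).d₀₁_isLC₁ hBv _)
    have hπq : ∀ g, E.π ((((E.sec ∘ (y + x)) ∘ r v : Gv v → B) - e v +
        ((d₀₁ (Rep.res (r v) B)).hom (E.sec (m v)) : Gv v → B)) g) = 0 := by
      intro g
      have h1 := congrFun hπe g
      have h2 := congrFun (push_d₀₁ (A := Rep.res (r v) B) (B := Rep.res (r v) C) E.π
        (E.hπ.res (r v)) (E.sec (m v))) g
      rw [E.π_sec] at h2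
      simp only [Function.comp_apply] at h1 h2
      have h1' : E.π (e v g) = y (r v g) + (d₀₁ (Rep.res (r v) C)).hom (m v) g + x (r v g) := h1
      show E.π (E.sec (y (r v g) + x (r v g)) - e v g +
        (d₀₁ (Rep.res (r v) B)).hom (E.sec (m v)) g) = 0
      rw [map_add, map_sub, E.π_sec, h1', ← h2]
      abel
    have hiq := E.i_comp_ret_comp hπq
    refine ⟨_, hqLC.comp E.ret, ?_⟩
    apply i_comp_injective E
    have h5 := push_d₁₂ (A := Rep.res (r v) A) (B := Rep.res (r v) B) E.i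
      (E.hi.res (r v))
      (E.ret ∘ (((E.sec ∘ (y + x)) ∘ r v : Gv v → B) - e v +
        ((d₀₁ (Rep.res (r v) B)).hom (E.sec (m v)) : Gv v → B)))
    have h6 : (E.i ∘ (E.ret ∘ (((E.sec ∘ (y + x)) ∘ r v : Gv v → B) - e v +
        ((d₀₁ (Rep.res (r v) B)).hom (E.sec (m v)) : Gv v → B)))) =
        (((E.sec ∘ (y + x)) ∘ r v : Gv v → B) - e v +
        ((d₀₁ (Rep.res (r v) B)).hom (E.sec (m v)) : Gv v → B)) := hiq
    rw [h6, map_add, map_sub, d₁₂_d₀₁_eq_zero, add_zero, res_d₁₂] at h5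
    refine Eq.trans h5.symm ?_
    funext p
    have h7 : E.i ((a v : Gv v × Gv v → Rep.res (r v) A) p) =
        b (Prod.map (r v) (r v) p) - (d₁₂ (Rep.res (r v) B)).hom (e v) p := congrFun hia p
    have h8 : E.i (E.ret ((b - (d₁₂ B).hom (E.sec ∘ (y + x))) (Prod.map (r v) (r v) p))) =
        (b - (d₁₂ B).hom (E.sec ∘ (y + x))) (Prod.map (r v) (r v) p) := congrFun hia0 _
    show (d₁₂ B).hom (E.sec ∘ (y + x)) (Prod.map (r v) (r v) p) -
        (d₁₂ (Rep.res (r v) B)).hom (e v) p =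
      E.i ((a v : Gv v × Gv v → Rep.res (r v) A) p -
        E.ret ((b - (d₁₂ B).hom (E.sec ∘ (y + x))) (Prod.map (r v) (r v) p)))
    rw [map_sub, h7, h8, Pi.sub_apply]
    abel
  rw [hrange]
  have hker : loc2 hr A (L.H2π A ⟨_, ha0⟩) ∈ LinearMap.ker (T3π hr A) := by
    rw [ker_T3π]
    exact ⟨_, rfl⟩
  exact hker

/-- a local 2-cochain `q` with `π ∘ q = 0`, cocycle and level-constant, gives a local cocycle of
`A` -/
lemma ret_comp_mem_Z2 {H : Type} [Group H] (M : LevelSys H) {A' B' C' : Rep.{0, 0, 0} k H}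
    (E' : SES A' B' C') {q : H × H → B'} (hq0 : ∀ p, E'.π (q p) = 0)
    (hqcoc : q ∈ cocycles₂ B') (hqLC : M.IsLC₂ q) : (E'.ret ∘ q) ∈ M.Z2 A' := by
  have h : E'.i ∘ (E'.ret ∘ q) = q := E'.i_comp_ret_comp hq0
  exact ⟨mem_cocycles₂_of_i_comp E' (by rw [h]; exact hqcoc), hqLC.comp _⟩

/-- **Existence of lifts** (uses the surjectivity of `H²(B) → H²(C)`, input A3). -/
lemma exists_isConeLift (hNv : ∀ v, (Lv v).NormalCofinal) (hB : L.IsUSmooth B)
    (hsurj : Function.Surjective (pushH2 E.π E.hπ L))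
    {z : (G × G → C) × ((v : ι) → Gv v → C)} (hz : z ∈ Zc2 L Lv r C) :
    ∃ t, IsConeLift hr E z t := by
  obtain ⟨hz1, hz2⟩ := hz
  obtain ⟨y, hy⟩ := hsurj (L.H2π C ⟨z.1, hz1⟩)
  obtain ⟨b, rfl⟩ := L.H2π_surjective B y
  rw [pushH2_mk, ← sub_eq_zero, ← map_sub, LevelSys.H2π_eq_zero_iff] at hy
  obtain ⟨x, hx, hdx⟩ := hy
  have hx' : L.IsLC₁ x := hx
  have hdx' : (d₁₂ C).hom x = E.π ∘ (b : G × G → B) - z.1 := hdx
  have hπb : E.π ∘ (b : G × G → B) = z.1 + (d₁₂ C).hom x := by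
    rw [hdx']; abel
  -- local data
  have hloc : ∀ v, ∃ a : ↥((Lv v).Z2 (Rep.res (r v) A)),
      E.i ∘ ((a : Gv v × Gv v → Rep.res (r v) A) : Gv v × Gv v → A) =
        (b : G × G → B) ∘ Prod.map (r v) (r v) -
          ((d₁₂ (Rep.res (r v) B)).hom
            ((E.sec ∘ (z.2 v + x ∘ r v) : Gv v → B) : Gv v → Rep.res (r v) B) :
              Gv v × Gv v → B) := by
    intro v
    have hBv : (Lv v).IsUSmooth (Rep.res (r v) B) := hB.res (hr v)
    have heLC : (Lv v).IsLC₁ (E.sec ∘ (z.2 v + x ∘ r v) : Gv v → B) :=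
      (LevelSys.IsLC₁.add (hz2 v).1 (IsLC₁.res (hr v) hx')).comp _
    have hq0 : ∀ p, E.π (((b : G × G → B) ∘ Prod.map (r v) (r v) -
        ((d₁₂ (Rep.res (r v) B)).hom
          ((E.sec ∘ (z.2 v + x ∘ r v) : Gv v → B) : Gv v → Rep.res (r v) B) :
            Gv v × Gv v → B)) p) = 0 := by
      intro p
      have h1 := congrFun hπb (Prod.map (r v) (r v) p)
      have h2 := congrFun (push_d₁₂ (A := Rep.res (r v) B) (B := Rep.res (r v) C) E.π
        (E.hπ.res (r v)) (E.sec ∘ (z.2 v + x ∘ r v))) p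
      have h3 : E.π ∘ (E.sec ∘ (z.2 v + x ∘ r v)) = (z.2 v + x ∘ r v : Gv v → C) := by
        funext g
        exact E.π_sec _
      rw [h3, map_add, (hz2 v).2, res_d₁₂] at h2
      simp only [Function.comp_apply, Pi.add_apply] at h1 h2
      rw [Pi.sub_apply, map_sub, Function.comp_apply, h1, ← h2]
      exact sub_self _
    have hqcoc : ((b : G × G → B) ∘ Prod.map (r v) (r v) -
        ((d₁₂ (Rep.res (r v) B)).hom
          ((E.sec ∘ (z.2 v + x ∘ r v) : Gv v → B) : Gv v → Rep.res (r v) B) :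
            Gv v × Gv v → B)) ∈ cocycles₂ (Rep.res (r v) B) := by
      show (d₂₃ (Rep.res (r v) B)).hom _ = 0
      rw [map_sub, d₂₃_d₁₂_eq_zero, sub_zero]
      exact (res_mem_Z2 (hr v) B b.2).1
    have hqLC : (Lv v).IsLC₂ ((b : G × G → B) ∘ Prod.map (r v) (r v) -
        ((d₁₂ (Rep.res (r v) B)).hom
          ((E.sec ∘ (z.2 v + x ∘ r v) : Gv v → B) : Gv v → Rep.res (r v) B) :
            Gv v × Gv v → B)) :=
      isLC₂_sub (IsLC₂.res (hr v) b.2.2) ((Lv v).d₁₂_isLC₂ (hNv v) hBv heLC)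
    exact ⟨⟨_, ret_comp_mem_Z2 (Lv v) (E.res (r v)) hq0 hqcoc hqLC⟩,
      (E.res (r v)).i_comp_ret_comp hq0⟩
  choose a ha using hloc
  refine ⟨T3π hr A (fun v => (Lv v).H2π (Rep.res (r v) A) (a v)), b, x,
    fun v => E.sec ∘ (z.2 v + x ∘ r v), a, b.2, hx', hπb, fun v => ⟨?_, ?_, ha v⟩, rfl⟩
  · exact (LevelSys.IsLC₁.add (hz2 v).1 (IsLC₁.res (hr v) hx')).comp _
  · funext g
    exact E.π_sec _

/-- **Uniqueness of the value**. -/
lemma IsConeLift.unique (hN : L.NormalCofinal) (hB : L.IsUSmooth B)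
    {z : (G × G → C) × ((v : ι) → Gv v → C)}
    {t t' : T3 hr A} (h : IsConeLift hr E z t) (h' : IsConeLift hr E z t') : t = t' := by
  have h1 := h.add (h'.smul (-1))
  have h2 : z + (-1 : k) • z = 0 := by rw [neg_one_smul, add_neg_cancel]
  rw [h2] at h1
  have h3 := h1.eq_zero_of_mem_Bc2 hN hB (Bc2 L r C).zero_mem
  rw [neg_one_smul, add_neg_eq_zero] at h3
  exact h3

variable (hr E)

/-- The cone connecting map on cocycles. -/
def coneDelZ (hN : L.NormalCofinal) (hNv : ∀ v, (Lv v).NormalCofinal)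
    (hB : L.IsUSmooth B) (hsurj : Function.Surjective (pushH2 E.π E.hπ L)) :
    ↥(Zc2 L Lv r C) →ₗ[k] T3 hr A where
  toFun z := Classical.choose (exists_isConeLift (hr := hr) (E := E) hNv hB hsurj z.2)
  map_add' z z' := by
    have h := Classical.choose_spec (exists_isConeLift (hr := hr) (E := E) hNv hB hsurj z.2)
    have h' := Classical.choose_spec (exists_isConeLift (hr := hr) (E := E) hNv hB hsurj z'.2)
    have h'' := Classical.choose_spec (exists_isConeLift (hr := hr) (E := E) hNv hB hsurj (z + z').2)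
    exact h''.unique hN hB (h.add h')
  map_smul' c z := by
    have h := Classical.choose_spec (exists_isConeLift (hr := hr) (E := E) hNv hB hsurj z.2)
    have h'' := Classical.choose_spec (exists_isConeLift (hr := hr) (E := E) hNv hB hsurj (c • z).2)
    exact h''.unique hN hB (h.smul c)

lemma isConeLift_coneDelZ (hN : L.NormalCofinal) (hNv : ∀ v, (Lv v).NormalCofinal)
    (hB : L.IsUSmooth B)
    (hsurj : Function.Surjective (pushH2 E.π E.hπ L)) (z : ↥(Zc2 L Lv r C)) :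
    IsConeLift hr E (z : (G × G → C) × ((v : ι) → Gv v → C)) (coneDelZ hr E hN hNv hB hsurj z) :=
  Classical.choose_spec (exists_isConeLift (hr := hr) (E := E) hNv hB hsurj z.2)

/-- **The cone connecting map** `∂ : H²_c(C) → T³(A)`. -/
def coneDel (hN : L.NormalCofinal) (hNv : ∀ v, (Lv v).NormalCofinal)
    (hB : L.IsUSmooth B) (hsurj : Function.Surjective (pushH2 E.π E.hπ L)) :
    Hc2 L Lv r C →ₗ[k] T3 hr A :=
  Submodule.liftQ ((Bc2 L r C).comap (Zc2 L Lv r C).subtype) (coneDelZ hr E hN hNv hB hsurj) (by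
    intro z hz
    rw [Submodule.mem_comap] at hz
    exact (isConeLift_coneDelZ hr E hN hNv hB hsurj z).eq_zero_of_mem_Bc2 hN hB hz)

lemma coneDel_mk (hN : L.NormalCofinal) (hNv : ∀ v, (Lv v).NormalCofinal)
    (hB : L.IsUSmooth B) (hsurj : Function.Surjective (pushH2 E.π E.hπ L))
    (z : ↥(Zc2 L Lv r C)) :
    coneDel hr E hN hNv hB hsurj (Hc2π L Lv r C z) = coneDelZ hr E hN hNv hB hsurj z := rfl

/-- The value of `∂` can be computed from any lift. -/
theorem coneDel_eq_of_lift (hN : L.NormalCofinal) (hNv : ∀ v, (Lv v).NormalCofinal)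
    (hB : L.IsUSmooth B)
    (hsurj : Function.Surjective (pushH2 E.π E.hπ L)) (z : ↥(Zc2 L Lv r C)) {t : T3 hr A}
    (h : IsConeLift hr E (z : (G × G → C) × ((v : ι) → Gv v → C)) t) :
    coneDel hr E hN hNv hB hsurj (Hc2π L Lv r C z) = t := by
  rw [coneDel_mk]
  exact (isConeLift_coneDelZ hr E hN hNv hB hsurj z).unique hN hB h

/-- `∂ (j b) = - [δ¹_v b_v]_v`. -/
theorem coneDel_j (hN : L.NormalCofinal) (hNv : ∀ v, (Lv v).NormalCofinal)
    (hB : L.IsUSmooth B) (hC : L.IsUSmooth C)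
    (hsurj : Function.Surjective (pushH2 E.π E.hπ L))
    (b : (v : ι) → ↥((Lv v).Z1 (Rep.res (r v) C))) :
    coneDel hr E hN hNv hB hsurj (Hc2π L Lv r C (jZ C b)) =
      - T3π hr A (fun v => (E.res (r v)).del1 (Lv v) (hNv v) (hB.res (hr v))
          (hC.res (hr v)) ((Lv v).H1π (Rep.res (r v) C) (b v))) := by
  apply coneDel_eq_of_lift
  have hdelmem : ∀ v, (E.res (r v)).del1Fun ((b v : Gv v → Rep.res (r v) C)) ∈
      (Lv v).Z2 (Rep.res (r v) A) :=
    fun v => (E.res (r v)).del1Fun_mem_Z2 (Lv v) (hNv v) (hB.res (hr v)) (b v)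
  refine ⟨0, 0, fun v => ((E.res (r v)).sec ∘ (b v : Gv v → Rep.res (r v) C)),
    fun v => -⟨_, hdelmem v⟩, (L.Z2 B).zero_mem, L.isLC₁_const 0, ?_,
    fun v => ⟨?_, ?_, ?_⟩, ?_⟩
  · rw [map_zero, add_zero]
    funext p
    exact map_zero E.π
  · exact LevelSys.IsLC₁.comp (b v).2.2 (E.res (r v)).sec
  · funext g
    have h2 : E.π ((E.res (r v)).sec ((b v : Gv v → Rep.res (r v) C) g)) =
        (b v : Gv v → Rep.res (r v) C) g := (E.res (r v)).π_sec _
    show E.π ((E.res (r v)).sec ((b v : Gv v → Rep.res (r v) C) g)) =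
      (b v : Gv v → Rep.res (r v) C) g + 0
    rw [h2, add_zero]
  · have h3 := (E.res (r v)).i_comp_del1Fun (b v).2.1
    funext p
    have h4 : E.i ((E.res (r v)).del1Fun ((b v : Gv v → Rep.res (r v) C)) p) =
        (d₁₂ (Rep.res (r v) B)).hom ((E.res (r v)).sec ∘ (b v : Gv v → Rep.res (r v) C)) p :=
      congrFun h3 p
    show E.i (-((E.res (r v)).del1Fun ((b v : Gv v → Rep.res (r v) C)) p)) =
      (0 : B) - (d₁₂ (Rep.res (r v) B)).hom ((E.res (r v)).sec ∘
        (b v : Gv v → Rep.res (r v) C)) p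
    rw [map_neg, h4, zero_sub]
  · rw [← map_neg]
    rfl

/-- exactness at `H²_c(C)`: `ker ∂ = im (H²_c(B) → H²_c(C))`. -/
theorem ker_coneDel (hN : L.NormalCofinal) (hNv : ∀ v, (Lv v).NormalCofinal)
    (hB : L.IsUSmooth B) (hsurj : Function.Surjective (pushH2 E.π E.hπ L)) :
    LinearMap.ker (coneDel hr E hN hNv hB hsurj) = LinearMap.range (pushHc2 (L := L) (Lv := Lv) (r := r) E.π E.hπ) := by
  ext w
  rw [LinearMap.mem_ker, LinearMap.mem_range]
  constructor
  · intro hw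
    obtain ⟨z, rfl⟩ := Hc2π_surjective C w
    rw [coneDel_mk] at hw
    obtain ⟨b, x, e, a, hb, hx, hπb, hloc, ht⟩ := isConeLift_coneDelZ hr E hN hNv hB hsurj z
    rw [hw] at ht
    -- `(a_v)` is the localisation of a global class
    have hmem : (fun v => (Lv v).H2π (Rep.res (r v) A) (a v)) ∈ LinearMap.ker (T3π hr A) :=
      ht.symm
    rw [ker_T3π] at hmem
    obtain ⟨y, hy⟩ := hmem
    obtain ⟨a0, rfl⟩ := L.H2π_surjective A y
    have hf : ∀ v, ∃ f : Gv v → A, (Lv v).IsLC₁ f ∧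
        (d₁₂ (Rep.res (r v) A)).hom (f : Gv v → Rep.res (r v) A) =
          ((a v : Gv v × Gv v → Rep.res (r v) A) : Gv v × Gv v → A) -
            (a0 : G × G → A) ∘ Prod.map (r v) (r v) := by
      intro v
      have h1 := congrFun hy v
      rw [loc2_apply, resH2_mk] at h1
      have h2 : (Lv v).H2π (Rep.res (r v) A) (a v - resZ2 (hr v) A a0) = 0 := by
        rw [map_sub, ← h1, sub_self]
      rw [LevelSys.H2π_eq_zero_iff] at h2
      obtain ⟨f, hfLC, hf⟩ := h2
      exact ⟨f, hfLC, hf⟩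
    choose f hfLC hdf using hf
    have hia0 : (E.i ∘ (a0 : G × G → A)) ∈ L.Z2 B := push_mem_Z2 E.i E.hi L a0.2
    have hzB : ((b - E.i ∘ (a0 : G × G → A) : G × G → B),
        fun v => (e v + E.i ∘ f v : Gv v → B)) ∈ Zc2 L Lv r B := by
      refine ⟨(L.Z2 B).sub_mem hb hia0, fun v => ⟨?_, ?_⟩⟩
      · exact LevelSys.IsLC₁.add (hloc v).1 (LevelSys.IsLC₁.comp (hfLC v) E.i)
      · have h5 := push_d₁₂ (A := Rep.res (r v) A) (B := Rep.res (r v) B) E.i
          (E.hi.res (r v)) (f v)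
        show (d₁₂ (Rep.res (r v) B)).hom ((e v + E.i ∘ f v : Gv v → B)) = _
        rw [map_add, h5, hdf v]
        funext p
        have h7 : E.i ((a v : Gv v × Gv v → Rep.res (r v) A) p) =
            b (Prod.map (r v) (r v) p) - (d₁₂ (Rep.res (r v) B)).hom (e v) p :=
          congrFun (hloc v).2.2 p
        show (d₁₂ (Rep.res (r v) B)).hom (e v) p +
            E.i ((a v : Gv v × Gv v → Rep.res (r v) A) p - (a0 : G × G → A)
              (Prod.map (r v) (r v) p)) =
          b (Prod.map (r v) (r v) p) - E.i ((a0 : G × G → A) (Prod.map (r v) (r v) p))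
        rw [map_sub, h7]
        abel
    refine ⟨Hc2π L Lv r B ⟨_, hzB⟩, ?_⟩
    rw [pushHc2_mk, ← sub_eq_zero, ← map_sub]
    have hker : (pushZc2 (L := L) (Lv := Lv) (r := r) E.π E.hπ ⟨_, hzB⟩ - z) ∈ LinearMap.ker (Hc2π L Lv r C) := by
      rw [ker_Hc2π, Submodule.mem_comap]
      refine ⟨(x, fun _ => 0), ⟨hx, trivial⟩, ?_⟩
      refine Prod.ext ?_ ?_
      · show (d₁₂ C).hom x = E.π ∘ (b - E.i ∘ (a0 : G × G → A)) -
          (z : (G × G → C) × ((v : ι) → Gv v → C)).1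
        funext p
        have h8 := congrFun hπb p
        simp only [Function.comp_apply, Pi.add_apply] at h8
        simp only [Function.comp_apply, Pi.sub_apply, map_sub, E.π_i, sub_zero, h8]
        abel
      · funext v g
        have h9 := congrFun (hloc v).2.1 g
        simp only [Function.comp_apply, Pi.add_apply] at h9
        show x (r v g) + (d₀₁ (Rep.res (r v) C)).hom (0 : C) g =
          E.π (e v g + E.i (f v g)) - (z : (G × G → C) × ((v : ι) → Gv v → C)).2 v g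
        rw [map_zero, map_add, E.π_i, add_zero, h9]
        show x (r v g) + (0 : C) = _
        abel
    exact hker
  · rintro ⟨wB, rfl⟩
    obtain ⟨zB, rfl⟩ := Hc2π_surjective B wB
    rw [pushHc2_mk]
    apply coneDel_eq_of_lift
    refine ⟨(zB : (G × G → B) × ((v : ι) → Gv v → B)).1, 0,
      (zB : (G × G → B) × ((v : ι) → Gv v → B)).2, 0, zB.2.1, L.isLC₁_const 0, ?_,
      fun v => ⟨(zB.2.2 v).1, ?_, ?_⟩, ?_⟩
    · rw [map_zero, add_zero]
      rfl
    · funext g
      show E.π ((zB : (G × G → B) × ((v : ι) → Gv v → B)).2 v g) =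
        E.π ((zB : (G × G → B) × ((v : ι) → Gv v → B)).2 v g) + 0
      rw [add_zero]
    · have h1 := (zB.2.2 v).2
      rw [h1, sub_self]
      funext p
      exact map_zero E.i
    · symm
      have : (fun v => (Lv v).H2π (Rep.res (r v) A) ((0 : (v : ι) → ↥((Lv v).Z2
          (Rep.res (r v) A))) v)) = 0 := by
        funext v
        exact map_zero _
      rw [this, map_zero]

/-- exactness at `T³(A)`: `im ∂ = ker (T³(A) → T³(B))`. -/
theorem range_coneDel (hN : L.NormalCofinal) (hNv : ∀ v, (Lv v).NormalCofinal)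
    (hB : L.IsUSmooth B) (hsurj : Function.Surjective (pushH2 E.π E.hπ L)) :
    LinearMap.range (coneDel hr E hN hNv hB hsurj) = LinearMap.ker (pushT3 hr E.i E.hi) := by
  ext t
  rw [LinearMap.mem_ker, LinearMap.mem_range]
  constructor
  · rintro ⟨w, rfl⟩
    obtain ⟨z, rfl⟩ := Hc2π_surjective C w
    rw [coneDel_mk]
    obtain ⟨b, x, e, a, hb, hx, hπb, hloc, ht⟩ := isConeLift_coneDelZ hr E hN hNv hB hsurj z
    rw [ht, pushT3_mk]
    have hmem : pushLoc2 (Lv := Lv) (r := r) E.i E.hi (fun v => (Lv v).H2π (Rep.res (r v) A) (a v)) ∈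
        LinearMap.ker (T3π hr B) := by
      rw [ker_T3π]
      refine ⟨L.H2π B ⟨b, hb⟩, ?_⟩
      funext v
      rw [loc2_apply, resH2_mk, pushLoc2_apply, pushH2_mk, ← sub_eq_zero, ← map_sub,
        LevelSys.H2π_eq_zero_iff]
      refine ⟨e v, (hloc v).1, ?_⟩
      have h1 := (hloc v).2.2
      funext p
      have h7 : E.i ((a v : Gv v × Gv v → Rep.res (r v) A) p) =
          b (Prod.map (r v) (r v) p) - (d₁₂ (Rep.res (r v) B)).hom (e v) p := congrFun h1 p
      show (d₁₂ (Rep.res (r v) B)).hom (e v) p =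
        b (Prod.map (r v) (r v) p) - E.i ((a v : Gv v × Gv v → Rep.res (r v) A) p)
      rw [h7]
      abel
    exact hmem
  · intro ht
    obtain ⟨ξ, rfl⟩ := T3π_surjective hr A t
    rw [pushT3_mk] at ht
    have hmem : pushLoc2 (Lv := Lv) (r := r) E.i E.hi ξ ∈ LinearMap.ker (T3π hr B) := ht
    rw [ker_T3π] at hmem
    obtain ⟨y, hy⟩ := hmem
    obtain ⟨b, rfl⟩ := L.H2π_surjective B y
    have ha : ∀ v, ∃ a : ↥((Lv v).Z2 (Rep.res (r v) A)),
        (Lv v).H2π (Rep.res (r v) A) a = ξ v := fun v => (Lv v).H2π_surjective _ (ξ v)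
    choose a ha using ha
    have he : ∀ v, ∃ e : Gv v → B, (Lv v).IsLC₁ e ∧
        (d₁₂ (Rep.res (r v) B)).hom (e : Gv v → Rep.res (r v) B) =
          E.i ∘ ((a v : Gv v × Gv v → Rep.res (r v) A) : Gv v × Gv v → A) -
            (b : G × G → B) ∘ Prod.map (r v) (r v) := by
      intro v
      have h1 := congrFun hy v
      rw [loc2_apply, resH2_mk, pushLoc2_apply, ← ha v, pushH2_mk] at h1
      have h2 : (Lv v).H2π (Rep.res (r v) B)
          (pushZ2 (A := Rep.res (r v) A) (B := Rep.res (r v) B) E.i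
            (E.hi.res (r v)) (Lv v) (a v) - resZ2 (hr v) B b) = 0 := by
        rw [map_sub, ← h1, sub_self]
      rw [LevelSys.H2π_eq_zero_iff] at h2
      obtain ⟨e, heLC, he⟩ := h2
      exact ⟨e, heLC, he⟩
    choose e heLC hde using he
    have hz : ((E.π ∘ (b : G × G → B) : G × G → C),
        fun v => (-(E.π ∘ e v) : Gv v → C)) ∈ Zc2 L Lv r C := by
      refine ⟨push_mem_Z2 E.π E.hπ L b.2, fun v => ⟨?_, ?_⟩⟩
      · exact (LevelSys.IsLC₁.comp (heLC v) E.π).comp (fun y => -y)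
      · have h5 := push_d₁₂ (A := Rep.res (r v) B) (B := Rep.res (r v) C) E.π
          (E.hπ.res (r v)) (e v)
        show (d₁₂ (Rep.res (r v) C)).hom (-(E.π ∘ e v) : Gv v → C) = _
        rw [map_neg, h5, hde v]
        funext p
        show -(E.π (E.i ((a v : Gv v × Gv v → Rep.res (r v) A) p) -
          (b : G × G → B) (Prod.map (r v) (r v) p))) =
          E.π ((b : G × G → B) (Prod.map (r v) (r v) p))
        rw [map_sub, E.π_i, zero_sub, neg_neg]
    refine ⟨Hc2π L Lv r C ⟨_, hz⟩, ?_⟩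
    apply coneDel_eq_of_lift
    refine ⟨b, 0, fun v => -e v, a, b.2, L.isLC₁_const 0, ?_,
      fun v => ⟨(heLC v).comp (fun y => -y), ?_, ?_⟩, ?_⟩
    · rw [map_zero, add_zero]
    · funext g
      show E.π (-(e v g)) = -(E.π (e v g)) + 0
      rw [map_neg, add_zero]
    · have h6 : (d₁₂ (Rep.res (r v) B)).hom ((-e v : Gv v → B) : Gv v → Rep.res (r v) B) =
          -(d₁₂ (Rep.res (r v) B)).hom (e v : Gv v → Rep.res (r v) B) := map_neg _ _
      rw [h6, hde v]
      abel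
    · congr 1
      funext v
      exact (ha v).symm


/-- **D-F5** -/
theorem coneLes : ConeLesSpec := by
  intro k _ G _ ι _ _ Gv _ L Lv r hr hN hNv A B C E _ hB hC hsurj
  refine ⟨coneDel hr E hN hNv hB hsurj, ker_coneDel hr E hN hNv hB hsurj,
    range_coneDel hr E hN hNv hB hsurj, fun b => ?_⟩
  have hb : ∀ v, ∃ b' : ↥((Lv v).Z1 (Rep.res (r v) C)),
      (Lv v).H1π (Rep.res (r v) C) b' = b v := fun v => (Lv v).H1π_surjective _ (b v)
  choose b' hb' using hb
  have hbeq : b = fun v => (Lv v).H1π (Rep.res (r v) C) (b' v) := funext fun v => (hb' v).symm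
  rw [hbeq, jH_mk]
  exact coneDel_j hr E hN hNv hB hC hsurj b'

end Del

end Fermat.Agent.S55.PT.H723

end
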