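import Fermat.Agent.S55.H244.EngineLocal

/-!
# S55 / layer D: the abstract engine, version 3 (leaf D-E1)

Pure linear algebra over a field.  Compared with `H244.sha_equiv_of_localTop`:
`θ` is not given; instead the global shift data (`dT`, `del`, `ThR`, `ThP`) and the weak
effaceability `hcap : dT x = 0 → u x = 0` (CAP) are given.
-/

set_option autoImplicit false

namespace Fermat.Agent.S55.PT

open Module Fermat.Agent.S55.H244

/-- **D-E1 (engine v3).**
Global: cone sequence `∏ L1 →j T2 →u H2 →loc2 L2`; shift `dT : T2 → T3R` with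
`range dT = ker tT`; `H0P →r0 H0R →del X1` with `del` onto and `ker del = range r0`;
top maps `ThR` (bijective), `ThP` (injective), natural.
Local: `LocalTop` data at each place, `hloc`, and the formula for `ThR (dT (j b))`.
CAP: `dT x = 0 → u x = 0`.
Conclusion: `ker loc2 ≃ Dual (ker loc)`. -/
def EngineSpec : Prop :=
  ∀ (k : Type) [Field k] (ι : Type) [Fintype ι] [DecidableEq ι]
    (T2 H2 L2 X1 T3R T3P H0R H0P : Type)
    [AddCommGroup T2] [Module k T2] [AddCommGroup H2] [Module k H2]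
    [AddCommGroup L2] [Module k L2] [AddCommGroup X1] [Module k X1]
    [AddCommGroup T3R] [Module k T3R] [AddCommGroup T3P] [Module k T3P]
    [AddCommGroup H0R] [Module k H0R] [AddCommGroup H0P] [Module k H0P]
    (L1 T2R T2P H0Rv H0Pv Y1 : ι → Type)
    [∀ v, AddCommGroup (L1 v)] [∀ v, Module k (L1 v)]
    [∀ v, AddCommGroup (T2R v)] [∀ v, Module k (T2R v)]
    [∀ v, AddCommGroup (T2P v)] [∀ v, Module k (T2P v)]
    [∀ v, AddCommGroup (H0Rv v)] [∀ v, Module k (H0Rv v)]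
    [∀ v, AddCommGroup (H0Pv v)] [∀ v, Module k (H0Pv v)]
    [∀ v, AddCommGroup (Y1 v)] [∀ v, Module k (Y1 v)]
    [FiniteDimensional k X1]
    (j : (∀ v, L1 v) →ₗ[k] T2) (u : T2 →ₗ[k] H2) (loc2 : H2 →ₗ[k] L2)
    (loc : X1 →ₗ[k] (∀ v, Y1 v))
    (_hju : LinearMap.ker u = LinearMap.range j)
    (_hu2 : LinearMap.range u = LinearMap.ker loc2)
    (dT : T2 →ₗ[k] T3R) (tT : T3R →ₗ[k] T3P)
    (_hdT : LinearMap.range dT = LinearMap.ker tT)
    (r0 : H0P →ₗ[k] H0R) (del : H0R →ₗ[k] X1)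
    (_hdel : Function.Surjective del) (_hdelker : LinearMap.ker del = LinearMap.range r0)
    (ThR : T3R →ₗ[k] Dual k H0R) (ThP : T3P →ₗ[k] Dual k H0P)
    (_hThR : Function.Bijective ThR) (_hThP : Function.Injective ThP)
    (_hnat : ∀ (t : T3R) (g : H0P), ThP (tT t) g = ThR t (r0 g))
    (_hcap : ∀ x : T2, dT x = 0 → u x = 0)
    (D : ∀ v, LocalTop k (L1 v) (T2R v) (T2P v) (H0Rv v) (H0Pv v) (Y1 v))
    (res : ∀ v, H0R →ₗ[k] H0Rv v)
    (_hloc : ∀ v f, (D v).del (res v f) = loc (del f) v)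
    (c : k) (_hc : c ≠ 0)
    (_hform : ∀ (b : ∀ v, L1 v) (f : H0R),
      ThR (dT (j b)) f = c * ∑ v, (D v).ThR ((D v).dv (b v)) (res v f)),
    Nonempty (LinearMap.ker loc2 ≃ₗ[k] Dual k (LinearMap.ker loc))

end Fermat.Agent.S55.PT
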