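import Fermat.Agent.S55.PT.SpecT
import Fermat.Agent.S55.PT.SpecE

/-!
# S55 / layer D: glue lemmas for the assembly (helper835)

Small compatibilities between the definitions of `PT/{Coh,Cone,Ind,Top}.lean`.
-/

set_option autoImplicit false

noncomputable section

namespace Fermat.Agent.S55.PT

open groupCohomology

variable {k : Type} [Field k] {G : Type} [Group G]

/-! ### invariants of twisted duals -/

lemma dualTwist_fixed_iff (χ : G →* kˣ) (N : Rep.{0, 0, 0} k G) (g : G) (f : Module.Dual k N) :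
    (N.dualTwist χ).ρ g f = f ↔ ∀ n : N, f (N.ρ g n) = (χ g : k) * f n := by
  have key : ∀ (n : N), (((N.ρ.dual.twist χ) g) f) n = (χ g : k) * f (N.ρ g⁻¹ n) := by
    intro n
    simp only [Representation.twist_apply_apply, Representation.dual_apply,
      LinearMap.smul_apply, Module.Dual.transpose_apply, LinearMap.comp_apply, smul_eq_mul]
  have hinv : ∀ (n : N), N.ρ g⁻¹ (N.ρ g n) = n := by
    intro n
    rw [← Module.End.mul_apply, ← map_mul, inv_mul_cancel, map_one, Module.End.one_apply]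
  have hinv' : ∀ (n : N), N.ρ g (N.ρ g⁻¹ n) = n := by
    intro n
    rw [← Module.End.mul_apply, ← map_mul, mul_inv_cancel, map_one, Module.End.one_apply]
  constructor
  · intro h n
    have h' : ((N.ρ.dual.twist χ) g) f = f := h
    have h2 : (((N.ρ.dual.twist χ) g) f) (N.ρ g n) = f (N.ρ g n) := by rw [h']
    rw [key, hinv] at h2
    exact h2.symm
  · intro hf
    show ((N.ρ.dual.twist χ) g) f = f
    apply LinearMap.ext
    intro n
    rw [key]
    have h := hf (N.ρ g⁻¹ n)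
    rw [hinv'] at h
    exact h.symm

/-- `H⁰(G', (N.dualTwist χ)|_{G'}) = charHom (χ ∘ s) (N|_{G'})` as subspaces of `Dual N` -/
lemma H0_res_dualTwist_eq (χ : G →* kˣ) (N : Rep.{0, 0, 0} k G) {G' : Type} [Group G']
    (s : G' →* G) :
    (LevelSys.H0 (Rep.res s (N.dualTwist χ)) : Submodule k (Module.Dual k N)) =
      charHom (χ.comp s) (Rep.res s N) := by
  ext f
  constructor
  · intro hf g n
    exact (dualTwist_fixed_iff χ N (s g) f).1 (hf g) n
  · intro hf g
    exact (dualTwist_fixed_iff χ N (s g) f).2 (fun n => hf g n)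

/-! ### functionals -/

section Comap

variable (χ : G →* kˣ) {A B : Rep.{0, 0, 0} k G} (φ : A →ₗ[k] B) (hφ : IsEquivariant φ)

/-- `f ↦ f ∘ φ : charHom χ B → charHom χ A` -/
def charHomComap : ↥(charHom χ B) →ₗ[k] ↥(charHom χ A) where
  toFun f := ⟨(f : Module.Dual k B) ∘ₗ φ, fun g a => by
    have hφ' : ∀ (g : G) (a : A), φ (A.ρ g a) = B.ρ g (φ a) := hφ
    rw [LinearMap.comp_apply, LinearMap.comp_apply, hφ']
    exact f.2 g (φ a)⟩
  map_add' _ _ := rfl
  map_smul' _ _ := rfl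

@[simp] lemma coe_charHomComap (f : ↥(charHom χ B)) :
    ((charHomComap χ φ hφ f : ↥(charHom χ A)) : Module.Dual k A) = (f : Module.Dual k B) ∘ₗ φ :=
  rfl

lemma pushChar_pushH2 (L : LevelSys G) (f : ↥(charHom χ B)) (x : L.H2 A) :
    pushChar L χ B f (pushH2 φ hφ L x) = pushChar L χ A (charHomComap χ φ hφ f) x := by
  obtain ⟨c, rfl⟩ := L.H2π_surjective A x
  rfl

/-- naturality of the top pairing -/
lemma topPair_pushH2 (L : LevelSys G) (inv : L.H2 (ofChar χ) →ₗ[k] k) (f : ↥(charHom χ B))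
    (x : L.H2 A) :
    topPair L χ inv B (pushH2 φ hφ L x) f = topPair L χ inv A x (charHomComap χ φ hφ f) := by
  rw [topPair_apply, topPair_apply, pushChar_pushH2]

end Comap

/-! ### the cone and push-forwards -/

section ConePush

variable {ι : Type} [Fintype ι] [DecidableEq ι] {Gv : ι → Type} [∀ v, Group (Gv v)]
variable {L : LevelSys G} {Lv : ∀ v, LevelSys (Gv v)} {r : ∀ v, Gv v →* G}
variable (hr : ∀ v, IsLevelCompatible (r v) L (Lv v))
variable {A B : Rep.{0, 0, 0} k G} (φ : A →ₗ[k] B) (hφ : IsEquivariant φ)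

lemma uH_pushHc2 (y : Hc2 L Lv r A) :
    uH B (pushHc2 (L := L) (Lv := Lv) (r := r) φ hφ y) = pushH2 φ hφ L (uH A y) := by
  obtain ⟨z, rfl⟩ := Hc2π_surjective (L := L) (Lv := Lv) (r := r) A y
  rfl

variable (χ : G →* kˣ) (inv : ∀ v, (Lv v).H2 (ofChar (χ.comp (r v))) →ₗ[k] k)

lemma topGlobFun_pushLoc2 (f : ↥(charHom χ B)) (x : (v : ι) → (Lv v).H2 (Rep.res (r v) A)) :
    topGlobFun χ inv B (pushLoc2 φ hφ x) f = topGlobFun χ inv A x (charHomComap χ φ hφ f) := by
  rw [topGlobFun_apply, topGlobFun_apply]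
  refine Finset.sum_congr rfl fun v _ => ?_
  congr 1
  rw [pushLoc2_apply]
  exact pushChar_pushH2 (χ.comp (r v)) (A := Rep.res (r v) A) (B := Rep.res (r v) B) φ
    (hφ.res (r v)) (Lv v) (charHomRes χ B (r v) f) (x v)

/-- naturality of the global top map -/
lemma topT3_pushT3 (hrec : IsRecip hr χ inv) (f : ↥(charHom χ B)) (t : T3 hr A) :
    topT3 hr B hrec (pushT3 hr φ hφ t) f = topT3 hr A hrec t (charHomComap χ φ hφ f) := by
  obtain ⟨x, rfl⟩ := T3π_surjective hr A t
  rw [pushT3_mk, topT3_mk, topT3_mk]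
  exact topGlobFun_pushLoc2 φ hφ χ inv f x

end ConePush

/-! ### trivial actions -/

section Triv

variable (χ : G →* kˣ) (U : Subgroup G) (N : Rep.{0, 0, 0} k G)

lemma indRep_ρ_eq_one [hU : U.Normal] (hN : ∀ u ∈ U, N.ρ u = 1) (u : G) (hu : u ∈ U) :
    (indRep U N).ρ u = 1 := by
  show indAct U N u = 1
  apply Finsupp.lhom_ext
  intro x n
  induction x using QuotientGroup.induction_on with
  | H a =>
    rw [indAct_single, hN u hu, Module.End.one_apply, Module.End.one_apply]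
    congr 1
    show ((u * a : G) : G ⧸ U) = (a : G ⧸ U)
    rw [QuotientGroup.eq]
    have : (u * a)⁻¹ * a = a⁻¹ * u⁻¹ * a := by group
    rw [this]
    have h := hU.conj_mem u⁻¹ (U.inv_mem hu) a⁻¹
    simpa using h

lemma twTriv_ρ_eq_one (W : Type) [AddCommGroup W] [Module k W] (u : G) (hu : χ u = 1) :
    (twTriv (G := G) χ W).ρ u = 1 := by
  apply LinearMap.ext
  intro w
  rw [twTriv_ρ_apply, hu]
  simp

lemma dualTwist_ρ_eq_one' (u : G) (hχ : χ u = 1) (hN : N.ρ u = 1) :
    (N.dualTwist χ).ρ u = 1 := by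
  apply LinearMap.ext
  intro f
  rw [Module.End.one_apply]
  rw [dualTwist_fixed_iff]
  intro n
  rw [hN, hχ]
  simp

lemma kerRep_ρ_eq_one {A B : Rep.{0, 0, 0} k G} (φ : A →ₗ[k] B) (hφ : IsEquivariant φ) (u : G)
    (hA : A.ρ u = 1) : (kerRep φ hφ).ρ u = 1 := by
  apply LinearMap.ext
  intro a
  apply Subtype.ext
  show A.ρ u (a : A) = (a : A)
  rw [hA]
  rfl

lemma isUSmooth_of_trivial (L : LevelSys G) {U : Subgroup G} (hU : U ∈ L.levels)
    {N : Rep.{0, 0, 0} k G} (hN : ∀ u ∈ U, N.ρ u = 1) : L.IsUSmooth N :=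
  ⟨U, hU, fun s hs a => by rw [hN s hs]; rfl⟩

end Triv

end Fermat.Agent.S55.PT

end
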