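import Fermat.Agent.S55.PT.BridgeH724
import Fermat.Agent.S55.PT.FinGlobH593
import Fermat.Agent.S55.PT.CycloLevelH723
import Fermat.Agent.S55.PT.Glue

/-!
# S55 / layer D : the CONVERSE bridge  `frozen S55 ⇒ Theorem D`   (helper595)

`PT.TheoremDSpec p S` (`Ш²(M) ≃ Dual Ш¹(M′)` in the `PT` vocabulary) is the form of Poitou–Tate
duality consumed by row S56 (`S56/Euler/Big/H2FH29.lean`, `S56/Euler/H726/Sha2.lean`).
Layer D produces it from the four arithmetic inputs A3, A4, A5–A7, A8 (`theoremD_of_four`).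

This file produces it from the FROZEN STATEMENT of S55 itself (any proof of it, e.g. the one of
engine E1), so that the consumers of Theorem D do not depend on input A8 (`CapSpec`):

* `S55At p S`              : the frozen statement of S55 at `(p, S)`, as a `Prop`;
* `theoremD_of_s55At`      : `p ≠ 2 → pPrime p ∈ S → S55At p S → TheoremDSpec p S`;
* `nonempty_equiv_dual_of_pairing` : a two-sided non-degenerate pairing `W × V → K` with `W`
  finite-dimensional gives `V ≃ₗ Dual W` (linear algebra).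
-/

set_option autoImplicit false

noncomputable section

namespace Fermat.Agent.S55.PT.H595

open groupCohomology ExtCitation Module

/-! ### Linear algebra -/

section LinAlg

variable {K V W : Type*} [Field K] [AddCommGroup V] [Module K V] [AddCommGroup W] [Module K W]

/-- A pairing `B : W → V → K` which is non-degenerate on both sides, with `W` finite-dimensional,
induces an isomorphism `V ≃ₗ Dual W`, `x ↦ B(·, x)`. -/
theorem nonempty_equiv_dual_of_pairing [FiniteDimensional K W] (B : W →ₗ[K] V →ₗ[K] K)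
    (h1 : ∀ y, (∀ x, B y x = 0) → y = 0) (h2 : ∀ x, (∀ y, B y x = 0) → x = 0) :
    Nonempty (V ≃ₗ[K] Module.Dual K W) := by
  have hΦ : Function.Injective B.flip := by
    rw [injective_iff_map_eq_zero]
    intro x hx
    exact h2 x (fun y => by simpa using LinearMap.congr_fun hx y)
  have hΨ : Function.Injective B := by
    rw [injective_iff_map_eq_zero]
    intro y hy
    exact h1 y (fun x => by simpa using LinearMap.congr_fun hy x)
  have : FiniteDimensional K V := FiniteDimensional.of_injective B.flip hΦ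
  have e1 : finrank K V ≤ finrank K W := by
    have := LinearMap.finrank_le_finrank_of_injective hΦ
    rwa [Subspace.dual_finrank_eq] at this
  have e2 : finrank K W ≤ finrank K V := by
    have := LinearMap.finrank_le_finrank_of_injective hΨ
    rwa [Subspace.dual_finrank_eq] at this
  have e3 : finrank K V = finrank K (Module.Dual K W) := by
    rw [Subspace.dual_finrank_eq]
    exact le_antisymm e1 e2
  exact ⟨LinearEquiv.ofBijective B.flip
    ⟨hΦ, (LinearMap.injective_iff_surjective_of_finrank_eq_finrank e3).1 hΦ⟩⟩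

end LinAlg

/-! ### The converse bridge -/

variable (p : ℕ) [Fact p.Prime] (S : Finset Nat.Primes)

/-- The frozen statement of S55 at `(p, S)`: conclusion for every `M` satisfying the hypotheses. -/
def S55At : Prop :=
  ∀ (M : Rep (ZMod p) (AlgebraicClosure ℚ ≃ₐ[ℚ] AlgebraicClosure ℚ))
    [FiniteDimensional (ZMod p) M],
    (∀ m : M, ∃ F : IntermediateField ℚ (AlgebraicClosure ℚ), FiniteDimensional ℚ F ∧
      ∀ s ∈ F.fixingSubgroup, M.ρ s m = m) →
    (∀ q : Nat.Primes, q ∉ S → ∀ A : ValuationSubring (AlgebraicClosure ℚ),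
      A.LiesOverPrime (q : ℕ) → ∀ g ∈ A.inertiaSubgroupIn ℚ, M.ρ g = 1) →
    ∃ B : sha₁ S (M.dualTwist (cycloChar p)) →ₗ[ZMod p] sha₂ S M →ₗ[ZMod p] ZMod p,
      (∀ y, (∀ x, B y x = 0) → y = 0) ∧ (∀ x, (∀ y, B y x = 0) → x = 0)

/-- A uniformly smooth `M` satisfies the two hypotheses of the frozen statement. -/
theorem s55_hyps_of_isUSmooth (M : Rep.{0, 0, 0} (ZMod p) GQ)
    (hM : (globalLevels S).IsUSmooth M) :
    (∀ m : M, ∃ F : IntermediateField ℚ (AlgebraicClosure ℚ), FiniteDimensional ℚ F ∧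
      ∀ s ∈ F.fixingSubgroup, M.ρ s m = m) ∧
    (∀ q : Nat.Primes, q ∉ S → ∀ A : ValuationSubring (AlgebraicClosure ℚ),
      A.LiesOverPrime (q : ℕ) → ∀ g ∈ A.inertiaSubgroupIn ℚ, M.ρ g = 1) := by
  obtain ⟨U, ⟨F, hF, rfl⟩, hU⟩ := hM
  refine ⟨fun m => ⟨F, hF.1, fun s hs => hU s hs m⟩, fun q hq A hA g hg => ?_⟩
  refine LinearMap.ext fun a => ?_
  exact hU g (hF.2 q hq A hA hg) a

/-- The Tate dual of a uniformly smooth module is uniformly smooth (`p ∈ S`). -/
theorem isUSmooth_tdual (hpS : pPrime p ∈ S) (M : Rep.{0, 0, 0} (ZMod p) GQ)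
    (hM : (globalLevels S).IsUSmooth M) : (globalLevels S).IsUSmooth (tdual p M) := by
  obtain ⟨V₁, hV₁, hV₁N⟩ := hM
  obtain ⟨V₂, hV₂, hV₂χ⟩ := H723.cycloLevelSpec p S hpS
  obtain ⟨V, hV, hVle⟩ := (globalLevels S).directed V₁ hV₁ V₂ hV₂
  have hχV : ∀ u ∈ V, cycloChar p u = 1 := fun u hu => hV₂χ u (hVle hu).2
  have hNV : ∀ u ∈ V, M.ρ u = 1 := fun u hu =>
    LinearMap.ext fun a => hV₁N u (hVle hu).1 a
  exact isUSmooth_of_trivial _ hV
    (fun u hu => dualTwist_ρ_eq_one' (cycloChar p) M u (hχV u hu) (hNV u hu))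

/-- **Converse bridge.**  Theorem D of layer D follows from the frozen statement of S55
(and the unconditional finiteness A1 of `H¹_S`). -/
theorem theoremD_of_s55At (hp2 : p ≠ 2) (hpS : pPrime p ∈ S) (h : S55At p S) :
    TheoremDSpec p S := by
  intro M hfd hsm
  have := hfd
  have h2 : (2 : ZMod p) ≠ 0 := Fermat.Agent.S55.Bridge.two_ne_zero_zmod hp2
  obtain ⟨hyp1, hyp2⟩ := s55_hyps_of_isUSmooth p S M hsm
  obtain ⟨B, hB1, hB2⟩ := h M hyp1 hyp2
  -- finiteness of `Ш¹(M′)`
  have hsm' : (globalLevels S).IsUSmooth (tdual p M) := isUSmooth_tdual p S hpS M hsm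
  have hH1 : FiniteDimensional (ZMod p) ((globalLevels S).H1 (tdual p M)) :=
    H593.finGlob p S (tdual p M) inferInstance hsm'
  have hSha1 : FiniteDimensional (ZMod p) ↥(Sha1 (hrl S) (tdual p M)) :=
    FiniteDimensional.finiteDimensional_submodule _
  let e₁ := H724.sha1Equiv S h2 (tdual p M)
  let e₂ := H724.sha2Equiv S M h2
  have : FiniteDimensional (ZMod p) ↥(sha₁ S (M.dualTwist (cycloChar p))) :=
    LinearEquiv.finiteDimensional e₁
  obtain ⟨E⟩ := nonempty_equiv_dual_of_pairing B hB1 hB2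
  exact ⟨e₂.trans (E.trans e₁.dualMap)⟩

/-- The frozen statement of S55 (all `p`, `S`, `M`), as a `Prop`: the type of
`Fermat.Agent.S55.result`. -/
def S55Frozen : Prop :=
  ∀ {p : ℕ} [Fact p.Prime] (_hp2 : p ≠ 2) (S : Finset Nat.Primes) (_hpS : pPrime p ∈ S)
    (M : Rep (ZMod p) (AlgebraicClosure ℚ ≃ₐ[ℚ] AlgebraicClosure ℚ))
    [FiniteDimensional (ZMod p) M]
    (_hsm : ∀ m : M, ∃ F : IntermediateField ℚ (AlgebraicClosure ℚ), FiniteDimensional ℚ F ∧
      ∀ s ∈ F.fixingSubgroup, M.ρ s m = m)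
    (_hMur : ∀ q : Nat.Primes, q ∉ S → ∀ A : ValuationSubring (AlgebraicClosure ℚ),
      A.LiesOverPrime (q : ℕ) → ∀ g ∈ A.inertiaSubgroupIn ℚ, M.ρ g = 1),
    ∃ B : sha₁ S (M.dualTwist (cycloChar p)) →ₗ[ZMod p] sha₂ S M →ₗ[ZMod p] ZMod p,
      (∀ y, (∀ x, B y x = 0) → y = 0) ∧ (∀ x, (∀ y, B y x = 0) → x = 0)

theorem s55At_of_frozen (h : S55Frozen) (hp2 : p ≠ 2) (hpS : pPrime p ∈ S) : S55At p S :=
  fun M _ hsm hMur => h hp2 S hpS M hsm hMur

/-- **Theorem D for every `(p, S)` from the frozen statement of S55.**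
Use: `theoremD_of_frozen @Fermat.Agent.S55.result p S hp2 hpS`. -/
theorem theoremD_of_frozen (h : S55Frozen) (hp2 : p ≠ 2) (hpS : pPrime p ∈ S) :
    TheoremDSpec p S :=
  theoremD_of_s55At p S hp2 hpS (s55At_of_frozen p S h hp2 hpS)

end Fermat.Agent.S55.PT.H595

end
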