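import Mathlib

/-!
# S55 / PT layer, part 0: the abstract duality engine (pure linear algebra)

`dimension shifting from the top degree`: if `∂T : T² ↪ T³(R)` has image `ker (T³(R) → T³(P))`,
`δ : H⁰(R') ↠ X¹` has kernel `im (H⁰(P') → H⁰(R'))`, and the top-degree maps
`ΘR : T³(R) ≃ Dual H⁰(R')`, `ΘP : T³(P) ↪ Dual H⁰(P')` are compatible, then
`T² ≃ Dual X¹`, characterised by `θ₂ x (δ f) = ΘR (∂T x) f`.

Then the local/global compatibility and the final `Ш² ≃ Dual Ш¹`.
-/

set_option autoImplicit false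

namespace Fermat.Agent.S55.PT

open Module

section Shift

variable {k : Type*} [Field k]
variable {T2 T3R T3P H0R H0P X1 : Type*}
  [AddCommGroup T2] [Module k T2] [AddCommGroup T3R] [Module k T3R]
  [AddCommGroup T3P] [Module k T3P] [AddCommGroup H0R] [Module k H0R]
  [AddCommGroup H0P] [Module k H0P] [AddCommGroup X1] [Module k X1]

/-- Data and hypotheses for one dimension shift. -/
structure ShiftData (k : Type*) [Field k] (T2 T3R T3P H0R H0P X1 : Type*)
    [AddCommGroup T2] [Module k T2] [AddCommGroup T3R] [Module k T3R]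
    [AddCommGroup T3P] [Module k T3P] [AddCommGroup H0R] [Module k H0R]
    [AddCommGroup H0P] [Module k H0P] [AddCommGroup X1] [Module k X1] where
  /-- connecting map `T²(M) → T³(R)` -/
  dT : T2 →ₗ[k] T3R
  /-- `T³(R) → T³(P)` -/
  t3 : T3R →ₗ[k] T3P
  /-- `H⁰(P') → H⁰(R')` -/
  r0 : H0P →ₗ[k] H0R
  /-- connecting map `H⁰(R') → H¹(M')` -/
  del : H0R →ₗ[k] X1
  /-- top-degree duality for `R` -/
  ThR : T3R →ₗ[k] Dual k H0R
  /-- top-degree duality for `P` -/
  ThP : T3P →ₗ[k] Dual k H0P
  dT_inj : Function.Injective dT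
  dT_range : LinearMap.range dT = LinearMap.ker t3
  del_surj : Function.Surjective del
  del_ker : LinearMap.ker del = LinearMap.range r0
  ThR_bij : Function.Bijective ThR
  ThP_inj : Function.Injective ThP
  nat : ∀ z : T3R, ∀ g : H0P, ThP (t3 z) g = ThR z (r0 g)

variable (D : ShiftData k T2 T3R T3P H0R H0P X1)

/-- The shifted duality map `T² → Dual X¹`, `θ₂ x (δ f) = ΘR (∂T x) f`. -/
theorem ShiftData.exists_theta :
    ∃ θ : T2 ≃ₗ[k] Dual k X1, ∀ x f, θ x (D.del f) = D.ThR (D.dT x) f := by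
  classical
  -- `ΘR (∂T x)` kills `ker δ`
  have hkill : ∀ x : T2, LinearMap.ker D.del ≤ LinearMap.ker (D.ThR (D.dT x)) := by
    intro x f hf
    rw [D.del_ker] at hf
    obtain ⟨g, rfl⟩ := hf
    rw [LinearMap.mem_ker, ← D.nat]
    have : D.t3 (D.dT x) = 0 := by
      have : D.dT x ∈ LinearMap.ker D.t3 := by rw [← D.dT_range]; exact ⟨x, rfl⟩
      exact this
    rw [this, map_zero, LinearMap.zero_apply]
  -- quotient iso `H0R ⧸ ker δ ≃ X1`
  let e : (H0R ⧸ LinearMap.ker D.del) ≃ₗ[k] X1 :=
    D.del.quotKerEquivOfSurjective D.del_surj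
  -- the map
  let θfun : T2 →ₗ[k] Dual k X1 :=
    { toFun := fun x => ((LinearMap.ker D.del).liftQ (D.ThR (D.dT x)) (hkill x)) ∘ₗ e.symm.toLinearMap
      map_add' := by
        intro x y
        apply LinearMap.ext
        intro z
        obtain ⟨w, rfl⟩ := e.surjective z
        obtain ⟨f, rfl⟩ := Submodule.Quotient.mk_surjective _ w
        simp [map_add]
      map_smul' := by
        intro c x
        apply LinearMap.ext
        intro z
        obtain ⟨w, rfl⟩ := e.surjective z
        obtain ⟨f, rfl⟩ := Submodule.Quotient.mk_surjective _ w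
        simp [map_smul] }
  have hθ : ∀ x f, θfun x (D.del f) = D.ThR (D.dT x) f := by
    intro x f
    have : e.symm (D.del f) = Submodule.Quotient.mk f := by
      rw [LinearEquiv.symm_apply_eq]
      rfl
    simp only [θfun, LinearMap.coe_mk, AddHom.coe_mk, LinearMap.comp_apply,
      LinearEquiv.coe_coe, this, Submodule.liftQ_apply]
  have hinj : Function.Injective θfun := by
    rw [← LinearMap.ker_eq_bot, LinearMap.ker_eq_bot']
    intro x hx
    apply D.dT_inj
    rw [map_zero]
    apply D.ThR_bij.1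
    rw [map_zero]
    apply LinearMap.ext
    intro f
    rw [← hθ, hx]
    rfl
  have hsurj : Function.Surjective θfun := by
    intro φ
    obtain ⟨z, hz⟩ := D.ThR_bij.2 (φ ∘ₗ D.del)
    have hz3 : D.t3 z = 0 := by
      apply D.ThP_inj
      rw [map_zero]
      apply LinearMap.ext
      intro g
      rw [D.nat, hz, LinearMap.comp_apply]
      have : D.r0 g ∈ LinearMap.ker D.del := by rw [D.del_ker]; exact ⟨g, rfl⟩
      rw [LinearMap.mem_ker.1 this, map_zero]
      rfl
    have : z ∈ LinearMap.range D.dT := by rw [D.dT_range]; exact hz3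
    obtain ⟨x, rfl⟩ := this
    refine ⟨x, ?_⟩
    apply LinearMap.ext
    intro y
    obtain ⟨f, rfl⟩ := D.del_surj y
    rw [hθ, hz, LinearMap.comp_apply]
  exact ⟨LinearEquiv.ofBijective θfun ⟨hinj, hsurj⟩, hθ⟩

end Shift

section Final

variable {k : Type*} [Field k]
variable {T2 H2 L1 L2 X1 Y1 : Type*}
  [AddCommGroup T2] [Module k T2] [AddCommGroup H2] [Module k H2]
  [AddCommGroup L1] [Module k L1] [AddCommGroup L2] [Module k L2]
  [AddCommGroup X1] [Module k X1] [AddCommGroup Y1] [Module k Y1]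

/-- **Final step of the engine.** Given `θ : T² ≃ Dual X¹`, `lam : L¹ ≃ Dual Y¹` (local duality)
with `θ (j b) = - (lam b) ∘ loc`, and the cone exact sequence `L¹ →j T² →u H² →loc₂ L²`,
we get `ker loc₂ ≃ Dual (ker loc)`, i.e. `Ш² ≃ Dual Ш¹`. -/
theorem sha_equiv_of_engine
    (j : L1 →ₗ[k] T2) (u : T2 →ₗ[k] H2) (loc2 : H2 →ₗ[k] L2) (loc : X1 →ₗ[k] Y1)
    (hju : LinearMap.ker u = LinearMap.range j)
    (hu2 : LinearMap.range u = LinearMap.ker loc2)
    (θ : T2 ≃ₗ[k] Dual k X1) (lam : L1 →ₗ[k] Dual k Y1) (hlam : Function.Surjective lam)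
    (hcompat : ∀ b y, θ (j b) y = - lam b (loc y)) :
    Nonempty (LinearMap.ker loc2 ≃ₗ[k] Dual k (LinearMap.ker loc)) := by
  classical
  -- restriction of functionals to `ker loc`
  let rest : Dual k X1 →ₗ[k] Dual k (LinearMap.ker loc) :=
    Module.Dual.transpose (R := k) (LinearMap.ker loc).subtype
  have hrest_surj : Function.Surjective rest := by
    intro φ
    obtain ⟨ψ, hψ⟩ := LinearMap.exists_extend (p := LinearMap.ker loc) φ
    exact ⟨ψ, by
      apply LinearMap.ext
      intro x
      simp only [rest, Module.Dual.transpose_apply, LinearMap.comp_apply, Submodule.subtype_apply]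
      rw [← hψ]; rfl⟩
  -- the composite `T² → Dual (ker loc)`
  let F : T2 →ₗ[k] Dual k (LinearMap.ker loc) := rest ∘ₗ θ.toLinearMap
  have hF_surj : Function.Surjective F := hrest_surj.comp θ.surjective
  -- kernel of `F` is `range j`
  have hF_ker : LinearMap.ker F = LinearMap.range j := by
    apply le_antisymm
    · intro x hx
      -- `θ x` vanishes on `ker loc`, so factors through `loc`: `θ x = ψ ∘ loc`
      have hx' : ∀ y : X1, loc y = 0 → θ x y = 0 := by
        intro y hy
        have := congrArg (fun φ : Dual k (LinearMap.ker loc) => φ ⟨y, hy⟩) hx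
        simpa [F, rest, Module.Dual.transpose_apply] using this
      -- define functional on range loc and extend
      have hker : LinearMap.ker loc ≤ LinearMap.ker (θ x) := fun y hy => hx' y hy
      let φ0 : (X1 ⧸ LinearMap.ker loc) →ₗ[k] k := (LinearMap.ker loc).liftQ (θ x) hker
      let e0 : (X1 ⧸ LinearMap.ker loc) ≃ₗ[k] LinearMap.range loc := loc.quotKerEquivRange
      obtain ⟨ψ, hψ⟩ := LinearMap.exists_extend (p := LinearMap.range loc)
        (φ0 ∘ₗ e0.symm.toLinearMap)
      have hψ' : ∀ y, ψ (loc y) = θ x y := by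
        intro y
        have h1 := congrArg (fun f => f (⟨loc y, ⟨y, rfl⟩⟩ : LinearMap.range loc)) hψ
        simp only [LinearMap.comp_apply, Submodule.subtype_apply, LinearEquiv.coe_coe] at h1
        rw [h1]
        have : e0.symm ⟨loc y, ⟨y, rfl⟩⟩ = Submodule.Quotient.mk y := by
          rw [LinearEquiv.symm_apply_eq]
          apply Subtype.ext
          rfl
        rw [this]
        rfl
      obtain ⟨b, hb⟩ := hlam (-ψ)
      refine ⟨b, ?_⟩
      apply θ.injective
      apply LinearMap.ext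
      intro y
      rw [hcompat, hb, LinearMap.neg_apply, neg_neg, hψ']
    · rintro x ⟨b, rfl⟩
      rw [LinearMap.mem_ker]
      apply LinearMap.ext
      rintro ⟨y, hy⟩
      have hy' : loc y = 0 := hy
      simp only [F, rest, LinearMap.comp_apply, LinearEquiv.coe_coe, Module.Dual.transpose_apply,
        Submodule.subtype_apply, LinearMap.zero_apply]
      rw [hcompat, hy', map_zero, neg_zero]
  -- assemble: ker loc2 = range u ≃ T2 ⧸ ker u = T2 ⧸ range j = T2 ⧸ ker F ≃ Dual (ker loc)
  have e1 : (T2 ⧸ LinearMap.ker u) ≃ₗ[k] LinearMap.range u := u.quotKerEquivRange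
  have e2 : (T2 ⧸ LinearMap.ker F) ≃ₗ[k] Dual k (LinearMap.ker loc) :=
    F.quotKerEquivOfSurjective hF_surj
  have hk : LinearMap.ker u = LinearMap.ker F := by rw [hju, hF_ker]
  have e3 : (T2 ⧸ LinearMap.ker u) ≃ₗ[k] (T2 ⧸ LinearMap.ker F) :=
    Submodule.quotEquivOfEq _ _ hk
  have e4 : LinearMap.range u ≃ₗ[k] LinearMap.ker loc2 := LinearEquiv.ofEq _ _ hu2
  exact ⟨e4.symm.trans (e1.symm.trans (e3.trans e2))⟩

end Final

end Fermat.Agent.S55.PT
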