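import Fermat.Agent.S55.PT.Spec
import Fermat.Agent.S55.H424.FinLocPrelude

/-!
# S55 / layer D input **A2 (FIN-loc)**: `PT.FinLocSpec p S`   (helper424)

`H¹(G_q, N)` (level-constant cochain cohomology of the Prelude's local Galois group) is
finite-dimensional for every finite-dimensional uniformly smooth `𝔽_p`-module `N`.

Proof: `H424.prime_finiteDimensional_levelCocycles` (local power index + Kummer via Hilbert 90 +
Krasner) shows that the space `Z¹` of level-constant 1-cocycles is finite-dimensional; `H¹` is a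
quotient of it.  No hypothesis on `p`, `q`, `S` is used.
-/

set_option autoImplicit false
set_option linter.unusedSectionVars false
set_option linter.style.haveILetI false

namespace Fermat.Agent.S55.PT.H424

open groupCohomology ExtCitation Fermat.Agent.S55.PT

/-- The level-constant 1-cocycles of `PT` are those of the Prelude. -/
theorem Z1_localLevels_eq (p : ℕ) [Fact p.Prime] (q : Nat.Primes)
    (N : Rep.{0, 0, 0} (ZMod p) (Gl q)) :
    (localLevels q).Z1 N = cocycles₁ N ⊓ levelCochains₁ (rl q) N := by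
  ext c
  show c ∈ cocycles₁ N ∧ (localLevels q).IsLC₁ c ↔ c ∈ cocycles₁ N ∧ IsLevelConstant₁ (rl q) c
  rw [isLC₁_pullbackLevels_iff]

/-- `Z¹(G_q, N)` is finite-dimensional. -/
theorem finiteDimensional_Z1_local (p : ℕ) [Fact p.Prime] (q : Nat.Primes)
    (N : Rep.{0, 0, 0} (ZMod p) (Gl q)) (hN : FiniteDimensional (ZMod p) N)
    (hsm : (localLevels q).IsUSmooth N) :
    FiniteDimensional (ZMod p) ↥((localLevels q).Z1 N) := by
  haveI := hN
  obtain ⟨U, ⟨F, hF, rfl⟩, hU⟩ := hsm
  rw [Z1_localLevels_eq]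
  exact Fermat.Agent.S55.H424.prime_finiteDimensional_levelCocycles p q N
    ⟨F, hF, fun s hs a => hU s hs a⟩

/-- `H¹(G_q, N)` is finite-dimensional. -/
theorem finiteDimensional_H1_local (p : ℕ) [Fact p.Prime] (q : Nat.Primes)
    (N : Rep.{0, 0, 0} (ZMod p) (Gl q)) (hN : FiniteDimensional (ZMod p) N)
    (hsm : (localLevels q).IsUSmooth N) :
    FiniteDimensional (ZMod p) ((localLevels q).H1 N) := by
  haveI := finiteDimensional_Z1_local p q N hN hsm
  exact Module.Finite.of_surjective ((localLevels q).H1π N) ((localLevels q).H1π_surjective N)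

/-- **A2 (FIN-loc).** -/
theorem finLoc (p : ℕ) [Fact p.Prime] (S : Finset Nat.Primes) : FinLocSpec p S :=
  fun q _ N hN hsm => finiteDimensional_H1_local p q N hN hsm

/-- One level kills all level-constant 1-cocycles: there is a local level `W` such that every
level-constant 1-cocycle is right-`W`-invariant (useful for E4 / leaf D-I2 locally). -/
theorem exists_level_Z1_right_invariant (p : ℕ) [Fact p.Prime] (q : Nat.Primes)
    (N : Rep.{0, 0, 0} (ZMod p) (Gl q)) (hsm : (localLevels q).IsUSmooth N) :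
    ∃ W ∈ (localLevels q).levels, ∀ c ∈ (localLevels q).Z1 N, ∀ g s : Gl q, s ∈ W →
      c (g * s) = c g := by
  obtain ⟨U, ⟨F, hF, rfl⟩, hU⟩ := hsm
  obtain ⟨F₁, hF₁, h⟩ := Fermat.Agent.S55.H424.prime_cocycle_right_invariant p q N
    ⟨F, hF, fun s hs a => hU s hs a⟩
  refine ⟨_, ⟨F₁, hF₁, rfl⟩, fun c hc g s hs => ?_⟩
  rw [Z1_localLevels_eq] at hc
  exact h c hc.1 hc.2 g s hs

end Fermat.Agent.S55.PT.H424
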