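import Fermat.Agent.S55.PT.Final2
import Fermat.Agent.S55.PT.AdaptKH835
import Fermat.Agent.S55.KL.ClosedA4
import Fermat.Agent.S55.K.T1H635
import Fermat.Agent.S55.K.DevH593
import Fermat.Agent.S55.K.T3H397
import Fermat.Agent.S55.Inv.Top2

/-!
# S55 / route C′: final wiring, version 3 (helper835)

A4 (local `cd_p ≤ 2`) is closed (layer KL, helper183).  The formal parts of layer K
(K-T1 helper635, K-T2 helper593, K-T3 helper397) and the reduction of `InvSpec` (helper3) are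
wired.  S55 is reduced to the ARITHMETIC FRONTIER of route C′:

* `K.KummerSpec p S`      (KUM: smooth `S`-units are `p`-divisible)           — proved (helper724)
* `K.H2DivESpec p S`      (GO1: `H²(G_S(K), 𝒪_Sˣ)` is `p`-divisible)
* `K.H3TorsESpec p S`     (GO2: `H³(G_S(K), 𝒪_Sˣ)[p] = 0`)
* `K.CapSpec p S`         (A8 cochain form; `⇐ KUM + GO3 HasseESpec + GO6 NormCapSpec`, K-T4)
* `Inv.LocDimSpec p S`    (`dim H²(G_v, Ind_W μ) ≤ 1`)                         — local
* `Inv.LocH2NeSpec p S`   (`H²(G_v, μ) ≠ 0`)                                   — local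
* `Inv.GlobCokerSpec p S` (GO4: global classes fill a hyperplane)
* `Inv.WeakRecipSpec p S` (GO5: weak reciprocity over `ℚ`)
* `Inv.MuLevelSpec p S`   (`ℚ(μ_p)` is an `S`-level)                           — proved (helper635)
-/

set_option autoImplicit false

noncomputable section

namespace Fermat.Agent.S55.PT

open groupCohomology ExtCitation Fermat.Agent.S55.Bridge

/-- **A3 from KUM + GO1 + GO2** (all formal steps of layer K wired). -/
theorem surj2Glob_of_GO {p : ℕ} [Fact p.Prime] (hp2 : p ≠ 2) (S : Finset Nat.Primes)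
    (hpS : pPrime p ∈ S) (hKum : K.KummerSpec p S) (hGO1 : K.H2DivESpec p S)
    (hGO2 : K.H3TorsESpec p S) : Surj2GlobSpec p S :=
  AdK.surj2Glob_of_K p S hp2 hpS
    (K.H635.surjH2_of p S (K.H593.h3Fin_of p S (K.H397.h3IndMu_of p S hKum hGO1 hGO2)))

/-- **S55 from the arithmetic frontier of route C′.** -/
theorem s55_of_frontier {p : ℕ} [Fact p.Prime] (hp2 : p ≠ 2) (S : Finset Nat.Primes)
    (hpS : pPrime p ∈ S)
    (hKum : K.KummerSpec p S) (hGO1 : K.H2DivESpec p S) (hGO2 : K.H3TorsESpec p S)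
    (hCap : K.CapSpec p S)
    (hDim : Inv.LocDimSpec p S) (hNe : Inv.LocH2NeSpec p S)
    (hCok : Inv.GlobCokerSpec p S) (hWR : Inv.WeakRecipSpec p S) (hMu : Inv.MuLevelSpec p S)
    (M : Rep (ZMod p) (AlgebraicClosure ℚ ≃ₐ[ℚ] AlgebraicClosure ℚ))
    [FiniteDimensional (ZMod p) M]
    (hsm : ∀ m : M, ∃ F : IntermediateField ℚ (AlgebraicClosure ℚ), FiniteDimensional ℚ F ∧
      ∀ s ∈ F.fixingSubgroup, M.ρ s m = m)
    (hMur : ∀ q : Nat.Primes, q ∉ S → ∀ A : ValuationSubring (AlgebraicClosure ℚ),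
      A.LiesOverPrime (q : ℕ) → ∀ g ∈ A.inertiaSubgroupIn ℚ, M.ρ g = 1) :
    ∃ B : sha₁ S (M.dualTwist (cycloChar p)) →ₗ[ZMod p] sha₂ S M →ₗ[ZMod p] ZMod p,
      (∀ y, (∀ x, B y x = 0) → y = 0) ∧ (∀ x, (∀ y, B y x = 0) → x = 0) :=
  s55_of_four hp2 S hpS (surj2Glob_of_GO hp2 S hpS hKum hGO1 hGO2) (KL.A4.surj2Loc p S)
    (Inv.invSpec_of' p S (KL.A4.surj2Loc p S) hDim hCok hWR hNe hMu)
    (AdK.cap_of_K p S hp2 hpS hCap) M hsm hMur

end Fermat.Agent.S55.PT

end
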