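import Fermat.Agent.S55.PT.Les

/-!
# S55 / PT layer, leaves D-F1, D-F2, D-F3 (helper113): the long exact sequence in low degrees

For a short exact sequence `E : SES A B C` of uniformly smooth representations:

* `ker_del0`, `range_del0`   : exactness at `H⁰(C)` and `H¹(A)`        (D-F1)
* `ker_del1`, `range_del1`   : exactness at `H¹(C)` and `H²(A)`        (D-F2)
* `ker_pushH1`, `ker_pushH2` : exactness at `H¹(B)` and `H²(B)`        (D-F3)
-/

set_option autoImplicit false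

noncomputable section

namespace Fermat.Agent.S55.PT.H113

open groupCohomology Fermat.Agent.S55.PT

variable {k : Type} [Field k] {G : Type} [Group G]
variable {A B C : Rep.{0, 0, 0} k G} (E : SES A B C) (L : LevelSys G)

/-! ### helpers -/

lemma ses_hi (g : G) (a : A) : E.i (A.ρ g a) = B.ρ g (E.i a) := E.hi g a

lemma ses_hπ (g : G) (b : B) : E.π (B.ρ g b) = C.ρ g (E.π b) := E.hπ g b

lemma ses_π_sec_sub (b : B) : E.π (E.sec (E.π b) - b) = 0 := by
  rw [map_sub, E.π_sec, sub_self]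

lemma ses_comp_injective {X : Type*} {f f' : X → A} (h : E.i ∘ f = E.i ∘ f') : f = f' := by
  funext x
  exact E.inj (congrFun h x)

lemma d₁₂_d₀₁ (b : B) : (d₁₂ B).hom ((d₀₁ B).hom b) = 0 :=
  d₀₁_apply_mem_cocycles₁ b

lemma d₂₃_d₁₂ (x : G → B) : (d₂₃ B).hom ((d₁₂ B).hom x) = 0 :=
  d₁₂_apply_mem_cocycles₂ x

/-! ### D-F1 -/

/-- (D-F1) exactness at `H⁰(C)`: `ker δ⁰ = im (H⁰(B) → H⁰(C))`. -/
theorem ker_del0 (hB : L.IsUSmooth B) :
    LinearMap.ker (E.del0 L hB) = LinearMap.range (pushH0 E.π E.hπ) := by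
  ext c
  rw [LinearMap.mem_ker, LinearMap.mem_range, SES.del0_apply, LevelSys.H1π_eq_zero_iff]
  constructor
  · rintro ⟨a, ha⟩
    have ha' : (d₀₁ A).hom a = E.del0Fun (c : C) := ha
    have hkey : (d₀₁ B).hom (E.i a) = (d₀₁ B).hom (E.sec (c : C)) := by
      rw [push_d₀₁ E.i E.hi, ha', E.i_comp_del0Fun c]
    refine ⟨⟨E.sec (c : C) - E.i a, ?_⟩, ?_⟩
    · intro g
      have h := congrFun hkey g
      rw [d₀₁_hom_apply, d₀₁_hom_apply] at h
      rw [map_sub]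
      have : B.ρ g (E.sec (c : C)) - B.ρ g (E.i a) - (E.sec (c : C) - E.i a) = 0 := by
        rw [sub_sub_sub_comm, h, sub_self]
      exact sub_eq_zero.1 this
    · apply Subtype.ext
      rw [coe_pushH0]
      simp only [map_sub, E.π_sec, E.π_i, sub_zero]
  · rintro ⟨b, rfl⟩
    have hb : ∀ g, B.ρ g (b : B) = b := b.2
    refine ⟨E.ret (E.sec (E.π (b : B)) - b), ?_⟩
    apply ses_comp_injective E
    rw [← push_d₀₁ E.i E.hi, E.i_ret (ses_π_sec_sub E (b : B))]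
    have hc := E.i_comp_del0Fun (pushH0 E.π E.hπ b)
    rw [coe_pushH0] at hc
    show _ = E.i ∘ E.del0Fun (E.π (b : B))
    rw [hc, map_sub]
    have h0 : (d₀₁ B).hom (b : B) = 0 := by
      funext g
      rw [d₀₁_hom_apply, hb g, sub_self]
      rfl
    rw [h0, sub_zero]

/-- (D-F1) exactness at `H¹(A)`: `im δ⁰ = ker (H¹(A) → H¹(B))`. -/
theorem range_del0 (hB : L.IsUSmooth B) :
    LinearMap.range (E.del0 L hB) = LinearMap.ker (pushH1 E.i E.hi L) := by
  ext x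
  rw [LinearMap.mem_range, LinearMap.mem_ker]
  constructor
  · rintro ⟨c, rfl⟩
    rw [SES.del0_apply, pushH1_mk, LevelSys.H1π_eq_zero_iff, coe_pushZ1]
    exact ⟨E.sec (c : C), (E.i_comp_del0Fun c).symm⟩
  · intro hx
    obtain ⟨f, rfl⟩ := L.H1π_surjective A x
    rw [pushH1_mk, LevelSys.H1π_eq_zero_iff, coe_pushZ1] at hx
    obtain ⟨b, hb⟩ := hx
    have hb' : (d₀₁ B).hom b = E.i ∘ (f : G → A) := hb
    have hinv : ∀ g, C.ρ g (E.π b) = E.π b := by
      intro g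
      have h := congrFun hb' g
      rw [d₀₁_hom_apply] at h
      have h2 : E.π (B.ρ g b - b) = 0 := by
        rw [h]
        exact E.π_i _
      rw [map_sub, ses_hπ] at h2
      exact sub_eq_zero.1 h2
    refine ⟨⟨E.π b, hinv⟩, ?_⟩
    rw [SES.del0_apply, ← sub_eq_zero, ← map_sub, LevelSys.H1π_eq_zero_iff]
    refine ⟨E.ret (E.sec (E.π b) - b), ?_⟩
    apply ses_comp_injective E
    rw [← push_d₀₁ E.i E.hi, E.i_ret (ses_π_sec_sub E b), map_sub, hb']
    have hc := E.i_comp_del0Fun ⟨E.π b, hinv⟩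
    funext g
    have hcg := congrFun hc g
    simp only [Function.comp_apply] at hcg
    simp only [Pi.sub_apply, Function.comp_apply, Submodule.coe_sub, map_sub]
    rw [← hcg]

/-! ### D-F2 -/

/-- (D-F2) exactness at `H¹(C)`: `ker δ¹ = im (H¹(B) → H¹(C))`. -/
theorem ker_del1 (hN : L.NormalCofinal) (hB : L.IsUSmooth B) (hC : L.IsUSmooth C) :
    LinearMap.ker (E.del1 L hN hB hC) = LinearMap.range (pushH1 E.π E.hπ L) := by
  ext x
  rw [LinearMap.mem_ker, LinearMap.mem_range]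
  constructor
  · intro hx
    obtain ⟨c, rfl⟩ := L.H1π_surjective C x
    rw [SES.del1_mk, LevelSys.H2π_eq_zero_iff] at hx
    obtain ⟨z, hz, hzc⟩ := hx
    have hzc' : (d₁₂ A).hom z = E.del1Fun (c : G → C) := hzc
    have hzlc : L.IsLC₁ z := hz
    have hclc : L.IsLC₁ (c : G → C) := c.2.2
    have hf : (E.sec ∘ (c : G → C) - E.i ∘ z) ∈ L.Z1 B := by
      refine ⟨?_, (L.C1 B).sub_mem (hclc.comp E.sec) (hzlc.comp E.i)⟩
      show (d₁₂ B).hom (E.sec ∘ (c : G → C) - E.i ∘ z) = 0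
      rw [map_sub, push_d₁₂ E.i E.hi, hzc', E.i_comp_del1Fun c.2.1, sub_self]
    refine ⟨L.H1π B ⟨_, hf⟩, ?_⟩
    rw [pushH1_mk]
    congr 1
    apply Subtype.ext
    rw [coe_pushZ1]
    funext g
    simp only [Function.comp_apply, Pi.sub_apply, map_sub, E.π_sec, E.π_i, sub_zero]
  · rintro ⟨y, rfl⟩
    obtain ⟨f, rfl⟩ := L.H1π_surjective B y
    rw [pushH1_mk, SES.del1_mk, LevelSys.H2π_eq_zero_iff]
    show E.del1Fun (E.π ∘ (f : G → B)) ∈ L.B2 A
    have hflc : L.IsLC₁ (f : G → B) := f.2.2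
    have hfc : (d₁₂ B).hom (f : G → B) = 0 := f.2.1
    have hπ0 : ∀ g, E.π ((E.sec ∘ (E.π ∘ (f : G → B)) - (f : G → B)) g) = 0 := by
      intro g
      simp only [Pi.sub_apply, Function.comp_apply, map_sub, E.π_sec, sub_self]
    refine ⟨E.ret ∘ (E.sec ∘ (E.π ∘ (f : G → B)) - (f : G → B)),
      (((L.C1 B).sub_mem ((hflc.comp E.π).comp E.sec) hflc) : L.IsLC₁ _).comp E.ret, ?_⟩
    apply ses_comp_injective E
    have hcoc : E.π ∘ (f : G → B) ∈ cocycles₁ C := push_mem_cocycles₁ E.π E.hπ f.2.1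
    rw [← push_d₁₂ E.i E.hi, E.i_comp_ret_comp hπ0, E.i_comp_del1Fun hcoc, map_sub, hfc,
      sub_zero]

/-- (D-F2) exactness at `H²(A)`: `im δ¹ = ker (H²(A) → H²(B))`. -/
theorem range_del1 (hN : L.NormalCofinal) (hB : L.IsUSmooth B) (hC : L.IsUSmooth C) :
    LinearMap.range (E.del1 L hN hB hC) = LinearMap.ker (pushH2 E.i E.hi L) := by
  ext x
  rw [LinearMap.mem_range, LinearMap.mem_ker]
  constructor
  · rintro ⟨y, rfl⟩
    obtain ⟨c, rfl⟩ := L.H1π_surjective C y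
    rw [SES.del1_mk, pushH2_mk, LevelSys.H2π_eq_zero_iff, coe_pushZ2]
    have hclc : L.IsLC₁ (c : G → C) := c.2.2
    exact ⟨E.sec ∘ (c : G → C), hclc.comp E.sec, (E.i_comp_del1Fun c.2.1).symm⟩
  · intro hx
    obtain ⟨f, rfl⟩ := L.H2π_surjective A x
    rw [pushH2_mk, LevelSys.H2π_eq_zero_iff, coe_pushZ2] at hx
    obtain ⟨w, hw, hwf⟩ := hx
    have hwlc : L.IsLC₁ w := hw
    have hwf' : (d₁₂ B).hom w = E.i ∘ (f : G × G → A) := hwf
    have hcoc : E.π ∘ w ∈ cocycles₁ C := by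
      show (d₁₂ C).hom (E.π ∘ w) = 0
      rw [push_d₁₂ E.π E.hπ, hwf']
      funext x
      simp only [Function.comp_apply, E.π_i]
      rfl
    have hc : E.π ∘ w ∈ L.Z1 C := ⟨hcoc, hwlc.comp E.π⟩
    refine ⟨L.H1π C ⟨_, hc⟩, ?_⟩
    rw [SES.del1_mk, ← sub_eq_zero, ← map_sub, LevelSys.H2π_eq_zero_iff]
    have hπ0 : ∀ g, E.π ((E.sec ∘ (E.π ∘ w) - w) g) = 0 := by
      intro g
      simp only [Pi.sub_apply, Function.comp_apply, map_sub, E.π_sec, sub_self]
    refine ⟨E.ret ∘ (E.sec ∘ (E.π ∘ w) - w),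
      (((L.C1 B).sub_mem ((hwlc.comp E.π).comp E.sec) hwlc) : L.IsLC₁ _).comp E.ret, ?_⟩
    apply ses_comp_injective E
    rw [← push_d₁₂ E.i E.hi, E.i_comp_ret_comp hπ0, map_sub, hwf']
    have h1 := E.i_comp_del1Fun hcoc
    funext g
    have h1g := congrFun h1 g
    simp only [Function.comp_apply] at h1g
    simp only [Pi.sub_apply, Function.comp_apply, Submodule.coe_sub, map_sub]
    rw [← h1g]

/-! ### D-F3: exactness in the middle -/

/-- the composite `H¹(A) → H¹(B) → H¹(C)` is zero. -/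
theorem pushH1_comp (x : L.H1 A) : pushH1 E.π E.hπ L (pushH1 E.i E.hi L x) = 0 := by
  obtain ⟨f, rfl⟩ := L.H1π_surjective A x
  rw [pushH1_mk, pushH1_mk, LevelSys.H1π_eq_zero_iff]
  refine ⟨0, ?_⟩
  rw [map_zero]
  funext g
  show (0 : C) = E.π (E.i ((f : G → A) g))
  rw [E.π_i]

/-- the composite `H²(A) → H²(B) → H²(C)` is zero. -/
theorem pushH2_comp (x : L.H2 A) : pushH2 E.π E.hπ L (pushH2 E.i E.hi L x) = 0 := by
  obtain ⟨f, rfl⟩ := L.H2π_surjective A x
  rw [pushH2_mk, pushH2_mk, LevelSys.H2π_eq_zero_iff]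
  refine ⟨0, (L.C1 C).zero_mem, ?_⟩
  rw [map_zero]
  funext g
  show (0 : C) = E.π (E.i ((f : G × G → A) g))
  rw [E.π_i]

/-- (D-F3) exactness at `H¹(B)`. -/
theorem ker_pushH1 (hB : L.IsUSmooth B) :
    LinearMap.ker (pushH1 E.π E.hπ L) = LinearMap.range (pushH1 E.i E.hi L) := by
  ext x
  rw [LinearMap.mem_ker, LinearMap.mem_range]
  constructor
  · intro hx
    obtain ⟨f, rfl⟩ := L.H1π_surjective B x
    rw [pushH1_mk, LevelSys.H1π_eq_zero_iff, coe_pushZ1] at hx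
    obtain ⟨m, hm⟩ := hx
    have hm' : (d₀₁ C).hom m = E.π ∘ (f : G → B) := hm
    have hflc : L.IsLC₁ (f : G → B) := f.2.2
    have hfc : (d₁₂ B).hom (f : G → B) = 0 := f.2.1
    have hπ0 : ∀ g, E.π (((f : G → B) - (d₀₁ B).hom (E.sec m)) g) = 0 := by
      intro g
      have h := congrFun hm' g
      rw [d₀₁_hom_apply] at h
      simp only [Pi.sub_apply, map_sub, d₀₁_hom_apply, ses_hπ, E.π_sec]
      rw [h]
      simp
    have hiz := E.i_comp_ret_comp hπ0
    have hz : E.ret ∘ ((f : G → B) - (d₀₁ B).hom (E.sec m)) ∈ L.Z1 A := by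
      refine ⟨?_, (((L.C1 B).sub_mem hflc (L.d₀₁_isLC₁ hB _)) : L.IsLC₁ _).comp E.ret⟩
      show (d₁₂ A).hom _ = 0
      apply ses_comp_injective E
      rw [← push_d₁₂ E.i E.hi, hiz, map_sub, hfc, d₁₂_d₀₁, sub_zero]
      funext x
      exact (map_zero E.i).symm
    refine ⟨L.H1π A ⟨_, hz⟩, ?_⟩
    rw [pushH1_mk, ← sub_eq_zero, ← map_sub, LevelSys.H1π_eq_zero_iff]
    refine ⟨-E.sec m, ?_⟩
    rw [map_neg]
    funext g
    have h := congrFun hiz g
    simp only [Function.comp_apply, Pi.sub_apply] at h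
    simp only [Submodule.coe_sub, Pi.sub_apply, Pi.neg_apply, coe_pushZ1, Function.comp_apply]
    rw [h]
    abel
  · rintro ⟨y, rfl⟩
    exact pushH1_comp E L y

/-- (D-F3) exactness at `H²(B)`. -/
theorem ker_pushH2 (hN : L.NormalCofinal) (hB : L.IsUSmooth B) :
    LinearMap.ker (pushH2 E.π E.hπ L) = LinearMap.range (pushH2 E.i E.hi L) := by
  ext x
  rw [LinearMap.mem_ker, LinearMap.mem_range]
  constructor
  · intro hx
    obtain ⟨f, rfl⟩ := L.H2π_surjective B x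
    rw [pushH2_mk, LevelSys.H2π_eq_zero_iff, coe_pushZ2] at hx
    obtain ⟨w, hw, hwf⟩ := hx
    have hwlc : L.IsLC₁ w := hw
    have hwf' : (d₁₂ C).hom w = E.π ∘ (f : G × G → B) := hwf
    have hflc : L.IsLC₂ (f : G × G → B) := f.2.2
    have hfc : (d₂₃ B).hom (f : G × G → B) = 0 := f.2.1
    have hπ0 : ∀ g, E.π (((f : G × G → B) - (d₁₂ B).hom (E.sec ∘ w)) g) = 0 := by
      intro g
      have h1 : E.π ∘ (d₁₂ B).hom (E.sec ∘ w) = (d₁₂ C).hom w := by
        rw [← push_d₁₂ E.π E.hπ]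
        congr 1
        funext x
        exact E.π_sec _
      have h := congrFun hwf' g
      have h1g := congrFun h1 g
      simp only [Function.comp_apply] at h h1g
      simp only [Pi.sub_apply, map_sub]
      rw [h1g, h, sub_self]
    have hiz := E.i_comp_ret_comp hπ0
    have hz : E.ret ∘ ((f : G × G → B) - (d₁₂ B).hom (E.sec ∘ w)) ∈ L.Z2 A := by
      refine ⟨?_, (((L.C2 B).sub_mem hflc
        (L.d₁₂_isLC₂ hN hB (hwlc.comp E.sec))) : L.IsLC₂ _).comp E.ret⟩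
      show (d₂₃ A).hom _ = 0
      apply ses_comp_injective E
      rw [← push_d₂₃ E.i E.hi, hiz, map_sub, hfc, d₂₃_d₁₂, sub_zero]
      funext x
      exact (map_zero E.i).symm
    refine ⟨L.H2π A ⟨_, hz⟩, ?_⟩
    rw [pushH2_mk, ← sub_eq_zero, ← map_sub, LevelSys.H2π_eq_zero_iff]
    refine ⟨-(E.sec ∘ w), (L.C1 B).neg_mem (hwlc.comp E.sec), ?_⟩
    rw [map_neg]
    funext g
    have h := congrFun hiz g
    simp only [Function.comp_apply, Pi.sub_apply] at h
    simp only [Submodule.coe_sub, Pi.sub_apply, Pi.neg_apply, coe_pushZ2, Function.comp_apply]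
    rw [h]
    abel
  · rintro ⟨y, rfl⟩
    exact pushH2_comp E L y

end Fermat.Agent.S55.PT.H113

end
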