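import Fermat.Agent.S55.PT.SpecF

/-!
# S55 / layer D, framework leaves D-F1, D-F2, D-F3, D-F6 (helper723)

Proofs of `Les0Spec`, `Les1Spec`, `LesMidSpec`, `Del0ResSpec` of `PT/SpecF.lean`, together with
reusable cochain-level lemmas:

* `del0_eq_of_lift`, `del1_eq_of_lift`: the connecting maps may be computed with ARBITRARY lifts
  (independence of the chosen splittings `sec`, `ret`);
* `resH1_del0`, `resH2_del1`: naturality with respect to restriction;
* `pushH1_del0`, `pushH2_del1`: naturality with respect to morphisms of short exact sequences.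
-/

set_option autoImplicit false

noncomputable section

namespace Fermat.Agent.S55.PT.H723

open groupCohomology Fermat.Agent.S55.PT

variable {k : Type} [Field k] {G : Type} [Group G]
variable {A B C : Rep.{0, 0, 0} k G} (E : SES A B C) (L : LevelSys G)

/-! ### Auxiliary cochain-level lemmas -/

/-- `sec (π b) - b` lies in the kernel of `π`. -/
lemma π_sub_sec (b : B) : E.π (E.sec (E.π b) - b) = 0 := by
  rw [map_sub, E.π_sec, sub_self]

lemma i_del0Fun (c : ↥(LevelSys.H0 C)) (g : G) :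
    E.i (E.del0Fun (c : C) g) = B.ρ g (E.sec (c : C)) - E.sec (c : C) := by
  have h := congrFun (E.i_comp_del0Fun c) g
  rw [Function.comp_apply, d₀₁_hom_apply] at h
  exact h

/-- A cochain `f` with `i ∘ f` a cocycle is a cocycle. -/
lemma mem_cocycles₁_of_i_comp {f : G → A} (hf : (E.i ∘ f) ∈ cocycles₁ B) : f ∈ cocycles₁ A := by
  have h0 : (d₁₂ B).hom (E.i ∘ f) = 0 := hf
  rw [push_d₁₂ E.i E.hi] at h0
  show (d₁₂ A).hom f = 0
  funext x
  have h1 : E.i ((d₁₂ A).hom f x) = 0 := congrFun h0 x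
  show (d₁₂ A).hom f x = 0
  apply E.inj
  rw [h1, map_zero]

lemma mem_cocycles₂_of_i_comp {f : G × G → A} (hf : (E.i ∘ f) ∈ cocycles₂ B) :
    f ∈ cocycles₂ A := by
  have h0 : (d₂₃ B).hom (E.i ∘ f) = 0 := hf
  rw [push_d₂₃ E.i E.hi] at h0
  show (d₂₃ A).hom f = 0
  funext x
  have h1 : E.i ((d₂₃ A).hom f x) = 0 := congrFun h0 x
  show (d₂₃ A).hom f x = 0
  apply E.inj
  rw [h1, map_zero]

lemma d₁₂_d₀₁_eq_zero (M : Rep.{0, 0, 0} k G) (m : M) : (d₁₂ M).hom ((d₀₁ M).hom m) = 0 := by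
  funext ⟨g, h⟩
  show (d₁₂ M).hom ((d₀₁ M).hom m) (g, h) = 0
  simp only [d₁₂_hom_apply, d₀₁_hom_apply, map_sub, map_mul, Module.End.mul_apply]
  abel

lemma d₂₃_d₁₂_eq_zero (M : Rep.{0, 0, 0} k G) (f : G → M) : (d₂₃ M).hom ((d₁₂ M).hom f) = 0 := by
  funext ⟨g, h, j⟩
  show (d₂₃ M).hom ((d₁₂ M).hom f) (g, h, j) = 0
  simp only [d₂₃_hom_apply, d₁₂_hom_apply, map_sub, map_add, map_mul,
    Module.End.mul_apply, mul_assoc]
  abel

variable {L} in
lemma isLC₁_sub {X : Type*} [Sub X] {f f' : G → X} (hf : L.IsLC₁ f) (hf' : L.IsLC₁ f') :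
    L.IsLC₁ (fun g => f g - f' g) := by
  obtain ⟨U, hU, h⟩ := hf
  obtain ⟨V, hV, h'⟩ := hf'
  obtain ⟨W, hW, hle⟩ := L.directed U hU V hV
  refine ⟨W, hW, fun g s hs => ?_⟩
  simp only
  rw [h g s (hle hs).1, h' g s (hle hs).2]

/-- Correction in degree `0`: `sec (π b) = b + i a₀`. -/
lemma exists_corr0 (b : B) :
    ∃ a₀ : A, (d₀₁ B).hom (E.sec (E.π b)) = (d₀₁ B).hom b + E.i ∘ (d₀₁ A).hom a₀ := by
  refine ⟨E.ret (E.sec (E.π b) - b), ?_⟩
  have h1 : E.sec (E.π b) = b + E.i (E.ret (E.sec (E.π b) - b)) := by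
    rw [E.i_ret (π_sub_sec E b)]; abel
  conv_lhs => rw [h1]
  rw [map_add, push_d₀₁ E.i E.hi]

/-- Correction in degree `1`: `sec ∘ π ∘ b = b + i ∘ e` with `e` level-constant. -/
lemma exists_corr1 {b : G → B} (hb : L.IsLC₁ b) :
    ∃ e : G → A, L.IsLC₁ e ∧
      (d₁₂ B).hom (E.sec ∘ (E.π ∘ b)) = (d₁₂ B).hom b + E.i ∘ (d₁₂ A).hom e := by
  refine ⟨(fun x => E.ret (E.sec (E.π x) - x)) ∘ b, hb.comp _, ?_⟩
  have h1 : E.sec ∘ (E.π ∘ b) = b + E.i ∘ ((fun x => E.ret (E.sec (E.π x) - x)) ∘ b) := by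
    funext g
    simp only [Function.comp_apply, Pi.add_apply]
    rw [E.i_ret (π_sub_sec E (b g))]; abel
  conv_lhs => rw [h1]
  rw [map_add, push_d₁₂ E.i E.hi]

lemma i_comp_injective {X : Type*} {f f' : X → A} (h : E.i ∘ f = E.i ∘ f') : f = f' := by
  funext x
  exact E.inj (congrFun h x)

/-! ### Exactness (subtasks PT-L0, PT-L1) -/

/-- (PT-L0) exactness at `H⁰(C)`: `ker δ⁰ = im (H⁰(B) → H⁰(C))`. -/
theorem ker_del0 (hB : L.IsUSmooth B) :
    LinearMap.ker (E.del0 L hB) = LinearMap.range (pushH0 E.π E.hπ) := by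
  have hi : ∀ (g : G) (a : A), E.i (A.ρ g a) = B.ρ g (E.i a) := E.hi
  ext c
  rw [LinearMap.mem_ker, LinearMap.mem_range]
  have hdel : E.del0 L hB c = L.H1π A ⟨E.del0Fun (c : C), E.del0Fun_mem_Z1 L hB c⟩ := rfl
  rw [hdel, LevelSys.H1π_eq_zero_iff]
  constructor
  · rintro ⟨a₀, ha₀⟩
    have ha₀' : (d₀₁ A).hom a₀ = E.del0Fun (c : C) := ha₀
    have hinv : E.sec (c : C) - E.i a₀ ∈ LevelSys.H0 B := by
      intro g
      have h1 := i_del0Fun E c g
      rw [← ha₀', d₀₁_hom_apply, map_sub, hi] at h1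
      rw [map_sub]
      have h2 : B.ρ g (E.sec (c : C)) = B.ρ g (E.i a₀) - E.i a₀ + E.sec (c : C) := by
        rw [h1]; abel
      rw [h2]; abel
    refine ⟨⟨_, hinv⟩, Subtype.ext ?_⟩
    rw [coe_pushH0]
    show E.π (E.sec (c : C) - E.i a₀) = c
    rw [map_sub, E.π_sec, E.π_i, sub_zero]
  · rintro ⟨b, rfl⟩
    obtain ⟨a₀, ha₀⟩ := exists_corr0 E (b : B)
    have hb0 : (d₀₁ B).hom (b : B) = 0 := by
      funext g
      rw [d₀₁_hom_apply, b.2 g, sub_self]
      rfl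
    rw [hb0, zero_add] at ha₀
    refine ⟨a₀, ?_⟩
    apply i_comp_injective E
    rw [← ha₀]
    exact (E.i_comp_del0Fun (pushH0 E.π E.hπ b)).symm

/-- (PT-L0) exactness at `H¹(A)`: `im δ⁰ = ker (H¹(A) → H¹(B))`. -/
theorem range_del0 (hB : L.IsUSmooth B) :
    LinearMap.range (E.del0 L hB) = LinearMap.ker (pushH1 E.i E.hi L) := by
  have hπ : ∀ (g : G) (b : B), E.π (B.ρ g b) = C.ρ g (E.π b) := E.hπ
  ext x
  rw [LinearMap.mem_ker, LinearMap.mem_range]
  constructor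
  · rintro ⟨c, rfl⟩
    have hdel : E.del0 L hB c = L.H1π A ⟨E.del0Fun (c : C), E.del0Fun_mem_Z1 L hB c⟩ := rfl
    rw [hdel, pushH1_mk, LevelSys.H1π_eq_zero_iff, coe_pushZ1]
    exact ⟨E.sec (c : C), (E.i_comp_del0Fun c).symm⟩
  · intro hx
    obtain ⟨a, rfl⟩ := L.H1π_surjective A x
    rw [pushH1_mk, LevelSys.H1π_eq_zero_iff, coe_pushZ1] at hx
    obtain ⟨b, hb⟩ := hx
    have hb' : (d₀₁ B).hom b = E.i ∘ (a : G → A) := hb
    have hinv : E.π b ∈ LevelSys.H0 C := by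
      intro g
      have h1 := congrFun hb' g
      rw [d₀₁_hom_apply, Function.comp_apply] at h1
      have h2 : B.ρ g b = b + E.i ((a : G → A) g) := by rw [← h1]; abel
      rw [← hπ, h2, map_add, E.π_i, add_zero]
    obtain ⟨a₀, ha₀⟩ := exists_corr0 E b
    refine ⟨⟨E.π b, hinv⟩, ?_⟩
    have hdel : E.del0 L hB ⟨E.π b, hinv⟩ =
        L.H1π A ⟨E.del0Fun (E.π b), E.del0Fun_mem_Z1 L hB ⟨E.π b, hinv⟩⟩ := rfl
    rw [hdel, ← sub_eq_zero, ← map_sub, LevelSys.H1π_eq_zero_iff]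
    refine ⟨a₀, ?_⟩
    apply i_comp_injective E
    have h3 := E.i_comp_del0Fun ⟨E.π b, hinv⟩
    simp only at h3
    rw [ha₀, hb'] at h3
    funext g
    have h4 := congrFun h3 g
    simp only [Function.comp_apply, Pi.add_apply] at h4
    simp only [Function.comp_apply, Submodule.coe_sub, Pi.sub_apply, map_sub]
    rw [h4]; abel

/-- (PT-L1) exactness at `H¹(C)`: `ker δ¹ = im (H¹(B) → H¹(C))`. -/
theorem ker_del1 (hN : L.NormalCofinal) (hB : L.IsUSmooth B) (hC : L.IsUSmooth C) :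
    LinearMap.ker (E.del1 L hN hB hC) = LinearMap.range (pushH1 E.π E.hπ L) := by
  ext x
  rw [LinearMap.mem_ker, LinearMap.mem_range]
  obtain ⟨c, rfl⟩ := L.H1π_surjective C x
  have hdel : E.del1 L hN hB hC (L.H1π C c) =
      L.H2π A ⟨E.del1Fun (c : G → C), E.del1Fun_mem_Z2 L hN hB c⟩ := rfl
  rw [hdel, LevelSys.H2π_eq_zero_iff]
  constructor
  · rintro ⟨e, he, hde⟩
    have hde' : (d₁₂ A).hom e = E.del1Fun (c : G → C) := hde
    have he' : L.IsLC₁ e := he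
    have hbLC : L.IsLC₁ (fun g => (E.sec ∘ (c : G → C)) g - (E.i ∘ e) g) :=
      isLC₁_sub (LevelSys.IsLC₁.comp c.2.2 E.sec) (LevelSys.IsLC₁.comp he' E.i)
    have hbeq : (fun g => (E.sec ∘ (c : G → C)) g - (E.i ∘ e) g) =
        E.sec ∘ (c : G → C) - E.i ∘ e := rfl
    have hbcoc : (E.sec ∘ (c : G → C) - E.i ∘ e) ∈ cocycles₁ B := by
      show (d₁₂ B).hom (E.sec ∘ (c : G → C) - E.i ∘ e) = 0
      rw [map_sub, push_d₁₂ E.i E.hi, hde', E.i_comp_del1Fun c.2.1, sub_self]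
    refine ⟨L.H1π B ⟨E.sec ∘ (c : G → C) - E.i ∘ e, hbcoc, hbeq ▸ hbLC⟩, ?_⟩
    rw [pushH1_mk]
    congr 1
    apply Subtype.ext
    rw [coe_pushZ1]
    funext g
    simp only [Function.comp_apply, Pi.sub_apply, map_sub, E.π_sec, E.π_i, sub_zero]
  · rintro ⟨y, hy⟩
    obtain ⟨b, rfl⟩ := L.H1π_surjective B y
    rw [pushH1_mk] at hy
    -- `c` and `π ∘ b` differ by a coboundary `d₀₁ m`
    have hdiff : L.H1π C (pushZ1 E.π E.hπ L b - c) = 0 := by
      rw [map_sub, hy, sub_self]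
    rw [LevelSys.H1π_eq_zero_iff] at hdiff
    obtain ⟨m, hm⟩ := hdiff
    have hm' : (d₀₁ C).hom m = E.π ∘ (b : G → B) - (c : G → C) := by
      rw [hm]; rfl
    -- replace `b` by `b' = b - d₀₁ (sec m)`, still a level-constant cocycle, with `π ∘ b' = c`
    have hb'LC : L.IsLC₁ (fun g => (b : G → B) g - (d₀₁ B).hom (E.sec m) g) :=
      isLC₁_sub b.2.2 (L.d₀₁_isLC₁ hB _)
    have hb'eq : (fun g => (b : G → B) g - (d₀₁ B).hom (E.sec m) g) =
        (b : G → B) - (d₀₁ B).hom (E.sec m) := rfl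
    rw [hb'eq] at hb'LC
    have hπb' : E.π ∘ ((b : G → B) - (d₀₁ B).hom (E.sec m)) = (c : G → C) := by
      have h1 : E.π ∘ (d₀₁ B).hom (E.sec m) = (d₀₁ C).hom m := by
        rw [← push_d₀₁ E.π E.hπ, E.π_sec]
      funext g
      have h2 := congrFun h1 g
      have h3 := congrFun hm' g
      simp only [Function.comp_apply, Pi.sub_apply, map_sub] at h2 h3 ⊢
      rw [h2, h3]; abel
    have hb'coc : (d₁₂ B).hom ((b : G → B) - (d₀₁ B).hom (E.sec m)) = 0 := by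
      rw [map_sub, d₁₂_d₀₁_eq_zero, sub_zero]
      exact b.2.1
    obtain ⟨e, he, hcorr⟩ := exists_corr1 E L hb'LC
    rw [hπb', hb'coc, zero_add, ← E.i_comp_del1Fun c.2.1] at hcorr
    exact ⟨e, he, (i_comp_injective E hcorr).symm⟩

/-- (PT-L1) exactness at `H²(A)`: `im δ¹ = ker (H²(A) → H²(B))`. -/
theorem range_del1 (hN : L.NormalCofinal) (hB : L.IsUSmooth B) (hC : L.IsUSmooth C) :
    LinearMap.range (E.del1 L hN hB hC) = LinearMap.ker (pushH2 E.i E.hi L) := by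
  ext x
  rw [LinearMap.mem_ker, LinearMap.mem_range]
  constructor
  · rintro ⟨y, rfl⟩
    obtain ⟨c, rfl⟩ := L.H1π_surjective C y
    have hdel : E.del1 L hN hB hC (L.H1π C c) =
        L.H2π A ⟨E.del1Fun (c : G → C), E.del1Fun_mem_Z2 L hN hB c⟩ := rfl
    rw [hdel, pushH2_mk, LevelSys.H2π_eq_zero_iff, coe_pushZ2]
    exact ⟨E.sec ∘ (c : G → C), LevelSys.IsLC₁.comp c.2.2 E.sec, (E.i_comp_del1Fun c.2.1).symm⟩
  · intro hx
    obtain ⟨a, rfl⟩ := L.H2π_surjective A x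
    rw [pushH2_mk, LevelSys.H2π_eq_zero_iff, coe_pushZ2] at hx
    obtain ⟨b, hbLC, hb⟩ := hx
    have hbLC' : L.IsLC₁ b := hbLC
    have hb' : (d₁₂ B).hom b = E.i ∘ (a : G × G → A) := hb
    have hcoc : E.π ∘ b ∈ cocycles₁ C := by
      show (d₁₂ C).hom (E.π ∘ b) = 0
      rw [push_d₁₂ E.π E.hπ, hb']
      funext p
      exact E.π_i _
    have hc : E.π ∘ b ∈ L.Z1 C := ⟨hcoc, hbLC'.comp E.π⟩
    obtain ⟨e, he, hcorr⟩ := exists_corr1 E L hbLC'
    refine ⟨L.H1π C ⟨E.π ∘ b, hc⟩, ?_⟩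
    have hdel : E.del1 L hN hB hC (L.H1π C ⟨E.π ∘ b, hc⟩) =
        L.H2π A ⟨E.del1Fun (E.π ∘ b), E.del1Fun_mem_Z2 L hN hB ⟨E.π ∘ b, hc⟩⟩ := rfl
    rw [hdel, ← sub_eq_zero, ← map_sub, LevelSys.H2π_eq_zero_iff]
    refine ⟨e, he, ?_⟩
    apply i_comp_injective E
    rw [← E.i_comp_del1Fun hcoc, hb'] at hcorr
    funext p
    have h4 := congrFun hcorr p
    simp only [Function.comp_apply, Pi.add_apply] at h4
    simp only [Function.comp_apply, Submodule.coe_sub, Pi.sub_apply, map_sub]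
    rw [h4]; abel


/-! ### D-F3 : exactness in the middle -/

/-- exactness at `H⁰(B)` -/
theorem range_pushH0_i : LinearMap.range (pushH0 E.i E.hi) = LinearMap.ker (pushH0 E.π E.hπ) := by
  have hi : ∀ (g : G) (a : A), E.i (A.ρ g a) = B.ρ g (E.i a) := E.hi
  ext b
  rw [LinearMap.mem_ker, LinearMap.mem_range]
  constructor
  · rintro ⟨a, rfl⟩
    apply Subtype.ext
    rw [coe_pushH0, coe_pushH0]
    exact E.π_i _
  · intro hb
    have hb' : E.π (b : B) = 0 := by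
      have := congrArg Subtype.val hb
      simpa using this
    have hinv : E.ret (b : B) ∈ LevelSys.H0 A := by
      intro g
      apply E.inj
      rw [hi, E.i_ret hb', b.2 g]
    refine ⟨⟨E.ret (b : B), hinv⟩, Subtype.ext ?_⟩
    rw [coe_pushH0]
    exact E.i_ret hb'

/-- injectivity of `H⁰(A) → H⁰(B)` -/
theorem pushH0_i_injective : Function.Injective (pushH0 E.i E.hi) := by
  intro a a' h
  apply Subtype.ext
  apply E.inj
  have := congrArg Subtype.val h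
  simpa using this

/-- exactness at `H¹(B)` -/
theorem range_pushH1_i (hB : L.IsUSmooth B) :
    LinearMap.range (pushH1 E.i E.hi L) = LinearMap.ker (pushH1 E.π E.hπ L) := by
  ext x
  rw [LinearMap.mem_ker, LinearMap.mem_range]
  constructor
  · rintro ⟨y, rfl⟩
    obtain ⟨a, rfl⟩ := L.H1π_surjective A y
    rw [pushH1_mk, pushH1_mk, LevelSys.H1π_eq_zero_iff]
    refine ⟨0, ?_⟩
    rw [map_zero]
    funext g
    exact (E.π_i _).symm
  · intro hx
    obtain ⟨b, rfl⟩ := L.H1π_surjective B x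
    rw [pushH1_mk, LevelSys.H1π_eq_zero_iff] at hx
    obtain ⟨m, hm⟩ := hx
    have hm' : (d₀₁ C).hom m = E.π ∘ (b : G → B) := hm
    -- `b' = b - d (sec m)` has values in `ker π`
    have hb'LC : L.IsLC₁ (fun g => (b : G → B) g - (d₀₁ B).hom (E.sec m) g) :=
      isLC₁_sub b.2.2 (L.d₀₁_isLC₁ hB _)
    have hb'eq : (fun g => (b : G → B) g - (d₀₁ B).hom (E.sec m) g) =
        (b : G → B) - (d₀₁ B).hom (E.sec m) := rfl
    rw [hb'eq] at hb'LC
    have hπb' : ∀ g, E.π (((b : G → B) - (d₀₁ B).hom (E.sec m)) g) = 0 := by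
      intro g
      have h1 : E.π ∘ (d₀₁ B).hom (E.sec m) = (d₀₁ C).hom m := by
        rw [← push_d₀₁ E.π E.hπ, E.π_sec]
      have h2 := congrFun h1 g
      have h3 := congrFun hm' g
      simp only [Function.comp_apply] at h2 h3
      rw [Pi.sub_apply, map_sub, h2, h3, sub_self]
    have hia : E.i ∘ (E.ret ∘ ((b : G → B) - (d₀₁ B).hom (E.sec m))) =
        (b : G → B) - (d₀₁ B).hom (E.sec m) := E.i_comp_ret_comp hπb'
    have hb'coc : ((b : G → B) - (d₀₁ B).hom (E.sec m)) ∈ cocycles₁ B := by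
      show (d₁₂ B).hom ((b : G → B) - (d₀₁ B).hom (E.sec m)) = 0
      rw [map_sub, d₁₂_d₀₁_eq_zero, sub_zero]
      exact b.2.1
    have ha : (E.ret ∘ ((b : G → B) - (d₀₁ B).hom (E.sec m))) ∈ L.Z1 A :=
      ⟨mem_cocycles₁_of_i_comp E (by rw [hia]; exact hb'coc), hb'LC.comp _⟩
    refine ⟨L.H1π A ⟨_, ha⟩, ?_⟩
    rw [pushH1_mk, ← sub_eq_zero, ← map_sub, LevelSys.H1π_eq_zero_iff]
    refine ⟨-E.sec m, ?_⟩
    rw [map_neg]
    funext g
    have h4 := congrFun hia g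
    simp only [Function.comp_apply, Pi.sub_apply] at h4
    simp only [Submodule.coe_sub, coe_pushZ1, Pi.sub_apply, Function.comp_apply, Pi.neg_apply]
    rw [h4]; abel

/-- exactness at `H²(B)` -/
theorem range_pushH2_i (hN : L.NormalCofinal) (hB : L.IsUSmooth B) :
    LinearMap.range (pushH2 E.i E.hi L) = LinearMap.ker (pushH2 E.π E.hπ L) := by
  ext x
  rw [LinearMap.mem_ker, LinearMap.mem_range]
  constructor
  · rintro ⟨y, rfl⟩
    obtain ⟨a, rfl⟩ := L.H2π_surjective A y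
    rw [pushH2_mk, pushH2_mk, LevelSys.H2π_eq_zero_iff]
    refine ⟨0, (L.C1 C).zero_mem, ?_⟩
    rw [map_zero]
    funext g
    exact (E.π_i _).symm
  · intro hx
    obtain ⟨b, rfl⟩ := L.H2π_surjective B x
    rw [pushH2_mk, LevelSys.H2π_eq_zero_iff] at hx
    obtain ⟨x, hxLC, hx⟩ := hx
    have hxLC' : L.IsLC₁ x := hxLC
    have hx' : (d₁₂ C).hom x = E.π ∘ (b : G × G → B) := hx
    have hsLC : L.IsLC₁ (E.sec ∘ x) := hxLC'.comp _
    have hdLC : L.IsLC₂ ((d₁₂ B).hom (E.sec ∘ x)) := L.d₁₂_isLC₂ hN hB hsLC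
    have hb'LC : L.IsLC₂ ((b : G × G → B) - (d₁₂ B).hom (E.sec ∘ x)) := by
      have h1 : L.IsLC₂ ((b : G × G → B) + (fun y => -y) ∘ (d₁₂ B).hom (E.sec ∘ x)) :=
        LevelSys.IsLC₂.add b.2.2 (hdLC.comp _)
      have h2 : (b : G × G → B) + (fun y => -y) ∘ (d₁₂ B).hom (E.sec ∘ x) =
          (b : G × G → B) - (d₁₂ B).hom (E.sec ∘ x) := by
        funext p
        simp only [Pi.add_apply, Function.comp_apply, Pi.sub_apply]
        abel
      rwa [h2] at h1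
    have hπb' : ∀ p, E.π (((b : G × G → B) - (d₁₂ B).hom (E.sec ∘ x)) p) = 0 := by
      intro p
      have h1 : E.π ∘ (d₁₂ B).hom (E.sec ∘ x) = (d₁₂ C).hom x := by
        rw [← push_d₁₂ E.π E.hπ]
        congr 1
        funext g
        exact E.π_sec _
      have h2 := congrFun h1 p
      have h3 := congrFun hx' p
      simp only [Function.comp_apply] at h2 h3
      rw [Pi.sub_apply, map_sub, h2, h3, sub_self]
    have hia : E.i ∘ (E.ret ∘ ((b : G × G → B) - (d₁₂ B).hom (E.sec ∘ x))) =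
        (b : G × G → B) - (d₁₂ B).hom (E.sec ∘ x) := E.i_comp_ret_comp hπb'
    have hb'coc : ((b : G × G → B) - (d₁₂ B).hom (E.sec ∘ x)) ∈ cocycles₂ B := by
      show (d₂₃ B).hom ((b : G × G → B) - (d₁₂ B).hom (E.sec ∘ x)) = 0
      rw [map_sub, d₂₃_d₁₂_eq_zero, sub_zero]
      exact b.2.1
    have ha : (E.ret ∘ ((b : G × G → B) - (d₁₂ B).hom (E.sec ∘ x))) ∈ L.Z2 A :=
      ⟨mem_cocycles₂_of_i_comp E (by rw [hia]; exact hb'coc), hb'LC.comp _⟩
    refine ⟨L.H2π A ⟨_, ha⟩, ?_⟩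
    rw [pushH2_mk, ← sub_eq_zero, ← map_sub, LevelSys.H2π_eq_zero_iff]
    refine ⟨-(E.sec ∘ x), (L.C1 B).neg_mem hsLC, ?_⟩
    rw [map_neg]
    funext p
    have h4 := congrFun hia p
    simp only [Function.comp_apply, Pi.sub_apply] at h4
    simp only [Submodule.coe_sub, coe_pushZ2, Pi.sub_apply, Function.comp_apply, Pi.neg_apply]
    rw [h4]; abel

/-! ### Characterisation of the connecting maps by arbitrary lifts -/

/-- `δ⁰ c = [a]` whenever `b` lifts `c` and `i ∘ a = d b`. -/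
theorem del0_eq_of_lift (hB : L.IsUSmooth B) (c : ↥(LevelSys.H0 C)) (b : B)
    (hb : E.π b = (c : C)) (a : ↥(L.Z1 A))
    (ha : E.i ∘ (a : G → A) = (d₀₁ B).hom b) :
    E.del0 L hB c = L.H1π A a := by
  have hdel : E.del0 L hB c = L.H1π A ⟨E.del0Fun (c : C), E.del0Fun_mem_Z1 L hB c⟩ := rfl
  rw [hdel, ← sub_eq_zero, ← map_sub, LevelSys.H1π_eq_zero_iff]
  obtain ⟨a₀, ha₀⟩ := exists_corr0 E b
  refine ⟨a₀, ?_⟩
  apply i_comp_injective E
  have h3 := E.i_comp_del0Fun c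
  rw [← hb] at h3
  rw [ha₀, ← ha] at h3
  funext g
  have h4 := congrFun h3 g
  simp only [Function.comp_apply, Pi.add_apply] at h4
  simp only [Function.comp_apply, Submodule.coe_sub, Pi.sub_apply, map_sub]
  rw [← hb, h4]; abel

/-- `δ¹ [c] = [a]` whenever the level-constant cochain `b` lifts `c` and `i ∘ a = d b`. -/
theorem del1_eq_of_lift (hN : L.NormalCofinal) (hB : L.IsUSmooth B) (hC : L.IsUSmooth C)
    (c : ↥(L.Z1 C))
    (b : G → B) (hbLC : L.IsLC₁ b) (hb : E.π ∘ b = (c : G → C)) (a : ↥(L.Z2 A))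
    (ha : E.i ∘ (a : G × G → A) = (d₁₂ B).hom b) :
    E.del1 L hN hB hC (L.H1π C c) = L.H2π A a := by
  have hdel : E.del1 L hN hB hC (L.H1π C c) =
      L.H2π A ⟨E.del1Fun (c : G → C), E.del1Fun_mem_Z2 L hN hB c⟩ := rfl
  rw [hdel, ← sub_eq_zero, ← map_sub, LevelSys.H2π_eq_zero_iff]
  obtain ⟨e, he, hcorr⟩ := exists_corr1 E L hbLC
  refine ⟨e, he, ?_⟩
  apply i_comp_injective E
  rw [hb, ← E.i_comp_del1Fun c.2.1, ← ha] at hcorr
  funext p
  have h4 := congrFun hcorr p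
  simp only [Function.comp_apply, Pi.add_apply] at h4
  simp only [Function.comp_apply, Submodule.coe_sub, Pi.sub_apply, map_sub]
  rw [h4]; abel

/-! ### D-F6 : naturality with respect to restriction -/

section Res

variable {G' : Type} [Group G'] {r : G' →* G} {L} {L' : LevelSys G'}

/-- uniform smoothness is inherited by restriction along a level-compatible map -/
lemma isUSmooth_res (hr : IsLevelCompatible r L L') {M : Rep.{0, 0, 0} k G}
    (hM : L.IsUSmooth M) : L'.IsUSmooth (Rep.res r M) := by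
  obtain ⟨U, hU, hU'⟩ := hM
  obtain ⟨V, hV, hle⟩ := hr U hU
  exact ⟨V, hV, fun s hs a => hU' (r s) (hle hs) a⟩

/-- naturality of `δ⁰` with respect to restriction -/
theorem resH1_del0 (hr : IsLevelCompatible r L L') (hB : L.IsUSmooth B)
    (hB' : L'.IsUSmooth (Rep.res r B)) (c : ↥(LevelSys.H0 C)) :
    resH1 hr A (E.del0 L hB c) = (E.res r).del0 L' hB' (resH0 r C c) := by
  have hdel : E.del0 L hB c = L.H1π A ⟨E.del0Fun (c : C), E.del0Fun_mem_Z1 L hB c⟩ := rfl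
  rw [hdel, resH1_mk]
  symm
  refine del0_eq_of_lift (E.res r) L' hB' (resH0 r C c) (E.sec (c : C)) (E.π_sec _) _ ?_
  rw [coe_resZ1, res_d₀₁]
  have h := E.i_comp_del0Fun c
  funext g
  exact congrFun h (r g)

/-- naturality of `δ¹` with respect to restriction -/
theorem resH2_del1 (hr : IsLevelCompatible r L L') (hN : L.NormalCofinal)
    (hN' : L'.NormalCofinal) (hB : L.IsUSmooth B) (hC : L.IsUSmooth C)
    (hB' : L'.IsUSmooth (Rep.res r B)) (hC' : L'.IsUSmooth (Rep.res r C)) (x : L.H1 C) :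
    resH2 hr A (E.del1 L hN hB hC x) = (E.res r).del1 L' hN' hB' hC' (resH1 hr C x) := by
  obtain ⟨c, rfl⟩ := L.H1π_surjective C x
  have hdel : E.del1 L hN hB hC (L.H1π C c) =
      L.H2π A ⟨E.del1Fun (c : G → C), E.del1Fun_mem_Z2 L hN hB c⟩ := rfl
  rw [hdel, resH2_mk, resH1_mk]
  symm
  refine del1_eq_of_lift (E.res r) L' hN' hB' hC' (resZ1 hr C c) ((E.sec ∘ (c : G → C)) ∘ r)
    (IsLC₁.res hr (LevelSys.IsLC₁.comp c.2.2 E.sec)) ?_ _ ?_
  · funext g
    exact E.π_sec _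
  · rw [coe_resZ2, res_d₁₂]
    have h := E.i_comp_del1Fun c.2.1
    funext p
    exact congrFun h (Prod.map r r p)

end Res

/-! ### D-F6 : naturality with respect to morphisms of short exact sequences -/

section Morphism

variable {A' B' C' : Rep.{0, 0, 0} k G} (E' : SES A' B' C')
variable (α : A →ₗ[k] A') (β : B →ₗ[k] B') (γ : C →ₗ[k] C')
variable (hα : IsEquivariant α) (hβ : IsEquivariant β) (hγ : IsEquivariant γ)
variable (hi : ∀ a, β (E.i a) = E'.i (α a)) (hπ : ∀ b, γ (E.π b) = E'.π (β b))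

include hβ hi hπ in
/-- naturality of `δ⁰` with respect to a morphism of short exact sequences -/
theorem pushH1_del0 (hB : L.IsUSmooth B) (hB' : L.IsUSmooth B') (c : ↥(LevelSys.H0 C)) :
    pushH1 α hα L (E.del0 L hB c) = E'.del0 L hB' (pushH0 γ hγ c) := by
  have hdel : E.del0 L hB c = L.H1π A ⟨E.del0Fun (c : C), E.del0Fun_mem_Z1 L hB c⟩ := rfl
  rw [hdel, pushH1_mk]
  symm
  refine del0_eq_of_lift E' L hB' (pushH0 γ hγ c) (β (E.sec (c : C))) ?_ _ ?_
  · rw [← hπ, E.π_sec, coe_pushH0]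
  · rw [coe_pushZ1, push_d₀₁ β hβ, ← E.i_comp_del0Fun c]
    funext g
    simp only [Function.comp_apply]
    exact (hi _).symm

include hβ hi hπ in
/-- naturality of `δ¹` with respect to a morphism of short exact sequences -/
theorem pushH2_del1 (hN : L.NormalCofinal) (hB : L.IsUSmooth B) (hC : L.IsUSmooth C)
    (hB' : L.IsUSmooth B')
    (hC' : L.IsUSmooth C') (x : L.H1 C) :
    pushH2 α hα L (E.del1 L hN hB hC x) = E'.del1 L hN hB' hC' (pushH1 γ hγ L x) := by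
  obtain ⟨c, rfl⟩ := L.H1π_surjective C x
  have hdel : E.del1 L hN hB hC (L.H1π C c) =
      L.H2π A ⟨E.del1Fun (c : G → C), E.del1Fun_mem_Z2 L hN hB c⟩ := rfl
  rw [hdel, pushH2_mk, pushH1_mk]
  symm
  refine del1_eq_of_lift E' L hN hB' hC' (pushZ1 γ hγ L c) (β ∘ (E.sec ∘ (c : G → C)))
    ((LevelSys.IsLC₁.comp c.2.2 E.sec).comp β) ?_ _ ?_
  · funext g
    simp only [Function.comp_apply, coe_pushZ1]
    rw [← hπ, E.π_sec]
  · rw [coe_pushZ2, push_d₁₂ β hβ, ← E.i_comp_del1Fun c.2.1]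
    funext p
    simp only [Function.comp_apply]
    exact (hi _).symm

end Morphism


/-! ### The Spec-pattern leaves -/

/-- **D-F1** -/
theorem les0 : Les0Spec := fun _ _ _ _ L _ _ _ E hB => ⟨ker_del0 E L hB, range_del0 E L hB⟩

/-- **D-F2** -/
theorem les1 : Les1Spec := fun _ _ _ _ L _ _ _ E hN hB hC =>
  ⟨ker_del1 E L hN hB hC, range_del1 E L hN hB hC⟩

/-- **D-F3** -/
theorem lesMid : LesMidSpec := fun _ _ _ _ L _ _ _ E hN _ hB =>
  ⟨pushH0_i_injective E, range_pushH0_i E, range_pushH1_i E L hB, range_pushH2_i E L hN hB⟩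

/-- **D-F6** -/
theorem del0Res : Del0ResSpec := fun _ _ _ _ _ _ _ _ _ hr _ _ _ E hB c =>
  resH1_del0 E hr hB (hB.res hr) c

end Fermat.Agent.S55.PT.H723

end
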