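import Fermat.Agent.S55.PT.Assembly

/-!
# S55 / layer D: Theorem D from the leaves and the inputs (helper835)

`theoremD_of_leaves`: all framework leaves + the arithmetic inputs (in their "for all modules"
form `TopLocSpec`, `TopGlobSpec`, `CapAllSpec`) ⇒ `TheoremDSpec p S`.
`theoremD_of_inputs`: the same from the inputs A1, A3, A4, A5–A7, A8 of `PT/Spec.lean` and the
dévissage leaves.
-/

set_option autoImplicit false

noncomputable section

namespace Fermat.Agent.S55.PT

open groupCohomology ExtCitation Module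

variable (p : ℕ) [Fact p.Prime] (S : Finset Nat.Primes)

/-- **D-F8.** There is an `S`-level on which the cyclotomic character is trivial
(`ℚ(μ_p)` is unramified outside `S ∋ p`). -/
def CycloLevelSpec : Prop :=
  pPrime p ∈ S → ∃ V ∈ (globalLevels S).levels, ∀ u ∈ V, cycloChar p u = 1

variable {p S}

/-- Theorem D from the leaves and the inputs in "for all modules" form. -/
theorem theoremD_of_leaves
    (hLes0 : Les0Spec) (hLes1 : Les1Spec) (hCone : ConeSpec) (hConeLes : ConeLesSpec)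
    (hDel0Res : Del0ResSpec) (hEngine : EngineSpec)
    (hGN : GlobalNormalCofinalSpec) (hLN : LocalNormalCofinalSpec)
    (hGF : GlobalFiniteIndexSpec) (hEff : EffaceSpec)
    (hCyc : ∃ V ∈ (globalLevels S).levels, ∀ u ∈ V, cycloChar p u = 1)
    (hFin : FinGlobSpec p S) (hSurjG : Surj2GlobSpec p S)
    (inv : InvFamily p S) (hrec : IsRecip (hrl S) (cycloChar p) inv)
    (hTopL : TopLocSpec inv) (hTopG : TopGlobSpec inv hrec)
    (hCap : CapAllSpec p S) : TheoremDSpec p S := by
  classical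
  intro M hMfd hMsm
  haveI := hMfd
  -- a level `V` acting trivially on `M` and on `μ`
  obtain ⟨V₁, hV₁, hV₁M⟩ := hMsm
  obtain ⟨V₂, hV₂, hV₂χ⟩ := hCyc
  obtain ⟨V, hV, hVle⟩ := (globalLevels S).directed V₁ hV₁ V₂ hV₂
  have hχV : ∀ u ∈ V, cycloChar p u = 1 := fun u hu => hV₂χ u (hVle hu).2
  have hMV : ∀ u ∈ V, M.ρ u = 1 := fun u hu =>
    LinearMap.ext fun a => hV₁M u (hVle hu).1 a
  -- the dual module
  have hM'triv : ∀ u ∈ V, (tdual p M).ρ u = 1 := fun u hu =>
    dualTwist_ρ_eq_one' (cycloChar p) M u (hχV u hu) (hMV u hu)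
  have hM'sm : (globalLevels S).IsUSmooth (tdual p M) := isUSmooth_of_trivial _ hV hM'triv
  have hfin : FiniteDimensional (ZMod p) ((globalLevels S).H1 (tdual p M)) :=
    hFin (tdual p M) inferInstance hM'sm
  -- CAP level, then effaceability level
  obtain ⟨U₂, hU₂V, hU₂, hU₂n, hcap₂⟩ := hCap M hMfd V hV hχV hMV
  have hχU₂ : ∀ u ∈ U₂, cycloChar p u = 1 := fun u hu => hχV u (hU₂V hu)
  have hMU₂ : ∀ u ∈ U₂, M.ρ u = 1 := fun u hu => hMV u (hU₂V hu)
  obtain ⟨U, hUU₂, hU, hUn, heff⟩ :=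
    hEff (ZMod p) GQ (globalLevels S) (hGN S) (cycloChar p) M ⟨V₁, hV₁, hV₁M⟩ hfin U₂ hU₂
      hχU₂ hMU₂
  have hχU : ∀ u ∈ U, cycloChar p u = 1 := fun u hu => hχU₂ u (hUU₂ hu)
  have hMU : ∀ u ∈ U, M.ρ u = 1 := fun u hu => hMU₂ u (hUU₂ hu)
  haveI : U.Normal := hUn
  haveI : U.FiniteIndex := hGF S U hU
  -- the presentation
  let E := twSES (cycloChar p) U M hχU hMU
  have hPtriv : ∀ u ∈ U, (indRep U (twTriv (cycloChar p) M)).ρ u = 1 := fun u hu =>
    indRep_ρ_eq_one U (twTriv (cycloChar p) M)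
      (fun u hu => twTriv_ρ_eq_one (cycloChar p) M u (hχU u hu)) u hu
  have hPsm : (globalLevels S).IsUSmooth (indRep U (twTriv (cycloChar p) M)) :=
    isUSmooth_of_trivial _ hU hPtriv
  have hRsm : (globalLevels S).IsUSmooth
      (kerRep (A := indRep U (twTriv (cycloChar p) M)) (B := M) (augTw (cycloChar p) U M)
        (augTw_equivariant (cycloChar p) U M hχU hMU)) :=
    isUSmooth_of_trivial _ hU fun u hu => kerRep_ρ_eq_one _ _ u (hPtriv u hu)
  have hMsm' : (globalLevels S).IsUSmooth M := ⟨V₁, hV₁, hV₁M⟩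
  have hP'sm : (globalLevels S).IsUSmooth
      ((indRep U (twTriv (cycloChar p) M)).dualTwist (cycloChar p)) :=
    isUSmooth_of_trivial _ hU fun u hu =>
      dualTwist_ρ_eq_one' (cycloChar p) _ u (hχU u hu) (hPtriv u hu)
  -- CAP for `U`
  have hcap : ∀ x ∈ Sha2 (hrl S) (indRep U (twTriv (cycloChar p) M)),
      pushH2 E.π E.hπ (globalLevels S) x = 0 := by
    intro x hx
    have hcomp : (augTw (cycloChar p) U₂ M) ∘ₗ (indLE (twTriv (cycloChar p) M) hUU₂) =
        augTw (cycloChar p) U M :=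
      LinearMap.ext fun a => augTw_indLE (cycloChar p) U M hUU₂ hχU₂ hMU₂ a
    have hle := indLE_equivariant U (twTriv (cycloChar p) M) hUU₂
    have haug₂ := augTw_equivariant (cycloChar p) U₂ M hχU₂ hMU₂
    have h1 : pushH2 E.π E.hπ (globalLevels S) x =
        pushH2 (A := indRep U (twTriv (cycloChar p) M)) (B := M)
          ((augTw (cycloChar p) U₂ M) ∘ₗ (indLE (twTriv (cycloChar p) M) hUU₂))
          (isEquivariant_comp (A := indRep U (twTriv (cycloChar p) M))
            (B := indRep U₂ (twTriv (cycloChar p) M)) (C := M) hle haug₂)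
          (globalLevels S) x :=
      pushH2_congr (A := indRep U (twTriv (cycloChar p) M)) (B := M) (globalLevels S) _ _
        hcomp.symm x
    rw [h1, pushH2_comp (A := indRep U (twTriv (cycloChar p) M))
      (B := indRep U₂ (twTriv (cycloChar p) M)) (C := M) (globalLevels S) hle haug₂]
    exact hcap₂ _ (pushSha2 (hrl S) (A := indRep U (twTriv (cycloChar p) M))
      (B := indRep U₂ (twTriv (cycloChar p) M)) _ hle ⟨x, hx⟩).2
  -- apply the generic assembly
  exact sha2_equiv_dual_sha1_generic (hrl S) (cycloChar p) inv hLes0 hLes1 hCone hConeLes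
    hDel0Res hEngine (hGN S) (fun v => hLN v.1) hrec E hRsm hPsm hMsm' hP'sm hfin
    (hSurjG _ _ E.π E.hπ inferInstance hPsm hMsm' E.surj)
    heff hcap
    (hTopG _ inferInstance hRsm) (hTopG _ inferInstance hPsm).1
    (fun v => (hTopL v _ inferInstance (hRsm.res (hrl S v))).2)
    (fun v => (hTopL v _ inferInstance (hPsm.res (hrl S v))).1)

/-- **Theorem D from the inputs** A1, A3, A4, A5–A7, A8 of `PT/Spec.lean` and all leaves of
layer D.  (A2 `FinLocSpec` is not needed.) -/
theorem theoremD_of_inputs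
    (hLes0 : Les0Spec) (hLes1 : Les1Spec) (hMid : LesMidSpec) (hCone : ConeSpec)
    (hConeLes : ConeLesSpec) (hDel0Res : Del0ResSpec) (hEngine : EngineSpec)
    (hGN : GlobalNormalCofinalSpec) (hLN : LocalNormalCofinalSpec)
    (hGF : GlobalFiniteIndexSpec) (hLF : LocalFiniteIndexSpec) (hEff : EffaceSpec)
    (hCyc : CycloLevelSpec p S)
    (hTL : TopLocDevSpec p S) (hTG : TopGlobDevSpec p S) (hCD : CapDevSpec p S)
    (hpS : pPrime p ∈ S)
    (hFin : FinGlobSpec p S) (hSurjG : Surj2GlobSpec p S) (hSurjL : Surj2LocSpec p S)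
    (hInv : InvSpec p S) (hCap : CapSpec p S) : TheoremDSpec p S := by
  obtain ⟨inv, hrec, hTLI, hTGI⟩ := hInv
  have hrec' : IsRecip (hrl S) (cycloChar p) inv := hrec
  have hTopL : TopLocSpec inv := hTL hMid hLN hLF inv hTLI hSurjL
  have hTopG : TopGlobSpec inv hrec' := hTG hMid hGN hLN hGF hpS inv hrec' hTopL hTGI hSurjG hSurjL
  exact theoremD_of_leaves hLes0 hLes1 hCone hConeLes hDel0Res hEngine hGN hLN hGF hEff
    (hCyc hpS) hFin hSurjG inv hrec' hTopL hTopG (hCD hGN hCap)

end Fermat.Agent.S55.PT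

end
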